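import Mathlib

/-!
# CFT, Layer B, node B5 (part 2, auxiliary lemmas)

* `PowIndex.bijective_of_injective_flip_of_finrank_eq` : a bilinear pairing `V × W → k` of
  finite-dimensional spaces of the same dimension which is nondegenerate on one side is perfect.
  (This is how the existence theorem mod `p` follows from the class formation axioms: for
  `ζ_p ∈ K`, `H¹(K, μ_p) ≅ H¹(K, 𝔽_p)` have the same finite dimension.)
* `PowIndex.exists_pow_eq_of_coprime_finrank` : if `c ∈ K` becomes an `n`-th power in a finite
  extension of degree prime to `n`, it is an `n`-th power in `K` (norm argument).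
-/

set_option autoImplicit false

namespace Fermat.Agent.CFT

namespace PowIndex

section Perfect

variable {k V W : Type*} [Field k] [AddCommGroup V] [Module k V] [AddCommGroup W] [Module k W]
  [FiniteDimensional k V] [FiniteDimensional k W]

/-- If `W → V^*` is injective and `dim V = dim W`, then `W → V^*` is bijective. -/
theorem bijective_flip_of_injective_flip_of_finrank_eq (B : V →ₗ[k] W →ₗ[k] k)
    (hinj : Function.Injective B.flip) (hdim : Module.finrank k V = Module.finrank k W) :
    Function.Bijective B.flip := by
  have h : Module.finrank k W = Module.finrank k (Module.Dual k V) := by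
    rw [Subspace.dual_finrank_eq, hdim]
  exact ⟨hinj, (LinearMap.injective_iff_surjective_of_finrank_eq_finrank h).mp hinj⟩

/-- If `W → V^*` is injective and `dim V = dim W`, then `V → W^*` is bijective: the pairing is
perfect. -/
theorem bijective_of_injective_flip_of_finrank_eq (B : V →ₗ[k] W →ₗ[k] k)
    (hinj : Function.Injective B.flip) (hdim : Module.finrank k V = Module.finrank k W) :
    Function.Bijective B := by
  have hflip := bijective_flip_of_injective_flip_of_finrank_eq B hinj hdim
  have hBinj : Function.Injective B := by
    rw [injective_iff_map_eq_zero]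
    intro v hv
    rw [← Module.forall_dual_apply_eq_zero_iff k v]
    intro φ
    obtain ⟨w, rfl⟩ := hflip.2 φ
    rw [LinearMap.flip_apply, hv, LinearMap.zero_apply]
  have h : Module.finrank k V = Module.finrank k (Module.Dual k W) := by
    rw [Subspace.dual_finrank_eq, hdim]
  exact ⟨hBinj, (LinearMap.injective_iff_surjective_of_finrank_eq_finrank h).mp hBinj⟩

/-- Same statement with the injectivity hypothesis spelled out: every `w ≠ 0` pairs nontrivially
with some `v`. -/
theorem bijective_of_forall_exists_ne_zero (B : V →ₗ[k] W →ₗ[k] k)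
    (hnd : ∀ w : W, w ≠ 0 → ∃ v : V, B v w ≠ 0)
    (hdim : Module.finrank k V = Module.finrank k W) :
    Function.Bijective B ∧ Function.Bijective B.flip := by
  have hinj : Function.Injective B.flip := by
    rw [injective_iff_map_eq_zero]
    intro w hw
    by_contra hne
    obtain ⟨v, hv⟩ := hnd w hne
    apply hv
    rw [← LinearMap.flip_apply, hw, LinearMap.zero_apply]
  exact ⟨bijective_of_injective_flip_of_finrank_eq B hinj hdim,
    bijective_flip_of_injective_flip_of_finrank_eq B hinj hdim⟩

end Perfect

section Norm

variable {K L : Type*} [Field K] [Field L] [Algebra K L] [FiniteDimensional K L]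

/-- If `c ∈ K` is an `n`-th power in a finite extension `L/K` of degree prime to `n`, then `c` is an
`n`-th power in `K`. -/
theorem exists_pow_eq_of_coprime_finrank (n : ℕ) (hcop : Nat.Coprime (Module.finrank K L) n)
    (c : K) (y : L) (hy : y ^ n = algebraMap K L c) : ∃ x : K, x ^ n = c := by
  rcases eq_or_ne c 0 with rfl | hc
  · rcases Nat.eq_zero_or_pos n with rfl | hn
    · -- `n = 0`: `y ^ 0 = 1 = 0` is absurd
      rw [pow_zero, map_zero] at hy
      exact absurd hy one_ne_zero
    · exact ⟨0, zero_pow hn.ne'⟩
  · set d := Module.finrank K L with hd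
    have hN : (Algebra.norm K y) ^ n = c ^ d := by
      rw [← map_pow, hy, Algebra.norm_algebraMap]
    have hcop' : IsCoprime (d : ℤ) (n : ℤ) := Nat.isCoprime_iff_coprime.mpr hcop
    obtain ⟨u, v, huv⟩ := hcop'
    refine ⟨(Algebra.norm K y) ^ u * c ^ v, ?_⟩
    calc ((Algebra.norm K y) ^ u * c ^ v) ^ n
        = ((Algebra.norm K y) ^ n) ^ u * c ^ (v * n) := by
          rw [mul_pow, ← zpow_natCast, ← zpow_natCast, ← zpow_natCast, ← zpow_mul, ← zpow_mul,
            ← zpow_mul, mul_comm u]
      _ = c ^ (u * d) * c ^ (v * n) := by
          rw [hN, ← zpow_natCast c d, ← zpow_mul, mul_comm (d : ℤ) u]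
      _ = c ^ (1 : ℤ) := by rw [← zpow_add₀ hc, huv]
      _ = c := zpow_one c

end Norm

end PowIndex

end Fermat.Agent.CFT
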