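import Mathlib

/-!
# CFT, Layer B: the character attached to an integer valued 2-cocycle

For a finite group `G` and a 2-cocycle `F : G × G → ℤ` (trivial action) we define
`cochar F g = (∑ k, F (g, k)) / |G| : ℚ`.  It satisfies `cochar F g + cochar F h - cochar F (g * h)
= F (g, h)`, so `g ↦ cochar F g mod ℤ` is a homomorphism `G → ℚ/ℤ`: this is the inverse of the
connecting isomorphism `H¹(G, ℚ/ℤ) ≃ H²(G, ℤ)`, made explicit.  It is compatible with restriction
to subgroups and inflation from quotients.
-/

set_option autoImplicit false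

namespace Fermat.Agent.CFT

open Finset

section Cochar

variable {G : Type*} [Group G] [Fintype G]

/-- the cocycle condition for trivial coefficients (Mathlib's convention for `cocycles₂`) -/
def IsZCocycle (F : G × G → ℤ) : Prop :=
  ∀ g h j : G, F (g * h, j) + F (g, h) = F (h, j) + F (g, h * j)

/-- The rational 1-cochain whose coboundary is `F`. -/
noncomputable def cochar (F : G × G → ℤ) (g : G) : ℚ :=
  ((∑ k : G, F (g, k) : ℤ) : ℚ) / (Fintype.card G : ℚ)

theorem card_mul_cochar (F : G × G → ℤ) (g : G) :
    (Fintype.card G : ℚ) * cochar F g = ((∑ k : G, F (g, k) : ℤ) : ℚ) := by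
  have h : (Fintype.card G : ℚ) ≠ 0 := by exact_mod_cast Fintype.card_ne_zero
  rw [cochar]; field_simp

theorem cochar_add_sub {F : G × G → ℤ} (hF : IsZCocycle F) (g h : G) :
    cochar F g + cochar F h - cochar F (g * h) = (F (g, h) : ℚ) := by
  have hc : (Fintype.card G : ℚ) ≠ 0 := by exact_mod_cast Fintype.card_ne_zero
  have hsum : ∑ j : G, F (g * h, j) + (Fintype.card G : ℤ) * F (g, h)
      = ∑ j : G, F (h, j) + ∑ j : G, F (g, j) := by
    have h1 : ∑ j : G, (F (g * h, j) + F (g, h)) = ∑ j : G, (F (h, j) + F (g, h * j)) :=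
      Finset.sum_congr rfl fun j _ => hF g h j
    rw [Finset.sum_add_distrib, Finset.sum_add_distrib, Finset.sum_const, Finset.card_univ,
      nsmul_eq_mul] at h1
    rw [h1]
    congr 1
    exact Equiv.sum_comp (Equiv.mulLeft h) fun j => F (g, j)
  have hq : ((∑ j : G, F (g * h, j) : ℤ) : ℚ) + (Fintype.card G : ℚ) * F (g, h)
      = ((∑ j : G, F (h, j) : ℤ) : ℚ) + ((∑ j : G, F (g, j) : ℤ) : ℚ) := by
    exact_mod_cast hsum
  rw [← card_mul_cochar, ← card_mul_cochar, ← card_mul_cochar] at hq
  have : (Fintype.card G : ℚ) * (cochar F g + cochar F h - cochar F (g * h))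
      = (Fintype.card G : ℚ) * F (g, h) := by linarith
  exact mul_left_cancel₀ hc this

/-- A function `G → ℚ` on a finite group which is additive is zero. -/
theorem eq_zero_of_additive (D : G → ℚ) (hD : ∀ g h, D (g * h) = D g + D h) (g : G) : D g = 0 := by
  have h1 : D 1 = 0 := by have := hD 1 1; rw [one_mul] at this; linarith
  have hpow : ∀ n : ℕ, D (g ^ n) = n * D g := by
    intro n
    induction n with
    | zero => simp [h1]
    | succ n ih => rw [pow_succ, hD, ih]; push_cast; ring
  have := hpow (Fintype.card G)
  rw [pow_card_eq_one, h1] at this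
  have hc : (Fintype.card G : ℚ) ≠ 0 := by exact_mod_cast Fintype.card_ne_zero
  exact (mul_eq_zero.mp this.symm).resolve_left hc

/-- `cochar F` is the unique rational 1-cochain with coboundary `F`. -/
theorem eq_cochar_of_coboundary {F : G × G → ℤ} (hF : IsZCocycle F) (c : G → ℚ)
    (hc : ∀ g h, c g + c h - c (g * h) = (F (g, h) : ℚ)) (g : G) : c g = cochar F g := by
  have := eq_zero_of_additive (fun g => c g - cochar F g) (fun g h => by
    have h1 := hc g h
    have h2 := cochar_add_sub hF g h
    linarith) g
  linarith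

/-- Pull back along a group homomorphism (covers restriction and inflation). -/
theorem cochar_comp {H : Type*} [Group H] [Fintype H] (r : H →* G) {F : G × G → ℤ}
    (hF : IsZCocycle F) (x : H) :
    cochar (fun p : H × H => F (r p.1, r p.2)) x = cochar F (r x) := by
  have hF' : IsZCocycle (fun p : H × H => F (r p.1, r p.2)) := by
    intro g h j
    simpa [map_mul] using hF (r g) (r h) (r j)
  refine (eq_cochar_of_coboundary hF' (fun x => cochar F (r x)) (fun g h => ?_) x).symm
  rw [map_mul]
  exact cochar_add_sub hF (r g) (r h)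

omit [Group G] in
theorem cochar_mul_int (e : ℤ) (F : G × G → ℤ) (g : G) :
    cochar (fun p => e * F p) g = e * cochar F g := by
  simp only [cochar, ← Finset.mul_sum]
  push_cast
  ring

omit [Group G] in
theorem cochar_add (F F' : G × G → ℤ) (g : G) :
    cochar (fun p => F p + F' p) g = cochar F g + cochar F' g := by
  simp only [cochar, Finset.sum_add_distrib]
  push_cast
  ring

/-- the coboundary of an integral cochain has integral `cochar` -/
theorem cochar_coboundary (h : G → ℤ) (g : G) :
    cochar (fun p : G × G => h p.2 - h (p.1 * p.2) + h p.1) g = h g := by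
  have hF : IsZCocycle (fun p : G × G => h p.2 - h (p.1 * p.2) + h p.1) := by
    intro a b c
    simp only [mul_assoc]
    ring
  refine (eq_cochar_of_coboundary hF (fun g => (h g : ℚ)) (fun a b => ?_) g).symm
  push_cast
  ring

/-- `cochar F` modulo `ℤ` is a homomorphism: powers. -/
theorem cochar_pow {F : G × G → ℤ} (hF : IsZCocycle F) (g : G) (n : ℕ) :
    ∃ z : ℤ, cochar F (g ^ n) = n * cochar F g + z := by
  induction n with
  | zero =>
    refine ⟨F (1, 1), ?_⟩
    have := cochar_add_sub hF 1 1
    rw [one_mul] at this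
    simp only [pow_zero, Nat.cast_zero, zero_mul, zero_add]
    push_cast
    linarith
  | succ n ih =>
    obtain ⟨z, hz⟩ := ih
    refine ⟨z - F (g ^ n, g), ?_⟩
    have := cochar_add_sub hF (g ^ n) g
    rw [pow_succ]
    push_cast
    linarith

end Cochar

end Fermat.Agent.CFT
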