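import Mathlib
import Fermat.Agent.CFT.CupLow
import Fermat.Agent.CFT.Local.CyclicInv

/-!
# CFT, Layer B: the invariant map of an "unramified datum", abstractly

`G` a finite group, `A : Rep ℤ G`, `v : A →ₗ[ℤ] ℤ` a `G`-invariant "valuation", `φ : G`.
`uinv A v φ : H2 A →ₗ[ℤ] AddCircle (1 : ℚ)` sends the class of a 2-cocycle `f` to
`cochar (v ∘ f) φ mod ℤ`.
-/

set_option autoImplicit false

open groupCohomology

namespace Fermat.Agent.CFT

section

variable {G : Type} [Group G] [Fintype G] (A : Rep.{0} ℤ G) (v : A →ₗ[ℤ] ℤ)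

/-- the integer valued function attached to a 2-cochain -/
def vcoc (f : G × G → A) : G × G → ℤ := fun p => v (f p)

variable {A v}

omit [Fintype G] in
lemma isZCocycle_vcoc (hv : ∀ (g : G) (a : A), v (A.ρ g a) = v a) {f : G × G → A}
    (hf : f ∈ cocycles₂ A) : IsZCocycle (vcoc A v f) := by
  intro g h j
  have := (mem_cocycles₂_iff f).mp hf g h j
  have h2 := congrArg v this
  simpa [vcoc, map_add, hv] using h2

variable (A v)

/-- The invariant on 2-cocycles. -/
noncomputable def uinvC (φ : G) : cocycles₂ A →+ AddCircle (1 : ℚ) :=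
    { toFun := fun f => ((cochar (vcoc A v f) φ : ℚ) : AddCircle (1 : ℚ))
      map_zero' := by
        have : vcoc A v (⇑(0 : cocycles₂ A)) = fun _ => 0 := by
          funext p
          change v ((0 : G × G → A) p) = 0
          simp
        simp [this, cochar]
      map_add' := fun f f' => by
        have : vcoc A v (⇑(f + f')) = fun p => vcoc A v f p + vcoc A v f' p := by
          funext p
          change v ((f.1 + f'.1) p) = v (f.1 p) + v (f'.1 p)
          simp
        rw [this, cochar_add]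
        rfl }

@[simp] lemma uinvC_apply (φ : G) (f : cocycles₂ A) :
    uinvC A v φ f = ((cochar (vcoc A v f) φ : ℚ) : AddCircle (1 : ℚ)) := rfl

variable {A v}

lemma intCast_addCircle_eq_zero (n : ℤ) : (((n : ℤ) : ℚ) : AddCircle (1 : ℚ)) = 0 :=
  (AddCircle.coe_eq_zero_iff (1 : ℚ)).mpr ⟨n, by simp⟩

lemma addCircle_eq_zero_iff (x : ℚ) : (x : AddCircle (1 : ℚ)) = 0 ↔ ∃ n : ℤ, x = n := by
  rw [AddCircle.coe_eq_zero_iff (1 : ℚ)]
  constructor
  · rintro ⟨n, hn⟩; exact ⟨n, by simpa using hn.symm⟩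
  · rintro ⟨n, hn⟩; exact ⟨n, by simpa using hn.symm⟩

omit [Fintype G] in
lemma vcoc_d₁₂ (hv : ∀ (g : G) (a : A), v (A.ρ g a) = v a) (x : G → A) :
    vcoc A v ((d₁₂ A).hom x) = fun p : G × G => v (x p.2) - v (x (p.1 * p.2)) + v (x p.1) := by
  funext p
  rw [vcoc, d₁₂_hom_apply]
  simp [hv]

lemma uinvC_eq_zero_of_mem_coboundaries₂ (hv : ∀ (g : G) (a : A), v (A.ρ g a) = v a) (φ : G)
    (f : cocycles₂ A) (hf : ⇑f ∈ coboundaries₂ A) : uinvC A v φ f = 0 := by
  obtain ⟨x, hx⟩ := hf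
  have hx' : (f : G × G → A) = (d₁₂ A).hom x := hx.symm
  rw [uinvC_apply, hx', vcoc_d₁₂ hv, cochar_coboundary (fun g => v (x g))]
  exact intCast_addCircle_eq_zero _

variable (A v)

/-- The invariant map on `H²`. -/
noncomputable def uinv (hv : ∀ (g : G) (a : A), v (A.ρ g a) = v a) (φ : G) :
    H2 A →+ AddCircle (1 : ℚ) :=
  AddMonoidHom.liftOfSurjective (H2π A).hom.toAddMonoidHom (Cup.H2π_surjective A)
    ⟨uinvC A v φ, fun f hf => by
      have hf' : (H2π A).hom f = 0 := hf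
      rw [H2π_eq_zero_iff] at hf'
      exact uinvC_eq_zero_of_mem_coboundaries₂ hv φ f hf'⟩

@[simp] lemma uinv_H2π (hv : ∀ (g : G) (a : A), v (A.ρ g a) = v a) (φ : G) (f : cocycles₂ A) :
    uinv A v hv φ ((H2π A).hom f) = uinvC A v φ f :=
  AddMonoidHom.liftOfRightInverse_comp_apply _ _ _ _ f

variable {A v}

/-- `uinvC` is killed by the order of `φ`. -/
lemma orderOf_nsmul_uinvC (hv : ∀ (g : G) (a : A), v (A.ρ g a) = v a) (φ : G) (f : cocycles₂ A) :
    orderOf φ • uinvC A v φ f = 0 := by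
  have hF : IsZCocycle (vcoc A v ⇑f) := isZCocycle_vcoc hv f.2
  obtain ⟨z, hz⟩ := cochar_pow hF φ (orderOf φ)
  rw [pow_orderOf_eq_one] at hz
  have h1 : cochar (vcoc A v f) 1 = (vcoc A v f (1, 1) : ℚ) := by
    have := cochar_add_sub hF 1 1
    rw [one_mul] at this
    linarith
  rw [uinvC_apply, ← AddCircle.coe_nsmul, addCircle_eq_zero_iff]
  refine ⟨vcoc A v f (1, 1) - z, ?_⟩
  rw [nsmul_eq_mul]
  push_cast
  linarith

/-- **Injectivity.** If `φ` generates `G`, there is an element `π` with `v π = 1`, and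
every 2-cocycle with values in `ker v` is a coboundary, then a 2-cocycle with trivial invariant
is a coboundary. -/
theorem mem_coboundaries₂_of_uinvC_eq_zero (hv : ∀ (g : G) (a : A), v (A.ρ g a) = v a) {φ : G}
    (hgen : ∀ g : G, ∃ k : ℕ, φ ^ k = g) {π : A} (hvπ : v π = 1)
    (hU : ∀ f : cocycles₂ A, (∀ p, v (f p) = 0) → ⇑f ∈ coboundaries₂ A)
    (f : cocycles₂ A) (hf : uinvC A v φ f = 0) : ⇑f ∈ coboundaries₂ A := by
  have hF : IsZCocycle (vcoc A v ⇑f) := isZCocycle_vcoc hv f.2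
  rw [uinvC_apply, addCircle_eq_zero_iff] at hf
  obtain ⟨n, hn⟩ := hf
  -- `cochar` is integer valued
  have hint : ∀ g : G, ∃ z : ℤ, cochar (vcoc A v f) g = z := by
    intro g
    obtain ⟨k, rfl⟩ := hgen g
    obtain ⟨z, hz⟩ := cochar_pow hF φ k
    refine ⟨k * n + z, ?_⟩
    rw [hz, hn]
    push_cast
    ring
  choose h hh using hint
  -- modify `f` by the coboundary of `g ↦ h g • π`
  set x : G → A := fun g => h g • π with hx
  have hdx : ((d₁₂ A).hom x) ∈ cocycles₂ A := coboundaries₂_le_cocycles₂ A ⟨x, rfl⟩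
  set f' : cocycles₂ A := f - ⟨(d₁₂ A).hom x, hdx⟩ with hf'
  have hf'0 : ∀ p, v (f' p) = 0 := by
    intro p
    have h1 : (f' : G × G → A) p = f p - (d₁₂ A).hom x p := rfl
    have h2 := congrFun (vcoc_d₁₂ hv x) p
    simp only [vcoc] at h2
    rw [h1, map_sub, h2]
    simp only [hx, map_smul, hvπ, smul_eq_mul, mul_one]
    have h3 := cochar_add_sub hF p.1 p.2
    rw [hh, hh, hh] at h3
    have h4 : (h p.1 + h p.2 - h (p.1 * p.2) : ℤ) = vcoc A v f (p.1, p.2) := by exact_mod_cast h3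
    simp only [vcoc] at h4
    linarith
  have hcob := hU f' hf'0
  have : (f : G × G → A) = (f' : G × G → A) + (d₁₂ A).hom x := by
    funext p
    have h1 : (f' : G × G → A) p = f p - (d₁₂ A).hom x p := rfl
    simp [h1]
  rw [this]
  exact (coboundaries₂ A).add_mem hcob ⟨x, rfl⟩

/-- **Surjectivity.** If `φ` generates `G` and there is a `G`-fixed `π` with `v π = 1`, the
invariant `1 / |φ|` is attained. -/
theorem exists_uinvC_eq {φ : G} (hgen : ∀ g : G, ∃ k : ℕ, φ ^ k = g) {π : A}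
    (hπ : ∀ g : G, A.ρ g π = π) (hvπ : v π = 1) :
    ∃ f : cocycles₂ A, uinvC A v φ f = (((1 : ℚ) / (orderOf φ : ℚ) : ℚ) : AddCircle (1 : ℚ)) := by
  classical
  set m := orderOf φ with hm
  have hm0 : 0 < m := orderOf_pos φ
  have hmq : (m : ℚ) ≠ 0 := by exact_mod_cast hm0.ne'
  choose k hk using hgen
  set idx : G → ℕ := fun g => k g % m with hidx
  have hpow : ∀ g, φ ^ idx g = g := fun g => by rw [hidx, hm, pow_mod_orderOf, hk]
  have hlt : ∀ g, idx g < m := fun g => Nat.mod_lt _ hm0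
  -- divisibility
  have hdvd : ∀ g h : G, (m : ℤ) ∣ (idx g : ℤ) + idx h - idx (g * h) := by
    intro g h
    have h1 : φ ^ (idx g + idx h) = φ ^ idx (g * h) := by rw [pow_add, hpow, hpow, hpow]
    have h2 := (pow_eq_pow_iff_modEq).mp h1
    have h3 : ((idx g + idx h : ℕ) : ℤ) ≡ (idx (g * h) : ℤ) [ZMOD (m : ℤ)] := by
      rw [hm]; exact Int.natCast_modEq_iff.mpr h2
    have := (Int.modEq_iff_dvd.mp h3.symm)
    push_cast at this
    exact this
  set F : G × G → ℤ := fun p => ((idx p.1 : ℤ) + idx p.2 - idx (p.1 * p.2)) / m with hF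
  have hFm : ∀ g h : G, (F (g, h) : ℚ) = (idx g : ℚ) / m + (idx h : ℚ) / m - (idx (g * h) : ℚ) / m := by
    intro g h
    obtain ⟨t, ht⟩ := hdvd g h
    have : F (g, h) = t := by
      simp only [hF]
      rw [ht]
      exact Int.mul_ediv_cancel_left t (by exact_mod_cast hm0.ne')
    rw [this]
    have ht' : ((idx g : ℚ) + idx h - idx (g * h)) = m * t := by exact_mod_cast ht
    field_simp
    linarith
  have hFc : IsZCocycle F := by
    intro a b c
    have : ((F (a * b, c) + F (a, b) : ℤ) : ℚ) = ((F (b, c) + F (a, b * c) : ℤ) : ℚ) := by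
      push_cast
      rw [hFm, hFm, hFm, hFm, mul_assoc]
      ring
    exact_mod_cast this
  -- the cocycle
  have hfmem : (fun p : G × G => F p • π) ∈ cocycles₂ A := by
    rw [mem_cocycles₂_iff]
    intro g h j
    simp only [map_zsmul, hπ, ← add_smul]
    rw [hFc g h j]
  refine ⟨⟨fun p => F p • π, hfmem⟩, ?_⟩
  have hvF : vcoc A v (⇑(⟨fun p => F p • π, hfmem⟩ : cocycles₂ A)) = F := by
    funext p
    change v (F p • π) = F p
    rw [map_zsmul, hvπ, smul_eq_mul, mul_one]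
  rw [uinvC_apply, hvF]
  have hc := eq_cochar_of_coboundary hFc (fun g => (idx g : ℚ) / m) (fun g h => (hFm g h).symm) φ
  rw [← hc]
  -- `idx φ / m ≡ 1 / m`
  rcases Nat.lt_or_ge 1 m with h1 | h1
  · have : idx φ = 1 := by
      have h2 : φ ^ idx φ = φ ^ 1 := by rw [hpow, pow_one]
      have h3 := (pow_eq_pow_iff_modEq).mp h2
      rw [← hm] at h3
      rwa [Nat.ModEq, Nat.mod_eq_of_lt (hlt φ), Nat.mod_eq_of_lt h1] at h3
    rw [this]; norm_num
  · have hm1 : m = 1 := le_antisymm h1 hm0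
    have : idx φ = 0 := by have := hlt φ; omega
    rw [this, hm1]
    simp only [Nat.cast_zero, Nat.cast_one, div_one]
    rw [QuotientAddGroup.mk_zero]
    exact ((addCircle_eq_zero_iff 1).mpr ⟨1, by simp⟩).symm

/-- `uinv` is injective under the hypotheses of `mem_coboundaries₂_of_uinvC_eq_zero`. -/
theorem uinv_injective (hv : ∀ (g : G) (a : A), v (A.ρ g a) = v a) {φ : G}
    (hgen : ∀ g : G, ∃ k : ℕ, φ ^ k = g) {π : A} (hvπ : v π = 1)
    (hU : ∀ f : cocycles₂ A, (∀ p, v (f p) = 0) → ⇑f ∈ coboundaries₂ A) :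
    Function.Injective (uinv A v hv φ) := by
  rw [injective_iff_map_eq_zero]
  intro x hx
  obtain ⟨f, rfl⟩ := Cup.H2π_surjective A x
  rw [uinv_H2π] at hx
  rw [H2π_eq_zero_iff]
  exact mem_coboundaries₂_of_uinvC_eq_zero hv hgen hvπ hU f hx

/-- the value `1 / |φ|` is attained by `uinv`. -/
theorem exists_uinv_eq (hv : ∀ (g : G) (a : A), v (A.ρ g a) = v a) {φ : G}
    (hgen : ∀ g : G, ∃ k : ℕ, φ ^ k = g) {π : A}
    (hπ : ∀ g : G, A.ρ g π = π) (hvπ : v π = 1) :
    ∃ x : H2 A, uinv A v hv φ x = (((1 : ℚ) / (orderOf φ : ℚ) : ℚ) : AddCircle (1 : ℚ)) := by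
  obtain ⟨f, hf⟩ := exists_uinvC_eq (A := A) (v := v) hgen hπ hvπ
  exact ⟨(H2π A).hom f, by rw [uinv_H2π, hf]⟩

/-- every value of `uinv` is killed by `|φ|`. -/
theorem orderOf_nsmul_uinv (hv : ∀ (g : G) (a : A), v (A.ρ g a) = v a) (φ : G) (x : H2 A) :
    orderOf φ • uinv A v hv φ x = 0 := by
  obtain ⟨f, rfl⟩ := Cup.H2π_surjective A x
  rw [uinv_H2π]
  exact orderOf_nsmul_uinvC hv φ f

/-- **Functoriality of the invariant** for a morphism of pairs `r : G' → G`, `j : A → A'`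
such that `v' ∘ j = e • v` ("ramification index `e`") and `r φ' = φ ^ n` ("residue degree `n`"):
the invariant is multiplied by `e * n`. Covers restriction to a subgroup/base change and
inflation. Cocycle level. -/
theorem uinvC_comp {G' : Type} [Group G'] [Fintype G'] {A' : Rep.{0} ℤ G'} {v' : A' →ₗ[ℤ] ℤ}
    (hv : ∀ (g : G) (a : A), v (A.ρ g a) = v a)
    (r : G' →* G) (j : A → A') (e : ℤ) (hj : ∀ a : A, v' (j a) = e * v a)
    {φ : G} {φ' : G'} (n : ℕ) (hφ : r φ' = φ ^ n)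
    (f : cocycles₂ A) (f' : cocycles₂ A') (hf' : ∀ p : G' × G', f' p = j (f (r p.1, r p.2))) :
    uinvC A' v' φ' f' = (e * n) • uinvC A v φ f := by
  have hF : IsZCocycle (vcoc A v ⇑f) := isZCocycle_vcoc hv f.2
  have h1 : vcoc A' v' ⇑f' = fun p : G' × G' =>
      e * (fun q : G' × G' => vcoc A v ⇑f (r q.1, r q.2)) p := by
    funext p
    simp only [vcoc, hf', hj]
  obtain ⟨z, hz⟩ := cochar_pow hF φ n
  rw [uinvC_apply, uinvC_apply, h1, cochar_mul_int, cochar_comp r hF, hφ, hz,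
    ← AddCircle.coe_zsmul, ← sub_eq_zero, ← AddCircle.coe_sub, addCircle_eq_zero_iff]
  refine ⟨e * z, ?_⟩
  rw [zsmul_eq_mul]
  push_cast
  ring

/-- **Functoriality of the invariant**, `H²` level. -/
theorem uinv_map {G' : Type} [Group G'] [Fintype G'] {A' : Rep.{0} ℤ G'} {v' : A' →ₗ[ℤ] ℤ}
    (hv : ∀ (g : G) (a : A), v (A.ρ g a) = v a)
    (hv' : ∀ (g : G') (a : A'), v' (A'.ρ g a) = v' a)
    (r : G' →* G) (j : Rep.res r A ⟶ A') (e : ℤ) (hj : ∀ a : A, v' (j.hom a) = e * v a)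
    {φ : G} {φ' : G'} (n : ℕ) (hφ : r φ' = φ ^ n) (x : H2 A) :
    uinv A' v' hv' φ' ((groupCohomology.map r j 2).hom x) = (e * n) • uinv A v hv φ x := by
  obtain ⟨f, rfl⟩ := Cup.H2π_surjective A x
  have h := congrArg (fun m => m.hom f) (H2π_comp_map r j)
  simp only [ModuleCat.hom_comp, LinearMap.coe_comp, Function.comp_apply] at h
  rw [h, uinv_H2π, uinv_H2π]
  exact uinvC_comp hv r (fun a => j.hom a) e hj n hφ f _ (fun p => rfl)

end

end Fermat.Agent.CFT
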