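import Mathlib
import Fermat.Agent.CFT.CupLow
import Fermat.Agent.CFT.Local.CyclicInv
import Fermat.Agent.CFT.Local.UnramInv
import Fermat.Agent.CFT.Tate.CyclicH2

/-!
# CFT (C5s): the symbol class `a ∪ δχ` and the local symbol, abstractly

`G` a finite group, `A : Rep ℤ G`, `n ≠ 0`, `χ : G →* Multiplicative (ZMod n)` a character.

* `chLift χ g : ℤ` the standard lift of `χ g` to `{0, …, n-1}`;
* `bock χ : G × G → ℤ`, `(g, h) ↦ (chLift χ g + chLift χ h - chLift χ (g h)) / n`, the
  Bockstein `δχ` (an integral 2-cocycle with values in `{0, 1}`); `cochar (bock χ) g = chLift χ g / n`;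
* `symCocycle A χ a : cocycles₂ A` for an invariant `a`: `(g, h) ↦ bock χ (g, h) • a`
  (this is `a ∪ δχ`), `symClass A χ a : H2 A` its class;
* (S1) `symClass` is additive in `a` and in `χ`;
* (S2) if `χ` is injective and `|G| = n` (so `G` is cyclic): `symClass A χ a = 0` iff `a` is a norm, and
  every class in `H2 A` is a symbol class;
* (S3) for an "unramified datum" `(v, φ)`: `uinv A v hv φ (symClass A χ a) = v a * chLift χ φ / n`;
* (S5) functoriality `map r f 2 (symClass A χ a) = symClass A' (χ.comp r) (f a)`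
  (inflation and restriction);
* `localSymbol inv χ a := inv (symClass A χ a)` for any `inv : H2 A →+ AddCircle (1 : ℚ)`.
-/

set_option autoImplicit false
set_option linter.unusedSectionVars false

open groupCohomology

namespace Fermat.Agent.CFT

section Bock

variable {G : Type*} [Group G] {n : ℕ} [NeZero n]

/-- The standard integral lift of a character with values in `ZMod n`. -/
def chLift (χ : G →* Multiplicative (ZMod n)) (g : G) : ℤ :=
  ((Multiplicative.toAdd (χ g)).val : ℤ)

theorem chLift_nonneg (χ : G →* Multiplicative (ZMod n)) (g : G) : 0 ≤ chLift χ g :=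
  Int.natCast_nonneg _

theorem chLift_lt (χ : G →* Multiplicative (ZMod n)) (g : G) : chLift χ g < n := by
  unfold chLift
  exact_mod_cast ZMod.val_lt _

theorem chLift_cast (χ : G →* Multiplicative (ZMod n)) (g : G) :
    ((chLift χ g : ℤ) : ZMod n) = Multiplicative.toAdd (χ g) := by
  unfold chLift
  rw [Int.cast_natCast, ZMod.natCast_zmod_val]

theorem chLift_one (χ : G →* Multiplicative (ZMod n)) : chLift χ 1 = 0 := by
  unfold chLift
  rw [map_one]
  simp

theorem dvd_chLift_add_sub (χ : G →* Multiplicative (ZMod n)) (g h : G) :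
    (n : ℤ) ∣ chLift χ g + chLift χ h - chLift χ (g * h) := by
  rw [← ZMod.intCast_zmod_eq_zero_iff_dvd]
  push_cast
  rw [chLift_cast, chLift_cast, chLift_cast, map_mul, toAdd_mul, sub_self]

/-- The Bockstein cocycle `δχ`. -/
def bock (χ : G →* Multiplicative (ZMod n)) : G × G → ℤ := fun p =>
  (chLift χ p.1 + chLift χ p.2 - chLift χ (p.1 * p.2)) / n

theorem n_mul_bock (χ : G →* Multiplicative (ZMod n)) (g h : G) :
    (n : ℤ) * bock χ (g, h) = chLift χ g + chLift χ h - chLift χ (g * h) :=
  Int.mul_ediv_cancel' (dvd_chLift_add_sub χ g h)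

theorem isZCocycle_bock (χ : G →* Multiplicative (ZMod n)) : IsZCocycle (bock χ) := by
  intro g h j
  have hn : (n : ℤ) ≠ 0 := by exact_mod_cast NeZero.ne n
  apply mul_left_cancel₀ hn
  rw [mul_add, mul_add, n_mul_bock, n_mul_bock, n_mul_bock, n_mul_bock, mul_assoc]
  ring

/-- `bock` is compatible with pull-back of characters. -/
theorem bock_comp {G' : Type*} [Group G'] (r : G' →* G) (χ : G →* Multiplicative (ZMod n))
    (p : G' × G') : bock (χ.comp r) p = bock χ (r p.1, r p.2) := by
  unfold bock chLift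
  simp only [MonoidHom.comp_apply, map_mul]

/-- The Bockstein of a product of characters differs from the sum by an integral coboundary. -/
def bockDefect (χ χ' : G →* Multiplicative (ZMod n)) (g : G) : ℤ :=
  (chLift χ g + chLift χ' g - chLift (χ * χ') g) / n

theorem n_mul_bockDefect (χ χ' : G →* Multiplicative (ZMod n)) (g : G) :
    (n : ℤ) * bockDefect χ χ' g = chLift χ g + chLift χ' g - chLift (χ * χ') g := by
  apply Int.mul_ediv_cancel'
  rw [← ZMod.intCast_zmod_eq_zero_iff_dvd]
  push_cast
  rw [chLift_cast, chLift_cast, chLift_cast, MonoidHom.mul_apply, toAdd_mul, sub_self]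

theorem bock_mul (χ χ' : G →* Multiplicative (ZMod n)) (g h : G) :
    bock χ (g, h) + bock χ' (g, h) - bock (χ * χ') (g, h)
      = bockDefect χ χ' h - bockDefect χ χ' (g * h) + bockDefect χ χ' g := by
  have hn : (n : ℤ) ≠ 0 := by exact_mod_cast NeZero.ne n
  apply mul_left_cancel₀ hn
  rw [mul_sub, mul_add, mul_add, mul_sub, n_mul_bock, n_mul_bock, n_mul_bock, n_mul_bockDefect,
    n_mul_bockDefect, n_mul_bockDefect]
  ring

variable [Fintype G]

/-- The rational cochain bounding `bock χ` is `chLift χ / n`. -/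
theorem cochar_bock (χ : G →* Multiplicative (ZMod n)) (g : G) :
    cochar (bock χ) g = (chLift χ g : ℚ) / n := by
  have hn : (n : ℚ) ≠ 0 := by exact_mod_cast NeZero.ne n
  refine (eq_cochar_of_coboundary (isZCocycle_bock χ) (fun g => (chLift χ g : ℚ) / n)
    (fun g h => ?_) g).symm
  have := n_mul_bock χ g h
  have h2 : ((n : ℤ) : ℚ) * (bock χ (g, h) : ℚ)
      = (chLift χ g : ℚ) + chLift χ h - chLift χ (g * h) := by exact_mod_cast this
  field_simp
  rw [← h2]
  push_cast
  ring

end Bock

section SymClass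

variable {G : Type} [Group G] (A : Rep.{0} ℤ G) {n : ℕ} [NeZero n]

/-- `a` is `G`-invariant. -/
def IsInv (a : A) : Prop := ∀ g : G, A.ρ g a = a

variable {A}

theorem IsInv.add {a b : A} (ha : IsInv A a) (hb : IsInv A b) : IsInv A (a + b) := fun g => by
  rw [map_add, ha g, hb g]

theorem IsInv.zero : IsInv A (0 : A) := fun _ => map_zero _

theorem IsInv.neg {a : A} (ha : IsInv A a) : IsInv A (-a) := fun g => by
  rw [map_neg, ha g]

theorem IsInv.zsmul {a : A} (ha : IsInv A a) (m : ℤ) : IsInv A (m • a) := fun g => by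
  rw [map_zsmul, ha g]

variable (A)

/-- The 2-cocycle `a ∪ δχ`: `(g, h) ↦ bock χ (g, h) • a`. -/
def symCocycle (χ : G →* Multiplicative (ZMod n)) (a : A) (ha : IsInv A a) : cocycles₂ A :=
  ⟨fun p => bock χ p • a, by
    rw [mem_cocycles₂_iff]
    intro g h j
    simp only [map_zsmul, ha g]
    rw [← add_zsmul, ← add_zsmul, isZCocycle_bock χ g h j]⟩

@[simp] theorem symCocycle_apply (χ : G →* Multiplicative (ZMod n)) (a : A) (ha : IsInv A a)
    (p : G × G) : symCocycle A χ a ha p = bock χ p • a := rfl

/-- The class of `a ∪ δχ` in `H²`. -/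
noncomputable def symClass (χ : G →* Multiplicative (ZMod n)) (a : A) (ha : IsInv A a) : H2 A :=
  (H2π A).hom (symCocycle A χ a ha)

theorem symCocycle_add (χ : G →* Multiplicative (ZMod n)) {a b : A} (ha : IsInv A a)
    (hb : IsInv A b) :
    symCocycle A χ (a + b) (ha.add hb) = symCocycle A χ a ha + symCocycle A χ b hb := by
  apply Subtype.ext
  funext p
  show bock χ p • (a + b) = bock χ p • a + bock χ p • b
  rw [smul_add]

/-- (S1) additivity in `a`. -/
theorem symClass_add (χ : G →* Multiplicative (ZMod n)) {a b : A} (ha : IsInv A a)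
    (hb : IsInv A b) :
    symClass A χ (a + b) (ha.add hb) = symClass A χ a ha + symClass A χ b hb := by
  unfold symClass
  rw [symCocycle_add, map_add]

theorem symClass_congr (χ : G →* Multiplicative (ZMod n)) {a b : A} (ha : IsInv A a) (h : a = b) :
    symClass A χ a ha = symClass A χ b (h ▸ ha) := by
  subst h; rfl

theorem symClass_zero (χ : G →* Multiplicative (ZMod n)) : symClass A χ 0 IsInv.zero = 0 := by
  unfold symClass
  have : symCocycle A χ 0 IsInv.zero = 0 := by
    apply Subtype.ext
    funext p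
    show bock χ p • (0 : A) = 0
    rw [smul_zero]
  rw [this, map_zero]

theorem symClass_neg (χ : G →* Multiplicative (ZMod n)) {a : A} (ha : IsInv A a) :
    symClass A χ (-a) ha.neg = -symClass A χ a ha := by
  unfold symClass
  have : symCocycle A χ (-a) ha.neg = -symCocycle A χ a ha := by
    apply Subtype.ext
    funext p
    show bock χ p • (-a) = -(bock χ p • a)
    rw [smul_neg]
  rw [this, map_neg]

theorem symClass_zsmul (χ : G →* Multiplicative (ZMod n)) (m : ℤ) {a : A} (ha : IsInv A a) :
    symClass A χ (m • a) (ha.zsmul m) = m • symClass A χ a ha := by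
  unfold symClass
  have : symCocycle A χ (m • a) (ha.zsmul m) = m • symCocycle A χ a ha := by
    apply Subtype.ext
    funext p
    show bock χ p • (m • a) = m • (bock χ p • a)
    rw [smul_comm]
  rw [this, map_zsmul]

/-- (S1) additivity in `χ`. -/
theorem symClass_mul_char (χ χ' : G →* Multiplicative (ZMod n)) {a : A} (ha : IsInv A a) :
    symClass A (χ * χ') a ha = symClass A χ a ha + symClass A χ' a ha := by
  unfold symClass
  rw [← map_add, eq_comm, ← sub_eq_zero, ← map_sub, H2π_eq_zero_iff]
  refine ⟨fun g => bockDefect χ χ' g • a, ?_⟩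
  funext p
  obtain ⟨g, h⟩ := p
  rw [d₁₂_hom_apply]
  show A.ρ g (bockDefect χ χ' h • a) - bockDefect χ χ' (g * h) • a + bockDefect χ χ' g • a
    = bock χ (g, h) • a + bock χ' (g, h) • a - bock (χ * χ') (g, h) • a
  rw [map_zsmul, ha g, ← sub_smul, ← add_smul, ← add_smul, ← sub_smul, bock_mul]

theorem symClass_one_char {a : A} (ha : IsInv A a) :
    symClass A (1 : G →* Multiplicative (ZMod n)) a ha = 0 := by
  have := symClass_mul_char A (1 : G →* Multiplicative (ZMod n)) 1 ha
  rw [one_mul] at this
  exact (add_eq_left.mp this.symm)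

end SymClass

section Unramified

variable {G : Type} [Group G] [Fintype G] (A : Rep.{0} ℤ G) {n : ℕ} [NeZero n]

/-- (S3) **Unramified formula.** For an unramified datum `(v, φ)` the invariant of `a ∪ δχ` is
`v a * χ φ / n`. -/
theorem uinv_symClass (v : A →ₗ[ℤ] ℤ) (hv : ∀ (g : G) (a : A), v (A.ρ g a) = v a) (φ : G)
    (χ : G →* Multiplicative (ZMod n)) {a : A} (ha : IsInv A a) :
    uinv A v hv φ (symClass A χ a ha)
      = ((((v a * chLift χ φ : ℤ) : ℚ) / n : ℚ) : AddCircle (1 : ℚ)) := by
  unfold symClass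
  rw [uinv_H2π, uinvC_apply]
  have h1 : vcoc A v ⇑(symCocycle A χ a ha) = fun p => v a * bock χ p := by
    funext p
    show v (bock χ p • a) = v a * bock χ p
    rw [map_zsmul, smul_eq_mul, mul_comm]
  rw [h1, cochar_mul_int, cochar_bock]
  congr 1
  push_cast
  ring

end Unramified

section Functoriality

variable {G G' : Type} [Group G] [Group G'] {A : Rep.{0} ℤ G} {A' : Rep.{0} ℤ G'} {n : ℕ}
  [NeZero n]

theorem IsInv.map (r : G' →* G) (j : Rep.res r A ⟶ A') {a : A} (ha : IsInv A a) :
    IsInv A' (j.hom a) := by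
  intro g
  have h := Rep.hom_comm_apply j g a
  rw [← h]
  congr 1
  exact ha (r g)

/-- (S5) **Functoriality** (covers inflation and restriction). -/
theorem map_symClass (r : G' →* G) (j : Rep.res r A ⟶ A') (χ : G →* Multiplicative (ZMod n))
    {a : A} (ha : IsInv A a) :
    (groupCohomology.map r j 2).hom (symClass A χ a ha)
      = symClass A' (χ.comp r) (j.hom a) (ha.map r j) := by
  unfold symClass
  have h := congrArg (fun m => m.hom (symCocycle A χ a ha)) (H2π_comp_map r j)
  simp only [ModuleCat.hom_comp, LinearMap.coe_comp, Function.comp_apply] at h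
  rw [h]
  congr 1
  apply Subtype.ext
  funext p
  show j.hom (bock χ (r p.1, r p.2) • a) = bock (χ.comp r) p • j.hom a
  rw [bock_comp, map_zsmul]

end Functoriality

section Cyclic

variable {G : Type} [Group G] (A : Rep.{0} ℤ G) {n : ℕ} [NeZero n]

/-- The lift of a character with values in `{0, …, n-1} ⊆ ℕ`. -/
def chNat (χ : G →* Multiplicative (ZMod n)) (g : G) : ℕ := (Multiplicative.toAdd (χ g)).val

theorem chLift_eq_chNat (χ : G →* Multiplicative (ZMod n)) (g : G) :
    chLift χ g = (chNat χ g : ℤ) := rfl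

/-- If `χ` is injective and `χ σ = 1 ∈ ZMod n`, then `chNat χ` is an index function for `σ`. -/
theorem pow_chNat (χ : G →* Multiplicative (ZMod n)) (hχ : Function.Injective χ) {σ : G}
    (hσ : χ σ = Multiplicative.ofAdd 1) (g : G) : σ ^ chNat χ g = g := by
  apply hχ
  rw [map_pow, hσ, ← ofAdd_nsmul, nsmul_one, chNat, ZMod.natCast_zmod_val]
  rfl

theorem orderOf_of_char (χ : G →* Multiplicative (ZMod n)) (hχ : Function.Injective χ) {σ : G}
    (hσ : χ σ = Multiplicative.ofAdd 1) : orderOf σ = n := by
  rw [← orderOf_injective χ hχ σ, hσ, orderOf_ofAdd_eq_addOrderOf, ZMod.addOrderOf_one]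

/-- The symbol cocycle of an injective character is the carry cocycle of `CyclicH2`. -/
theorem symCocycle_eq_carryCocycle (χ : G →* Multiplicative (ZMod n))
    (hχ : Function.Injective χ) {σ : G} (hσ : χ σ = Multiplicative.ofAdd 1) {a : A}
    (ha : IsInv A a) :
    symCocycle A χ a ha = carryCocycle A (pow_chNat χ hχ hσ) a ha := by
  apply Subtype.ext
  funext p
  obtain ⟨g, h⟩ := p
  show bock χ (g, h) • a
    = (((chNat χ g : ℤ) + chNat χ h - chNat χ (g * h)) / (orderOf σ : ℤ)) • a
  rw [orderOf_of_char χ hχ hσ]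
  rfl

/-- (S2) For an injective character `χ` with `χ σ = 1`: `a ∪ δχ = 0` iff `a` is a norm. -/
theorem symClass_eq_zero_iff_cycNorm (χ : G →* Multiplicative (ZMod n))
    (hχ : Function.Injective χ) {σ : G} (hσ : χ σ = Multiplicative.ofAdd 1) {a : A}
    (ha : IsInv A a) :
    symClass A χ a ha = 0 ↔ ∃ b : A, a = cycNorm A σ b := by
  unfold symClass
  rw [symCocycle_eq_carryCocycle A χ hχ hσ ha]
  exact H2π_carryCocycle_eq_zero_iff A (pow_chNat χ hχ hσ) a ha

/-- (S2) For an injective character `χ` with `χ σ = 1`: every class is a symbol class. -/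
theorem exists_symClass_of_gen (χ : G →* Multiplicative (ZMod n))
    (hχ : Function.Injective χ) {σ : G} (hσ : χ σ = Multiplicative.ofAdd 1) (x : H2 A) :
    ∃ (a : A) (ha : IsInv A a), x = symClass A χ a ha := by
  obtain ⟨a, ha, hx⟩ := exists_carryCocycle A (pow_chNat χ hχ hσ) x
  refine ⟨a, ha, ?_⟩
  unfold symClass
  rw [symCocycle_eq_carryCocycle A χ hχ hσ ha]
  exact hx

variable [Fintype G]

theorem exists_gen_of_card (χ : G →* Multiplicative (ZMod n)) (hχ : Function.Injective χ)
    (hcard : Fintype.card G = n) : ∃ σ : G, χ σ = Multiplicative.ofAdd 1 := by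
  have hbij : Function.Bijective χ := by
    rw [Fintype.bijective_iff_injective_and_card]
    refine ⟨hχ, ?_⟩
    rw [hcard, Fintype.card_multiplicative, ZMod.card]
  exact hbij.2 _

/-- (S2) **Norm criterion.** `G` cyclic of order `n` with an injective character `χ`:
`a ∪ δχ = 0` iff `a` is a norm. -/
theorem symClass_eq_zero_iff (χ : G →* Multiplicative (ZMod n)) (hχ : Function.Injective χ)
    (hcard : Fintype.card G = n) {a : A} (ha : IsInv A a) :
    symClass A χ a ha = 0 ↔ ∃ b : A, a = ∑ g : G, A.ρ g b := by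
  obtain ⟨σ, hσ⟩ := exists_gen_of_card χ hχ hcard
  rw [symClass_eq_zero_iff_cycNorm A χ hχ hσ ha]
  refine exists_congr fun b => ?_
  rw [cycNorm_eq_finsum A (pow_chNat χ hχ hσ) b, finsum_eq_sum_of_fintype]

/-- (S2) `G` cyclic of order `n` with an injective character `χ`: every class in `H²` is a
symbol class. -/
theorem exists_symClass (χ : G →* Multiplicative (ZMod n)) (hχ : Function.Injective χ)
    (hcard : Fintype.card G = n) (x : H2 A) :
    ∃ (a : A) (ha : IsInv A a), x = symClass A χ a ha := by
  obtain ⟨σ, hσ⟩ := exists_gen_of_card χ hχ hcard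
  exact exists_symClass_of_gen A χ hχ hσ x

end Cyclic

section Symbol

variable {G : Type} [Group G] (A : Rep.{0} ℤ G) {n : ℕ} [NeZero n]

/-- The symbol `(a, χ) := inv (a ∪ δχ)` attached to an invariant map `inv`. -/
noncomputable def localSymbol (inv : H2 A →+ AddCircle (1 : ℚ))
    (χ : G →* Multiplicative (ZMod n)) (a : A) (ha : IsInv A a) : AddCircle (1 : ℚ) :=
  inv (symClass A χ a ha)

theorem localSymbol_add (inv : H2 A →+ AddCircle (1 : ℚ)) (χ : G →* Multiplicative (ZMod n))
    {a b : A} (ha : IsInv A a) (hb : IsInv A b) :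
    localSymbol A inv χ (a + b) (ha.add hb)
      = localSymbol A inv χ a ha + localSymbol A inv χ b hb := by
  unfold localSymbol
  rw [symClass_add, map_add]

theorem localSymbol_mul_char (inv : H2 A →+ AddCircle (1 : ℚ))
    (χ χ' : G →* Multiplicative (ZMod n)) {a : A} (ha : IsInv A a) :
    localSymbol A inv (χ * χ') a ha = localSymbol A inv χ a ha + localSymbol A inv χ' a ha := by
  unfold localSymbol
  rw [symClass_mul_char, map_add]

/-- (S2) for the symbol: if `inv` is injective, `G` is cyclic of order `n` and `χ` is injective,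
then `(a, χ) = 0` iff `a` is a norm. -/
theorem localSymbol_eq_zero_iff [Fintype G] (inv : H2 A →+ AddCircle (1 : ℚ))
    (hinv : Function.Injective inv) (χ : G →* Multiplicative (ZMod n))
    (hχ : Function.Injective χ) (hcard : Fintype.card G = n) {a : A} (ha : IsInv A a) :
    localSymbol A inv χ a ha = 0 ↔ ∃ b : A, a = ∑ g : G, A.ρ g b := by
  unfold localSymbol
  rw [← symClass_eq_zero_iff A χ hχ hcard ha]
  exact ⟨fun h => hinv (h.trans (map_zero inv).symm), fun h => by rw [h, map_zero]⟩

end Symbol

end Fermat.Agent.CFT
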