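import Fermat.Agent.CFT.Local.LCInv
import Fermat.Agent.CFT.GaloisTowerUnits

/-!
# CFT, Layer B (B7b, concrete): the dictionary for `Gal(Ω/E)` acting on `Ωˣ`

`Ω/k` Galois (possibly infinite), `L` a level structure on `Gal(Ω/k)` of Galois type (every level
is `Gal(Ω/F)` for a finite normal `F/k`, and the levels are cofinal among the `Gal(Ω/E')`, `E'/k`
finite).  For a finite subextension `E` the open subgroup `Gal(Ω/E)` with the induced level
structure and the module `Ωˣ` has a `LayerDict` (`galLayerDict`):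

* `dictEquiv`, `dictRepIso`: `Gal(Ω/E) ⧸ N ≃* Gal(E'/E)`, `(Ωˣ)^N ≅ E'ˣ` for `N = ker(res)`;
* `exists_layerMap_eq_map`, `exists_cohLinearEquivOfRepIso_eq_map`: explicit descriptions;
* `dict_coh_infl`: the inflation square;
* `normal_layer_sup_left`; `isSmooth_unitsRep`.

With a `LayerInvSystem k Ω` this gives (via `Local/LCInv.lean`) the invariant map on
`LC.H2 (Gal(Ω/E), Ωˣ)`, injective and surjective onto `ℚ/ℤ`, and `LC.H1 = 0`.
-/

set_option autoImplicit false
set_option linter.style.haveILetI false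
set_option linter.unusedSectionVars false

open CategoryTheory groupCohomology IntermediateField

namespace Fermat.Agent.CFT

open GaloisTower LayerMaps

variable {k Ω : Type} [Field k] [Field Ω] [Algebra k Ω] [IsGalois k Ω]
variable {E : IntermediateField k Ω}

section Single

variable {E' : IntermediateField k Ω} (h : E ≤ E') [Normal E (layer h)]
  (N : Subgroup E.fixingSubgroup) [N.Normal] (hN : N = (layerRes h).ker)

/-- `Gal(Ω/E) ⧸ N ≃* Gal(E'/E)` for a subgroup `N` equal to the kernel of the restriction. -/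
noncomputable def dictEquiv : E.fixingSubgroup ⧸ N ≃* (layer h ≃ₐ[E] layer h) := by
  subst hN
  exact layerEquiv h

theorem dictEquiv_mk (σ : E.fixingSubgroup) :
    dictEquiv h N hN (QuotientGroup.mk σ) = layerRes h σ := by
  subst hN
  rfl

theorem dictEquiv_symm_layerRes (σ : E.fixingSubgroup) :
    (dictEquiv h N hN).symm (layerRes h σ) = QuotientGroup.mk σ := by
  rw [MulEquiv.symm_apply_eq, dictEquiv_mk]

/-- `(Ωˣ)^N ≅ E'ˣ` along `dictEquiv`. -/
noncomputable def dictRepIso :
    (unitsRep E).quotientToInvariants N ≅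
      Rep.res (dictEquiv h N hN).toMonoidHom (Rep.ofAlgebraAutOnUnits E (layer h)) := by
  subst hN
  exact unitsInvariantsIso h

theorem dictRepIso_hom_coe (x : ((unitsRep E).quotientToInvariants N).V) :
    (((Additive.toMul ((dictRepIso h N hN).hom.hom x : Additive (layer h)ˣ) : (layer h)ˣ) :
      layer h) : Ω) = ((Additive.toMul (x.1 : Additive Ωˣ) : Ωˣ) : Ω) := by
  subst hN
  rfl

end Single


section LayerMapDesc

variable {E' F F' : IntermediateField k Ω}

omit [IsGalois k Ω] in
/-- Explicit description of `layerMap` as a `groupCohomology.map`. -/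
theorem exists_layerMap_eq_map (hEE' : E ≤ E') (hFF' : F ≤ F') (hEF : E ≤ F) (hE'F' : E' ≤ F')
    [Normal E (layer hEE')] (n : ℕ) :
    ∃ (g : (layer hFF' ≃ₐ[F] layer hFF') →* (layer hEE' ≃ₐ[E] layer hEE'))
      (ψ : Rep.res g (Rep.ofAlgebraAutOnUnits E (layer hEE')) ⟶
        Rep.ofAlgebraAutOnUnits F (layer hFF')),
      (∀ (τ : layer hFF' ≃ₐ[F] layer hFF') (x : layer hEE'),
        ((g τ x : layer hEE') : Ω) = ((τ (layerIncl hEE' hFF' hE'F' x) : layer hFF') : Ω)) ∧
      (∀ u : Additive (layer hEE')ˣ,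
        (((Additive.toMul (ψ.hom u : Additive (layer hFF')ˣ) : (layer hFF')ˣ) : layer hFF') : Ω) =
          (((Additive.toMul u : (layer hEE')ˣ) : layer hEE') : Ω)) ∧
      layerMap hEE' hFF' hEF hE'F' n = groupCohomology.map g ψ n := by
  letI := algBase hEF
  letI := algTop hEE' hFF' hE'F'
  letI := algDiag hEF hFF'
  haveI := tower_base hEF hFF'
  haveI := tower_top hEE' hFF' hEF hE'F'
  refine ⟨galRes E (layer hEE') F (layer hFF'), galUnitsHom E (layer hEE') F (layer hFF'),
    ?_, ?_, rfl⟩
  · intro τ x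
    have := galRes_commutes (K₁ := E) (L₁ := layer hEE') (K₂ := F) (L₂ := layer hFF') τ x
    exact congrArg Subtype.val this
  · intro u
    rfl

end LayerMapDesc


section CohDesc

/-- Explicit description of `cohLinearEquivOfRepIso` as a `groupCohomology.map`. -/
theorem exists_cohLinearEquivOfRepIso_eq_map {R G H : Type} [CommRing R] [Group G] [Group H]
    (A : Rep R H) (B : Rep R G) (e : G ≃* H) (i : B ≅ Rep.res e.toMonoidHom A) (n : ℕ) :
    ∃ φ : Rep.res e.symm.toMonoidHom B ⟶ A, (∀ b : B.V, φ.hom b = i.hom.hom b) ∧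
      ∀ x, cohLinearEquivOfRepIso A B e i n x =
        (groupCohomology.map e.symm.toMonoidHom φ n).hom x := by
  refine ⟨Rep.ofHom ⟨(Representation.equivOfIso i).toLinearEquiv.toLinearMap, fun h => ?_⟩,
    fun _ => rfl, fun _ => rfl⟩
  refine LinearMap.ext fun x => ?_
  have := Rep.hom_comm_apply i.hom (e.symm h) x
  simp only [MulEquiv.toMonoidHom_eq_coe] at this
  have h2 : e (e.symm h) = h := e.apply_symm_apply h
  rw [Rep.coe_res_obj_ρ', MonoidHom.coe_coe, h2] at this
  exact this

end CohDesc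


section Square

variable {E₁ E₂ : IntermediateField k Ω} (h₁ : E ≤ E₁) (h₂ : E ≤ E₂) (h12 : E₁ ≤ E₂)
  [Normal E (layer h₁)] [Normal E (layer h₂)]
  (N₁ N₂ : Subgroup E.fixingSubgroup) [N₁.Normal] [N₂.Normal]
  (hN₁ : N₁ = (layerRes h₁).ker) (hN₂ : N₂ = (layerRes h₂).ker) (hle : N₂ ≤ N₁)

/-- **Inflation square**: under the dictionaries of two layers `E ≤ E₁ ≤ E₂`, inflation between
the finite levels corresponds to `layerMap` (inflation of layers). -/
theorem dict_coh_infl (y : groupCohomology ((unitsRep E).quotientToInvariants N₁) 2) :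
    cohLinearEquivOfRepIso _ _ (dictEquiv h₂ N₂ hN₂) (dictRepIso h₂ N₂ hN₂) 2
        ((LC.inflFin (unitsRep E) hle 2).hom y) =
      (layerMap h₁ h₂ le_rfl h12 2).hom
        (cohLinearEquivOfRepIso _ _ (dictEquiv h₁ N₁ hN₁) (dictRepIso h₁ N₁ hN₁) 2 y) := by
  obtain ⟨g, ψ, hg, hψ, hmap⟩ := exists_layerMap_eq_map h₁ h₂ le_rfl h12 2
  obtain ⟨φ₁, hφ₁, hc₁⟩ := exists_cohLinearEquivOfRepIso_eq_map _ _ (dictEquiv h₁ N₁ hN₁)
    (dictRepIso h₁ N₁ hN₁) 2
  obtain ⟨φ₂, hφ₂, hc₂⟩ := exists_cohLinearEquivOfRepIso_eq_map _ _ (dictEquiv h₂ N₂ hN₂)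
    (dictRepIso h₂ N₂ hN₂) 2
  rw [hmap, hc₁, hc₂]
  have hgrp : (LC.quotMap hle).comp (dictEquiv h₂ N₂ hN₂).symm.toMonoidHom =
      (dictEquiv h₁ N₁ hN₁).symm.toMonoidHom.comp g := by
    refine MonoidHom.ext fun τ => ?_
    obtain ⟨σ, rfl⟩ := layerRes_surjective h₂ τ
    have hgσ : g (layerRes h₂ σ) = layerRes h₁ σ := by
      ext x
      rw [hg, layerRes_apply, layerRes_apply]
      rfl
    simp only [MonoidHom.comp_apply, MulEquiv.toMonoidHom_eq_coe, MonoidHom.coe_coe]
    rw [dictEquiv_symm_layerRes, hgσ, dictEquiv_symm_layerRes]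
    rfl
  have key : LC.inflFin (unitsRep E) hle 2 ≫
        groupCohomology.map (dictEquiv h₂ N₂ hN₂).symm.toMonoidHom φ₂ 2 =
      groupCohomology.map (dictEquiv h₁ N₁ hN₁).symm.toMonoidHom φ₁ 2 ≫
        groupCohomology.map g ψ 2 := by
    unfold LC.inflFin
    rw [← groupCohomology.map_comp, ← groupCohomology.map_comp]
    refine groupCohomology.map_congr hgrp ?_ 2
    refine LinearMap.ext fun x => ?_
    apply Additive.toMul.injective
    apply Units.ext
    apply Subtype.ext
    change (((Additive.toMul (φ₂.hom ((LC.invIncl (unitsRep E) hle).hom x) :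
        Additive (layer h₂)ˣ) : (layer h₂)ˣ) : layer h₂) : Ω) =
      (((Additive.toMul (ψ.hom (φ₁.hom x) : Additive (layer h₂)ˣ) : (layer h₂)ˣ) : layer h₂) : Ω)
    rw [hψ, hφ₁, hφ₂, dictRepIso_hom_coe, dictRepIso_hom_coe]
    rfl
  exact congrArg (fun F => F.hom y) key

end Square

/-- The compositum `E ⊔ F` is normal over `E` when `F/k` is normal. -/
theorem normal_layer_sup_left (E F : IntermediateField k Ω) [Normal k F] :
    Normal E (layer (le_sup_left : E ≤ E ⊔ F)) := by
  haveI : Normal E Ω := Normal.tower_top_of_normal k E Ω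
  rw [IntermediateField.normal_iff_forall_map_le']
  intro σ x hx
  obtain ⟨y, hy, rfl⟩ := hx
  have hy' : y ∈ E ⊔ F := hy
  show σ y ∈ E ⊔ F
  -- the k-automorphism underlying σ
  let τ : Ω ≃ₐ[k] Ω := σ.restrictScalars k
  have hτ : ∀ z, τ z = σ z := fun _ => rfl
  have hE : E.map (τ : Ω →ₐ[k] Ω) ≤ E := by
    rintro _ ⟨z, hz, rfl⟩
    have : σ z = z := σ.commutes ⟨z, hz⟩
    show τ z ∈ E
    rw [hτ, this]
    exact hz
  have hF : F.map (τ : Ω →ₐ[k] Ω) ≤ F :=
    (IntermediateField.normal_iff_forall_map_le' (K := F)).1 inferInstance τ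
  have : (E ⊔ F).map (τ : Ω →ₐ[k] Ω) ≤ E ⊔ F := by
    rw [IntermediateField.map_sup]
    exact sup_le_sup hE hF
  exact this ⟨y, hy', rfl⟩


/-! ### The dictionary of a level structure of Galois type -/

section Dict

variable (L : LevelStructure (Ω ≃ₐ[k] Ω))
  (hGal : ∀ N, L.IsLevel N → ∃ F : IntermediateField k Ω,
    FiniteDimensional k F ∧ Normal k F ∧ N = F.fixingSubgroup)
  (hcof : ∀ E' : IntermediateField k Ω, FiniteDimensional k E' →
    ∃ N, L.IsLevel N ∧ N ≤ E'.fixingSubgroup)
  (E : IntermediateField k Ω)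

include hGal in
theorem exists_field_of_level (l : (L.comap E.fixingSubgroup.subtype).Level) :
    ∃ F : IntermediateField k Ω, FiniteDimensional k F ∧ Normal k F ∧
      l.N = F.fixingSubgroup.subgroupOf E.fixingSubgroup := by
  obtain ⟨N, hN, hl⟩ := l.isLevel
  obtain ⟨F, h1, h2, rfl⟩ := hGal N hN
  exact ⟨F, h1, h2, hl⟩

/-- A finite normal extension of `k` cutting out the level `l`. -/
noncomputable def levelBase (l : (L.comap E.fixingSubgroup.subtype).Level) :
    IntermediateField k Ω :=
  (exists_field_of_level L hGal E l).choose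

theorem levelBase_fd (l : (L.comap E.fixingSubgroup.subtype).Level) :
    FiniteDimensional k (levelBase L hGal E l) :=
  (exists_field_of_level L hGal E l).choose_spec.1

theorem levelBase_normal (l : (L.comap E.fixingSubgroup.subtype).Level) :
    Normal k (levelBase L hGal E l) :=
  (exists_field_of_level L hGal E l).choose_spec.2.1

theorem level_eq_subgroupOf (l : (L.comap E.fixingSubgroup.subtype).Level) :
    l.N = (levelBase L hGal E l).fixingSubgroup.subgroupOf E.fixingSubgroup :=
  (exists_field_of_level L hGal E l).choose_spec.2.2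

/-- The top field of the layer attached to a level: the compositum `E · F_l`. -/
noncomputable def levelTop (l : (L.comap E.fixingSubgroup.subtype).Level) :
    IntermediateField k Ω :=
  E ⊔ levelBase L hGal E l

theorem le_levelTop (l : (L.comap E.fixingSubgroup.subtype).Level) :
    E ≤ levelTop L hGal E l := le_sup_left

theorem normal_levelTop (l : (L.comap E.fixingSubgroup.subtype).Level) :
    Normal E (layer (le_levelTop L hGal E l)) :=
  haveI := levelBase_normal L hGal E l
  normal_layer_sup_left E (levelBase L hGal E l)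

theorem mem_level_iff (l : (L.comap E.fixingSubgroup.subtype).Level) (σ : E.fixingSubgroup) :
    σ ∈ l.N ↔ (σ : Ω ≃ₐ[k] Ω) ∈ (levelTop L hGal E l).fixingSubgroup := by
  rw [level_eq_subgroupOf L hGal E l, Subgroup.mem_subgroupOf, levelTop,
    IntermediateField.fixingSubgroup_sup, Subgroup.mem_inf]
  exact ⟨fun h => ⟨σ.2, h⟩, fun h => h.2⟩

theorem level_eq_ker (l : (L.comap E.fixingSubgroup.subtype).Level) :
    haveI := normal_levelTop L hGal E l
    l.N = (layerRes (le_levelTop L hGal E l)).ker := by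
  haveI := normal_levelTop L hGal E l
  ext σ
  rw [mem_level_iff, mem_ker_layerRes_iff]

theorem levelTop_mono {l l' : (L.comap E.fixingSubgroup.subtype).Level} (h : l'.N ≤ l.N) :
    levelTop L hGal E l ≤ levelTop L hGal E l' := by
  intro x hx
  rw [← forall_fixingSubgroup_apply_eq_iff (levelTop L hGal E l') x]
  intro σ hσ
  have hσE : σ ∈ E.fixingSubgroup :=
    IntermediateField.fixingSubgroup_antitone (le_levelTop L hGal E l') hσ
  have h1 : (⟨σ, hσE⟩ : E.fixingSubgroup) ∈ l'.N := (mem_level_iff L hGal E l' _).2 hσ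
  have h2 := (mem_level_iff L hGal E l _).1 (h h1)
  exact (forall_fixingSubgroup_apply_eq_iff (levelTop L hGal E l) x).2 hx σ h2

include hcof in
theorem exists_le_levelTop (E' : IntermediateField k Ω) (hfd : FiniteDimensional k E') :
    ∃ l : (L.comap E.fixingSubgroup.subtype).Level, E' ≤ levelTop L hGal E l := by
  obtain ⟨N, hN, hle⟩ := hcof E' hfd
  refine ⟨⟨N.comap E.fixingSubgroup.subtype, N, hN, rfl⟩, ?_⟩
  intro x hx
  rw [← forall_fixingSubgroup_apply_eq_iff (levelTop L hGal E _) x]
  intro σ hσ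
  have hσE : σ ∈ E.fixingSubgroup :=
    IntermediateField.fixingSubgroup_antitone (le_levelTop L hGal E _) hσ
  have h1 := (mem_level_iff L hGal E ⟨N.comap E.fixingSubgroup.subtype, N, hN, rfl⟩
    (⟨σ, hσE⟩ : E.fixingSubgroup)).2 hσ
  have h2 : σ ∈ N := h1
  exact (forall_fixingSubgroup_apply_eq_iff E' x).2 hx σ (hle h2)

/-- **The dictionary (B7b)** for the open subgroup `Gal(Ω/E)` of a level group of Galois type,
with coefficients `Ωˣ`. -/
noncomputable def galLayerDict [FiniteDimensional k E] :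
    LayerDict E (L.comap E.fixingSubgroup.subtype) (unitsRep E) where
  top := levelTop L hGal E
  le_top := le_levelTop L hGal E
  fd l := by
    haveI := levelBase_fd L hGal E l
    exact IntermediateField.finiteDimensional_sup E (levelBase L hGal E l)
  normal := normal_levelTop L hGal E
  mono := levelTop_mono L hGal E
  quotEquiv l :=
    haveI := normal_levelTop L hGal E l
    dictEquiv (le_levelTop L hGal E l) l.N (level_eq_ker L hGal E l)
  repIso l :=
    haveI := normal_levelTop L hGal E l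
    dictRepIso (le_levelTop L hGal E l) l.N (level_eq_ker L hGal E l)
  coh_infl l l' h y := by
    haveI := normal_levelTop L hGal E l
    haveI := normal_levelTop L hGal E l'
    exact dict_coh_infl (le_levelTop L hGal E l) (le_levelTop L hGal E l')
      (levelTop_mono L hGal E h) l.N l'.N (level_eq_ker L hGal E l) (level_eq_ker L hGal E l') h y
  cofinal E' _ hfd := exists_le_levelTop L hGal hcof E E' hfd

include hcof in
/-- `Ωˣ` is a smooth module for the open subgroup `Gal(Ω/E)`. -/
theorem isSmooth_unitsRep : IsSmooth (L.comap E.fixingSubgroup.subtype) (unitsRep E) := by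
  intro a
  obtain ⟨E', hfd, hE'⟩ :=
    exists_finiteDimensional_forall_apply_eq (k := k) (((Additive.toMul a : Ωˣ) : Ω))
  obtain ⟨N, hN, hle⟩ := hcof E' hfd
  refine ⟨N.comap E.fixingSubgroup.subtype, ⟨N, hN, rfl⟩, fun g hg => ?_⟩
  apply Additive.toMul.injective
  apply Units.ext
  exact hE' (g : Ω ≃ₐ[k] Ω) (hle hg)

end Dict

end Fermat.Agent.CFT
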