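import Mathlib
import Fermat.Prelude.Thm_Algebra_finite_maximalSpectrum_and_bijective_localization_of_module_finite
import Fermat.Prelude.Thm_IsLocalRing_isAdicComplete_of_module_finite

/-!
# CFT / Local / B1a: finite extensions of a complete discretely valued field (algebraic form)

Setting (Layer B): `O` a complete discrete valuation ring with fraction field `K` of
characteristic `0`, `L/K` a finite extension.  The ring of integers of `L` is
`integralClosure O L`.  We prove that it is a finite free `O`-module of rank `[L : K]`, a local
ring, a discrete valuation ring, complete, with finite residue field if `O` has one, that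
`O → integralClosure O L` is local and that Galois automorphisms preserve it and its maximal ideal.

All statements are *theorems* (not instances): `K` cannot be inferred from the conclusion.
Use `haveI := intRing_isLocalRing O K L` etc.
-/

set_option autoImplicit false
set_option linter.unusedSectionVars false

open IsLocalRing

namespace Fermat.Agent.CFT

section Basic

variable (O K : Type) [CommRing O] [IsDomain O] [IsDiscreteValuationRing O]
  [Field K] [Algebra O K] [IsFractionRing O K] [CharZero K]
  (L : Type) [Field L] [Algebra K L] [FiniteDimensional K L] [Algebra O L] [IsScalarTower O K L]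

include K

theorem intRing_isDedekindDomain : IsDedekindDomain (integralClosure O L) :=
  integralClosure.isDedekindDomain O K L

theorem intRing_isFractionRing : IsFractionRing (integralClosure O L) L :=
  IsIntegralClosure.isFractionRing_of_finite_extension O K L (integralClosure O L)

theorem intRing_finite : Module.Finite O (integralClosure O L) :=
  IsIntegralClosure.finite O K L (integralClosure O L)

theorem intRing_isTorsionFree : Module.IsTorsionFree O L := by
  have : Module.IsTorsionFree O K := inferInstance
  have : Module.IsTorsionFree K L := inferInstance
  exact Module.IsTorsionFree.trans_faithfulSMul O K L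

theorem intRing_free : Module.Free O (integralClosure O L) := by
  have := intRing_isTorsionFree O K L
  exact IsIntegralClosure.module_free O K L (integralClosure O L)

theorem intRing_finrank : Module.finrank O (integralClosure O L) = Module.finrank K L := by
  have := intRing_isTorsionFree O K L
  exact IsIntegralClosure.rank O K L (integralClosure O L)

omit K [IsDomain O] [IsDiscreteValuationRing O] [Field K] [Algebra O K] [IsFractionRing O K] [CharZero K]
  [Algebra K L] [FiniteDimensional K L] [IsScalarTower O K L] in
theorem intRing_isIntegral : Algebra.IsIntegral O (integralClosure O L) :=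
  IsIntegralClosure.isIntegral_algebra O L

theorem intRing_not_isField : ¬ IsField (integralClosure O L) := by
  have := intRing_isIntegral O L
  intro h
  have hinj : Function.Injective (algebraMap O (integralClosure O L)) := by
    have h1 : Function.Injective (algebraMap O L) := by
      rw [IsScalarTower.algebraMap_eq O K L]
      exact (algebraMap K L).injective.comp (IsFractionRing.injective O K)
    intro a b hab
    apply h1
    have := congrArg (algebraMap (integralClosure O L) L) hab
    simpa [← IsScalarTower.algebraMap_apply] using this
  exact IsDiscreteValuationRing.not_isField O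
    ((isField_of_isIntegral_of_isField hinj) h)

end Basic

section Domain

/-- A domain which is a finite algebra over a complete noetherian local ring is local. -/
theorem isLocalRing_of_finite_of_isDomain (O : Type) [CommRing O] [IsLocalRing O]
    [IsNoetherianRing O] [IsAdicComplete (maximalIdeal O) O]
    (B : Type) [CommRing B] [IsDomain B] [Algebra O B] [Module.Finite O B] : IsLocalRing B := by
  classical
  obtain ⟨-, hbij, -, -⟩ :=
    Algebra.finite_maximalSpectrum_and_bijective_localization_of_module_finite (𝒪 := O) B
  have hsub : ∀ I J : MaximalSpectrum B, I = J := by
    intro I J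
    by_contra hIJ
    obtain ⟨e, he⟩ := hbij.2 (Pi.single I 1)
    obtain ⟨e', he'⟩ := hbij.2 (1 - Pi.single I 1)
    have hprod : e * e' = 0 := by
      apply hbij.1
      rw [map_mul, he, he', map_zero]
      funext M
      by_cases hM : M = I
      · subst hM; simp
      · simp [hM]
    rcases mul_eq_zero.mp hprod with h0 | h0
    · rw [h0, map_zero] at he
      have := congrFun he I
      simp at this
    · rw [h0, map_zero] at he'
      have := congrFun he' J
      simp [Ne.symm hIJ] at this
  obtain ⟨M, hM⟩ := Ideal.exists_maximal B
  refine IsLocalRing.of_unique_max_ideal ⟨M, hM, fun M' hM' => ?_⟩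
  have := hsub ⟨M', hM'⟩ ⟨M, hM⟩
  exact congrArg MaximalSpectrum.asIdeal this

end Domain

section Complete

variable (O K : Type) [CommRing O] [IsDomain O] [IsDiscreteValuationRing O]
  [IsAdicComplete (maximalIdeal O) O]
  [Field K] [Algebra O K] [IsFractionRing O K] [CharZero K]
  (L : Type) [Field L] [Algebra K L] [FiniteDimensional K L] [Algebra O L] [IsScalarTower O K L]

include K

/-- The ring of integers of a finite extension of a complete discretely valued field is local. -/
theorem intRing_isLocalRing : IsLocalRing (integralClosure O L) := by
  have := intRing_finite O K L
  exact isLocalRing_of_finite_of_isDomain O (integralClosure O L)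

/-- The ring of integers of a finite extension of a complete discretely valued field is a
discrete valuation ring. -/
theorem intRing_isDiscreteValuationRing : IsDiscreteValuationRing (integralClosure O L) := by
  have := intRing_isLocalRing O K L
  have hD := intRing_isDedekindDomain O K L
  have : IsNoetherianRing (integralClosure O L) := hD.toIsNoetherian
  exact ((IsDiscreteValuationRing.TFAE (integralClosure O L) (intRing_not_isField O K L)).out 0 2).mpr
    hD

theorem intRing_algebraMap_injective :
    Function.Injective (algebraMap O (integralClosure O L)) := by
  have h1 : Function.Injective (algebraMap O L) := by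
    rw [IsScalarTower.algebraMap_eq O K L]
    exact (algebraMap K L).injective.comp (IsFractionRing.injective O K)
  intro a b hab
  apply h1
  have := congrArg (algebraMap (integralClosure O L) L) hab
  simpa [← IsScalarTower.algebraMap_apply] using this

theorem intRing_faithfulSMul : FaithfulSMul O (integralClosure O L) :=
  (faithfulSMul_iff_algebraMap_injective O (integralClosure O L)).mpr
    (intRing_algebraMap_injective O K L)

/-- `O → integralClosure O L` is a local homomorphism. -/
theorem intRing_isLocalHom [IsLocalRing (integralClosure O L)] :
    IsLocalHom (algebraMap O (integralClosure O L)) := by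
  have := intRing_faithfulSMul O K L
  have := intRing_isIntegral O L
  infer_instance

/-- The maximal ideal of the ring of integers of `L` lies over that of `O`. -/
theorem intRing_liesOver [IsLocalRing (integralClosure O L)] :
    (maximalIdeal (integralClosure O L)).LiesOver (maximalIdeal O) := by
  have := intRing_isLocalHom O K L
  infer_instance

/-- The ring of integers of `L` is complete for its maximal-ideal-adic topology. -/
theorem intRing_isAdicComplete [IsLocalRing (integralClosure O L)] :
    IsAdicComplete (maximalIdeal (integralClosure O L)) (integralClosure O L) := by
  have := intRing_isLocalHom O K L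
  have := intRing_finite O K L
  exact IsLocalRing.isAdicComplete_of_module_finite (𝒪 := O)

/-- The residue field of the ring of integers of `L` is finite if that of `O` is. -/
theorem intRing_finite_residueField [IsLocalRing (integralClosure O L)]
    [Finite (ResidueField O)] : Finite (ResidueField (integralClosure O L)) := by
  have := intRing_isLocalHom O K L
  have := intRing_finite O K L
  exact IsLocalRing.ResidueField.finite_of_finite (R := O) inferInstance

end Complete

section EF

/-- In a DVR `B` which is an `A`-algebra, if the extension `I` of `p` to `B` is nonzero then
`I = m_B ^ e` where `e` is the (old-API) ramification index. -/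
theorem dvr_map_eq_pow_ramificationIdx' (A : Type) [CommRing A] (B : Type) [CommRing B]
    [IsDomain B] [IsDiscreteValuationRing B] [Algebra A B] (p : Ideal A)
    (hp : p.map (algebraMap A B) ≠ ⊥) :
    p.map (algebraMap A B) = (maximalIdeal B) ^ (Ideal.ramificationIdx' p (maximalIdeal B)) := by
  obtain ⟨ϖ, hϖ⟩ := IsDiscreteValuationRing.exists_irreducible B
  obtain ⟨n, hn⟩ := IsDiscreteValuationRing.ideal_eq_span_pow_irreducible hp hϖ
  have hm : maximalIdeal B = Ideal.span {ϖ} := hϖ.maximalIdeal_eq
  have hI : p.map (algebraMap A B) = (maximalIdeal B) ^ n := by
    rw [hn, hm, Ideal.span_singleton_pow]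
  have hne : maximalIdeal B ≠ ⊥ := IsDiscreteValuationRing.not_a_field B
  have he : Ideal.ramificationIdx' p (maximalIdeal B) = n := by
    apply Ideal.ramificationIdx'_spec
    · exact hI.le
    · rw [hI]
      exact not_le_of_gt (Ideal.pow_succ_lt_pow hne n)
  rw [he, hI]

variable (O K : Type) [CommRing O] [IsDomain O] [IsDiscreteValuationRing O]
  [IsAdicComplete (maximalIdeal O) O]
  [Field K] [Algebra O K] [IsFractionRing O K] [CharZero K]
  (L : Type) [Field L] [Algebra K L] [FiniteDimensional K L] [Algebra O L] [IsScalarTower O K L]

/-- Ramification index `e(L/K)` (new Mathlib API: `Ideal.ramificationIdx`). -/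
noncomputable def ramIdx [IsLocalRing (integralClosure O L)] : ℕ :=
  (maximalIdeal (integralClosure O L)).ramificationIdx O

/-- Residue degree `f(L/K)` (new Mathlib API: `Ideal.inertiaDeg`). -/
noncomputable def inertDeg [IsLocalRing (integralClosure O L)] : ℕ :=
  (maximalIdeal (integralClosure O L)).inertiaDeg O

include K

theorem ramIdx_eq_ramificationIdx' [IsLocalRing (integralClosure O L)] :
    ramIdx O L =
      Ideal.ramificationIdx' (maximalIdeal O) (maximalIdeal (integralClosure O L)) := by
  have := intRing_liesOver O K L
  have := intRing_isDedekindDomain O K L
  have := intRing_faithfulSMul O K L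
  have : Module.IsTorsionFree O (integralClosure O L) := inferInstance
  exact (Ideal.ramificationIdx'_eq_ramificationIdx (maximalIdeal O)
    (maximalIdeal (integralClosure O L)) (IsDiscreteValuationRing.not_a_field O)).symm

theorem inertDeg_eq_inertiaDeg' [IsLocalRing (integralClosure O L)] :
    inertDeg O L =
      Ideal.inertiaDeg' (maximalIdeal O) (maximalIdeal (integralClosure O L)) := by
  have := intRing_liesOver O K L
  exact (Ideal.inertiaDeg'_eq_inertiaDeg (maximalIdeal O)
    (maximalIdeal (integralClosure O L))).symm

/-- `f(L/K)` is the degree of the residue field extension. -/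
theorem inertDeg_eq_finrank [IsLocalRing (integralClosure O L)]
    [IsLocalHom (algebraMap O (integralClosure O L))] :
    inertDeg O L = Module.finrank (ResidueField O) (ResidueField (integralClosure O L)) := by
  have := intRing_liesOver O K L
  exact Ideal.inertiaDeg_eq_of_isMaximal (maximalIdeal O)
    (maximalIdeal (integralClosure O L))

theorem ramIdx_pos [IsLocalRing (integralClosure O L)] : 0 < ramIdx O L := by
  have := intRing_finite O K L
  exact Ideal.ramificationIdx_pos _ O

theorem inertDeg_pos [IsLocalRing (integralClosure O L)] : 0 < inertDeg O L := by
  have := intRing_finite O K L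
  exact Ideal.inertiaDeg_pos _ O

set_option linter.deprecated false in
/-- The fundamental identity `e * f = [L : K]`. -/
theorem ramIdx_mul_inertDeg [IsLocalRing (integralClosure O L)] :
    ramIdx O L * inertDeg O L = Module.finrank K L := by
  have := intRing_isDedekindDomain O K L
  have := intRing_isFractionRing O K L
  have := intRing_finite O K L
  rw [ramIdx_eq_ramificationIdx' O K L, inertDeg_eq_inertiaDeg' O K L]
  exact Ideal.ramificationIdx_mul_inertiaDeg_of_isLocalRing (integralClosure O L) K L
    (IsDiscreteValuationRing.not_a_field O)

/-- `m_K · O_L = m_L ^ e`. -/
theorem map_maximalIdeal_eq_pow_ramIdx [IsLocalRing (integralClosure O L)] :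
    (maximalIdeal O).map (algebraMap O (integralClosure O L)) =
      (maximalIdeal (integralClosure O L)) ^ ramIdx O L := by
  have := intRing_isDiscreteValuationRing O K L
  have := intRing_faithfulSMul O K L
  have : Module.IsTorsionFree O (integralClosure O L) := inferInstance
  rw [ramIdx_eq_ramificationIdx' O K L]
  exact dvr_map_eq_pow_ramificationIdx' O (integralClosure O L) (maximalIdeal O)
    (Ideal.map_ne_bot_of_ne_bot (IsDiscreteValuationRing.not_a_field O))

end EF

section Galois

variable (O K : Type) [CommRing O] [IsDomain O] [IsDiscreteValuationRing O]
  [Field K] [Algebra O K] [IsFractionRing O K] [CharZero K]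
  (L : Type) [Field L] [Algebra K L] [FiniteDimensional K L] [Algebra O L] [IsScalarTower O K L]

omit [IsDomain O] [IsDiscreteValuationRing O] [IsFractionRing O K] [CharZero K]
  [FiniteDimensional K L] in
/-- A `K`-automorphism of `L` preserves the ring of integers. -/
theorem intRing_map_mem_iff (σ : L ≃ₐ[K] L) (x : L) :
    σ x ∈ integralClosure O L ↔ x ∈ integralClosure O L := by
  have key : ∀ (τ : L ≃ₐ[K] L) (y : L), y ∈ integralClosure O L → τ y ∈ integralClosure O L := by
    intro τ y hy
    exact IsIntegral.map (τ.toAlgHom.restrictScalars O) hy
  constructor
  · intro h
    have := key σ.symm _ h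
    simpa using this
  · exact key σ x

/-- A ring automorphism of a local ring preserves the maximal ideal. -/
theorem mem_maximalIdeal_map_iff {B : Type} [CommRing B] [IsLocalRing B] (τ : B ≃+* B) (x : B) :
    τ x ∈ maximalIdeal B ↔ x ∈ maximalIdeal B := by
  rw [mem_maximalIdeal, mem_maximalIdeal, mem_nonunits_iff, mem_nonunits_iff]
  exact not_congr (isUnit_map_iff τ x)

/-- The restriction of a `K`-automorphism of `L` to the ring of integers preserves the maximal
ideal. -/
theorem galRestrict_mem_maximalIdeal_iff [IsLocalRing (integralClosure O L)]
    (σ : L ≃ₐ[K] L) (x : integralClosure O L) :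
    galRestrict O K L (integralClosure O L) σ x ∈ maximalIdeal (integralClosure O L) ↔
      x ∈ maximalIdeal (integralClosure O L) :=
  mem_maximalIdeal_map_iff (galRestrict O K L (integralClosure O L) σ).toRingEquiv x

/-- `galRestrict` is the restriction of `σ`. -/
theorem galRestrict_coe (σ : L ≃ₐ[K] L) (x : integralClosure O L) :
    ((galRestrict O K L (integralClosure O L) σ x : integralClosure O L) : L) = σ (x : L) :=
  algebraMap_galRestrict_apply O σ x

theorem galRestrict_map_maximalIdeal [IsLocalRing (integralClosure O L)] (σ : L ≃ₐ[K] L) :
    (maximalIdeal (integralClosure O L)).map (galRestrict O K L (integralClosure O L) σ) =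
      maximalIdeal (integralClosure O L) := by
  ext x
  rw [Ideal.mem_map_iff_of_surjective _ (galRestrict O K L (integralClosure O L) σ).surjective]
  constructor
  · rintro ⟨y, hy, rfl⟩
    exact (galRestrict_mem_maximalIdeal_iff O K L σ y).mpr hy
  · intro hx
    refine ⟨(galRestrict O K L (integralClosure O L) σ).symm x, ?_, by simp⟩
    rw [← galRestrict_mem_maximalIdeal_iff O K L σ]
    simpa using hx

end Galois

end Fermat.Agent.CFT
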