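import Mathlib
import Fermat.Agent.CFT.Local.ExtDVR
import Fermat.Agent.CFT.GaloisTower
import Fermat.Agent.S55.LocalTower

/-!
# CFT / Local / B1c: instantiating the abstract local SETTING on concrete towers

The abstract local layer works with `(O K : Type)`, `O` a complete discrete valuation ring with
finite residue field, `K = Frac O` of characteristic zero, and a finite extension `L/K` whose ring of
integers is `integralClosure O L` (see `ExtDVR.lean`).  This file shows that the setting is
*inherited by every finite layer `E'/E`* of an ambient extension `Ω/K`: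

* the new base is `(integralClosure O E, E)`, the new top is `GaloisTower.layer h`
  (`= IntermediateField.extendScalars h`, the field `E'` regarded as an extension of `E`);
* all instances of the SETTING hold (`Tower.base_*`, `GaloisTower.finiteDimensional_layer`,
  `Tower.isGalois_layer`);
* the ring of integers of the layer computed over `integralClosure O E` is the ring of integers of
  `E'` computed over `O` (`Tower.intLayerEquiv`).

Finally the setting is instantiated for `(ℤ_[ℓ], ℚ_[ℓ])` and the fields
`K_F = ℚ_ℓ(ι F) ⊆ PadicAlgCl ℓ` (`S55.localField`), which by `S55/KrasnerCofinal.lean` exhaust all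
finite extensions of `ℚ_ℓ`.
-/

set_option autoImplicit false
set_option linter.unusedSectionVars false
set_option linter.style.haveILetI false

open IsLocalRing IntermediateField
open Fermat.Agent.CFT.GaloisTower

namespace Fermat.Agent.CFT.Tower

section Mid

variable (O : Type) {K Ω : Type} [CommRing O] [Field K] [Algebra O K]
  [Field Ω] [Algebra K Ω] [Algebra O Ω] [IsScalarTower O K Ω]

/-- `O → E → Ω` is a scalar tower for every intermediate field `E` of `Ω/K`. -/
theorem isScalarTower_mid (E : IntermediateField K Ω) : IsScalarTower O E Ω :=
  IsScalarTower.of_algebraMap_eq fun a => by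
    rw [IsScalarTower.algebraMap_apply O K Ω, IsScalarTower.algebraMap_apply O K E]
    rfl

/-- Integrality over the ring of integers of `E` is integrality over `O`. -/
theorem isIntegral_intRing_iff (E : IntermediateField K Ω) (x : Ω) :
    IsIntegral (integralClosure O E) x ↔ IsIntegral O x := by
  haveI := isScalarTower_mid O E
  exact isIntegral_integralClosure_iff (A := O) (K := E) (L := Ω) x

variable {E E' : IntermediateField K Ω} (h : E ≤ E')

theorem mem_integralClosure_layer_iff (x : layer h) :
    x ∈ integralClosure (integralClosure O E) (layer h) ↔ IsIntegral O (x : Ω) := by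
  rw [mem_integralClosure_iff, ← isIntegral_intRing_iff O E]
  exact (isIntegral_algebraMap_iff (B := Ω) (algebraMap (layer h) Ω).injective).symm

theorem mem_integralClosure_iff_coe (E' : IntermediateField K Ω) (x : E') :
    x ∈ integralClosure O E' ↔ IsIntegral O (x : Ω) := by
  haveI := isScalarTower_mid O E'
  rw [mem_integralClosure_iff]
  exact (isIntegral_algebraMap_iff (B := Ω) (algebraMap E' Ω).injective).symm

/-- The ring of integers of the layer `E'/E` (integral closure of the integers of `E`) is the ring
of integers of `E'` (integral closure of `O`). -/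
noncomputable def intLayerEquiv :
    integralClosure (integralClosure O E) (layer h) ≃+* integralClosure O E' where
  toFun x := ⟨(⟨((x : layer h) : Ω), (x : layer h).2⟩ : E'),
    (mem_integralClosure_iff_coe O E' _).2
      ((mem_integralClosure_layer_iff O h (x : layer h)).1 x.2)⟩
  invFun y := ⟨(⟨((y : E') : Ω), (y : E').2⟩ : layer h),
    (mem_integralClosure_layer_iff O h _).2 ((mem_integralClosure_iff_coe O E' (y : E')).1 y.2)⟩
  left_inv _ := rfl
  right_inv _ := rfl
  map_mul' _ _ := rfl
  map_add' _ _ := rfl

@[simp] theorem intLayerEquiv_coe (x : integralClosure (integralClosure O E) (layer h)) :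
    (((intLayerEquiv O h x : integralClosure O E') : E') : Ω) = ((x : layer h) : Ω) := rfl

@[simp] theorem intLayerEquiv_symm_coe (y : integralClosure O E') :
    ((((intLayerEquiv O h).symm y : integralClosure (integralClosure O E) (layer h)) : layer h) : Ω)
      = ((y : E') : Ω) := rfl

omit [Algebra O K] [Algebra O Ω] [IsScalarTower O K Ω] in
/-- A subfield of a finite subextension is finite. -/
theorem finiteDimensional_of_le' (h : E ≤ E') [FiniteDimensional K E'] :
    FiniteDimensional K E :=
  Module.Finite.of_injective (IntermediateField.inclusion h).toLinearMap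
    (IntermediateField.inclusion h).injective

omit [Algebra O K] [Algebra O Ω] [IsScalarTower O K Ω] in
/-- The layer is finite-dimensional if `E'` is finite over `K` (no normality of `Ω/K` needed). -/
theorem finiteDimensional_layer' (h : E ≤ E') [FiniteDimensional K E'] :
    FiniteDimensional E (layer h) := by
  haveI : FiniteDimensional K (layer h) := ‹FiniteDimensional K E'›
  exact FiniteDimensional.right K E (layer h)

omit [Algebra O K] [Algebra O Ω] [IsScalarTower O K Ω] in
/-- The layer `E'/E` is normal as soon as `E'/K` is (no normality of `Ω/K` needed). -/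
theorem normal_layer' (h : E ≤ E') [Normal K E'] : Normal E (layer h) := by
  haveI : Normal K (layer h) := ‹Normal K E'›
  exact Normal.tower_top_of_normal K E (layer h)

omit [Algebra O K] [Algebra O Ω] [IsScalarTower O K Ω] in
/-- In characteristic zero a normal layer is Galois. -/
theorem isGalois_layer (h : E ≤ E') [CharZero K] [Normal E (layer h)] : IsGalois E (layer h) :=
  { to_isSeparable := inferInstance
    to_normal := inferInstance }

omit [Algebra O K] [Algebra O Ω] [IsScalarTower O K Ω] in
/-- In characteristic zero the layer `E'/E` is Galois as soon as `E'/K` is normal. -/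
theorem isGalois_layer_of_normal (h : E ≤ E') [CharZero K] [Normal K E'] :
    IsGalois E (layer h) := by
  haveI := normal_layer' h
  exact isGalois_layer h

end Mid

section Setting

variable (O K : Type) [CommRing O] [IsDomain O] [IsDiscreteValuationRing O]
  [IsAdicComplete (maximalIdeal O) O]
  [Field K] [Algebra O K] [IsFractionRing O K] [CharZero K]
  {Ω : Type} [Field Ω] [Algebra K Ω] [Algebra O Ω] [IsScalarTower O K Ω]
  (E : IntermediateField K Ω) [FiniteDimensional K E]

/-! ### The pair `(integralClosure O E, E)` satisfies the SETTING again -/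

theorem base_isLocalRing : IsLocalRing (integralClosure O E) :=
  intRing_isLocalRing O K E

theorem base_isDiscreteValuationRing : IsDiscreteValuationRing (integralClosure O E) :=
  intRing_isDiscreteValuationRing O K E

theorem base_isAdicComplete [IsLocalRing (integralClosure O E)] :
    IsAdicComplete (maximalIdeal (integralClosure O E)) (integralClosure O E) :=
  intRing_isAdicComplete O K E

theorem base_finite_residueField [IsLocalRing (integralClosure O E)] [Finite (ResidueField O)] :
    Finite (ResidueField (integralClosure O E)) :=
  intRing_finite_residueField O K E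

theorem base_isFractionRing : IsFractionRing (integralClosure O E) E :=
  intRing_isFractionRing O K E

/-- Usage test: the abstract local theorem `ramIdx_mul_inertDeg` of `ExtDVR.lean`, applied to a
layer `E'/E` with base ring `integralClosure O E`.  Every theorem of the abstract local layer is
instantiated on layers in exactly this way. -/
example {E E' : IntermediateField K Ω} (h : E ≤ E') [FiniteDimensional K E']
    [Finite (ResidueField O)] : True := by
  haveI : FiniteDimensional K E := finiteDimensional_of_le' h
  haveI := base_isDiscreteValuationRing O K E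
  haveI := base_isAdicComplete O K E
  haveI := base_finite_residueField O K E
  haveI := base_isFractionRing O K E
  haveI := finiteDimensional_layer' h
  haveI := intRing_isLocalRing (integralClosure O E) E (layer h)
  have := ramIdx_mul_inertDeg (integralClosure O E) E (layer h)
  trivial

end Setting

end Fermat.Agent.CFT.Tower

/-! ### The `ℓ`-adic instantiation -/

namespace Fermat.Agent.CFT.PadicTower

open Fermat.Agent.CFT.Tower Fermat.Agent.S55

variable (ℓ : ℕ) [Fact ℓ.Prime]

/-- `(ℤ_[ℓ], ℚ_[ℓ])` satisfies the SETTING: complete DVR, finite residue field, fraction field of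
characteristic zero (all Mathlib instances; recorded for reference). -/
theorem padic_setting :
    IsDiscreteValuationRing ℤ_[ℓ] ∧ IsAdicComplete (maximalIdeal ℤ_[ℓ]) ℤ_[ℓ] ∧
      Finite (ResidueField ℤ_[ℓ]) ∧ IsFractionRing ℤ_[ℓ] ℚ_[ℓ] ∧ CharZero ℚ_[ℓ] :=
  ⟨inferInstance, inferInstance, inferInstance, inferInstance, inferInstance⟩

/-- The ring of integers of a subfield `E` of `PadicAlgCl ℓ`. -/
noncomputable abbrev intRing (E : IntermediateField ℚ_[ℓ] (PadicAlgCl ℓ)) : Subalgebra ℤ_[ℓ] E :=
  integralClosure ℤ_[ℓ] E

variable (E : IntermediateField ℚ_[ℓ] (PadicAlgCl ℓ)) [FiniteDimensional ℚ_[ℓ] E]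

theorem intRing_isLocalRing : IsLocalRing (intRing ℓ E) :=
  base_isLocalRing ℤ_[ℓ] ℚ_[ℓ] E

theorem intRing_isDiscreteValuationRing : IsDiscreteValuationRing (intRing ℓ E) :=
  base_isDiscreteValuationRing ℤ_[ℓ] ℚ_[ℓ] E

theorem intRing_isAdicComplete [IsLocalRing (intRing ℓ E)] :
    IsAdicComplete (maximalIdeal (intRing ℓ E)) (intRing ℓ E) :=
  base_isAdicComplete ℤ_[ℓ] ℚ_[ℓ] E

theorem intRing_finite_residueField [IsLocalRing (intRing ℓ E)] :
    Finite (ResidueField (intRing ℓ E)) :=
  base_finite_residueField ℤ_[ℓ] ℚ_[ℓ] E

theorem intRing_isFractionRing : IsFractionRing (intRing ℓ E) E :=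
  base_isFractionRing ℤ_[ℓ] ℚ_[ℓ] E

theorem intRing_module_finite : Module.Finite ℤ_[ℓ] (intRing ℓ E) :=
  Fermat.Agent.CFT.intRing_finite ℤ_[ℓ] ℚ_[ℓ] E

/-- The local fields `K_F ⊆ K_{F'}` attached to number fields `F ⊆ F'` inside `ℚbar`, with
`F'/ℚ` Galois: the layer `K_{F'}/K_F` is a finite Galois extension and the pair
`(𝓞_{K_F}, K_F)` satisfies the SETTING (by the theorems above with `E := localField ℓ F`). -/
theorem localField_layer {F F' : IntermediateField ℚ (AlgebraicClosure ℚ)}
    [FiniteDimensional ℚ F] [FiniteDimensional ℚ F'] (h : F ≤ F') (hF' : IsGalois ℚ F') :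
    FiniteDimensional ℚ_[ℓ] (localField ℓ F) ∧ FiniteDimensional ℚ_[ℓ] (localField ℓ F') ∧
      FiniteDimensional (localField ℓ F) (layer (localField_mono ℓ h)) ∧
      IsGalois (localField ℓ F) (layer (localField_mono ℓ h)) := by
  haveI := finiteDimensional_localField ℓ F
  haveI := finiteDimensional_localField ℓ F'
  haveI : IsGalois ℚ_[ℓ] (localField ℓ F') := isGalois_localField ℓ F' hF'
  exact ⟨inferInstance, inferInstance, finiteDimensional_layer' _, isGalois_layer_of_normal _⟩

end Fermat.Agent.CFT.PadicTower
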