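import Mathlib
import Fermat.Agent.CFT.CupLow

/-!
# CFT, Layer B: vanishing of `H²` of a cyclic group when norms are surjective on invariants

`G` finite cyclic, `B : Rep k G` such that every `G`-invariant element of `B` is a norm.
Then `H²(G, B) = 0` (Mathlib's periodicity).  Also a version for a stable submodule `W` of a
representation `A`: 2-cocycles with values in `W` are coboundaries.
-/

set_option autoImplicit false

open groupCohomology CategoryTheory

namespace Fermat.Agent.CFT

universe u

section

variable {k G : Type u} [CommRing k] [CommGroup G] [Fintype G] (B : Rep.{u} k G) (g : G)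
  (hg : ∀ x, x ∈ Subgroup.zpowers g)

omit [Fintype G] in
include hg in
lemma ρ_eq_self_of_ρ_gen_eq_self {b : B} (hgb : B.ρ g b = b) (h : G) : B.ρ h b = b := by
  have hinv : B.ρ g⁻¹ b = b := by
    conv_lhs => rw [← hgb]
    rw [← Module.End.mul_apply, ← map_mul, inv_mul_cancel, map_one, Module.End.one_apply]
  have hpow : ∀ n : ℕ, B.ρ (g ^ n) b = b := by
    intro n
    induction n with
    | zero => simp
    | succ n ih => rw [pow_succ, map_mul, Module.End.mul_apply, hgb, ih]
  have hpow' : ∀ n : ℕ, B.ρ ((g⁻¹) ^ n) b = b := by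
    intro n
    induction n with
    | zero => simp
    | succ n ih => rw [pow_succ, map_mul, Module.End.mul_apply, hinv, ih]
  obtain ⟨z, rfl⟩ := Subgroup.mem_zpowers_iff.mp (hg h)
  cases z with
  | ofNat n => simpa using hpow n
  | negSucc n =>
    rw [zpow_negSucc, ← inv_pow]
    exact hpow' (n + 1)

include hg in
/-- Cyclic group, all invariants are norms: `H²` vanishes. -/
theorem subsingleton_H2_of_forall_mem_range_norm
    (hN : ∀ b : B, (∀ h : G, B.ρ h b = b) → ∃ y : B, B.norm.hom y = b) :
    Subsingleton (H2 B) := by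
  have : NeZero (2 : ℕ) := ⟨by norm_num⟩
  have he : Even 2 := by decide
  have hsurj : Function.Surjective
      (Rep.FiniteCyclicGroup.groupCohomologyπEven B g hg 2 he).hom := by
    rw [← ModuleCat.epi_iff_surjective]
    unfold Rep.FiniteCyclicGroup.groupCohomologyπEven
    have e1 : Epi (Rep.FiniteCyclicGroup.normHomCompSub B g).moduleCatCyclesIso.inv := inferInstance
    have e2 : Epi (Rep.FiniteCyclicGroup.normHomCompSub B g).homologyπ := inferInstance
    have e3 : Epi (Rep.FiniteCyclicGroup.groupCohomologyIsoEven B g hg 2 he).inv := inferInstance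
    exact epi_comp' e1 (epi_comp' e2 e3)
  refine ⟨fun x y => ?_⟩
  have h0 : ∀ z : H2 B, z = 0 := by
    intro z
    obtain ⟨w, rfl⟩ := hsurj z
    rw [Rep.FiniteCyclicGroup.groupCohomologyπEven_eq_zero_iff]
    suffices hinv : ∀ h : G, B.ρ h w.1 = w.1 by
      obtain ⟨y, hy⟩ := hN w.1 hinv
      exact ⟨y, hy⟩
    have hw := w.2
    rw [LinearMap.mem_ker] at hw
    have hgw : B.ρ g w.1 = w.1 := by
      have : B.ρ g w.1 - w.1 = 0 := by
        rw [← hw]
        simp only [Rep.sub_hom, Rep.hom_id, Representation.IntertwiningMap.sub_toLinearMap,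
          Representation.IntertwiningMap.toLinearMap_id, LinearMap.sub_apply,
          Representation.IntertwiningMap.coe_toLinearMap, Rep.applyAsHom_apply, LinearMap.id_coe,
          id_eq]
      exact sub_eq_zero.mp this
    exact ρ_eq_self_of_ρ_gen_eq_self B g hg hgw
  rw [h0 x, h0 y]

end

section Sub

variable {k G : Type u} [CommRing k] [CommGroup G] [Fintype G] (A : Rep.{u} k G) (g : G)
  (hg : ∀ x, x ∈ Subgroup.zpowers g)

omit [CommGroup G] [Fintype G] in
lemma norm_subrepresentation_coe {G : Type u} [Group G] [Fintype G] (A : Rep.{u} k G)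
    (W : Submodule k A) (hW : ∀ g, W ≤ W.comap (A.ρ g))
    (y : A.subrepresentation W hW) :
    (((A.subrepresentation W hW).norm.hom y : A.subrepresentation W hW) : A) =
      A.norm.hom (y : A) := by
  simp only [Rep.norm, Representation.norm]
  change ((∑ g : G, (A.subrepresentation W hW).ρ g) y : W).1 = (∑ g : G, A.ρ g) y.1
  rw [LinearMap.sum_apply, LinearMap.sum_apply, Submodule.coe_sum]
  rfl

include hg in
/-- Cyclic group, `W` a stable submodule of `A` in which invariants are norms: every 2-cocycle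
with values in `W` is a coboundary. -/
theorem mem_coboundaries₂_of_forall_mem_of_norm
    (W : Submodule k A) (hW : ∀ g, W ≤ W.comap (A.ρ g))
    (hN : ∀ w ∈ W, (∀ h : G, A.ρ h w = w) → ∃ y ∈ W, A.norm.hom y = w)
    (f : cocycles₂ A) (hf : ∀ p, f p ∈ W) : ⇑f ∈ coboundaries₂ A := by
  set B := A.subrepresentation W hW with hB
  have hsub : Subsingleton (H2 B) := by
    refine subsingleton_H2_of_forall_mem_range_norm B g hg ?_
    intro b hb
    obtain ⟨y, hyW, hy⟩ := hN b.1 b.2 (fun h => congrArg Subtype.val (hb h))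
    refine ⟨⟨y, hyW⟩, Subtype.ext ?_⟩
    rw [norm_subrepresentation_coe A W hW ⟨y, hyW⟩]
    exact hy
  let fB : G × G → B := fun p => ⟨f p, hf p⟩
  have hfB : fB ∈ cocycles₂ B := by
    rw [mem_cocycles₂_iff]
    intro a b c
    apply Subtype.ext
    exact (mem_cocycles₂_iff (f : G × G → A)).mp f.2 a b c
  have h0 : (H2π B).hom ⟨fB, hfB⟩ = 0 := Subsingleton.elim _ _
  rw [H2π_eq_zero_iff] at h0
  obtain ⟨x, hx⟩ := h0
  refine ⟨fun a => (x a : A), ?_⟩
  funext p
  have h1 := congrFun hx p
  rw [d₁₂_hom_apply] at h1 ⊢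
  exact congrArg Subtype.val h1

end Sub

section Cyc

variable {k G : Type u} [CommRing k] [Group G] [Fintype G] (A : Rep.{u} k G) (g : G)
  (hg : ∀ x, x ∈ Subgroup.zpowers g)

include hg in
/-- Version of `mem_coboundaries₂_of_forall_mem_of_norm` for a group with a generator (no
`CommGroup` instance required). -/
theorem mem_coboundaries₂_of_forall_mem_of_norm'
    (W : Submodule k A) (hW : ∀ g, W ≤ W.comap (A.ρ g))
    (hN : ∀ w ∈ W, (∀ h : G, A.ρ h w = w) → ∃ y ∈ W, A.norm.hom y = w)
    (f : cocycles₂ A) (hf : ∀ p, f p ∈ W) : ⇑f ∈ coboundaries₂ A := by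
  have hc : IsCyclic G := ⟨g, hg⟩
  let _ : CommGroup G := IsCyclic.commGroup
  exact mem_coboundaries₂_of_forall_mem_of_norm A g hg W hW hN f hf

end Cyc

end Fermat.Agent.CFT
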