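import Mathlib

/-!
# CFT / Local / B1a: the normalised integer valuation of a discrete valuation ring

For a discrete valuation ring `B` with fraction field `L` we define `dvrOrd B L : L → ℤ`
(`dvrOrd B L 0 = 0` by convention) and prove its basic properties.
-/

set_option autoImplicit false
set_option linter.unusedSectionVars false

open IsLocalRing IsDedekindDomain IsDedekindDomain.HeightOneSpectrum

namespace Fermat.Agent.CFT

section DvrOrd

variable (B L : Type) [CommRing B] [IsDomain B] [IsDiscreteValuationRing B]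
  [Field L] [Algebra B L] [IsFractionRing B L]

/-- The valuation of the discrete valuation ring `B` on its fraction field `L`,
with values in `ℤᵐ⁰`. -/
noncomputable abbrev dvrVal : Valuation L (WithZero (Multiplicative ℤ)) :=
  (IsDiscreteValuationRing.maximalIdeal B).valuation L

/-- The normalised integer valuation `L → ℤ` (junk value `0` at `0`). -/
noncomputable def dvrOrd (x : L) : ℤ := -(WithZero.log (dvrVal B L x))

theorem dvrOrd_def (x : L) : dvrOrd B L x = -(WithZero.log (dvrVal B L x)) := rfl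

theorem dvrVal_eq_exp_neg_dvrOrd {x : L} (hx : x ≠ 0) :
    dvrVal B L x = WithZero.exp (-(dvrOrd B L x)) := by
  rw [dvrOrd, neg_neg, WithZero.exp_log]
  exact (Valuation.ne_zero_iff _).mpr hx

@[simp] theorem dvrOrd_zero : dvrOrd B L 0 = 0 := by simp [dvrOrd]

@[simp] theorem dvrOrd_one : dvrOrd B L 1 = 0 := by simp [dvrOrd]

theorem dvrOrd_mul {x y : L} (hx : x ≠ 0) (hy : y ≠ 0) :
    dvrOrd B L (x * y) = dvrOrd B L x + dvrOrd B L y := by
  have h1 : dvrVal B L x ≠ 0 := (Valuation.ne_zero_iff _).mpr hx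
  have h2 : dvrVal B L y ≠ 0 := (Valuation.ne_zero_iff _).mpr hy
  simp only [dvrOrd, map_mul, WithZero.log_mul h1 h2]
  ring

theorem dvrOrd_inv (x : L) : dvrOrd B L x⁻¹ = -dvrOrd B L x := by
  simp only [dvrOrd, map_inv₀, WithZero.log_inv]

theorem dvrOrd_div {x y : L} (hx : x ≠ 0) (hy : y ≠ 0) :
    dvrOrd B L (x / y) = dvrOrd B L x - dvrOrd B L y := by
  rw [div_eq_mul_inv, dvrOrd_mul B L hx (inv_ne_zero hy), dvrOrd_inv, sub_eq_add_neg]

theorem dvrOrd_zpow (x : L) (n : ℤ) : dvrOrd B L (x ^ n) = n * dvrOrd B L x := by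
  simp only [dvrOrd, map_zpow₀, WithZero.log_zpow, smul_eq_mul, mul_neg]

theorem dvrOrd_pow (x : L) (n : ℕ) : dvrOrd B L (x ^ n) = n * dvrOrd B L x := by
  simp only [dvrOrd, map_pow, WithZero.log_pow, mul_neg, nsmul_eq_mul]

theorem dvrOrd_neg (x : L) : dvrOrd B L (-x) = dvrOrd B L x := by
  simp only [dvrOrd, Valuation.map_neg]

/-- `ord x ≤ ord y ↔ v y ≤ v x` for nonzero `x y`. -/
theorem dvrOrd_le_iff {x y : L} (hx : x ≠ 0) (hy : y ≠ 0) :
    dvrOrd B L x ≤ dvrOrd B L y ↔ dvrVal B L y ≤ dvrVal B L x := by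
  have h1 : dvrVal B L x ≠ 0 := (Valuation.ne_zero_iff _).mpr hx
  have h2 : dvrVal B L y ≠ 0 := (Valuation.ne_zero_iff _).mpr hy
  rw [dvrOrd, dvrOrd, neg_le_neg_iff, WithZero.log_le_log h2 h1]

theorem dvrOrd_nonneg_iff_val_le_one {x : L} (hx : x ≠ 0) :
    0 ≤ dvrOrd B L x ↔ dvrVal B L x ≤ 1 := by
  have := dvrOrd_le_iff B L (one_ne_zero) hx
  simpa using this

/-- The strong triangle inequality. -/
theorem min_dvrOrd_le_dvrOrd_add {x y : L} (hx : x ≠ 0) (hy : y ≠ 0) (hxy : x + y ≠ 0) :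
    min (dvrOrd B L x) (dvrOrd B L y) ≤ dvrOrd B L (x + y) := by
  rcases le_max_iff.mp (Valuation.map_add (dvrVal B L) x y) with h | h
  · exact (min_le_left _ _).trans ((dvrOrd_le_iff B L hx hxy).mpr h)
  · exact (min_le_right _ _).trans ((dvrOrd_le_iff B L hy hxy).mpr h)

/-- A nonzero element of `L` has nonnegative order iff it lies in `B`. -/
theorem dvrOrd_nonneg_iff {x : L} (hx : x ≠ 0) :
    0 ≤ dvrOrd B L x ↔ x ∈ (algebraMap B L).range := by
  rw [dvrOrd_nonneg_iff_val_le_one B L hx]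
  constructor
  · intro h
    obtain ⟨a, ha⟩ := IsDiscreteValuationRing.exists_lift_of_le_one h
    exact ⟨a, ha⟩
  · rintro ⟨a, rfl⟩
    exact valuation_le_one _ a

theorem dvrOrd_algebraMap_nonneg (b : B) : 0 ≤ dvrOrd B L (algebraMap B L b) := by
  by_cases hb : algebraMap B L b = 0
  · rw [hb, dvrOrd_zero]
  · exact (dvrOrd_nonneg_iff B L hb).mpr ⟨b, rfl⟩

theorem algebraMap_ne_zero_of_ne_zero {b : B} (hb : b ≠ 0) : algebraMap B L b ≠ 0 := by
  intro h
  exact hb ((IsFractionRing.injective B L) (h.trans (map_zero _).symm))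

/-- `b ∈ 𝔪^n ↔ n ≤ ord b` for nonzero `b : B`. -/
theorem mem_maximalIdeal_pow_iff_le_dvrOrd {b : B} (hb : b ≠ 0) (n : ℕ) :
    b ∈ maximalIdeal B ^ n ↔ (n : ℤ) ≤ dvrOrd B L (algebraMap B L b) := by
  have hb' := algebraMap_ne_zero_of_ne_zero B L hb
  have h0 : dvrVal B L (algebraMap B L b) ≠ 0 := (Valuation.ne_zero_iff _).mpr hb'
  have := intValuation_le_pow_iff_mem (IsDiscreteValuationRing.maximalIdeal B) b n
  rw [← valuation_of_algebraMap (K := L)] at this
  change dvrVal B L (algebraMap B L b) ≤ _ ↔ b ∈ maximalIdeal B ^ n at this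
  rw [← this, dvrVal_eq_exp_neg_dvrOrd B L hb', WithZero.exp_le_exp, neg_le_neg_iff]

theorem mem_maximalIdeal_iff_dvrOrd_pos {b : B} (hb : b ≠ 0) :
    b ∈ maximalIdeal B ↔ 0 < dvrOrd B L (algebraMap B L b) := by
  have := mem_maximalIdeal_pow_iff_le_dvrOrd B L hb 1
  rw [pow_one] at this
  rw [this]
  push_cast
  omega

theorem isUnit_iff_dvrOrd_eq_zero {b : B} (hb : b ≠ 0) :
    IsUnit b ↔ dvrOrd B L (algebraMap B L b) = 0 := by
  have h1 := mem_maximalIdeal_iff_dvrOrd_pos B L hb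
  have h2 := dvrOrd_algebraMap_nonneg B L b
  rw [mem_maximalIdeal, mem_nonunits_iff] at h1
  constructor
  · intro hu
    by_contra hne
    exact (h1.mpr (lt_of_le_of_ne h2 (Ne.symm hne))) hu
  · intro h0
    by_contra hu
    have := h1.mp hu
    omega

/-- A nonzero `x : L` has order `0` iff it is the image of a unit of `B`. -/
theorem dvrOrd_eq_zero_iff {x : L} (hx : x ≠ 0) :
    dvrOrd B L x = 0 ↔ ∃ u : Bˣ, algebraMap B L (u : B) = x := by
  constructor
  · intro h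
    obtain ⟨b, rfl⟩ := (dvrOrd_nonneg_iff B L hx).mp h.ge
    have hb : b ≠ 0 := by rintro rfl; simp at hx
    exact ⟨((isUnit_iff_dvrOrd_eq_zero B L hb).mpr h).unit, rfl⟩
  · rintro ⟨u, rfl⟩
    exact (isUnit_iff_dvrOrd_eq_zero B L u.ne_zero).mp u.isUnit

/-- A uniformiser has order `1`. -/
theorem dvrOrd_irreducible {ϖ : B} (hϖ : Irreducible ϖ) :
    dvrOrd B L (algebraMap B L ϖ) = 1 := by
  have hm : maximalIdeal B = Ideal.span {ϖ} := hϖ.maximalIdeal_eq
  have h1 : ϖ ∈ maximalIdeal B ^ 1 := by rw [pow_one, hm]; exact Ideal.mem_span_singleton_self ϖ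
  have h2 : ϖ ∉ maximalIdeal B ^ 2 := by
    rw [hm, Ideal.span_singleton_pow, Ideal.mem_span_singleton]
    intro hdvd
    obtain ⟨c, hc⟩ := hdvd
    have : ϖ * 1 = ϖ * (ϖ * c) := by rw [mul_one, ← mul_assoc, ← sq]; exact hc
    have := mul_left_cancel₀ hϖ.ne_zero this
    exact hϖ.not_isUnit (IsUnit.of_mul_eq_one _ this.symm)
  rw [mem_maximalIdeal_pow_iff_le_dvrOrd B L hϖ.ne_zero] at h1 h2
  push_cast at h1 h2
  omega

theorem dvrOrd_surjective : Function.Surjective (dvrOrd B L) := by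
  obtain ⟨ϖ, hϖ⟩ := IsDiscreteValuationRing.exists_irreducible B
  intro n
  refine ⟨(algebraMap B L ϖ) ^ n, ?_⟩
  rw [dvrOrd_zpow, dvrOrd_irreducible B L hϖ, mul_one]

/-- `x = u ϖ^n` with `u` a unit has order `n`. -/
theorem dvrOrd_unit_mul_zpow {ϖ : B} (hϖ : Irreducible ϖ) (u : Bˣ) (n : ℤ) :
    dvrOrd B L (algebraMap B L (u : B) * (algebraMap B L ϖ) ^ n) = n := by
  have hϖ' := algebraMap_ne_zero_of_ne_zero B L hϖ.ne_zero
  rw [dvrOrd_mul B L (algebraMap_ne_zero_of_ne_zero B L u.ne_zero) (zpow_ne_zero _ hϖ'),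
    dvrOrd_zpow, dvrOrd_irreducible B L hϖ,
    (isUnit_iff_dvrOrd_eq_zero B L u.ne_zero).mp u.isUnit]
  ring

/-- Every nonzero `x : L` is `u ϖ^(ord x)` for a unique unit `u`. -/
theorem exists_unit_mul_zpow_dvrOrd {ϖ : B} (hϖ : Irreducible ϖ) {x : L} (hx : x ≠ 0) :
    ∃ u : Bˣ, x = algebraMap B L (u : B) * (algebraMap B L ϖ) ^ (dvrOrd B L x) := by
  have hϖ' := algebraMap_ne_zero_of_ne_zero B L hϖ.ne_zero
  have hy : x * ((algebraMap B L ϖ) ^ (dvrOrd B L x))⁻¹ ≠ 0 :=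
    mul_ne_zero hx (inv_ne_zero (zpow_ne_zero _ hϖ'))
  have h0 : dvrOrd B L (x * ((algebraMap B L ϖ) ^ (dvrOrd B L x))⁻¹) = 0 := by
    rw [dvrOrd_mul B L hx (inv_ne_zero (zpow_ne_zero _ hϖ')), dvrOrd_inv, dvrOrd_zpow,
      dvrOrd_irreducible B L hϖ]
    ring
  obtain ⟨u, hu⟩ := (dvrOrd_eq_zero_iff B L hy).mp h0
  refine ⟨u, ?_⟩
  rw [hu, mul_assoc, inv_mul_cancel₀ (zpow_ne_zero _ hϖ'), mul_one]

/-- The order as a group homomorphism `Lˣ →* Multiplicative ℤ`. -/
noncomputable def dvrOrdHom : Lˣ →* Multiplicative ℤ where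
  toFun x := Multiplicative.ofAdd (dvrOrd B L (x : L))
  map_one' := by simp
  map_mul' x y := by
    rw [Units.val_mul, dvrOrd_mul B L x.ne_zero y.ne_zero, ofAdd_add]

@[simp] theorem dvrOrdHom_apply (x : Lˣ) :
    dvrOrdHom B L x = Multiplicative.ofAdd (dvrOrd B L (x : L)) := rfl

theorem dvrOrdHom_surjective : Function.Surjective (dvrOrdHom B L) := by
  intro n
  obtain ⟨x, hx⟩ := dvrOrd_surjective B L (Multiplicative.toAdd n)
  by_cases h0 : x = 0
  · subst h0
    rw [dvrOrd_zero] at hx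
    refine ⟨1, ?_⟩
    simp only [map_one]
    exact (Multiplicative.toAdd.injective (by simpa using hx))
  · refine ⟨Units.mk0 x h0, ?_⟩
    simp [hx]

theorem mem_ker_dvrOrdHom_iff (x : Lˣ) :
    x ∈ (dvrOrdHom B L).ker ↔ ∃ u : Bˣ, algebraMap B L (u : B) = (x : L) := by
  rw [MonoidHom.mem_ker, dvrOrdHom_apply, ← dvrOrd_eq_zero_iff B L x.ne_zero]
  exact ⟨fun h => by simpa using congrArg Multiplicative.toAdd h, fun h => by simp [h]⟩

/-- The kernel of `dvrOrdHom` is the image of `Bˣ`. -/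
theorem ker_dvrOrdHom_eq_range :
    (dvrOrdHom B L).ker = (Units.map (algebraMap B L : B →* L)).range := by
  ext x
  rw [mem_ker_dvrOrdHom_iff, MonoidHom.mem_range]
  constructor
  · rintro ⟨u, hu⟩
    exact ⟨u, Units.ext hu⟩
  · rintro ⟨u, hu⟩
    exact ⟨u, by rw [← hu]; rfl⟩

end DvrOrd

end Fermat.Agent.CFT
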