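import Fermat.Agent.CFT.Local.ExtDVR
import Fermat.Agent.CFT.Local.DvrOrd

/-!
# CFT / Local / B1a: the valuation of a finite extension of a complete discretely valued field

* `dvrOrd_map_of_ringEquiv`: compatible automorphisms preserve `dvrOrd`.
* `dvrOrd_galois`: `ord_L (σ x) = ord_L x` for `σ ∈ Gal(L/K)`.
* `dvrOrd_algebraMap_eq_ramIdx_mul`: `ord_L x = e · ord_K x` for `x ∈ K`.
-/

set_option autoImplicit false
set_option linter.unusedSectionVars false

open IsLocalRing

namespace Fermat.Agent.CFT

section Generic

variable (B L : Type) [CommRing B] [IsDomain B] [IsDiscreteValuationRing B]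
  [Field L] [Algebra B L] [IsFractionRing B L]

/-- A ring automorphism `σ` of `L` restricting to a ring automorphism `τ` of `B` preserves the
normalised valuation. -/
theorem dvrOrd_map_of_ringEquiv (σ : L ≃+* L) (τ : B ≃+* B)
    (h : ∀ b : B, σ (algebraMap B L b) = algebraMap B L (τ b)) (x : L) :
    dvrOrd B L (σ x) = dvrOrd B L x := by
  by_cases hx : x = 0
  · subst hx; simp
  obtain ⟨ϖ, hϖ⟩ := IsDiscreteValuationRing.exists_irreducible B
  obtain ⟨u, hu⟩ := exists_unit_mul_zpow_dvrOrd B L hϖ hx
  have hτϖ : Irreducible (τ ϖ) := (MulEquiv.irreducible_iff τ.toMulEquiv).mpr hϖ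
  have hσx : σ x = algebraMap B L ((Units.map (τ : B →* B) u : Bˣ) : B) *
      (algebraMap B L (τ ϖ)) ^ (dvrOrd B L x) := by
    conv_lhs => rw [hu]
    rw [map_mul, map_zpow₀, h, h]
    rfl
  rw [hσx, dvrOrd_unit_mul_zpow B L hτϖ]

end Generic

section Ext

variable (O K : Type) [CommRing O] [IsDomain O] [IsDiscreteValuationRing O]
  [Field K] [Algebra O K] [IsFractionRing O K] [CharZero K]
  (L : Type) [Field L] [Algebra K L] [FiniteDimensional K L] [Algebra O L] [IsScalarTower O K L]

/-- The valuation of `L` is invariant under `Gal(L/K)`. -/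
theorem dvrOrd_galois [IsDiscreteValuationRing (integralClosure O L)]
    [IsFractionRing (integralClosure O L) L] (σ : L ≃ₐ[K] L) (x : L) :
    dvrOrd (integralClosure O L) L (σ x) = dvrOrd (integralClosure O L) L x :=
  dvrOrd_map_of_ringEquiv (integralClosure O L) L σ.toRingEquiv
    (galRestrict O K L (integralClosure O L) σ).toRingEquiv
    (fun b => (galRestrict_coe O K L σ b).symm) x

/-- The valuation homomorphism of `L` is invariant under `Gal(L/K)`. -/
theorem dvrOrdHom_galois [IsDiscreteValuationRing (integralClosure O L)]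
    [IsFractionRing (integralClosure O L) L] (σ : L ≃ₐ[K] L) (x : Lˣ) :
    dvrOrdHom (integralClosure O L) L (Units.map (σ : L →* L) x) =
      dvrOrdHom (integralClosure O L) L x := by
  simp only [dvrOrdHom_apply]
  congr 1
  exact dvrOrd_galois O K L σ (x : L)

end Ext

section ExtComplete

variable (O K : Type) [CommRing O] [IsDomain O] [IsDiscreteValuationRing O]
  [IsAdicComplete (maximalIdeal O) O]
  [Field K] [Algebra O K] [IsFractionRing O K] [CharZero K]
  (L : Type) [Field L] [Algebra K L] [FiniteDimensional K L] [Algebra O L] [IsScalarTower O K L]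

include K in
/-- A uniformiser of `K` has valuation `e` in `L`. -/
theorem dvrOrd_algebraMap_irreducible [IsDiscreteValuationRing (integralClosure O L)]
    [IsFractionRing (integralClosure O L) L] {ϖ : O} (hϖ : Irreducible ϖ) :
    dvrOrd (integralClosure O L) L (algebraMap O L ϖ) = ramIdx O L := by
  have hinj := intRing_algebraMap_injective O K L
  have hne : algebraMap O (integralClosure O L) ϖ ≠ 0 := by
    intro h
    exact hϖ.ne_zero (hinj (h.trans (map_zero _).symm))
  have hmap : (maximalIdeal O).map (algebraMap O (integralClosure O L)) =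
      Ideal.span {algebraMap O (integralClosure O L) ϖ} := by
    rw [hϖ.maximalIdeal_eq, Ideal.map_span, Set.image_singleton]
  have hpow := map_maximalIdeal_eq_pow_ramIdx O K L
  have h1 : algebraMap O (integralClosure O L) ϖ ∈
      maximalIdeal (integralClosure O L) ^ ramIdx O L := by
    rw [← hpow, hmap]; exact Ideal.mem_span_singleton_self _
  have h2 : algebraMap O (integralClosure O L) ϖ ∉
      maximalIdeal (integralClosure O L) ^ (ramIdx O L + 1) := by
    intro hmem
    have hle : maximalIdeal (integralClosure O L) ^ ramIdx O L ≤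
        maximalIdeal (integralClosure O L) ^ (ramIdx O L + 1) := by
      rw [← hpow, hmap, Ideal.span_singleton_le_iff_mem]; exact hmem
    exact not_le_of_gt (Ideal.pow_succ_lt_pow
      (IsDiscreteValuationRing.not_a_field (integralClosure O L)) (ramIdx O L)) hle
  rw [mem_maximalIdeal_pow_iff_le_dvrOrd (integralClosure O L) L hne] at h1 h2
  have hcoe : algebraMap (integralClosure O L) L (algebraMap O (integralClosure O L) ϖ) =
      algebraMap O L ϖ := (IsScalarTower.algebraMap_apply O (integralClosure O L) L ϖ).symm
  rw [hcoe] at h1 h2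
  push_cast at h1 h2
  omega

/-- `ord_L (x) = e(L/K) · ord_K (x)` for `x ∈ K`. -/
theorem dvrOrd_algebraMap_eq_ramIdx_mul [IsDiscreteValuationRing (integralClosure O L)]
    [IsFractionRing (integralClosure O L) L] (x : K) :
    dvrOrd (integralClosure O L) L (algebraMap K L x) = ramIdx O L * dvrOrd O K x := by
  by_cases hx : x = 0
  · subst hx; simp
  obtain ⟨ϖ, hϖ⟩ := IsDiscreteValuationRing.exists_irreducible O
  obtain ⟨u, hu⟩ := exists_unit_mul_zpow_dvrOrd O K hϖ hx
  have hinj := intRing_algebraMap_injective O K L
  -- the image of `u` in `O_L` is a unit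
  let u' : (integralClosure O L)ˣ := Units.map (algebraMap O (integralClosure O L) : O →* _) u
  have hu' : algebraMap (integralClosure O L) L (u' : integralClosure O L) =
      algebraMap K L (algebraMap O K (u : O)) := by
    change algebraMap (integralClosure O L) L (algebraMap O (integralClosure O L) (u : O)) = _
    rw [← IsScalarTower.algebraMap_apply, ← IsScalarTower.algebraMap_apply]
  have hϖL : algebraMap K L (algebraMap O K ϖ) = algebraMap O L ϖ :=
    (IsScalarTower.algebraMap_apply O K L ϖ).symm
  have hu0 : algebraMap (integralClosure O L) L (u' : integralClosure O L) ≠ 0 :=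
    algebraMap_ne_zero_of_ne_zero (integralClosure O L) L u'.ne_zero
  have hϖ0 : algebraMap O L ϖ ≠ 0 := by
    rw [← hϖL]
    exact (map_ne_zero _).mpr (algebraMap_ne_zero_of_ne_zero O K hϖ.ne_zero)
  conv_lhs => rw [hu]
  rw [map_mul, map_zpow₀, ← hu', hϖL, dvrOrd_mul _ _ hu0 (zpow_ne_zero _ hϖ0), dvrOrd_zpow,
    dvrOrd_algebraMap_irreducible O K L hϖ,
    (isUnit_iff_dvrOrd_eq_zero (integralClosure O L) L u'.ne_zero).mp u'.isUnit]
  ring

end ExtComplete

end Fermat.Agent.CFT
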