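import Mathlib

/-!
# CFT, local layer (B1b): the unramified extension attached to a polynomial

`O` a discrete valuation ring with residue field `k`, `g : O[X]` monic with irreducible reduction
`ḡ : k[X]`.  Then `R = O[X]/(g)` (`AdjoinRoot g`) is again a discrete valuation ring, finite free of
rank `deg g` over `O`, with maximal ideal generated by the maximal ideal of `O` (so it is
unramified over `O`) and residue field `k[X]/(ḡ)`.
-/

set_option autoImplicit false

namespace Fermat.Agent.CFT

open IsLocalRing Polynomial

variable {O : Type} [CommRing O] [IsDomain O] [IsDiscreteValuationRing O]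

/-- A monic polynomial over `O` whose reduction modulo the maximal ideal is irreducible. -/
structure IsUnramPoly (g : O[X]) : Prop where
  monic : g.Monic
  irreducible_map : Irreducible (g.map (residue O))

namespace IsUnramPoly

variable {g : O[X]} (hg : IsUnramPoly g)
include hg

theorem irreducible : Irreducible g :=
  hg.monic.irreducible_of_irreducible_map (residue O) g hg.irreducible_map

theorem prime : Prime g := hg.irreducible.prime

theorem isDomain_adjoinRoot : IsDomain (AdjoinRoot g) := AdjoinRoot.isDomain_of_prime hg.prime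

theorem natDegree_pos : 0 < g.natDegree := by
  have h := hg.irreducible_map.natDegree_pos
  rwa [hg.monic.natDegree_map] at h

/-- The extension of the maximal ideal of `O` to `O[X]/(g)` is maximal. -/
theorem isMaximal_map :
    ((maximalIdeal O).map (AdjoinRoot.of g)).IsMaximal := by
  have hmax : (Ideal.span ({g.map (residue O)} : Set (ResidueField O)[X])).IsMaximal :=
    PrincipalIdealRing.isMaximal_of_irreducible hg.irreducible_map
  have e := (AdjoinRoot.quotEquivQuotMap g (maximalIdeal O)).toRingEquiv
  rw [Ideal.Quotient.maximal_ideal_iff_isField_quotient] at hmax ⊢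
  exact e.toMulEquiv.isField hmax

theorem finite_adjoinRoot : Module.Finite O (AdjoinRoot g) := hg.monic.finite_adjoinRoot

theorem free_adjoinRoot : Module.Free O (AdjoinRoot g) := hg.monic.free_adjoinRoot

theorem finrank_adjoinRoot : Module.finrank O (AdjoinRoot g) = g.natDegree := by
  have := (AdjoinRoot.powerBasis' hg.monic).finrank
  rw [this, AdjoinRoot.powerBasis'_dim]

/-- Every maximal ideal of `O[X]/(g)` is the extension of the maximal ideal of `O`. -/
theorem eq_map_of_isMaximal (M : Ideal (AdjoinRoot g)) (hM : M.IsMaximal) :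
    M = (maximalIdeal O).map (AdjoinRoot.of g) := by
  haveI := hg.finite_adjoinRoot
  have hcomap : (M.comap (algebraMap O (AdjoinRoot g))).IsMaximal :=
    Ideal.isMaximal_comap_of_isIntegral_of_isMaximal M
  have h1 : M.comap (algebraMap O (AdjoinRoot g)) = maximalIdeal O :=
    IsLocalRing.eq_maximalIdeal hcomap
  have h2 : (maximalIdeal O).map (AdjoinRoot.of g) ≤ M := by
    rw [← h1]
    exact Ideal.map_comap_le
  exact (hg.isMaximal_map.eq_of_le hM.ne_top h2).symm

theorem isLocalRing_adjoinRoot : IsLocalRing (AdjoinRoot g) :=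
  IsLocalRing.of_unique_max_ideal
    ⟨_, hg.isMaximal_map, fun M hM => hg.eq_map_of_isMaximal M hM⟩

theorem maximalIdeal_adjoinRoot :
    letI := hg.isLocalRing_adjoinRoot
    maximalIdeal (AdjoinRoot g) = (maximalIdeal O).map (AdjoinRoot.of g) := by
  letI := hg.isLocalRing_adjoinRoot
  exact hg.eq_map_of_isMaximal _ (maximalIdeal.isMaximal _)

theorem of_injective : Function.Injective (AdjoinRoot.of g) := by
  apply AdjoinRoot.of.injective_of_degree_ne_zero
  rw [Polynomial.degree_eq_natDegree hg.monic.ne_zero]
  have := hg.natDegree_pos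
  exact_mod_cast this.ne'

theorem algebraMap_injective : Function.Injective (algebraMap O (AdjoinRoot g)) :=
  hg.of_injective

theorem isNoetherianRing_adjoinRoot : IsNoetherianRing (AdjoinRoot g) :=
  haveI := hg.finite_adjoinRoot
  IsNoetherianRing.of_finite O (AdjoinRoot g)

/-- `O[X]/(g)` is a discrete valuation ring. -/
theorem isDiscreteValuationRing_adjoinRoot :
    letI := hg.isDomain_adjoinRoot
    IsDiscreteValuationRing (AdjoinRoot g) := by
  letI := hg.isDomain_adjoinRoot
  letI := hg.isLocalRing_adjoinRoot
  haveI := hg.isNoetherianRing_adjoinRoot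
  obtain ⟨π, hπ⟩ := IsDiscreteValuationRing.exists_irreducible O
  have hmO : maximalIdeal O = Ideal.span {π} := hπ.maximalIdeal_eq
  have hm : maximalIdeal (AdjoinRoot g) = Ideal.span {AdjoinRoot.of g π} := by
    rw [hg.maximalIdeal_adjoinRoot, hmO, Ideal.map_span, Set.image_singleton]
  have hπ0 : AdjoinRoot.of g π ≠ 0 := by
    rw [Ne, map_eq_zero_iff _ hg.of_injective]
    exact hπ.ne_zero
  have hnf : ¬ IsField (AdjoinRoot g) := by
    rw [IsLocalRing.isField_iff_maximalIdeal_eq, hm, Ideal.span_singleton_eq_bot]
    exact hπ0
  refine ((IsDiscreteValuationRing.TFAE (AdjoinRoot g) hnf).out 4 0).mp ?_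
  rw [hm]
  exact ⟨⟨_, rfl⟩⟩

end IsUnramPoly

end Fermat.Agent.CFT
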