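import Mathlib
import Fermat.Agent.CFT.Local.UnramPoly

/-!
# CFT, local layer (B1b): extensions generated by a root of an unramified polynomial

Setting: `O` a discrete valuation ring, `K = Frac O` of characteristic zero, `L/K` finite,
`O_L := integralClosure O L`.  `IsUnramExt O L` : the maximal ideal of `O` generates a maximal
ideal of `O_L`.  For a root `θ : L` of a monic `g : O[X]` we define the evaluation maps
`rootHom : O[X]/(g) → L` and `rootHomInt : O[X]/(g) → O_L`, injective when `ḡ` is irreducible.
-/

set_option autoImplicit false
set_option linter.unusedSectionVars false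
set_option linter.style.haveILetI false

namespace Fermat.Agent.CFT

open IsLocalRing Polynomial

section Basic

variable (O K L : Type) [CommRing O] [IsDomain O] [IsDiscreteValuationRing O]
  [Field K] [Algebra O K] [IsFractionRing O K] [CharZero K]
  [Field L] [Algebra K L] [FiniteDimensional K L] [Algebra O L] [IsScalarTower O K L]

/-- `L/K` is unramified: the maximal ideal of `O` generates a maximal ideal of the ring of
integers `integralClosure O L` (which is then the unique maximal ideal). -/
def IsUnramExt (O L : Type) [CommRing O] [IsLocalRing O] [Field L] [Algebra O L] : Prop :=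
  ((maximalIdeal O).map (algebraMap O (integralClosure O L))).IsMaximal

namespace Unram

include K in
omit [IsDomain O] [IsDiscreteValuationRing O] [CharZero K] [FiniteDimensional K L] in
theorem algebraMap_injective_field : Function.Injective (algebraMap O L) := by
  rw [IsScalarTower.algebraMap_eq O K L]
  exact (algebraMap K L).injective.comp (IsFractionRing.injective O K)

include K in
omit [IsDomain O] [IsDiscreteValuationRing O] [CharZero K] [FiniteDimensional K L] in
theorem algebraMap_injective_int :
    Function.Injective (algebraMap O (integralClosure O L)) := by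
  intro a b h
  apply algebraMap_injective_field O K L
  have := congrArg (algebraMap (integralClosure O L) L) h
  rwa [← IsScalarTower.algebraMap_apply, ← IsScalarTower.algebraMap_apply] at this

include K in
theorem finite_int : Module.Finite O (integralClosure O L) :=
  IsIntegralClosure.finite O K L (integralClosure O L)

include K in
theorem free_int : Module.Free O (integralClosure O L) := by
  haveI := finite_int O K L
  haveI : Module.IsTorsionFree O (integralClosure O L) :=
    Module.isTorsionFree_iff_algebraMap_injective.mpr (algebraMap_injective_int O K L)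
  infer_instance

theorem finrank_int : Module.finrank O (integralClosure O L) = Module.finrank K L := by
  haveI := integralClosure.isFractionRing_of_finite_extension K L (A := O)
  exact (IsFractionRing.finrank_eq O K (integralClosure O L) L).symm

include K in
theorem map_maximalIdeal_ne_top :
    (maximalIdeal O).map (algebraMap O (integralClosure O L)) ≠ ⊤ := by
  obtain ⟨P, hP, hover⟩ := Ideal.exists_ideal_over_prime_of_isIntegral
    (S := integralClosure O L) (maximalIdeal O) (⊥ : Ideal (integralClosure O L)) (by
      rw [Ideal.comap_bot_of_injective _ (algebraMap_injective_int O K L)]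
      exact bot_le)
  intro h
  have hle : (maximalIdeal O).map (algebraMap O (integralClosure O L)) ≤ P := by
    rw [Ideal.map_le_iff_le_comap, hover.2]
  rw [h, top_le_iff] at hle
  exact hover.1.ne_top hle

end Unram

end Basic

section Root

variable {O K L : Type} [CommRing O] [IsDomain O] [IsDiscreteValuationRing O]
  [Field K] [Algebra O K] [IsFractionRing O K] [CharZero K]
  [Field L] [Algebra K L] [FiniteDimensional K L] [Algebra O L] [IsScalarTower O K L]
  {g : O[X]}

/-- The `O`-algebra homomorphism `O[X]/(g) → L` sending the root to `θ`. -/
noncomputable def rootHom (g : O[X]) (θ : L) (hθ : aeval θ g = 0) : AdjoinRoot g →ₐ[O] L :=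
  AdjoinRoot.liftAlgHom g (Algebra.ofId O L) θ hθ

theorem rootHom_root (θ : L) (hθ : aeval θ g = 0) : rootHom g θ hθ (AdjoinRoot.root g) = θ :=
  AdjoinRoot.liftAlgHom_root g _ θ hθ

theorem rootHom_isIntegral (hg : g.Monic) (θ : L) (hθ : aeval θ g = 0) (r : AdjoinRoot g) :
    IsIntegral O (rootHom g θ hθ r) := by
  haveI := hg.finite_adjoinRoot
  exact (Algebra.IsIntegral.isIntegral (R := O) r).map (rootHom g θ hθ)

/-- The `O`-algebra homomorphism `O[X]/(g) → O_L`. -/
noncomputable def rootHomInt (hg : g.Monic) (θ : L) (hθ : aeval θ g = 0) :
    AdjoinRoot g →ₐ[O] integralClosure O L :=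
  (rootHom g θ hθ).codRestrict (integralClosure O L) (rootHom_isIntegral hg θ hθ)

theorem coe_rootHomInt (hg : g.Monic) (θ : L) (hθ : aeval θ g = 0) (r : AdjoinRoot g) :
    (rootHomInt hg θ hθ r : L) = rootHom g θ hθ r := rfl

include K in
theorem rootHom_injective (hg : IsUnramPoly g) (θ : L) (hθ : aeval θ g = 0) :
    Function.Injective (rootHom g θ hθ) := by
  letI := hg.isDomain_adjoinRoot
  letI := hg.isDiscreteValuationRing_adjoinRoot
  rw [RingHom.injective_iff_ker_eq_bot]
  by_contra hne
  have hprime : (RingHom.ker (rootHom g θ hθ : AdjoinRoot g →+* L)).IsPrime :=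
    RingHom.ker_isPrime _
  have hmax : (RingHom.ker (rootHom g θ hθ : AdjoinRoot g →+* L)).IsMaximal :=
    hprime.isMaximal hne
  have h1 := hg.eq_map_of_isMaximal _ hmax
  obtain ⟨π, hπ⟩ := IsDiscreteValuationRing.exists_irreducible O
  have hmem : AdjoinRoot.of g π ∈ RingHom.ker (rootHom g θ hθ : AdjoinRoot g →+* L) := by
    rw [h1]
    exact Ideal.mem_map_of_mem _ ((IsLocalRing.mem_maximalIdeal _).mpr hπ.not_isUnit)
  rw [RingHom.mem_ker] at hmem
  have h2 : algebraMap O L π = 0 := by
    have := (rootHom g θ hθ).commutes π
    rw [← this]
    exact hmem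
  exact hπ.ne_zero ((map_eq_zero_iff _ (Unram.algebraMap_injective_field O K L)).mp h2)

include K in
theorem rootHomInt_injective (hg : IsUnramPoly g) (θ : L) (hθ : aeval θ g = 0) :
    Function.Injective (rootHomInt hg.monic θ hθ) := by
  intro a b h
  apply rootHom_injective (K := K) hg θ hθ
  rw [← coe_rootHomInt hg.monic, ← coe_rootHomInt hg.monic, h]

end Root

end Fermat.Agent.CFT
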