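import Mathlib
import Fermat.Agent.CFT.Local.ExtDVR
import Fermat.Agent.CFT.Local.UnramRoot

/-!
# CFT, local layer (B1b): unramified extensions of a complete discretely valued field, basics

Setting B of `ExtDVR.lean`: `O` a complete discrete valuation ring, `K = Frac O` of characteristic
zero, `L/K` finite, `B = integralClosure O L`.

* `isUnramExt_iff_map_eq`, `isUnramExt_iff_ramIdx`, `isUnramExt_iff_inertDeg` : characterisations
  of `IsUnramExt O L`.
* `henselianLocalRing_of_isAdicComplete`, `intRing_henselianLocalRing`.
* `exists_root_lift`, `root_lift_unique` : Hensel lifting of simple roots to `B`.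
-/

set_option autoImplicit false
set_option linter.unusedSectionVars false
set_option linter.style.haveILetI false

namespace Fermat.Agent.CFT

open IsLocalRing Polynomial

/-- A local ring which is complete for its maximal ideal is Henselian. -/
theorem henselianLocalRing_of_isAdicComplete (B : Type*) [CommRing B] [IsLocalRing B]
    [IsAdicComplete (maximalIdeal B) B] : HenselianLocalRing B where
  is_henselian f hf a₀ h₁ h₂ :=
    HenselianRing.is_henselian f hf a₀ h₁ (h₂.map (Ideal.Quotient.mk _))

section Setting

variable (O K : Type) [CommRing O] [IsDomain O] [IsDiscreteValuationRing O]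
  [IsAdicComplete (maximalIdeal O) O]
  [Field K] [Algebra O K] [IsFractionRing O K] [CharZero K]
  (L : Type) [Field L] [Algebra K L] [FiniteDimensional K L] [Algebra O L] [IsScalarTower O K L]

include K in
/-- The ring of integers of `L` is Henselian. -/
theorem intRing_henselianLocalRing [IsLocalRing (integralClosure O L)] :
    HenselianLocalRing (integralClosure O L) := by
  haveI := intRing_isAdicComplete O K L
  exact henselianLocalRing_of_isAdicComplete _

omit [IsDomain O] [IsDiscreteValuationRing O] [IsAdicComplete (maximalIdeal O) O] in
theorem isUnramExt_iff_map_eq [IsLocalRing O] [IsLocalRing (integralClosure O L)] :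
    IsUnramExt O L ↔ (maximalIdeal O).map (algebraMap O (integralClosure O L)) =
      maximalIdeal (integralClosure O L) := by
  constructor
  · intro h
    exact IsLocalRing.eq_maximalIdeal h
  · intro h
    rw [IsUnramExt, h]
    infer_instance

include K in
theorem isUnramExt_iff_ramIdx [IsLocalRing (integralClosure O L)] :
    IsUnramExt O L ↔ ramIdx O L = 1 := by
  haveI := intRing_isDiscreteValuationRing O K L
  rw [isUnramExt_iff_map_eq, map_maximalIdeal_eq_pow_ramIdx O K L]
  have hanti := Ideal.pow_right_strictAnti (maximalIdeal (integralClosure O L))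
    (IsDiscreteValuationRing.not_a_field _) (Ideal.IsPrime.ne_top')
  constructor
  · intro h
    apply hanti.injective
    simpa using h
  · intro h
    rw [h, pow_one]

include K in
theorem isUnramExt_iff_inertDeg [IsLocalRing (integralClosure O L)] :
    IsUnramExt O L ↔ inertDeg O L = Module.finrank K L := by
  rw [isUnramExt_iff_ramIdx O K L, ← ramIdx_mul_inertDeg O K L]
  have hf := inertDeg_pos O K L
  constructor
  · intro h
    rw [h, one_mul]
  · intro h
    have : ramIdx O L * inertDeg O L = 1 * inertDeg O L := by rw [one_mul]; exact h.symm
    exact Nat.eq_of_mul_eq_mul_right hf this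

include K in
/-- `f ≤ [L:K]`. -/
theorem inertDeg_le_finrank [IsLocalRing (integralClosure O L)] :
    inertDeg O L ≤ Module.finrank K L := by
  rw [← ramIdx_mul_inertDeg O K L]
  exact Nat.le_mul_of_pos_left _ (ramIdx_pos O K L)

include K in
/-- If `[L:K] ≤ f` then `L/K` is unramified. -/
theorem isUnramExt_of_finrank_le_inertDeg [IsLocalRing (integralClosure O L)]
    (h : Module.finrank K L ≤ inertDeg O L) : IsUnramExt O L :=
  (isUnramExt_iff_inertDeg O K L).mpr (le_antisymm (inertDeg_le_finrank O K L) h)

end Setting

end Fermat.Agent.CFT
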