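import Mathlib

/-!
# CFT, Layer B, node B2 (part 1): units are norms in unramified extensions

Abstract form.  `O` is a Henselian local ring, `S` a finite free `O`-algebra.

* `exists_norm_one_add_smul_eq` : if `c : S` has unit norm and unit trace and `u ≡ 1` modulo the
  maximal ideal, then `u = N (1 + t • c)` for some `t` in the maximal ideal (one-variable Hensel).
* `exists_norm_eq_of_residue` : if moreover every unit of the residue field is the residue of the
  norm of a unit of `S`, then every unit of `O` is the norm of a unit of `S`.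
* `norm_quotient_mk` : the norm commutes with reduction modulo the maximal ideal.
* `exists_unit_norm_eq` : the unramified case: `S` local with `𝔪_O S = 𝔪_S` and finite residue field.
-/

set_option autoImplicit false

open Polynomial IsLocalRing Module

namespace Fermat.Agent.CFT

section Hensel

variable {O S : Type*} [CommRing O] [HenselianLocalRing O] [CommRing S] [Algebra O S]
  [Module.Free O S] [Module.Finite O S]

/-- One-variable Hensel for the norm form: `u ≡ 1` is a norm `N (1 + t c)`, `t ∈ 𝔪`. -/
theorem exists_norm_one_add_smul_eq {c : S} (hN : IsUnit (Algebra.norm O c))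
    (hT : IsUnit (Algebra.trace O S c)) {u : O} (hu : u - 1 ∈ maximalIdeal O) :
    ∃ t ∈ maximalIdeal O, Algebra.norm O (1 + t • c) = u := by
  classical
  let ι := Module.Free.ChooseBasisIndex O S
  let b : Basis ι O S := Module.Free.chooseBasis O S
  set M : Matrix ι ι O := Algebra.leftMulMatrix b c with hM
  have hdetM : M.det = Algebra.norm O c := (Algebra.norm_eq_matrix_det b c).symm
  have htrM : M.trace = Algebra.trace O S c := (Algebra.trace_eq_matrix_trace b c).symm
  -- the polynomial `det (1 + X M)`
  set D : O[X] := Matrix.det ((X : O[X]) • M.map C + (1 : Matrix ι ι O).map C) with hD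
  have hD' : D = Matrix.det (1 + (X : O[X]) • M.map C) := by
    rw [hD, add_comm]; congr 2; ext i j; simp [Matrix.one_apply]
  have hDeval : ∀ t : O, D.eval t = Algebra.norm O (1 + t • c) := by
    intro t
    rw [Algebra.norm_eq_matrix_det b, map_add, map_one, map_smul, ← hM, hD', ← coe_evalRingHom,
      RingHom.map_det]
    congr 1
    ext i j
    simp [Matrix.add_apply, Matrix.one_apply]
    split_ifs
    · rw [eval_one, mul_comm]
    · rw [eval_zero, mul_comm]
  have hn : 0 < Fintype.card ι := by
    rcases Nat.eq_zero_or_pos (Fintype.card ι) with h0 | h0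
    · exfalso
      have : IsEmpty ι := Fintype.card_eq_zero_iff.mp h0
      have : M.trace = 0 := by simp [Matrix.trace]
      rw [htrM] at this
      rw [this] at hT
      exact not_isUnit_zero hT
    · exact h0
  have hDdeg : D.natDegree ≤ Fintype.card ι := Polynomial.natDegree_det_X_add_C_le M 1
  have hDcoeff : D.coeff (Fintype.card ι) = Algebra.norm O c := by
    rw [hD, Polynomial.coeff_det_X_add_C_card, hdetM]
  -- the polynomial to solve
  set P : O[X] := D - C u with hP
  have hPdeg : P.natDegree ≤ Fintype.card ι :=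
    (natDegree_sub_le _ _).trans (max_le hDdeg (by simp))
  have hPcoeff : P.coeff (Fintype.card ι) = Algebra.norm O c := by
    rw [hP, coeff_sub, hDcoeff, coeff_C, if_neg hn.ne', sub_zero]
  obtain ⟨v, hv⟩ := hN
  set Q : O[X] := C (↑v⁻¹ : O) * P with hQ
  have hQmonic : Q.Monic := by
    have h1 : Q.natDegree ≤ Fintype.card ι := (natDegree_C_mul_le _ _).trans hPdeg
    have h2 : Q.coeff (Fintype.card ι) = 1 := by
      rw [hQ, coeff_C_mul, hPcoeff, ← hv, Units.inv_mul]
    exact Polynomial.monic_of_natDegree_le_of_coeff_eq_one _ h1 h2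
  have hQ0 : Q.eval 0 ∈ maximalIdeal O := by
    rw [hQ, eval_mul, eval_C, hP, eval_sub, eval_C, hDeval 0, zero_smul, add_zero, map_one]
    have : (1 : O) - u = -(u - 1) := by ring
    rw [this]
    exact Ideal.mul_mem_left _ _ (neg_mem hu)
  have hQ' : IsUnit (Q.derivative.eval 0) := by
    rw [hQ, derivative_C_mul, eval_mul, eval_C, hP, derivative_sub, derivative_C, sub_zero, hD',
      Matrix.derivative_det_one_add_X_smul, htrM]
    exact (Units.isUnit _).mul hT
  obtain ⟨t, ht, ht0⟩ := HenselianLocalRing.is_henselian Q hQmonic 0 hQ0 hQ'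
  rw [sub_zero] at ht0
  refine ⟨t, ht0, ?_⟩
  rw [IsRoot.def, hQ, eval_mul, eval_C, hP, eval_sub, eval_C, hDeval t] at ht
  have := (Units.isUnit v⁻¹).mul_right_eq_zero.mp ht
  exact sub_eq_zero.mp this

omit [HenselianLocalRing O] in
/-- An element of a finite free algebra with unit norm is a unit. -/
theorem isUnit_of_isUnit_norm {x : S} (h : IsUnit (Algebra.norm O x)) : IsUnit x := by
  rw [Algebra.norm_apply] at h
  have h2 : IsUnit (Algebra.lmul O S x) := (LinearMap.isUnit_iff_isUnit_det _).mpr h
  obtain ⟨g, hg⟩ := h2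
  have h3 : x * ((g⁻¹ : (Module.End O S)ˣ) : Module.End O S) 1 = 1 := by
    have : (Algebra.lmul O S x) (((g⁻¹ : (Module.End O S)ˣ) : Module.End O S) 1) = 1 := by
      rw [← hg]
      change ((g : Module.End O S) * ((g⁻¹ : (Module.End O S)ˣ) : Module.End O S)) 1 = 1
      rw [Units.mul_inv]; rfl
    simpa using this
  exact IsUnit.of_mul_eq_one _ h3

/-- If every unit of `O` is, modulo the maximal ideal, the norm of a unit of `S`, then every unit
of `O` is the norm of a unit of `S`. -/
theorem exists_norm_eq_of_residue {c : S} (hN : IsUnit (Algebra.norm O c))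
    (hT : IsUnit (Algebra.trace O S c))
    (hres : ∀ u : O, IsUnit u → ∃ x : S, IsUnit x ∧ Algebra.norm O x - u ∈ maximalIdeal O)
    (u : Oˣ) : ∃ x : Sˣ, Algebra.norm O (x : S) = u := by
  obtain ⟨x₀, hx₀, hx₀u⟩ := hres u u.isUnit
  have hNx₀ : IsUnit (Algebra.norm O x₀) := hx₀.map (Algebra.norm O)
  obtain ⟨w, hw⟩ := hNx₀
  have hu1 : (u : O) * ↑w⁻¹ - 1 ∈ maximalIdeal O := by
    have : (u : O) * ↑w⁻¹ - 1 = -((Algebra.norm O x₀ - u) * ↑w⁻¹) := by
      rw [← hw, sub_mul, Units.mul_inv]; ring
    rw [this]
    exact neg_mem (Ideal.mul_mem_right _ _ hx₀u)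
  obtain ⟨t, -, ht⟩ := exists_norm_one_add_smul_eq hN hT hu1
  have hunit : IsUnit (x₀ * (1 + t • c)) := by
    refine hx₀.mul (isUnit_of_isUnit_norm (O := O) ?_)
    rw [ht]
    exact u.isUnit.mul (Units.isUnit _)
  refine ⟨hunit.unit, ?_⟩
  rw [IsUnit.unit_spec, map_mul, ht, ← hw]
  rw [mul_comm (u : O), ← mul_assoc, Units.mul_inv, one_mul]

end Hensel

section Quotient

variable {R S : Type*} [CommRing R] [CommRing S] [Algebra R S] [IsLocalRing R]
  [Module.Free R S] [Module.Finite R S]

attribute [local instance] Ideal.Quotient.field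

/-- The norm commutes with reduction modulo the maximal ideal (companion of Mathlib's
`Algebra.trace_quotient_mk`). -/
theorem norm_quotient_mk (x : S) :
    Algebra.norm (R ⧸ maximalIdeal R)
        (Ideal.Quotient.mk ((maximalIdeal R).map (algebraMap R S)) x) =
      Ideal.Quotient.mk (maximalIdeal R) (Algebra.norm R x) := by
  classical
  let ι := Module.Free.ChooseBasisIndex R S
  let b : Module.Basis ι R S := Module.Free.chooseBasis R S
  rw [Algebra.norm_eq_matrix_det b, Algebra.norm_eq_matrix_det (basisQuotient b),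
    RingHom.map_det]
  congr 1
  ext i j
  simp only [Algebra.leftMulMatrix_apply, Algebra.coe_lmul_eq_mul, LinearMap.toMatrix_apply,
    basisQuotient_apply, LinearMap.mul_apply', RingHom.mapMatrix_apply, Matrix.map_apply,
    ← map_mul, basisQuotient_repr]

end Quotient

section Unramified

variable {O S : Type*} [CommRing O] [HenselianLocalRing O] [CommRing S] [IsLocalRing S]
  [Algebra O S] [Module.Free O S] [Module.Finite O S]

attribute [local instance] Ideal.Quotient.field

/-- **Units are norms in an unramified extension.** `O` a Henselian local ring with finite residue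
field, `S` a finite free local `O`-algebra with `𝔪_O S = 𝔪_S`.  Then every unit of `O` is the norm
of a unit of `S`. -/
theorem exists_unit_norm_eq [Finite (O ⧸ maximalIdeal O)]
    (hunr : (maximalIdeal O).map (algebraMap O S) = maximalIdeal S) (u : Oˣ) :
    ∃ x : Sˣ, Algebra.norm O (x : S) = u := by
  have hmax : ((maximalIdeal O).map (algebraMap O S)).IsMaximal := by
    rw [hunr]; infer_instance
  have : Module.Finite (O ⧸ maximalIdeal O) (S ⧸ (maximalIdeal O).map (algebraMap O S)) :=
    Module.Finite.of_restrictScalars_finite O _ _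
  have : Finite (S ⧸ (maximalIdeal O).map (algebraMap O S)) :=
    Module.finite_of_finite (O ⧸ maximalIdeal O)
  -- an element with unit trace and unit norm
  obtain ⟨cbar, hcbar⟩ := Algebra.trace_surjective (O ⧸ maximalIdeal O)
    (S ⧸ (maximalIdeal O).map (algebraMap O S)) 1
  obtain ⟨c, rfl⟩ := Ideal.Quotient.mk_surjective cbar
  have hunit_of : ∀ a : O, Ideal.Quotient.mk (maximalIdeal O) a ≠ 0 → IsUnit a := by
    intro a ha
    by_contra hna
    exact ha (Ideal.Quotient.eq_zero_iff_mem.mpr ((mem_maximalIdeal a).mpr hna))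
  have hT : IsUnit (Algebra.trace O S c) := by
    apply hunit_of
    rw [← Algebra.trace_quotient_mk, hcbar]
    exact one_ne_zero
  have hc0 : Ideal.Quotient.mk ((maximalIdeal O).map (algebraMap O S)) c ≠ 0 := by
    intro h0
    rw [h0, map_zero] at hcbar
    exact zero_ne_one hcbar
  have hN : IsUnit (Algebra.norm O c) := by
    apply hunit_of
    rw [← norm_quotient_mk]
    exact (Algebra.norm_ne_zero_iff).mpr hc0
  refine exists_norm_eq_of_residue hN hT ?_ u
  intro a ha
  obtain ⟨xbar, hxbar⟩ := FiniteField.norm_surjective (O ⧸ maximalIdeal O)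
    (S ⧸ (maximalIdeal O).map (algebraMap O S)) (Ideal.Quotient.mk (maximalIdeal O) a)
  obtain ⟨x, rfl⟩ := Ideal.Quotient.mk_surjective xbar
  rw [norm_quotient_mk] at hxbar
  have hxN : IsUnit (Algebra.norm O x) := by
    apply hunit_of
    rw [hxbar]
    intro h0
    exact (mem_maximalIdeal a).mp (Ideal.Quotient.eq_zero_iff_mem.mp h0) ha
  refine ⟨x, isUnit_of_isUnit_norm hxN, ?_⟩
  rw [← Ideal.Quotient.eq_zero_iff_mem, map_sub, hxbar, sub_self]

end Unramified

end Fermat.Agent.CFT
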