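import Mathlib
import Fermat.Agent.CFT.Local.ExtDVROrd
import Fermat.Agent.CFT.Local.UnramBasic
import Fermat.Agent.CFT.Local.UnramifiedUnits
import Fermat.Agent.CFT.Local.UnramInv
import Fermat.Agent.CFT.Local.CyclicH2Vanish

/-!
# CFT, Layer B (B2): the invariant map of an unramified extension of local fields

SETTING: `O` a complete DVR with finite residue field, `K = Frac O` of characteristic zero,
`L/K` finite Galois, **unramified** (`ramIdx O L = 1`), `φ` a generator of `Gal(L/K)`.
Then `unramInv O K L φ : H²(Gal(L/K), Lˣ) →+ ℚ/ℤ` (the class of a cocycle `f` goes to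
`(1/n) Σ_k ord_L f(φ, k)`) is injective with image generated by `1/[L:K]`.
-/

set_option autoImplicit false

open IsLocalRing groupCohomology

namespace Fermat.Agent.CFT

section

variable (O K L : Type) [CommRing O] [IsDomain O] [IsDiscreteValuationRing O] [Field K]
  [Algebra O K] [IsFractionRing O K] [CharZero K] [Field L] [Algebra K L] [FiniteDimensional K L]
  [Algebra O L] [IsScalarTower O K L] [IsAdicComplete (maximalIdeal O) O]

/-- The normalized valuation of `L` as an additive map on `Additive Lˣ`. -/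
noncomputable def unitsOrd : Additive Lˣ →+ ℤ :=
  haveI := intRing_isDiscreteValuationRing O K L
  haveI := intRing_isFractionRing O K L
  MonoidHom.toAdditiveLeft (dvrOrdHom (integralClosure O L) L)

lemma unitsOrd_apply (x : Additive Lˣ) :
    haveI := intRing_isDiscreteValuationRing O K L
    haveI := intRing_isFractionRing O K L
    unitsOrd O K L x = dvrOrd (integralClosure O L) L ((Additive.toMul x : Lˣ) : L) := by
  rfl

/-- The normalized valuation as a `ℤ`-linear form on the representation `Lˣ`. -/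
noncomputable def ordLin : (Rep.ofAlgebraAutOnUnits K L : Rep.{0} ℤ (L ≃ₐ[K] L)) →ₗ[ℤ] ℤ :=
  (unitsOrd O K L).toIntLinearMap

lemma ordLin_apply (x : (Rep.ofAlgebraAutOnUnits K L : Rep.{0} ℤ (L ≃ₐ[K] L))) :
    ordLin O K L x = unitsOrd O K L x := rfl

lemma ordLin_ρ (σ : L ≃ₐ[K] L) (x : (Rep.ofAlgebraAutOnUnits K L : Rep.{0} ℤ (L ≃ₐ[K] L))) :
    ordLin O K L ((Rep.ofAlgebraAutOnUnits K L).ρ σ x) = ordLin O K L x := by
  have := intRing_isDiscreteValuationRing O K L
  have := intRing_isFractionRing O K L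
  rw [ordLin_apply, ordLin_apply, unitsOrd_apply, unitsOrd_apply]
  exact dvrOrd_galois O K L σ _

/-- `L/K` is unramified: `e(L/K) = 1`. -/
def IsUnramifiedExt : Prop :=
  haveI := intRing_isLocalRing O K L
  ramIdx O L = 1

lemma isUnramifiedExt_iff [IsLocalRing (integralClosure O L)] :
    IsUnramifiedExt O K L ↔ ramIdx O L = 1 := Iff.rfl

lemma isUnramifiedExt_iff_isUnramExt : IsUnramifiedExt O K L ↔ IsUnramExt O L := by
  have := intRing_isLocalRing O K L
  exact (isUnramExt_iff_ramIdx O K L).symm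

variable {O K L}

/-- In an unramified extension a uniformizer of `O` gives a Galois-fixed element of valuation `1`. -/
lemma exists_fixed_ordLin_eq_one (hunr : IsUnramifiedExt O K L) :
    ∃ π : (Rep.ofAlgebraAutOnUnits K L : Rep.{0} ℤ (L ≃ₐ[K] L)),
      (∀ σ : L ≃ₐ[K] L, (Rep.ofAlgebraAutOnUnits K L).ρ σ π = π) ∧ ordLin O K L π = 1 := by
  have := intRing_isLocalRing O K L
  have := intRing_isDiscreteValuationRing O K L
  have := intRing_isFractionRing O K L
  obtain ⟨ϖ, hϖ⟩ := IsDiscreteValuationRing.exists_irreducible O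
  have hinj : Function.Injective (algebraMap O L) := by
    rw [IsScalarTower.algebraMap_eq O K L]
    exact (algebraMap K L).injective.comp (IsFractionRing.injective O K)
  have h0 : algebraMap O L ϖ ≠ 0 := fun h => hϖ.ne_zero (hinj (by rw [h, map_zero]))
  refine ⟨Additive.ofMul (Units.mk0 (algebraMap O L ϖ) h0), fun σ => ?_, ?_⟩
  · change Additive.ofMul (σ • (Units.mk0 (algebraMap O L ϖ) h0)) = _
    congr 1
    ext
    change σ (algebraMap O L ϖ) = algebraMap O L ϖ
    rw [IsScalarTower.algebraMap_apply O K L, AlgEquiv.commutes]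
  · rw [ordLin_apply, unitsOrd_apply]
    change dvrOrd (integralClosure O L) L (algebraMap O L ϖ) = 1
    rw [dvrOrd_algebraMap_irreducible O K L hϖ, (isUnramifiedExt_iff O K L).mp hunr]
    rfl

variable [Finite (ResidueField O)] [IsGalois K L]

/-- In an unramified extension, a Galois-invariant element of `Lˣ` of valuation `0` is the norm
of an element of valuation `0`. -/
lemma exists_norm_eq_of_ordLin_eq_zero (hunr : IsUnramifiedExt O K L)
    (w : (Rep.ofAlgebraAutOnUnits K L : Rep.{0} ℤ (L ≃ₐ[K] L)))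
    (hw0 : ordLin O K L w = 0)
    (hw : ∀ σ : L ≃ₐ[K] L, (Rep.ofAlgebraAutOnUnits K L).ρ σ w = w) :
    ∃ y : (Rep.ofAlgebraAutOnUnits K L : Rep.{0} ℤ (L ≃ₐ[K] L)),
      ordLin O K L y = 0 ∧ (Rep.ofAlgebraAutOnUnits K L).norm.hom y = w := by
  have := intRing_isLocalRing O K L
  have := intRing_isDiscreteValuationRing O K L
  have := intRing_isFractionRing O K L
  have := intRing_finite O K L
  have := intRing_free O K L
  have := henselianLocalRing_of_isAdicComplete O
  have : Module.IsTorsionFree O L := intRing_isTorsionFree O K L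
  have : IsLocalization (Algebra.algebraMapSubmonoid (integralClosure O L) (nonZeroDivisors O)) L :=
    IsIntegralClosure.isLocalization O K L (integralClosure O L)
  -- the underlying unit
  set u : Lˣ := Additive.toMul w with hu
  have hfix : ∀ σ : L ≃ₐ[K] L, σ (u : L) = u := by
    intro σ
    have h1 := hw σ
    have h2 : Additive.ofMul (σ • u) = Additive.ofMul u := h1
    have h3 : σ • u = u := Additive.ofMul.injective h2
    exact congrArg Units.val h3
  obtain ⟨a, ha⟩ := (IsGalois.mem_range_algebraMap_iff_fixed (F := K) (E := L) (u : L)).mpr hfix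
  have ha0 : a ≠ 0 := by
    rintro rfl
    rw [map_zero] at ha
    exact u.ne_zero ha.symm
  -- `a` is a unit of `O`
  have hordL : dvrOrd (integralClosure O L) L (u : L) = 0 := by
    have := hw0
    rwa [ordLin_apply, unitsOrd_apply] at this
  have hordK : dvrOrd O K a = 0 := by
    rw [← ha, dvrOrd_algebraMap_eq_ramIdx_mul O K L a, (isUnramifiedExt_iff O K L).mp hunr] at hordL
    simpa using hordL
  obtain ⟨u₀, hu₀⟩ := (dvrOrd_eq_zero_iff O K ha0).mp hordK
  -- norm of a unit upstairs
  have hmap : (maximalIdeal O).map (algebraMap O (integralClosure O L)) =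
      maximalIdeal (integralClosure O L) := by
    rw [map_maximalIdeal_eq_pow_ramIdx O K L, (isUnramifiedExt_iff O K L).mp hunr, pow_one]
  have hfin : Finite (O ⧸ maximalIdeal O) := ‹Finite (ResidueField O)›
  obtain ⟨s, hs⟩ := exists_unit_norm_eq (O := O) (S := integralClosure O L) hmap u₀
  set y : Lˣ := Units.map (algebraMap (integralClosure O L) L : integralClosure O L →* L) s with hy
  have hnorm : Algebra.norm K (y : L) = a := by
    have h1 := Algebra.norm_localization O (nonZeroDivisors O) (Rₘ := K) (Sₘ := L)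
      (s : integralClosure O L)
    rw [hs, hu₀] at h1
    exact h1
  refine ⟨Additive.ofMul y, ?_, ?_⟩
  · rw [ordLin_apply, unitsOrd_apply]
    change dvrOrd (integralClosure O L) L (algebraMap (integralClosure O L) L s) = 0
    exact (isUnit_iff_dvrOrd_eq_zero (integralClosure O L) L s.ne_zero).mp s.isUnit
  · have h2 := groupCohomology.norm_ofAlgebraAutOnUnits_eq (K := K) (L := L) y
    rw [hnorm, ha] at h2
    have h3 : (Additive.toMul ((Rep.ofAlgebraAutOnUnits K L).norm.hom (Additive.ofMul y)) : Lˣ) =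
        u := Units.ext h2
    exact Additive.toMul.injective h3

variable (O K L) in
/-- **The invariant map** of an unramified extension with (Frobenius) generator `φ`. -/
noncomputable def unramInv (φ : L ≃ₐ[K] L) :
    H2 (Rep.ofAlgebraAutOnUnits K L : Rep.{0} ℤ (L ≃ₐ[K] L)) →+ AddCircle (1 : ℚ) :=
  uinv (Rep.ofAlgebraAutOnUnits K L) (ordLin O K L) (ordLin_ρ O K L) φ

/-- 2-cocycles with values in the units of the valuation ring are coboundaries (unramified case). -/
lemma mem_coboundaries₂_of_ordLin_eq_zero (hunr : IsUnramifiedExt O K L) {φ : L ≃ₐ[K] L}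
    (hgen : ∀ g : L ≃ₐ[K] L, ∃ k : ℕ, φ ^ k = g)
    (f : cocycles₂ (Rep.ofAlgebraAutOnUnits K L : Rep.{0} ℤ (L ≃ₐ[K] L)))
    (hf : ∀ p, ordLin O K L (f p) = 0) :
    ⇑f ∈ coboundaries₂ (Rep.ofAlgebraAutOnUnits K L : Rep.{0} ℤ (L ≃ₐ[K] L)) := by
  have hg : ∀ x : L ≃ₐ[K] L, x ∈ Subgroup.zpowers φ := by
    intro x
    obtain ⟨k, rfl⟩ := hgen x
    exact Subgroup.npow_mem_zpowers φ k
  refine mem_coboundaries₂_of_forall_mem_of_norm' (Rep.ofAlgebraAutOnUnits K L) φ hg
    (LinearMap.ker (ordLin O K L)) ?_ ?_ f ?_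
  · intro σ x hx
    have hx' : ordLin O K L x = 0 := hx
    exact (ordLin_ρ O K L σ x).trans hx'
  · intro w hw hinv
    obtain ⟨y, hy0, hy⟩ := exists_norm_eq_of_ordLin_eq_zero hunr w hw hinv
    exact ⟨y, hy0, hy⟩
  · intro p
    exact hf p

theorem unramInv_injective (hunr : IsUnramifiedExt O K L) {φ : L ≃ₐ[K] L}
    (hgen : ∀ g : L ≃ₐ[K] L, ∃ k : ℕ, φ ^ k = g) :
    Function.Injective (unramInv O K L φ) := by
  obtain ⟨π, _, hπ1⟩ := exists_fixed_ordLin_eq_one hunr
  exact uinv_injective (ordLin_ρ O K L) hgen hπ1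
    (fun f hf => mem_coboundaries₂_of_ordLin_eq_zero hunr hgen f hf)

omit [Finite (ResidueField O)] [CharZero K] in
lemma orderOf_eq_finrank {φ : L ≃ₐ[K] L} (hgen : ∀ g : L ≃ₐ[K] L, ∃ k : ℕ, φ ^ k = g) :
    orderOf φ = Module.finrank K L := by
  rw [← IsGalois.card_aut_eq_finrank K L]
  refine orderOf_eq_card_of_forall_mem_zpowers ?_
  intro x
  obtain ⟨k, rfl⟩ := hgen x
  exact Subgroup.npow_mem_zpowers φ k

omit [Finite (ResidueField O)] in
theorem exists_unramInv_eq (hunr : IsUnramifiedExt O K L) {φ : L ≃ₐ[K] L}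
    (hgen : ∀ g : L ≃ₐ[K] L, ∃ k : ℕ, φ ^ k = g) :
    ∃ x, unramInv O K L φ x = (((1 : ℚ) / (Module.finrank K L : ℚ) : ℚ) : AddCircle (1 : ℚ)) := by
  obtain ⟨π, hπ, hπ1⟩ := exists_fixed_ordLin_eq_one hunr
  obtain ⟨x, hx⟩ := exists_uinv_eq (ordLin_ρ O K L) hgen hπ hπ1
  refine ⟨x, ?_⟩
  rw [← orderOf_eq_finrank hgen]
  exact hx

omit [Finite (ResidueField O)] in
theorem finrank_nsmul_unramInv {φ : L ≃ₐ[K] L}
    (hgen : ∀ g : L ≃ₐ[K] L, ∃ k : ℕ, φ ^ k = g) (x) :
    Module.finrank K L • unramInv O K L φ x = 0 := by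
  rw [← orderOf_eq_finrank hgen]
  exact orderOf_nsmul_uinv (ordLin_ρ O K L) φ x

end

end Fermat.Agent.CFT
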