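import Fermat.Agent.CFT.Local.ExtDVRNorm
import Fermat.Agent.CFT.Local.UnramLocal

/-!
# CFT / Local (N3): norms and valuations; the norm group of an unramified extension

Setting B (`O` complete DVR, `K = Frac O` of characteristic zero, `L/K` finite).

* `inertDeg_dvd_dvrOrd_norm`: `f(L/K) ∣ ord_K (N_{L/K} y)`.
* `inertDeg_eq_finrank_of_isUnramifiedExt`: `e = 1 ⇒ f = [L : K]`.
* `exists_unit_norm_eq_of_isUnramifiedExt`: in an unramified extension every unit of `O` is the
  norm of a unit of `O_L` (no Galois hypothesis).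
* `exists_norm_eq_iff_finrank_dvd_dvrOrd`: for `L/K` unramified and `x ≠ 0` in `K`:
  `x ∈ N(L) ↔ [L : K] ∣ ord_K x`.
* `mem_range_unitsMap_norm_iff`: the same for the subgroup `N(Lˣ) ≤ Kˣ`.
-/

set_option autoImplicit false
set_option linter.unusedSectionVars false

open IsLocalRing

namespace Fermat.Agent.CFT

section

variable (O K L : Type) [CommRing O] [IsDomain O] [IsDiscreteValuationRing O] [Field K]
  [Algebra O K] [IsFractionRing O K] [CharZero K] [Field L] [Algebra K L] [FiniteDimensional K L]
  [Algebra O L] [IsScalarTower O K L] [IsAdicComplete (maximalIdeal O) O]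

/-- `f(L/K)` divides the valuation of every norm. -/
theorem inertDeg_dvd_dvrOrd_norm [IsDiscreteValuationRing (integralClosure O L)]
    [IsFractionRing (integralClosure O L) L] (y : L) :
    ((inertDeg O L : ℕ) : ℤ) ∣ dvrOrd O K (Algebra.norm K y) :=
  ⟨_, dvrOrd_norm O K L y⟩

/-- In an unramified extension `f = [L : K]`. -/
theorem inertDeg_eq_finrank_of_isUnramifiedExt [IsLocalRing (integralClosure O L)]
    (hunr : IsUnramifiedExt O K L) : inertDeg O L = Module.finrank K L := by
  have h := ramIdx_mul_inertDeg O K L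
  rwa [(isUnramifiedExt_iff O K L).mp hunr, one_mul] at h

/-- In an unramified extension `[L : K]` divides the valuation of every norm. -/
theorem finrank_dvd_dvrOrd_norm (hunr : IsUnramifiedExt O K L) (y : L) :
    ((Module.finrank K L : ℕ) : ℤ) ∣ dvrOrd O K (Algebra.norm K y) := by
  have := intRing_isLocalRing O K L
  have := intRing_isDiscreteValuationRing O K L
  have := intRing_isFractionRing O K L
  rw [← inertDeg_eq_finrank_of_isUnramifiedExt O K L hunr]
  exact inertDeg_dvd_dvrOrd_norm O K L y

/-- In an unramified extension (finite residue field) every unit of `O` is the norm of a unit of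
the ring of integers of `L`. -/
theorem exists_unit_norm_eq_of_isUnramifiedExt [Finite (ResidueField O)]
    (hunr : IsUnramifiedExt O K L) (u : Oˣ) :
    ∃ s : (integralClosure O L)ˣ,
      Algebra.norm K ((s : integralClosure O L) : L) = algebraMap O K (u : O) := by
  have := intRing_isLocalRing O K L
  have := intRing_finite O K L
  have := intRing_free O K L
  have := henselianLocalRing_of_isAdicComplete O
  have : Module.IsTorsionFree O L := intRing_isTorsionFree O K L
  have : IsLocalization (Algebra.algebraMapSubmonoid (integralClosure O L) (nonZeroDivisors O)) L :=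
    IsIntegralClosure.isLocalization O K L (integralClosure O L)
  have hmap : (maximalIdeal O).map (algebraMap O (integralClosure O L)) =
      maximalIdeal (integralClosure O L) := by
    rw [map_maximalIdeal_eq_pow_ramIdx O K L, (isUnramifiedExt_iff O K L).mp hunr, pow_one]
  have hfin : Finite (O ⧸ maximalIdeal O) := ‹Finite (ResidueField O)›
  obtain ⟨s, hs⟩ := exists_unit_norm_eq (O := O) (S := integralClosure O L) hmap u
  refine ⟨s, ?_⟩
  have h1 := Algebra.norm_localization O (nonZeroDivisors O) (Rₘ := K) (Sₘ := L)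
    (s : integralClosure O L)
  rw [hs] at h1
  exact h1

/-- **Norm group of an unramified extension**: a nonzero `x : K` is a norm from `L` iff
`[L : K] ∣ ord_K x`. -/
theorem exists_norm_eq_iff_finrank_dvd_dvrOrd [Finite (ResidueField O)]
    (hunr : IsUnramifiedExt O K L) {x : K} (hx : x ≠ 0) :
    (∃ y : L, Algebra.norm K y = x) ↔ ((Module.finrank K L : ℕ) : ℤ) ∣ dvrOrd O K x := by
  constructor
  · rintro ⟨y, rfl⟩
    exact finrank_dvd_dvrOrd_norm O K L hunr y
  · rintro ⟨k, hk⟩
    obtain ⟨ϖ, hϖ⟩ := IsDiscreteValuationRing.exists_irreducible O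
    obtain ⟨u, hu⟩ := exists_unit_mul_zpow_dvrOrd O K hϖ hx
    obtain ⟨s, hs⟩ := exists_unit_norm_eq_of_isUnramifiedExt O K L hunr u
    refine ⟨((s : integralClosure O L) : L) * algebraMap K L ((algebraMap O K ϖ) ^ k), ?_⟩
    rw [map_mul, hs, Algebra.norm_algebraMap, ← zpow_natCast, ← zpow_mul, mul_comm k, ← hk]
    exact hu.symm

/-- The same as a statement about the subgroup `N(Lˣ)` of `Kˣ`. -/
theorem mem_range_unitsMap_norm_iff [Finite (ResidueField O)]
    (hunr : IsUnramifiedExt O K L) (x : Kˣ) :
    x ∈ (Units.map (Algebra.norm K : L →* K)).range ↔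
      ((Module.finrank K L : ℕ) : ℤ) ∣ dvrOrd O K (x : K) := by
  rw [← exists_norm_eq_iff_finrank_dvd_dvrOrd O K L hunr x.ne_zero, MonoidHom.mem_range]
  constructor
  · rintro ⟨y, hy⟩
    exact ⟨(y : L), by rw [← hy]; rfl⟩
  · rintro ⟨y, hy⟩
    have hy0 : y ≠ 0 := by
      rintro rfl
      rw [Algebra.norm_zero] at hy
      exact x.ne_zero hy.symm
    exact ⟨Units.mk0 y hy0, Units.ext hy⟩

end

end Fermat.Agent.CFT
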