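import Mathlib
import Fermat.Agent.CFT.Local.UnramBasic

/-!
# CFT, local layer (B1b): the residue action of the Galois group, inertia, Frobenius

Setting B of `ExtDVR.lean` with finite residue field `k` of cardinality `q`; `L/K` finite,
`B = integralClosure O L`, `l` its residue field (`IsLocalRing B` and `IsLocalHom (O → B)` are
instance arguments, to be provided by `intRing_isLocalRing`, `intRing_isLocalHom`).

* `resGal O K L : Gal(L/K) →* Gal(l/k)`, `resGal_residue`, `resGal_surjective` (for `L/K` Galois).
* `inertiaGal O K L` (the kernel), `mem_inertiaGal_iff`, `card_inertiaGal : |I| = e`.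
* For `L/K` unramified Galois: `resGal_bijective`, `resGalEquiv`, `isCyclic_gal_of_isUnramExt`.
* `IsFrob O K L φ` : `φ x ≡ x ^ q mod 𝔪_B`; `exists_isFrob`, `IsFrob.unique`, `frob O K L`,
  `orderOf_frob`, `exists_frob_pow_eq`, `zpowers_frob`.
-/

set_option autoImplicit false
set_option linter.unusedSectionVars false
set_option linter.style.haveILetI false

namespace Fermat.Agent.CFT

open IsLocalRing Polynomial

section Setting

variable (O K : Type) [CommRing O] [IsDomain O] [IsDiscreteValuationRing O]
  [IsAdicComplete (maximalIdeal O) O] [Finite (ResidueField O)]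
  [Field K] [Algebra O K] [IsFractionRing O K] [CharZero K]
  (L : Type) [Field L] [Algebra K L] [FiniteDimensional K L] [Algebra O L] [IsScalarTower O K L]
  [IsLocalRing (integralClosure O L)] [IsLocalHom (algebraMap O (integralClosure O L))]

/-- The action of the Galois group on the residue field of the ring of integers. -/
noncomputable def resGal : (L ≃ₐ[K] L) →*
    (ResidueField (integralClosure O L) ≃ₐ[ResidueField O] ResidueField (integralClosure O L)) where
  toFun σ := ResidueField.mapAlgEquiv' (galRestrict O K L (integralClosure O L) σ)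
  map_one' := by
    ext x
    obtain ⟨x, rfl⟩ := residue_surjective x
    simp
  map_mul' σ τ := by
    ext x
    obtain ⟨x, rfl⟩ := residue_surjective x
    simp [AlgEquiv.mul_apply]

@[simp]
theorem resGal_residue (σ : L ≃ₐ[K] L) (x : integralClosure O L) :
    resGal O K L σ (residue _ x) = residue _ (galRestrict O K L (integralClosure O L) σ x) :=
  rfl

/-- `Gal(L/K) → Gal(l/k)` is surjective. -/
theorem resGal_surjective [IsGalois K L] : Function.Surjective (resGal O K L) := by
  haveI := intRing_isFractionRing O K L
  letI := IsIntegralClosure.MulSemiringAction O K L (integralClosure O L)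
  haveI : SMulCommClass (L ≃ₐ[K] L) O (integralClosure O L) := ⟨fun σ a x => by
    change galRestrict O K L (integralClosure O L) σ (a • x) =
      a • galRestrict O K L (integralClosure O L) σ x
    exact map_smul _ a x⟩
  haveI := Algebra.isInvariant_of_isGalois O K L (integralClosure O L)
  intro τ
  obtain ⟨σ, hσ⟩ := Ideal.Quotient.stabilizerHom_surjective (L ≃ₐ[K] L) (maximalIdeal O)
    (maximalIdeal (integralClosure O L)) τ
  refine ⟨σ.1, ?_⟩
  ext x
  obtain ⟨x, rfl⟩ := residue_surjective x
  rw [← hσ]
  rfl

/-- The inertia subgroup of `Gal(L/K)`. -/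
noncomputable def inertiaGal : Subgroup (L ≃ₐ[K] L) := (resGal O K L).ker

theorem mem_inertiaGal_iff (σ : L ≃ₐ[K] L) :
    σ ∈ inertiaGal O K L ↔ ∀ x : integralClosure O L,
      galRestrict O K L (integralClosure O L) σ x - x ∈ maximalIdeal (integralClosure O L) := by
  rw [inertiaGal, MonoidHom.mem_ker]
  constructor
  · intro h x
    have := congrArg (fun f => f (residue _ x)) h
    simp only [resGal_residue, AlgEquiv.one_apply] at this
    rw [← residue_eq_zero_iff, map_sub, this, sub_self]
  · intro h
    ext x
    obtain ⟨x, rfl⟩ := residue_surjective x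
    rw [resGal_residue, AlgEquiv.one_apply, ← sub_eq_zero, ← map_sub, residue_eq_zero_iff]
    exact h x

include K in
/-- `|Gal(l/k)| = f`. -/
theorem card_gal_residueField :
    Nat.card (ResidueField (integralClosure O L) ≃ₐ[ResidueField O]
      ResidueField (integralClosure O L)) = inertDeg O L := by
  haveI := intRing_finite O K L
  haveI := intRing_finite_residueField O K L
  rw [inertDeg_eq_finrank O K L]
  exact IsGalois.card_aut_eq_finrank _ _

/-- `|I| = e`. -/
theorem card_inertiaGal [IsGalois K L] : Nat.card (inertiaGal O K L) = ramIdx O L := by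
  have h1 := (inertiaGal O K L).card_mul_index
  have h2 : (inertiaGal O K L).index = inertDeg O L := by
    rw [inertiaGal, Subgroup.index_ker, MonoidHom.range_eq_top.mpr (resGal_surjective O K L),
      Subgroup.card_top, card_gal_residueField O K L]
  rw [h2, IsGalois.card_aut_eq_finrank, ← ramIdx_mul_inertDeg O K L] at h1
  exact Nat.eq_of_mul_eq_mul_right (inertDeg_pos O K L) h1

/-- For an unramified Galois extension, `Gal(L/K) → Gal(l/k)` is bijective. -/
theorem resGal_bijective [IsGalois K L] (h : IsUnramExt O L) :
    Function.Bijective (resGal O K L) := by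
  refine ⟨?_, resGal_surjective O K L⟩
  rw [← MonoidHom.ker_eq_bot_iff]
  apply Subgroup.eq_bot_of_card_eq
  exact (card_inertiaGal O K L).trans ((isUnramExt_iff_ramIdx O K L).mp h)

/-- For an unramified Galois extension, `Gal(L/K) ≃ Gal(l/k)`. -/
noncomputable def resGalEquiv [IsGalois K L] (h : IsUnramExt O L) : (L ≃ₐ[K] L) ≃*
    (ResidueField (integralClosure O L) ≃ₐ[ResidueField O] ResidueField (integralClosure O L)) :=
  MulEquiv.ofBijective (resGal O K L) (resGal_bijective O K L h)

@[simp]
theorem resGalEquiv_apply [IsGalois K L] (h : IsUnramExt O L) (σ : L ≃ₐ[K] L) :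
    resGalEquiv O K L h σ = resGal O K L σ := rfl

include O in
/-- The Galois group of an unramified Galois extension is cyclic. -/
theorem isCyclic_gal_of_isUnramExt [IsGalois K L] (h : IsUnramExt O L) :
    IsCyclic (L ≃ₐ[K] L) := by
  haveI := intRing_finite O K L
  haveI := intRing_finite_residueField O K L
  exact isCyclic_of_surjective (resGalEquiv O K L h).symm (resGalEquiv O K L h).symm.surjective

/-- `φ` is a Frobenius element: `φ x ≡ x ^ q` modulo the maximal ideal of `O_L`. -/
def IsFrob (φ : L ≃ₐ[K] L) : Prop :=
  ∀ x : integralClosure O L, galRestrict O K L (integralClosure O L) φ x -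
    x ^ Nat.card (ResidueField O) ∈ maximalIdeal (integralClosure O L)

theorem isFrob_iff (φ : L ≃ₐ[K] L) :
    IsFrob O K L φ ↔ ∀ y : ResidueField (integralClosure O L),
      resGal O K L φ y = y ^ Nat.card (ResidueField O) := by
  constructor
  · intro h y
    obtain ⟨x, rfl⟩ := residue_surjective y
    rw [resGal_residue, ← sub_eq_zero, ← map_pow, ← map_sub, residue_eq_zero_iff]
    exact h x
  · intro h x
    rw [← residue_eq_zero_iff, map_sub, map_pow, ← resGal_residue, h, sub_self]

/-- Frobenius elements exist. -/
theorem exists_isFrob [IsGalois K L] : ∃ φ : L ≃ₐ[K] L, IsFrob O K L φ := by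
  haveI := intRing_finite O K L
  haveI := intRing_finite_residueField O K L
  letI := Fintype.ofFinite (ResidueField O)
  obtain ⟨φ, hφ⟩ := resGal_surjective O K L (FiniteField.frobeniusAlgEquivOfAlgebraic
    (ResidueField O) (ResidueField (integralClosure O L)))
  refine ⟨φ, (isFrob_iff O K L φ).mpr fun y => ?_⟩
  rw [hφ, FiniteField.coe_frobeniusAlgEquivOfAlgebraic, Nat.card_eq_fintype_card]

variable {O K L} in
/-- In an unramified extension the Frobenius element is unique. -/
theorem IsFrob.unique [IsGalois K L] (h : IsUnramExt O L) {φ ψ : L ≃ₐ[K] L}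
    (hφ : IsFrob O K L φ) (hψ : IsFrob O K L ψ) : φ = ψ := by
  apply (resGal_bijective O K L h).1
  ext y
  rw [(isFrob_iff O K L φ).mp hφ, (isFrob_iff O K L ψ).mp hψ]

/-- A chosen Frobenius element of `Gal(L/K)` (unique when `L/K` is unramified). -/
noncomputable def frob [IsGalois K L] : L ≃ₐ[K] L := (exists_isFrob O K L).choose

theorem isFrob_frob [IsGalois K L] : IsFrob O K L (frob O K L) := (exists_isFrob O K L).choose_spec

theorem resGal_frob [IsGalois K L] :
    letI := Fintype.ofFinite (ResidueField O)
    haveI := intRing_finite O K L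
    haveI := intRing_finite_residueField O K L
    resGal O K L (frob O K L) = FiniteField.frobeniusAlgEquivOfAlgebraic
      (ResidueField O) (ResidueField (integralClosure O L)) := by
  letI := Fintype.ofFinite (ResidueField O)
  haveI := intRing_finite O K L
  haveI := intRing_finite_residueField O K L
  ext y
  rw [(isFrob_iff O K L _).mp (isFrob_frob O K L), FiniteField.coe_frobeniusAlgEquivOfAlgebraic,
    Nat.card_eq_fintype_card]

/-- In an unramified Galois extension, the Frobenius has order `[L:K]`. -/
theorem orderOf_frob [IsGalois K L] (h : IsUnramExt O L) :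
    orderOf (frob O K L) = Module.finrank K L := by
  letI := Fintype.ofFinite (ResidueField O)
  haveI := intRing_finite O K L
  haveI := intRing_finite_residueField O K L
  rw [← orderOf_injective (resGal O K L) (resGal_bijective O K L h).1, resGal_frob,
    FiniteField.orderOf_frobeniusAlgEquivOfAlgebraic, ← inertDeg_eq_finrank O K L]
  exact (isUnramExt_iff_inertDeg O K L).mp h

/-- In an unramified Galois extension, every element of the Galois group is a power of the
Frobenius, with a unique exponent `< [L:K]`. -/
theorem exists_frob_pow_eq [IsGalois K L] (h : IsUnramExt O L) (σ : L ≃ₐ[K] L) :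
    ∃ i < Module.finrank K L, frob O K L ^ i = σ := by
  have hfin : Nat.card (L ≃ₐ[K] L) = Module.finrank K L := IsGalois.card_aut_eq_finrank K L
  have hz : Subgroup.zpowers (frob O K L) = ⊤ := by
    apply Subgroup.eq_top_of_card_eq
    rw [Nat.card_zpowers, orderOf_frob O K L h, hfin]
  have hσ : σ ∈ Subgroup.zpowers (frob O K L) := hz ▸ Subgroup.mem_top σ
  have hfinord : IsOfFinOrder (frob O K L) := isOfFinOrder_of_finite _
  rw [← hfinord.mem_powers_iff_mem_zpowers, Submonoid.mem_powers_iff] at hσ
  obtain ⟨i, rfl⟩ := hσ
  refine ⟨i % orderOf (frob O K L), ?_, pow_mod_orderOf _ _⟩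
  rw [← orderOf_frob O K L h]
  exact Nat.mod_lt _ (orderOf_pos _)

theorem zpowers_frob [IsGalois K L] (h : IsUnramExt O L) :
    Subgroup.zpowers (frob O K L) = ⊤ := by
  rw [eq_top_iff]
  intro σ _
  obtain ⟨i, -, rfl⟩ := exists_frob_pow_eq O K L h σ
  exact Subgroup.npow_mem_zpowers _ _

end Setting

end Fermat.Agent.CFT
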