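import Fermat.Agent.CFT.Local.KummerChar

/-!
# CFT, node C5t (part B): the tame symbol from formal properties of local symbols

`F` a field containing a primitive `n`-th root of unity `ζ`.

* `SymbolSystem F n A` : the formal properties of the local symbols `(a, χ)_F ∈ A` of node C5s
  (`χ` a character of `Gal(L/F)`, `L/F` finite Galois, with values in `ℤ/n`) that are used here:
  additivity in `a` and in `χ`, invariance under inflation, vanishing on norms for faithful
  characters of degree-`n` extensions.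
* `kummerSym S hζ a b = (a, χ_b)` : the symbol of `a` against the Kummer character of `b`
  (`L = ` splitting field of `X ^ n - b`).  It is bimultiplicative (`kummerSym_mul_left`,
  `kummerSym_mul_right`), and `(-c, χ_c) = 0` when `X ^ n - c` is irreducible
  (`kummerSym_neg_self_of_irreducible`).
* `kummerSym_unit_uniformizer` : **the tame formula**, purely formal part: if `X ^ n - π` and
  `X ^ n - u π` are irreducible then `(u, χ_π) = - (-(u π), χ_u)`; the right hand side is computed
  by the unramified formula (C5s (S3)) since `F(u^{1/n})/F` is unramified for a unit `u`.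
-/

set_option autoImplicit false

namespace Fermat.Agent.CFT.TameSym

open Polynomial

/-- The formal properties of the local symbols used for the tame formula. -/
structure SymbolSystem (F : Type) [Field F] (n : ℕ) (A : Type) [AddCommGroup A] where
  /-- the symbol `(a, χ)` for a character `χ` of `Gal(L/F)` -/
  sym : ∀ (L : Type) [Field L] [Algebra F L] [FiniteDimensional F L] [IsGalois F L],
    ((L ≃ₐ[F] L) →* Multiplicative (ZMod n)) → Fˣ → A
  sym_mul : ∀ (L : Type) [Field L] [Algebra F L] [FiniteDimensional F L] [IsGalois F L]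
    (χ : (L ≃ₐ[F] L) →* Multiplicative (ZMod n)) (a a' : Fˣ),
    sym L χ (a * a') = sym L χ a + sym L χ a'
  sym_char_mul : ∀ (L : Type) [Field L] [Algebra F L] [FiniteDimensional F L] [IsGalois F L]
    (χ χ' : (L ≃ₐ[F] L) →* Multiplicative (ZMod n)) (a : Fˣ),
    sym L (χ * χ') a = sym L χ a + sym L χ' a
  sym_inflation : ∀ (L L' : Type) [Field L] [Algebra F L] [FiniteDimensional F L] [IsGalois F L]
    [Field L'] [Algebra F L'] [FiniteDimensional F L'] [IsGalois F L'] [Algebra L L']
    [IsScalarTower F L L'] (χ : (L ≃ₐ[F] L) →* Multiplicative (ZMod n)) (a : Fˣ),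
    sym L' (χ.comp (AlgEquiv.restrictNormalHom L)) a = sym L χ a
  sym_norm : ∀ (L : Type) [Field L] [Algebra F L] [FiniteDimensional F L] [IsGalois F L]
    (χ : (L ≃ₐ[F] L) →* Multiplicative (ZMod n)), Function.Injective χ →
    Module.finrank F L = n → ∀ (a : Fˣ) (y : L), Algebra.norm F y = (a : F) → sym L χ a = 0

variable {F : Type} [Field F] {n : ℕ} [NeZero n] {ζ : F} {A : Type} [AddCommGroup A]

section KummerField

/-- The polynomial `X ^ n - b`. -/
noncomputable abbrev kpoly (n : ℕ) (b : F) : F[X] := X ^ n - C b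

theorem kpoly_ne_zero (b : F) : kpoly n b ≠ 0 :=
  (monic_X_pow_sub_C b (NeZero.ne n)).ne_zero

theorem kpoly_degree_ne_zero (b : F) : (kpoly n b).degree ≠ 0 := by
  rw [degree_X_pow_sub_C (Nat.pos_of_ne_zero (NeZero.ne n))]
  exact_mod_cast NeZero.ne n

theorem kpoly_separable (hζ : IsPrimitiveRoot ζ n) {b : F} (hb : b ≠ 0) :
    (kpoly n b).Separable := by
  have : NeZero ((n : ℕ) : F) := hζ.neZero'
  exact separable_X_pow_sub_C b (NeZero.ne _) hb

/-- The Kummer field `F(b^{1/n})` (splitting field of `X ^ n - b`). -/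
abbrev KField (n : ℕ) (b : F) : Type := (kpoly n b).SplittingField

theorem kfield_isGalois (hζ : IsPrimitiveRoot ζ n) {b : F} (hb : b ≠ 0) :
    IsGalois F (KField n b) :=
  IsGalois.of_separable_splitting_field (kpoly_separable hζ hb)

/-- A chosen `n`-th root of `b` in the Kummer field. -/
noncomputable def kroot (n : ℕ) [NeZero n] (b : F) : KField n b :=
  rootOfSplitsXPowSubC (NeZero.pos n) b (KField n b)

theorem kroot_pow (b : F) : kroot n b ^ n = algebraMap F (KField n b) b :=
  rootOfSplitsXPowSubC_pow b (KField n b)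

theorem kroot_ne_zero {b : F} (hb : b ≠ 0) : kroot n b ≠ 0 := by
  intro h
  have := kroot_pow (n := n) b
  rw [h, zero_pow (NeZero.ne n)] at this
  exact hb ((map_eq_zero _).mp this.symm)

theorem kroot_pow_mem (b : F) : kroot n b ^ n ∈ (algebraMap F (KField n b)).range :=
  ⟨b, (kroot_pow b).symm⟩

end KummerField

section Sym

variable (S : SymbolSystem F n A) (hζ : IsPrimitiveRoot ζ n)

/-- The symbol `(a, χ_b)` of `a` against the Kummer character of `b`. -/
noncomputable def kummerSym (a b : Fˣ) : A :=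
  haveI := kfield_isGalois hζ b.ne_zero
  S.sym (KField n (b : F)) (kummerChar hζ (kroot_ne_zero b.ne_zero) (kroot_pow_mem (b : F))) a

theorem kummerSym_mul_left (a a' b : Fˣ) :
    kummerSym S hζ (a * a') b = kummerSym S hζ a b + kummerSym S hζ a' b := by
  have := kfield_isGalois hζ b.ne_zero
  exact S.sym_mul _ _ a a'

/-- The symbol `(a, χ_b)` can be computed in any finite Galois extension containing an `n`-th root
of `b`. -/
theorem kummerSym_eq (a b : Fˣ) (M : Type) [Field M] [Algebra F M] [FiniteDimensional F M]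
    [IsGalois F M] {β : M} (hβ : β ^ n = algebraMap F M (b : F)) (hβ0 : β ≠ 0)
    (hmem : β ^ n ∈ (algebraMap F M).range) :
    kummerSym S hζ a b = S.sym M (kummerChar hζ hβ0 hmem) a := by
  have := kfield_isGalois hζ b.ne_zero
  -- embed the Kummer field into `M`
  have hsplit : ((kpoly n (b : F)).map (algebraMap F M)).Splits := by
    have hζM : IsPrimitiveRoot (algebraMap F M ζ) n :=
      hζ.map_of_injective (algebraMap F M).injective
    have := X_pow_sub_C_splits_of_isPrimitiveRoot hζM hβ
    simpa [kpoly, Polynomial.map_sub, Polynomial.map_pow] using this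
  let j : KField n (b : F) →ₐ[F] M := IsSplittingField.lift (KField n (b : F)) (kpoly n (b : F)) hsplit
  let _ : Algebra (KField n (b : F)) M := j.toRingHom.toAlgebra
  have : IsScalarTower F (KField n (b : F)) M := IsScalarTower.of_algebraMap_eq fun x => (j.commutes x).symm
  set β₀ := kroot n (b : F) with hβ₀
  have hβ₀0 : β₀ ≠ 0 := kroot_ne_zero b.ne_zero
  have hβ₀mem : β₀ ^ n ∈ (algebraMap F (KField n (b : F))).range := kroot_pow_mem (b : F)
  -- the image of the chosen root differs from `β` by an `n`-th root of unity in `F`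
  have hjβ : (algebraMap (KField n (b : F)) M β₀) ^ n = algebraMap F M (b : F) := by
    rw [← map_pow, kroot_pow, ← IsScalarTower.algebraMap_apply]
  have hj0 : algebraMap (KField n (b : F)) M β₀ ≠ 0 := by
    rwa [Ne, map_eq_zero]
  have hjmem : (algebraMap (KField n (b : F)) M β₀) ^ n ∈ (algebraMap F M).range := ⟨b, hjβ.symm⟩
  obtain ⟨c, hc0, hc⟩ : ∃ c : F, c ≠ 0 ∧ β = algebraMap F M c * algebraMap (KField n (b : F)) M β₀ := by
    have hζM : IsPrimitiveRoot (algebraMap F M ζ) n :=
      hζ.map_of_injective (algebraMap F M).injective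
    have hx : (β / algebraMap (KField n (b : F)) M β₀) ^ n = 1 := by
      rw [div_pow, hβ, hjβ, div_self]
      rw [Ne, map_eq_zero]; exact b.ne_zero
    obtain ⟨i, -, hi⟩ := hζM.eq_pow_of_pow_eq_one hx
    refine ⟨ζ ^ i, pow_ne_zero _ (hζ.ne_zero (NeZero.ne n)), ?_⟩
    rw [map_pow, hi, div_mul_cancel₀ _ hj0]
  have hcM0 : algebraMap F M c ≠ 0 := by rwa [Ne, map_eq_zero]
  have hcmem : (algebraMap F M c) ^ n ∈ (algebraMap F M).range := ⟨c ^ n, by rw [map_pow]⟩
  have hchar : kummerChar hζ hβ0 hmem =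
      (kummerChar hζ hβ₀0 hβ₀mem).comp (AlgEquiv.restrictNormalHom (KField n (b : F))) := by
    have h1 : kummerChar hζ hβ0 hmem = kummerChar hζ hcM0 hcmem * kummerChar hζ hj0 hjmem := by
      have hmul0 : algebraMap F M c * algebraMap (KField n (b : F)) M β₀ ≠ 0 := mul_ne_zero hcM0 hj0
      have hmulmem : (algebraMap F M c * algebraMap (KField n (b : F)) M β₀) ^ n ∈
          (algebraMap F M).range := by rw [mul_pow]; exact mul_mem hcmem hjmem
      have := kummerChar_mul_root hζ hcM0 hj0 hcmem hjmem hmul0 hmulmem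
      rw [← this]
      congr 1
    rw [h1, kummerChar_algebraMap hζ hcM0 hcmem, one_mul]
    refine MonoidHom.ext fun σ => ?_
    exact kummerChar_restrict hζ hβ₀0 hβ₀mem hj0 hjmem σ
  rw [hchar, S.sym_inflation (KField n (b : F)) M]
  rfl

end Sym

section Bimul

variable (S : SymbolSystem F n A) (hζ : IsPrimitiveRoot ζ n)

/-- `(-c, χ_c) = 0` if `X ^ n - c` is irreducible: `-c = N(-c^{1/n})`. -/
theorem kummerSym_neg_self_of_irreducible (c : Fˣ) (hirr : Irreducible (kpoly n (c : F))) :
    kummerSym S hζ (-c) c = 0 := by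
  have hgal := kfield_isGalois hζ c.ne_zero
  have hn : 0 < n := NeZero.pos n
  have hprim : (primitiveRoots n F).Nonempty := ⟨ζ, (mem_primitiveRoots hn).mpr hζ⟩
  have htop : IntermediateField.adjoin F {kroot n (c : F)} = ⊤ :=
    IntermediateField.adjoin_root_eq_top_of_isSplittingField hprim hirr (kroot_pow (c : F))
  have hinj := kummerChar_injective hζ (kroot_ne_zero c.ne_zero) (kroot_pow_mem (c : F)) htop
  have hfr := finrank_eq_of_irreducible hirr (kroot_pow (c : F)) htop
  have hnorm := norm_neg_root hirr (kroot_pow (c : F)) htop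
  exact S.sym_norm (KField n (c : F)) _ hinj hfr (-c) (-(kroot n (c : F))) (by rw [hnorm]; simp)

variable [CharZero F]

/-- `(a, χ_{b b'}) = (a, χ_b) + (a, χ_{b'})`. -/
theorem kummerSym_mul_right (a b b' : Fˣ) :
    kummerSym S hζ a (b * b') = kummerSym S hζ a b + kummerSym S hζ a b' := by
  -- a finite Galois extension containing `n`-th roots of `b` and `b'`
  let M : Type := (kpoly n (b : F) * kpoly n (b' : F)).SplittingField
  have hnormal : Normal F M := Normal.of_isSplittingField (kpoly n (b : F) * kpoly n (b' : F))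
  have hgal : IsGalois F M := ⟨⟩
  have hsplit : ((kpoly n (b : F)).map (algebraMap F M) *
      (kpoly n (b' : F)).map (algebraMap F M)).Splits := by
    have := SplittingField.splits (kpoly n (b : F) * kpoly n (b' : F))
    rwa [Polynomial.map_mul] at this
  have h10 : (kpoly n (b : F)).map (algebraMap F M) ≠ 0 := by
    rw [Ne, Polynomial.map_eq_zero]; exact kpoly_ne_zero _
  have h20 : (kpoly n (b' : F)).map (algebraMap F M) ≠ 0 := by
    rw [Ne, Polynomial.map_eq_zero]; exact kpoly_ne_zero _
  have hs1 : ((kpoly n (b : F)).map (algebraMap F M)).Splits :=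
    ((splits_mul h10 h20).mp hsplit).1
  have hs2 : ((kpoly n (b' : F)).map (algebraMap F M)).Splits :=
    ((splits_mul h10 h20).mp hsplit).2
  have hdeg : ∀ c : F, ((kpoly n c).map (algebraMap F M)).degree ≠ 0 := by
    intro c
    rw [degree_map]
    exact kpoly_degree_ne_zero c
  obtain ⟨β₁, hβ₁⟩ : ∃ β : M, β ^ n = algebraMap F M (b : F) := by
    refine ⟨rootOfSplits hs1 (hdeg _), ?_⟩
    have := eval_rootOfSplits hs1 (hdeg _)
    simpa only [eval_map, eval₂_sub, eval₂_X_pow, eval₂_C, sub_eq_zero] using this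
  obtain ⟨β₂, hβ₂⟩ : ∃ β : M, β ^ n = algebraMap F M (b' : F) := by
    refine ⟨rootOfSplits hs2 (hdeg _), ?_⟩
    have := eval_rootOfSplits hs2 (hdeg _)
    simpa only [eval_map, eval₂_sub, eval₂_X_pow, eval₂_C, sub_eq_zero] using this
  have hβ₁0 : β₁ ≠ 0 := by
    intro h
    rw [h, zero_pow (NeZero.ne n)] at hβ₁
    exact b.ne_zero ((map_eq_zero _).mp hβ₁.symm)
  have hβ₂0 : β₂ ≠ 0 := by
    intro h
    rw [h, zero_pow (NeZero.ne n)] at hβ₂
    exact b'.ne_zero ((map_eq_zero _).mp hβ₂.symm)
  have hm₁ : β₁ ^ n ∈ (algebraMap F M).range := ⟨b, hβ₁.symm⟩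
  have hm₂ : β₂ ^ n ∈ (algebraMap F M).range := ⟨b', hβ₂.symm⟩
  have hβ₃ : (β₁ * β₂) ^ n = algebraMap F M ((b * b' : Fˣ) : F) := by
    rw [mul_pow, hβ₁, hβ₂, Units.val_mul, map_mul]
  have hβ₃0 : β₁ * β₂ ≠ 0 := mul_ne_zero hβ₁0 hβ₂0
  have hm₃ : (β₁ * β₂) ^ n ∈ (algebraMap F M).range := ⟨_, hβ₃.symm⟩
  rw [kummerSym_eq S hζ a b M hβ₁ hβ₁0 hm₁, kummerSym_eq S hζ a b' M hβ₂ hβ₂0 hm₂,
    kummerSym_eq S hζ a (b * b') M hβ₃ hβ₃0 hm₃,
    kummerChar_mul_root hζ hβ₁0 hβ₂0 hm₁ hm₂ hβ₃0 hm₃, S.sym_char_mul]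

/-- **The tame formula, formal part.**  If `X ^ n - π` and `X ^ n - u π` are irreducible then
`(u, χ_π) = - (-(u π), χ_u)`. -/
theorem kummerSym_unit_uniformizer (u π : Fˣ) (h1 : Irreducible (kpoly n (π : F)))
    (h2 : Irreducible (kpoly n ((u * π : Fˣ) : F))) :
    kummerSym S hζ u π = - kummerSym S hζ (-(u * π)) u := by
  have e0 : kummerSym S hζ (-(u * π)) (u * π) = 0 :=
    kummerSym_neg_self_of_irreducible S hζ (u * π) h2
  have e1 : kummerSym S hζ (-π) π = 0 := kummerSym_neg_self_of_irreducible S hζ π h1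
  rw [kummerSym_mul_right] at e0
  have e2 : kummerSym S hζ (-(u * π)) π = kummerSym S hζ u π + kummerSym S hζ (-π) π := by
    rw [← kummerSym_mul_left, mul_neg]
  rw [e2, e1, add_zero] at e0
  exact eq_neg_of_add_eq_zero_right e0

end Bimul

end Fermat.Agent.CFT.TameSym
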