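import Mathlib
import Fermat.Agent.CFT.Local.TameSymbol
import Fermat.Agent.CFT.Local.Frobenius
import Fermat.Agent.CFT.Local.DvrOrd

/-!
# CFT, node C5t (part C): the tame formula over a local field

Setting B (`O` a complete discrete valuation ring with finite residue field of cardinality `q`,
`K = Frac O` of characteristic zero), `n ∣ q - 1`, `ζ₀ ∈ O` a primitive `n`-th root of unity.

* `isUnit_natCast_of_dvd`, `isUnit_one_sub_pow`, `zmod_eq_of_pow_sub_pow_mem` : the `n`-th roots
  of unity of `O` are pairwise incongruent modulo the maximal ideal.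
* `isUnramExt_of_root_unit` : `K(u^{1/n})/K` is unramified for a unit `u`.
* `kummerChar_isFrob` : the Kummer character of `u^{1/n}` at a Frobenius element is the
  `κ` with `ζ₀ ^ κ ≡ u ^ ((q - 1) / n)`.
* `irreducible_kpoly_of_irreducible` : `X ^ n - π` is irreducible over `K` for a uniformizer `π`.
* `kummerSym_unit_uniformizer_eq` : **the tame formula** `(u, χ_π) = - ι κ` for a symbol system
  satisfying the unramified formula.
-/

set_option autoImplicit false
set_option linter.unusedSectionVars false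
set_option linter.style.haveILetI false

namespace Fermat.Agent.CFT.TameSym

open IsLocalRing Polynomial Fermat.Agent.CFT

section Roots

variable (O : Type) [CommRing O] [IsDomain O] [IsLocalRing O] [Finite (ResidueField O)]

/-- If `n ∣ q - 1` then `n` is a unit of `O`. -/
theorem isUnit_natCast_of_dvd {n : ℕ} (hn : n ∣ Nat.card (ResidueField O) - 1) :
    IsUnit ((n : ℕ) : O) := by
  obtain ⟨m, hm⟩ := hn
  have hq : 1 ≤ Nat.card (ResidueField O) := Nat.card_pos
  have h0 : ((Nat.card (ResidueField O) : ℕ) : ResidueField O) = 0 := by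
    haveI := Fintype.ofFinite (ResidueField O)
    rw [Nat.card_eq_fintype_card]
    exact Nat.cast_card_eq_zero _
  have h1 : ((n : ℕ) : ResidueField O) * ((m : ℕ) : ResidueField O) = -1 := by
    rw [← Nat.cast_mul, ← hm, Nat.cast_sub hq, h0]
    simp
  have h2 : IsUnit (((n : ℕ) : ResidueField O)) :=
    IsUnit.of_mul_eq_one (-((m : ℕ) : ResidueField O)) (by rw [mul_neg, h1, neg_neg])
  have h3 : IsUnit (residue O ((n : ℕ) : O)) := by rwa [map_natCast]
  exact (isUnit_map_iff (residue O) _).mp h3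

variable {O}

/-- `1 - ζ₀ ^ k` is a unit if `n ∤ k`. -/
theorem isUnit_one_sub_pow {n : ℕ} {ζ₀ : O} (hζ₀ : IsPrimitiveRoot ζ₀ n)
    (hn : IsUnit ((n : ℕ) : O)) {k : ℕ} (hk : ¬ n ∣ k) : IsUnit (1 - ζ₀ ^ k) := by
  obtain ⟨n', rfl⟩ : ∃ n', n = n' + 1 := by
    rcases n with _ | n'
    · exact absurd hn (by simp)
    · exact ⟨n', rfl⟩
  have hprod := hζ₀.prod_one_sub_pow_eq_order
  have hu : IsUnit (∏ j ∈ Finset.range n', (1 - ζ₀ ^ (j + 1))) := by
    rw [hprod]; exact_mod_cast hn
  rw [IsUnit.prod_iff] at hu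
  have hmod : ζ₀ ^ k = ζ₀ ^ (k % (n' + 1)) := by
    conv_lhs => rw [← Nat.div_add_mod k (n' + 1), pow_add, pow_mul, hζ₀.pow_eq_one, one_pow,
      one_mul]
  have hpos : 0 < k % (n' + 1) := Nat.pos_of_ne_zero fun h => hk (Nat.dvd_of_mod_eq_zero h)
  have hlt : k % (n' + 1) < n' + 1 := Nat.mod_lt _ (Nat.succ_pos _)
  have := hu (k % (n' + 1) - 1) (Finset.mem_range.mpr (by omega))
  rwa [Nat.sub_add_cancel hpos, ← hmod] at this

/-- Distinct `n`-th roots of unity are incongruent modulo the maximal ideal. -/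
theorem zmod_eq_of_pow_sub_pow_mem {n : ℕ} [NeZero n] {ζ₀ : O} (hζ₀ : IsPrimitiveRoot ζ₀ n)
    (hn : IsUnit ((n : ℕ) : O)) {a b : ZMod n}
    (h : ζ₀ ^ a.val - ζ₀ ^ b.val ∈ maximalIdeal O) : a = b := by
  wlog hab : b.val ≤ a.val generalizing a b
  · refine (this ?_ (le_of_not_ge hab)).symm
    rw [← neg_sub]; exact neg_mem h
  by_contra hne
  have hk : ¬ n ∣ a.val - b.val := by
    intro hd
    apply hne
    have h1 : a.val - b.val < n := lt_of_le_of_lt (Nat.sub_le _ _) (ZMod.val_lt a)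
    have h2 : a.val - b.val = 0 := Nat.eq_zero_of_dvd_of_lt hd h1
    exact ZMod.val_injective n (by omega)
  have hu := isUnit_one_sub_pow hζ₀ hn hk
  have hfac : ζ₀ ^ a.val - ζ₀ ^ b.val = -(ζ₀ ^ b.val * (1 - ζ₀ ^ (a.val - b.val))) := by
    conv_lhs => rw [← Nat.sub_add_cancel hab, pow_add]
    ring
  rw [hfac] at h
  have hζu : IsUnit (ζ₀ ^ b.val) := (hζ₀.isUnit (NeZero.ne n)).pow _
  exact (mem_maximalIdeal _).mp h ((hζu.mul hu).neg)

end Roots

section Setting

variable (O K : Type) [CommRing O] [IsDomain O] [IsDiscreteValuationRing O]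
  [IsAdicComplete (maximalIdeal O) O] [Finite (ResidueField O)]
  [Field K] [Algebra O K] [IsFractionRing O K] [CharZero K]
  (L : Type) [Field L] [Algebra K L] [FiniteDimensional K L] [Algebra O L] [IsScalarTower O K L]
  [IsLocalRing (integralClosure O L)] [IsLocalHom (algebraMap O (integralClosure O L))]

omit [IsDomain O] [IsDiscreteValuationRing O] [IsAdicComplete (maximalIdeal O) O]
  [Finite (ResidueField O)] in
/-- An element of `O` whose image in the ring of integers of `L` lies in the maximal ideal lies in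
the maximal ideal of `O`. -/
theorem mem_maximalIdeal_of_algebraMap_mem [IsLocalRing O] {x : O}
    (hx : algebraMap O (integralClosure O L) x ∈ maximalIdeal (integralClosure O L)) :
    x ∈ maximalIdeal O := by
  rw [mem_maximalIdeal, mem_nonunits_iff] at hx ⊢
  exact fun h => hx (h.map _)

variable {O K L}
variable {n : ℕ} [NeZero n] {ζ₀ : O} {β : L}

/-- The key congruence: if `σ β = ζ₀ ^ κ β`, `β ^ n = u` a unit of `O`, and
`σ β ≡ β ^ (n * m + 1)` modulo the maximal ideal, then `ζ₀ ^ κ ≡ u ^ m`. -/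
theorem pow_sub_pow_mem_of_galRestrict (hβ0 : β ≠ 0) {u₀ : O} (hu₀ : IsUnit u₀)
    (hu : β ^ n = algebraMap O L u₀) (σ : L ≃ₐ[K] L) (κ m : ℕ)
    (hσ : σ β = algebraMap O L (ζ₀ ^ κ) * β)
    (hcong : ∀ x : integralClosure O L, galRestrict O K L (integralClosure O L) σ x -
      x ^ (n * m + 1) ∈ maximalIdeal (integralClosure O L)) :
    ζ₀ ^ κ - u₀ ^ m ∈ maximalIdeal O := by
  have hint : IsIntegral O β := by
    apply IsIntegral.of_pow (NeZero.pos n)
    rw [hu]
    exact isIntegral_algebraMap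
  let βB : integralClosure O L := ⟨β, hint⟩
  have hβB : βB ^ n = algebraMap O (integralClosure O L) u₀ := by
    apply Subtype.ext
    simpa using hu
  have hβu : IsUnit βB := by
    have : IsUnit (βB ^ n) := by rw [hβB]; exact hu₀.map _
    exact (isUnit_pow_iff (NeZero.ne n)).mp this
  have hσB : galRestrict O K L (integralClosure O L) σ βB =
      algebraMap O (integralClosure O L) (ζ₀ ^ κ) * βB := by
    apply Subtype.ext
    rw [galRestrict_coe]
    simpa using hσ
  have h1 := hcong βB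
  have h2 : galRestrict O K L (integralClosure O L) σ βB - βB ^ (n * m + 1) =
      algebraMap O (integralClosure O L) (ζ₀ ^ κ - u₀ ^ m) * βB := by
    rw [hσB, pow_succ, pow_mul, hβB]
    simp only [map_sub, map_pow, sub_mul]
  rw [h2, Ideal.mul_unit_mem_iff_mem _ hβu] at h1
  exact mem_maximalIdeal_of_algebraMap_mem O L h1

variable {ζ : K}

omit [IsLocalRing (integralClosure O L)] [IsLocalHom (algebraMap O (integralClosure O L))]
  [IsAdicComplete (maximalIdeal O) O] [Finite (ResidueField O)] [FiniteDimensional K L]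
  [IsDiscreteValuationRing O] [CharZero K] [NeZero n] in
/-- A primitive root of `K` coming from `O` is a primitive root of `O`. -/
theorem isPrimitiveRoot_of_algebraMap (hζ : IsPrimitiveRoot ζ n)
    (hζ₀ : algebraMap O K ζ₀ = ζ) : IsPrimitiveRoot ζ₀ n := by
  subst hζ₀
  exact hζ.of_map_of_injective (IsFractionRing.injective O K)

/-- The Kummer character of `β = u^{1/n}` (`u` a unit of `O`) is trivial on inertia. -/
theorem kummerChar_eq_one_of_mem_inertiaGal (hζ : IsPrimitiveRoot ζ n)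
    (hζ₀ : algebraMap O K ζ₀ = ζ) (hn : n ∣ Nat.card (ResidueField O) - 1) (hβ0 : β ≠ 0)
    (hβ : β ^ n ∈ (algebraMap K L).range) {u₀ : O} (hu₀ : IsUnit u₀)
    (hu : β ^ n = algebraMap O L u₀) {σ : L ≃ₐ[K] L} (hσ : σ ∈ inertiaGal O K L) :
    kummerChar hζ hβ0 hβ σ = 1 := by
  have hprim := isPrimitiveRoot_of_algebraMap hζ hζ₀
  have hnu := isUnit_natCast_of_dvd O hn
  have hspec := kummerChar_spec hζ hβ0 hβ σ
  have hspec' : σ β = algebraMap O L (ζ₀ ^ (kummerChar hζ hβ0 hβ σ).toAdd.val) * β := by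
    rw [hspec, IsScalarTower.algebraMap_apply O K L, map_pow (algebraMap O K), hζ₀]
  have hcong : ∀ x : integralClosure O L, galRestrict O K L (integralClosure O L) σ x -
      x ^ (n * 0 + 1) ∈ maximalIdeal (integralClosure O L) := by
    intro x
    simpa using (mem_inertiaGal_iff O K L σ).mp hσ x
  have h := pow_sub_pow_mem_of_galRestrict hβ0 hu₀ hu σ _ 0 hspec' hcong
  have h0 : (kummerChar hζ hβ0 hβ σ).toAdd = 0 := by
    apply zmod_eq_of_pow_sub_pow_mem hprim hnu
    simpa using h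
  exact h0

/-- `K(u^{1/n})/K` is unramified for a unit `u` of `O` (`n ∣ q - 1`). -/
theorem isUnramExt_of_root_unit [IsGalois K L] (hζ : IsPrimitiveRoot ζ n)
    (hζ₀ : algebraMap O K ζ₀ = ζ) (hn : n ∣ Nat.card (ResidueField O) - 1) (hβ0 : β ≠ 0)
    (hβ : β ^ n ∈ (algebraMap K L).range) {u₀ : O} (hu₀ : IsUnit u₀)
    (hu : β ^ n = algebraMap O L u₀) (htop : IntermediateField.adjoin K {β} = ⊤) :
    IsUnramExt O L := by
  rw [isUnramExt_iff_ramIdx O K L, ← card_inertiaGal O K L]
  have hbot : inertiaGal O K L = ⊥ := by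
    rw [Subgroup.eq_bot_iff_forall]
    intro σ hσ
    exact kummerChar_injective hζ hβ0 hβ htop
      ((kummerChar_eq_one_of_mem_inertiaGal hζ hζ₀ hn hβ0 hβ hu₀ hu hσ).trans (map_one _).symm)
  rw [hbot]
  exact Subgroup.card_bot

/-- The value of the Kummer character of `u^{1/n}` at a Frobenius element. -/
theorem kummerChar_isFrob (hζ : IsPrimitiveRoot ζ n)
    (hζ₀ : algebraMap O K ζ₀ = ζ) (hn : n ∣ Nat.card (ResidueField O) - 1) (hβ0 : β ≠ 0)
    (hβ : β ^ n ∈ (algebraMap K L).range) {u₀ : O} (hu₀ : IsUnit u₀)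
    (hu : β ^ n = algebraMap O L u₀) {φ : L ≃ₐ[K] L} (hφ : IsFrob O K L φ) :
    ζ₀ ^ (kummerChar hζ hβ0 hβ φ).toAdd.val - u₀ ^ ((Nat.card (ResidueField O) - 1) / n) ∈
      maximalIdeal O := by
  have hspec := kummerChar_spec hζ hβ0 hβ φ
  have hspec' : φ β = algebraMap O L (ζ₀ ^ (kummerChar hζ hβ0 hβ φ).toAdd.val) * β := by
    rw [hspec, IsScalarTower.algebraMap_apply O K L, map_pow (algebraMap O K), hζ₀]
  have hq : 1 ≤ Nat.card (ResidueField O) := Nat.card_pos
  have hqe : n * ((Nat.card (ResidueField O) - 1) / n) + 1 = Nat.card (ResidueField O) := by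
    rw [Nat.mul_div_cancel' hn]; omega
  refine pow_sub_pow_mem_of_galRestrict hβ0 hu₀ hu φ _ _ hspec' ?_
  intro x
  rw [hqe]
  exact hφ x

/-- The Kummer character of `u^{1/n}` at a Frobenius element is `κ` if `ζ₀ ^ κ ≡ u ^ ((q-1)/n)`. -/
theorem kummerChar_isFrob_eq (hζ : IsPrimitiveRoot ζ n)
    (hζ₀ : algebraMap O K ζ₀ = ζ) (hn : n ∣ Nat.card (ResidueField O) - 1) (hβ0 : β ≠ 0)
    (hβ : β ^ n ∈ (algebraMap K L).range) {u₀ : O} (hu₀ : IsUnit u₀)
    (hu : β ^ n = algebraMap O L u₀) {φ : L ≃ₐ[K] L} (hφ : IsFrob O K L φ) {κ : ZMod n}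
    (hκ : ζ₀ ^ κ.val - u₀ ^ ((Nat.card (ResidueField O) - 1) / n) ∈ maximalIdeal O) :
    kummerChar hζ hβ0 hβ φ = Multiplicative.ofAdd κ := by
  have hprim := isPrimitiveRoot_of_algebraMap hζ hζ₀
  have hnu := isUnit_natCast_of_dvd O hn
  have h := kummerChar_isFrob hζ hζ₀ hn hβ0 hβ hu₀ hu hφ
  have h0 : (kummerChar hζ hβ0 hβ φ).toAdd = κ := by
    apply zmod_eq_of_pow_sub_pow_mem hprim hnu
    have := sub_mem h hκ
    simpa using this
  exact h0

end Setting

section Eisenstein

variable {O K : Type} [CommRing O] [IsDomain O] [IsDiscreteValuationRing O]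
  [Field K] [Algebra O K] [IsFractionRing O K]

/-- `X ^ n - π` is irreducible over `K` for a uniformizer `π` (Eisenstein). -/
theorem irreducible_kpoly_of_irreducible {n : ℕ} [NeZero n] {π₀ : O} (hπ₀ : Irreducible π₀) :
    Irreducible (kpoly n (algebraMap O K π₀)) := by
  have hn : 0 < n := NeZero.pos n
  have hmonic : (X ^ n - C π₀ : O[X]).Monic := monic_X_pow_sub_C π₀ (NeZero.ne n)
  have hmap : (X ^ n - C π₀ : O[X]).map (algebraMap O K) = kpoly n (algebraMap O K π₀) := by
    simp [kpoly]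
  rw [← hmap, ← hmonic.irreducible_iff_irreducible_map_fraction_map]
  have hmem : π₀ ∈ maximalIdeal O := by
    rw [mem_maximalIdeal, mem_nonunits_iff]; exact hπ₀.not_isUnit
  have hdeg : (X ^ n - C π₀ : O[X]).degree = n := degree_X_pow_sub_C hn π₀
  refine irreducible_of_eisenstein_criterion (P := maximalIdeal O) inferInstance ?_ ?_ ?_ ?_
    hmonic.isPrimitive
  · rw [hmonic.leadingCoeff]
    exact fun h => (maximalIdeal.isMaximal O).ne_top ((Ideal.eq_top_iff_one _).mpr h)
  · intro k hk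
    rw [hdeg] at hk
    have hk' : k < n := by exact_mod_cast hk
    rw [coeff_sub, coeff_X_pow, coeff_C, if_neg (ne_of_lt hk')]
    split_ifs
    · simpa using hmem
    · simp
  · rw [hdeg]; exact_mod_cast hn
  · rw [coeff_sub, coeff_X_pow, coeff_C_zero, if_neg (ne_of_lt hn), zero_sub, neg_mem_iff]
    intro h
    rw [(IsDiscreteValuationRing.irreducible_iff_uniformizer _).mp hπ₀, Ideal.span_singleton_pow,
      Ideal.mem_span_singleton] at h
    obtain ⟨c, hc⟩ := h
    have h1 : π₀ * 1 = π₀ * (π₀ * c) := by rw [mul_one, ← mul_assoc, ← sq]; exact hc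
    have h2 := mul_left_cancel₀ hπ₀.ne_zero h1
    exact hπ₀.not_isUnit (IsUnit.of_mul_eq_one c h2.symm)

end Eisenstein

section KRoot

variable {F : Type} [Field F] {n : ℕ} [NeZero n] {ζ : F}

/-- The Kummer field is generated by the chosen root (no irreducibility needed). -/
theorem adjoin_kroot_eq_top (hζ : IsPrimitiveRoot ζ n) {b : F} (hb : b ≠ 0) :
    IntermediateField.adjoin F {kroot n b} = ⊤ := by
  have h := IsSplittingField.adjoin_rootSet (KField n b) (kpoly n b)
  rw [eq_top_iff, ← IntermediateField.toSubalgebra_le_toSubalgebra,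
    IntermediateField.top_toSubalgebra, ← h]
  apply Algebra.adjoin_le
  intro r hr
  rw [mem_rootSet] at hr
  have hr' : r ^ n = algebraMap F (KField n b) b := by
    have := hr.2
    simpa [kpoly, sub_eq_zero] using this
  have hβ := kroot_pow (n := n) b
  have hβ0 : kroot n b ≠ 0 := kroot_ne_zero hb
  have hζM : IsPrimitiveRoot (algebraMap F (KField n b) ζ) n :=
    hζ.map_of_injective (algebraMap F (KField n b)).injective
  have hx : (r / kroot n b) ^ n = 1 := by
    rw [div_pow, hr', hβ, div_self]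
    rw [Ne, map_eq_zero]; exact hb
  obtain ⟨i, -, hi⟩ := hζM.eq_pow_of_pow_eq_one hx
  have hr2 : r = algebraMap F (KField n b) (ζ ^ i) * kroot n b := by
    rw [map_pow, hi, div_mul_cancel₀ _ hβ0]
  rw [hr2]
  exact mul_mem (IntermediateField.algebraMap_mem _ _)
    (IntermediateField.mem_adjoin_simple_self F _)

end KRoot

section Tame

variable (O : Type) {K : Type} [CommRing O] [IsDomain O] [IsDiscreteValuationRing O]
  [IsAdicComplete (maximalIdeal O) O] [Finite (ResidueField O)]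
  [Field K] [Algebra O K] [IsFractionRing O K] [CharZero K]
  {n : ℕ} [NeZero n] {A : Type} [AddCommGroup A]

/-- The unramified formula (C5s (S3)) for a symbol system: for `L/K` unramified with Frobenius
element `φ`, `(a, χ) = ι (ord a • χ φ)`. -/
def UnramFormula (S : SymbolSystem K n A) (ι : ZMod n →+ A) : Prop :=
  ∀ (L : Type) [Field L] [Algebra K L] [FiniteDimensional K L] [IsGalois K L] [Algebra O L]
    [IsScalarTower O K L] [IsLocalRing (integralClosure O L)]
    [IsLocalHom (algebraMap O (integralClosure O L))], IsUnramExt O L →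
    ∀ φ : L ≃ₐ[K] L, IsFrob O K L φ →
      ∀ (χ : (L ≃ₐ[K] L) →* Multiplicative (ZMod n)) (a : Kˣ),
        S.sym L χ a = ι (dvrOrd O K (a : K) • (χ φ).toAdd)

variable {O}
variable {ζ : K} {ζ₀ : O}

/-- The symbol `(a, χ_u)` for a unit `u` of `O`: it is `ι (ord a • κ)` where
`ζ₀ ^ κ ≡ u ^ ((q - 1) / n)`. -/
theorem kummerSym_unit_right (S : SymbolSystem K n A) {ι : ZMod n →+ A}
    (hS : UnramFormula O S ι) (hζ : IsPrimitiveRoot ζ n) (hζ₀ : algebraMap O K ζ₀ = ζ)
    (hn : n ∣ Nat.card (ResidueField O) - 1) {u₀ : O} (hu₀ : IsUnit u₀) (u a : Kˣ)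
    (hu : (u : K) = algebraMap O K u₀) {κ : ZMod n}
    (hκ : ζ₀ ^ κ.val - u₀ ^ ((Nat.card (ResidueField O) - 1) / n) ∈ maximalIdeal O) :
    kummerSym S hζ a u = ι (dvrOrd O K (a : K) • κ) := by
  have hgal := kfield_isGalois hζ u.ne_zero
  haveI := intRing_isLocalRing O K (KField n (u : K))
  haveI := intRing_isLocalHom O K (KField n (u : K))
  have hβ0 : kroot n (u : K) ≠ 0 := kroot_ne_zero u.ne_zero
  have hβ : kroot n (u : K) ^ n ∈ (algebraMap K (KField n (u : K))).range :=
    kroot_pow_mem (u : K)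
  have hβu : kroot n (u : K) ^ n = algebraMap O (KField n (u : K)) u₀ := by
    rw [kroot_pow, hu, ← IsScalarTower.algebraMap_apply]
  have htop := adjoin_kroot_eq_top hζ u.ne_zero
  have hunr : IsUnramExt O (KField n (u : K)) :=
    isUnramExt_of_root_unit hζ hζ₀ hn hβ0 hβ hu₀ hβu htop
  have hφ := isFrob_frob O K (KField n (u : K))
  have hval := kummerChar_isFrob_eq hζ hζ₀ hn hβ0 hβ hu₀ hβu hφ hκ
  have := hS (KField n (u : K)) hunr (frob O K (KField n (u : K))) hφ (kummerChar hζ hβ0 hβ) a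
  rw [hval] at this
  exact this

/-- **The tame formula** (C5t (T3)): for a unit `u` and a uniformizer `π`,
`(u, χ_π) = - ι κ` where `ζ₀ ^ κ ≡ u ^ ((q - 1) / n)` modulo the maximal ideal. -/
theorem kummerSym_unit_uniformizer_eq (S : SymbolSystem K n A) {ι : ZMod n →+ A}
    (hS : UnramFormula O S ι) (hζ : IsPrimitiveRoot ζ n) (hζ₀ : algebraMap O K ζ₀ = ζ)
    (hn : n ∣ Nat.card (ResidueField O) - 1) {u₀ π₀ : O} (hu₀ : IsUnit u₀)
    (hπ₀ : Irreducible π₀) (u π : Kˣ) (hu : (u : K) = algebraMap O K u₀)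
    (hπ : (π : K) = algebraMap O K π₀) {κ : ZMod n}
    (hκ : ζ₀ ^ κ.val - u₀ ^ ((Nat.card (ResidueField O) - 1) / n) ∈ maximalIdeal O) :
    kummerSym S hζ u π = - ι κ := by
  have h1 : Irreducible (kpoly n (π : K)) := by
    rw [hπ]; exact irreducible_kpoly_of_irreducible hπ₀
  have huπ : Irreducible (u₀ * π₀) := by
    obtain ⟨v, rfl⟩ := hu₀
    exact (irreducible_units_mul v).mpr hπ₀
  have h2 : Irreducible (kpoly n ((u * π : Kˣ) : K)) := by
    rw [Units.val_mul, hu, hπ, ← map_mul]; exact irreducible_kpoly_of_irreducible huπ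
  rw [kummerSym_unit_uniformizer S hζ u π h1 h2,
    kummerSym_unit_right S hS hζ hζ₀ hn hu₀ u (-(u * π)) hu hκ]
  have hord : dvrOrd O K ((-(u * π) : Kˣ) : K) = 1 := by
    rw [Units.val_neg, dvrOrd_neg, Units.val_mul, hu, hπ, ← map_mul]
    exact dvrOrd_irreducible O K huπ
  rw [hord, one_smul]

end Tame

end Fermat.Agent.CFT.TameSym
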