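import Mathlib
import Fermat.Agent.CFT.Local.LocalSymbol
import Fermat.Agent.CFT.Tate.Shapiro

/-!
# CFT (C5s, part 2): the symbol class and corestriction (base change)

`S ≤ G` of finite index, `A : Rep ℤ G`, `a ∈ A^S`, `χ` a character of `G`:

  `cores (a ∪ δ(χ|_S)) = N_{G/S}(a) ∪ δχ`      (`cores_symClass`)

where `N_{G/S} a = ∑_{q ∈ G/S} q • a` (`invRelNorm`).  This is the projection formula in the only case
needed for the norm-compatibility `(a, χ|_{F₁})_{F₁} = (N_{F₁/F} a, χ)_F` of the local symbol.
The proof uses only the functoriality `map_symClass` of the symbol class (for the Shapiro map and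
for the trace map) and the definition `cores = tr_* ∘ shapiro⁻¹`.
-/

set_option autoImplicit false
set_option linter.unusedSectionVars false

open groupCohomology CategoryTheory

namespace Fermat.Agent.CFT

section Cor

variable {G : Type} [Group G] (S : Subgroup G) (A : Rep.{0} ℤ G) {n : ℕ} [NeZero n]

/-- The constant function with value an `S`-invariant element, as an element of `coind_S^G A`. -/
def constCoind (a : A) (ha : IsInv (Rep.res S.subtype A) a) :
    Rep.coind S.subtype (Rep.res S.subtype A) :=
  ⟨fun _ => a, fun s _ => (ha s).symm⟩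

theorem isInv_constCoind (a : A) (ha : IsInv (Rep.res S.subtype A) a) :
    IsInv (Rep.coind S.subtype (Rep.res S.subtype A)) (constCoind S A a ha) :=
  fun _ => Subtype.ext (funext fun _ => rfl)

theorem symClass_congr' {χ χ' : G →* Multiplicative (ZMod n)} {a a' : A} (ha : IsInv A a)
    (ha' : IsInv A a') (hχ : χ = χ') (h : a = a') :
    symClass A χ a ha = symClass A χ' a' ha' := by
  subst hχ; subst h; rfl

variable [S.FiniteIndex]

/-- The relative norm `N_{G/S} a = ∑_{q ∈ G/S} q • a` of an `S`-invariant element. -/
noncomputable def invRelNorm (a : A) (ha : IsInv (Rep.res S.subtype A) a) : A :=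
  (Cup.tr S A).hom (constCoind S A a ha)

theorem isInv_invRelNorm (a : A) (ha : IsInv (Rep.res S.subtype A) a) :
    IsInv A (invRelNorm S A a ha) := by
  intro g
  have h := Rep.hom_comm_apply (Cup.tr S A) g (constCoind S A a ha)
  rw [isInv_constCoind S A a ha g] at h
  exact h.symm

theorem invRelNorm_eq_finsum (a : A) (ha : IsInv (Rep.res S.subtype A) a) :
    invRelNorm S A a ha = ∑ᶠ q : G ⧸ S, A.ρ q.out a := by
  unfold invRelNorm
  rw [Cup.tr_hom_apply]
  refine finsum_congr fun q => ?_
  conv_lhs => rw [← QuotientGroup.out_eq' q]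
  rfl

/-- The Shapiro map sends the symbol class of the constant function to the symbol class of its
value. -/
theorem shapiroMap_symClass_constCoind (χ : G →* Multiplicative (ZMod n)) {a : A}
    (ha : IsInv (Rep.res S.subtype A) a) :
    (shapiroMap S (Rep.res S.subtype A) 2).hom
        (symClass (Rep.coind S.subtype (Rep.res S.subtype A)) χ (constCoind S A a ha)
          (isInv_constCoind S A a ha))
      = symClass (Rep.res S.subtype A) (χ.comp S.subtype) a ha :=
  map_symClass (A := Rep.coind S.subtype (Rep.res S.subtype A)) (A' := Rep.res S.subtype A)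
    S.subtype (Cup.ev₁ S (Rep.res S.subtype A)) χ (isInv_constCoind S A a ha)

/-- The trace map sends the symbol class of the constant function to the symbol class of the
relative norm. -/
theorem tr_symClass_constCoind (χ : G →* Multiplicative (ZMod n)) {a : A}
    (ha : IsInv (Rep.res S.subtype A) a) :
    (groupCohomology.map (MonoidHom.id G) (Cup.tr S A) 2).hom
        (symClass (Rep.coind S.subtype (Rep.res S.subtype A)) χ (constCoind S A a ha)
          (isInv_constCoind S A a ha))
      = symClass A χ (invRelNorm S A a ha) (isInv_invRelNorm S A a ha) :=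
  (map_symClass (A := Rep.coind S.subtype (Rep.res S.subtype A)) (A' := A) (MonoidHom.id G)
    (Cup.tr S A) χ (isInv_constCoind S A a ha)).trans
    (symClass_congr' A _ _ (MonoidHom.comp_id χ) rfl)

/-- (S4) **Projection formula**: `cores (a ∪ δ(χ|_S)) = N_{G/S}(a) ∪ δχ`. -/
theorem cores_symClass (χ : G →* Multiplicative (ZMod n)) {a : A}
    (ha : IsInv (Rep.res S.subtype A) a) :
    (cores S A 2).hom (symClass (Rep.res S.subtype A) (χ.comp S.subtype) a ha)
      = symClass A χ (invRelNorm S A a ha) (isInv_invRelNorm S A a ha) := by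
  rw [← shapiroMap_symClass_constCoind S A χ ha, ← tr_symClass_constCoind S A χ ha]
  exact cores_shapiroMap_apply S A 2 _

/-- Restriction of a symbol class to a subgroup. -/
theorem resCoh_symClass (χ : G →* Multiplicative (ZMod n)) {a : A} (ha : IsInv A a) :
    (resCoh S A 2).hom (symClass A χ a ha)
      = symClass (Rep.res S.subtype A) (χ.comp S.subtype) a (fun s => ha s) :=
  map_symClass (A := A) (A' := Rep.res S.subtype A) S.subtype (𝟙 (Rep.res S.subtype A)) χ ha

/-- (S4) for symbols: if `invG ∘ cores = invS` then `(a, χ|_S)_S = (N_{G/S} a, χ)_G`. -/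
theorem localSymbol_invRelNorm (invG : H2 A →+ AddCircle (1 : ℚ))
    (invS : H2 (Rep.res S.subtype A) →+ AddCircle (1 : ℚ))
    (hcor : ∀ x : H2 (Rep.res S.subtype A), invG ((cores S A 2).hom x) = invS x)
    (χ : G →* Multiplicative (ZMod n)) {a : A} (ha : IsInv (Rep.res S.subtype A) a) :
    localSymbol A invG χ (invRelNorm S A a ha) (isInv_invRelNorm S A a ha)
      = localSymbol (Rep.res S.subtype A) invS (χ.comp S.subtype) a ha := by
  unfold localSymbol
  rw [← cores_symClass S A χ ha, hcor]

/-- If `invS ∘ res = [G : S] • invG` then `(a, χ|_S)_S = [G : S] • (a, χ)_G` for `a ∈ A^G`. -/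
theorem localSymbol_res (invG : H2 A →+ AddCircle (1 : ℚ))
    (invS : H2 (Rep.res S.subtype A) →+ AddCircle (1 : ℚ))
    (hres : ∀ x : H2 A, invS ((resCoh S A 2).hom x) = S.index • invG x)
    (χ : G →* Multiplicative (ZMod n)) {a : A} (ha : IsInv A a) :
    localSymbol (Rep.res S.subtype A) invS (χ.comp S.subtype) a (fun s => ha s)
      = S.index • localSymbol A invG χ a ha := by
  unfold localSymbol
  rw [← resCoh_symClass S A χ ha, hres]

end Cor

end Fermat.Agent.CFT
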