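import Mathlib
import Fermat.Agent.CFT.Local.LocalSymbolCor
import Fermat.Agent.CFT.GalMap
import Fermat.Agent.CFT.Local.TameSymbol

/-!
# CFT (C5s, part 3): the symbol class for `Gal(L/K)` acting on `Lˣ`

Galois wrappers of `LocalSymbol.lean` for `A = Rep.ofAlgebraAutOnUnits K L`:

* `unitsIncl K L a` : the image of `a ∈ Kˣ` in the module `Lˣ` (Galois invariant);
* `galSymClass K L χ a : H²(Gal(L/K), Lˣ)` the class `a ∪ δχ`;
* bimultiplicativity, functoriality for `galMap` (inflation, restriction, base change),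
  the norm criterion for cyclic `L/K`;
* `InvFamily F` : a family of injective, inflation compatible invariant maps
  `H²(Gal(L/F), Lˣ) →+ ℚ/ℤ` and the attached `TameSym.SymbolSystem` (`symbolSystemOfInv`).
-/

set_option autoImplicit false
set_option linter.unusedSectionVars false

open groupCohomology CategoryTheory

namespace Fermat.Agent.CFT

section GalSym

variable (K L : Type) [Field K] [Field L] [Algebra K L] {n : ℕ} [NeZero n]

/-- The image of `a ∈ Kˣ` in the `Gal(L/K)`-module `Lˣ`. -/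
def unitsIncl (a : Kˣ) : (Rep.ofAlgebraAutOnUnits K L : Rep.{0} ℤ (L ≃ₐ[K] L)) :=
  (Additive.ofMul (Units.map (algebraMap K L : K →* L) a) : Additive Lˣ)

theorem unitsIncl_mul (a b : Kˣ) :
    unitsIncl K L (a * b) = unitsIncl K L a + unitsIncl K L b := by
  unfold unitsIncl
  rw [map_mul]
  rfl

theorem unitsIncl_one : unitsIncl K L 1 = 0 := by
  unfold unitsIncl
  rw [map_one]
  rfl

theorem isInv_unitsIncl (a : Kˣ) :
    IsInv (Rep.ofAlgebraAutOnUnits K L : Rep.{0} ℤ (L ≃ₐ[K] L)) (unitsIncl K L a) := by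
  intro σ
  have h : ∀ x y : Additive Lˣ, ((Additive.toMul x : Lˣ) : L) = ((Additive.toMul y : Lˣ) : L) →
      x = y := fun x y hxy => Additive.toMul.injective (Units.ext hxy)
  apply h
  exact σ.commutes (a : K)

/-- The class `a ∪ δχ ∈ H²(Gal(L/K), Lˣ)` for `a ∈ Kˣ` and a character `χ` of `Gal(L/K)`. -/
noncomputable def galSymClass (χ : (L ≃ₐ[K] L) →* Multiplicative (ZMod n)) (a : Kˣ) :
    H2 (Rep.ofAlgebraAutOnUnits K L : Rep.{0} ℤ (L ≃ₐ[K] L)) :=
  symClass (Rep.ofAlgebraAutOnUnits K L) χ (unitsIncl K L a) (isInv_unitsIncl K L a)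

theorem galSymClass_mul (χ : (L ≃ₐ[K] L) →* Multiplicative (ZMod n)) (a b : Kˣ) :
    galSymClass K L χ (a * b) = galSymClass K L χ a + galSymClass K L χ b := by
  unfold galSymClass
  rw [← symClass_add]
  exact symClass_congr' _ _ _ rfl (unitsIncl_mul K L a b)

theorem galSymClass_one (χ : (L ≃ₐ[K] L) →* Multiplicative (ZMod n)) :
    galSymClass K L χ 1 = 0 := by
  have := galSymClass_mul K L χ 1 1
  rw [mul_one] at this
  exact left_eq_add.mp this

theorem galSymClass_mul_char (χ χ' : (L ≃ₐ[K] L) →* Multiplicative (ZMod n)) (a : Kˣ) :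
    galSymClass K L (χ * χ') a = galSymClass K L χ a + galSymClass K L χ' a :=
  symClass_mul_char _ χ χ' _

theorem galSymClass_one_char (a : Kˣ) :
    galSymClass K L (1 : (L ≃ₐ[K] L) →* Multiplicative (ZMod n)) a = 0 :=
  symClass_one_char _ _

end GalSym

section Functoriality

variable (K₁ L₁ K₂ L₂ : Type) [Field K₁] [Field L₁] [Field K₂] [Field L₂]
  [Algebra K₁ L₁] [Algebra K₂ L₂] [Algebra K₁ K₂] [Algebra L₁ L₂] [Algebra K₁ L₂]
  [IsScalarTower K₁ K₂ L₂] [IsScalarTower K₁ L₁ L₂] [Normal K₁ L₁] {n : ℕ} [NeZero n]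

theorem galUnitsHom_unitsIncl (a : K₁ˣ) :
    (galUnitsHom K₁ L₁ K₂ L₂).hom (unitsIncl K₁ L₁ a)
      = unitsIncl K₂ L₂ (Units.map (algebraMap K₁ K₂ : K₁ →* K₂) a) := by
  have h : ∀ x y : Additive L₂ˣ, ((Additive.toMul x : L₂ˣ) : L₂) = ((Additive.toMul y : L₂ˣ) : L₂) →
      x = y := fun x y hxy => Additive.toMul.injective (Units.ext hxy)
  apply h
  show algebraMap L₁ L₂ (algebraMap K₁ L₁ (a : K₁)) = algebraMap K₂ L₂ (algebraMap K₁ K₂ (a : K₁))
  rw [← IsScalarTower.algebraMap_apply, ← IsScalarTower.algebraMap_apply]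

/-- **Galois functoriality** of the symbol class (inflation, restriction, base change). -/
theorem galMap_galSymClass (χ : (L₁ ≃ₐ[K₁] L₁) →* Multiplicative (ZMod n)) (a : K₁ˣ) :
    (galMap K₁ L₁ K₂ L₂ 2).hom (galSymClass K₁ L₁ χ a)
      = galSymClass K₂ L₂ (χ.comp (galRes K₁ L₁ K₂ L₂))
          (Units.map (algebraMap K₁ K₂ : K₁ →* K₂) a) := by
  unfold galSymClass galMap
  refine (map_symClass (A := Rep.ofAlgebraAutOnUnits K₁ L₁) (A' := Rep.ofAlgebraAutOnUnits K₂ L₂)
    (galRes K₁ L₁ K₂ L₂) (galUnitsHom K₁ L₁ K₂ L₂) χ (isInv_unitsIncl K₁ L₁ a)).trans ?_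
  exact symClass_congr' _ _ _ rfl (galUnitsHom_unitsIncl K₁ L₁ K₂ L₂ a)

end Functoriality

section Inflation

variable (K L L' : Type) [Field K] [Field L] [Field L'] [Algebra K L] [Algebra K L']
  [Algebra L L'] [IsScalarTower K L L'] [Normal K L] {n : ℕ} [NeZero n]

/-- Inflation of the symbol class. -/
theorem galInfl_galSymClass (χ : (L ≃ₐ[K] L) →* Multiplicative (ZMod n)) (a : Kˣ) :
    (galInfl K L L' 2).hom (galSymClass K L χ a)
      = galSymClass K L' (χ.comp (AlgEquiv.restrictNormalHom L)) a := by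
  refine (galMap_galSymClass K L K L' χ a).trans ?_
  have h1 : χ.comp (galRes K L K L') = χ.comp (AlgEquiv.restrictNormalHom L) := by
    ext σ
    rw [MonoidHom.comp_apply, MonoidHom.comp_apply, galRes_infl_apply]
  have h2 : Units.map (algebraMap K K : K →* K) a = a := by
    apply Units.ext
    rfl
  unfold galSymClass
  exact symClass_congr' _ _ _ h1 (by rw [h2])

end Inflation

section Restriction

variable (K E L : Type) [Field K] [Field E] [Field L] [Algebra K E] [Algebra K L] [Algebra E L]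
  [IsScalarTower K E L] [Normal K L] {n : ℕ} [NeZero n]

/-- Restriction of the symbol class to `Gal(L/E)`. -/
theorem galRest_galSymClass (χ : (L ≃ₐ[K] L) →* Multiplicative (ZMod n)) (a : Kˣ) :
    (galRest K E L 2).hom (galSymClass K L χ a)
      = galSymClass E L (χ.comp (galRes K L E L)) (Units.map (algebraMap K E : K →* E) a) :=
  galMap_galSymClass K L E L χ a

end Restriction

section Norm

variable (K L : Type) [Field K] [Field L] [Algebra K L] [FiniteDimensional K L] [IsGalois K L]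
  {n : ℕ} [NeZero n]

/-- The underlying element of `L` of an element of the module `Lˣ`. -/
def unitsVal (x : (Rep.ofAlgebraAutOnUnits K L : Rep.{0} ℤ (L ≃ₐ[K] L))) : L :=
  ((Additive.toMul (x : Additive Lˣ) : Lˣ) : L)

omit [FiniteDimensional K L] [IsGalois K L] in
theorem unitsVal_injective : Function.Injective (unitsVal K L) := fun _ _ hxy =>
  Additive.toMul.injective (Units.ext hxy)

omit [FiniteDimensional K L] [IsGalois K L] in
theorem unitsVal_sum {ι : Type*} (s : Finset ι)
    (f : ι → (Rep.ofAlgebraAutOnUnits K L : Rep.{0} ℤ (L ≃ₐ[K] L))) :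
    unitsVal K L (∑ i ∈ s, f i) = ∏ i ∈ s, unitsVal K L (f i) := by
  classical
  have hev0 : unitsVal K L 0 = 1 := rfl
  have hevadd : ∀ x y, unitsVal K L (x + y) = unitsVal K L x * unitsVal K L y := fun _ _ => rfl
  induction s using Finset.induction_on with
  | empty => rw [Finset.sum_empty, Finset.prod_empty, hev0]
  | insert i s hi ih => rw [Finset.sum_insert hi, Finset.prod_insert hi, hevadd, ih]

theorem sum_ρ_eq_unitsIncl_iff (b : (Rep.ofAlgebraAutOnUnits K L : Rep.{0} ℤ (L ≃ₐ[K] L)))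
    (a : Kˣ) :
    unitsIncl K L a = ∑ g : L ≃ₐ[K] L, (Rep.ofAlgebraAutOnUnits K L).ρ g b
      ↔ Algebra.norm K (unitsVal K L b) = (a : K) := by
  rw [← (unitsVal_injective K L).eq_iff, unitsVal_sum]
  have h2 : ∏ g : L ≃ₐ[K] L, unitsVal K L ((Rep.ofAlgebraAutOnUnits K L).ρ g b)
      = ∏ g : L ≃ₐ[K] L, g (unitsVal K L b) := rfl
  rw [h2, ← Algebra.norm_eq_prod_automorphisms]
  show algebraMap K L (a : K) = _ ↔ _
  constructor
  · intro h3
    exact ((algebraMap K L).injective h3).symm
  · intro h3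
    rw [h3]

/-- **Norm criterion** for cyclic `L/K` of degree `n` and a faithful character `χ`:
`a ∪ δχ = 0` iff `a` is a norm from `L`. -/
theorem galSymClass_eq_zero_iff (χ : (L ≃ₐ[K] L) →* Multiplicative (ZMod n))
    (hχ : Function.Injective χ) (hdeg : Module.finrank K L = n) (a : Kˣ) :
    galSymClass K L χ a = 0 ↔ ∃ y : L, Algebra.norm K y = (a : K) := by
  have hcard : Fintype.card (L ≃ₐ[K] L) = n := by
    rw [← Nat.card_eq_fintype_card, IsGalois.card_aut_eq_finrank, hdeg]
  unfold galSymClass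
  rw [symClass_eq_zero_iff _ χ hχ hcard]
  constructor
  · rintro ⟨b, hb⟩
    exact ⟨_, (sum_ρ_eq_unitsIncl_iff K L b a).mp hb⟩
  · rintro ⟨y, hy⟩
    have hy0 : y ≠ 0 := by
      rintro rfl
      rw [Algebra.norm_zero] at hy
      exact a.ne_zero hy.symm
    refine ⟨(Additive.ofMul (Units.mk0 y hy0) : Additive Lˣ), ?_⟩
    exact (sum_ρ_eq_unitsIncl_iff K L
      ((Additive.ofMul (Units.mk0 y hy0) : Additive Lˣ)) a).mpr hy

/-- Every class in `H²(Gal(L/K), Lˣ)` is a symbol class, for cyclic `L/K` of degree `n` and a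
faithful character `χ`. -/
theorem exists_galSymClass (χ : (L ≃ₐ[K] L) →* Multiplicative (ZMod n))
    (hχ : Function.Injective χ) (hdeg : Module.finrank K L = n)
    (x : H2 (Rep.ofAlgebraAutOnUnits K L : Rep.{0} ℤ (L ≃ₐ[K] L))) :
    ∃ a : Kˣ, x = galSymClass K L χ a := by
  have hcard : Fintype.card (L ≃ₐ[K] L) = n := by
    rw [← Nat.card_eq_fintype_card, IsGalois.card_aut_eq_finrank, hdeg]
  obtain ⟨b, hb, rfl⟩ := exists_symClass _ χ hχ hcard x
  -- an invariant unit comes from `K`
  have hfix : ((Additive.toMul (b : Additive Lˣ) : Lˣ) : L) ∈ (⊥ : IntermediateField K L) := by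
    rw [IsGalois.mem_bot_iff_fixed]
    intro σ
    have := congrArg (fun z : Additive Lˣ => ((Additive.toMul z : Lˣ) : L)) (hb σ)
    exact this
  rw [IntermediateField.mem_bot] at hfix
  obtain ⟨c, hc⟩ := hfix
  have hc0 : c ≠ 0 := by
    rintro rfl
    rw [map_zero] at hc
    exact (Additive.toMul (b : Additive Lˣ) : Lˣ).ne_zero hc.symm
  refine ⟨Units.mk0 c hc0, ?_⟩
  unfold galSymClass
  refine symClass_congr' _ _ _ rfl ?_
  have h : ∀ x y : Additive Lˣ, ((Additive.toMul x : Lˣ) : L) = ((Additive.toMul y : Lˣ) : L) →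
      x = y := fun x y hxy => Additive.toMul.injective (Units.ext hxy)
  apply h
  exact hc.symm

end Norm

section System

/-- A compatible family of injective invariant maps `H²(Gal(L/F), Lˣ) →+ ℚ/ℤ` on the finite
Galois extensions of `F` (hypothesis form of the local invariant map, LCF1 + LCF2). -/
structure InvFamily (F : Type) [Field F] where
  /-- the invariant map of `L/F` -/
  inv : ∀ (L : Type) [Field L] [Algebra F L] [FiniteDimensional F L] [IsGalois F L],
    H2 (Rep.ofAlgebraAutOnUnits F L : Rep.{0} ℤ (L ≃ₐ[F] L)) →+ AddCircle (1 : ℚ)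
  inv_injective : ∀ (L : Type) [Field L] [Algebra F L] [FiniteDimensional F L] [IsGalois F L],
    Function.Injective (inv L)
  inv_infl : ∀ (L L' : Type) [Field L] [Algebra F L] [FiniteDimensional F L] [IsGalois F L]
    [Field L'] [Algebra F L'] [FiniteDimensional F L'] [IsGalois F L'] [Algebra L L']
    [IsScalarTower F L L'] (x : H2 (Rep.ofAlgebraAutOnUnits F L : Rep.{0} ℤ (L ≃ₐ[F] L))),
    inv L' ((galInfl F L L' 2).hom x) = inv L x

variable {F : Type} [Field F] (I : InvFamily F) (n : ℕ) [NeZero n]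

/-- The local symbol `(a, χ)_F := inv_L (a ∪ δχ)` attached to a family of invariant maps. -/
noncomputable def InvFamily.symbol (L : Type) [Field L] [Algebra F L] [FiniteDimensional F L]
    [IsGalois F L] (χ : (L ≃ₐ[F] L) →* Multiplicative (ZMod n)) (a : Fˣ) : AddCircle (1 : ℚ) :=
  I.inv L (galSymClass F L χ a)

/-- The symbols attached to a family of invariant maps form a `SymbolSystem` (the interface of the
tame symbol computation). -/
noncomputable def symbolSystemOfInv : TameSym.SymbolSystem F n (AddCircle (1 : ℚ)) where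
  sym L _ _ _ _ χ a := I.symbol n L χ a
  sym_mul L _ _ _ _ χ a a' := by
    unfold InvFamily.symbol
    rw [galSymClass_mul, map_add]
  sym_char_mul L _ _ _ _ χ χ' a := by
    unfold InvFamily.symbol
    rw [galSymClass_mul_char, map_add]
  sym_inflation L L' _ _ _ _ _ _ _ _ _ _ χ a := by
    unfold InvFamily.symbol
    rw [← galInfl_galSymClass, I.inv_infl]
  sym_norm L _ _ _ _ χ hχ hdeg a y hy := by
    unfold InvFamily.symbol
    rw [(galSymClass_eq_zero_iff F L χ hχ hdeg a).mpr ⟨y, hy⟩, map_zero]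

theorem symbolSystemOfInv_sym (L : Type) [Field L] [Algebra F L] [FiniteDimensional F L]
    [IsGalois F L] (χ : (L ≃ₐ[F] L) →* Multiplicative (ZMod n)) (a : Fˣ) :
    (symbolSystemOfInv I n).sym L χ a = I.inv L (galSymClass F L χ a) := rfl

/-- The norm criterion for the symbol. -/
theorem InvFamily.symbol_eq_zero_iff (L : Type) [Field L] [Algebra F L] [FiniteDimensional F L]
    [IsGalois F L] (χ : (L ≃ₐ[F] L) →* Multiplicative (ZMod n)) (hχ : Function.Injective χ)
    (hdeg : Module.finrank F L = n) (a : Fˣ) :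
    I.symbol n L χ a = 0 ↔ ∃ y : L, Algebra.norm F y = (a : F) := by
  unfold InvFamily.symbol
  rw [← galSymClass_eq_zero_iff F L χ hχ hdeg a]
  exact ⟨fun h => I.inv_injective L (h.trans (map_zero _).symm), fun h => by rw [h, map_zero]⟩

end System

end Fermat.Agent.CFT
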