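import Mathlib
import Fermat.Agent.CFT.Local.GalSymbol
import Fermat.Agent.CFT.Local.UnramLocal

/-!
# CFT (C5s, part 4): the unramified formula for the Galois symbol class

SETTING of `UnramLocal.lean`: `O` a complete DVR, `K = Frac O` of characteristic zero, `L/K` finite.
For `a ∈ Kˣ`, a character `χ : Gal(L/K) → ℤ/n` and `φ ∈ Gal(L/K)`:

  `unramInv O K L φ (a ∪ δχ) = e(L/K) · ord_K(a) · χ(φ) / n  (mod ℤ)`,

in particular `= ord_K(a) · χ(φ) / n` when `L/K` is unramified (`φ` = Frobenius: the formula (S3)).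
-/

set_option autoImplicit false
set_option linter.unusedSectionVars false

open IsLocalRing groupCohomology

namespace Fermat.Agent.CFT

section

variable (O K L : Type) [CommRing O] [IsDomain O] [IsDiscreteValuationRing O] [Field K]
  [Algebra O K] [IsFractionRing O K] [CharZero K] [Field L] [Algebra K L] [FiniteDimensional K L]
  [Algebra O L] [IsScalarTower O K L] [IsAdicComplete (maximalIdeal O) O] {n : ℕ} [NeZero n]

/-- `ord_L(a) = e(L/K) · ord_K(a)` for `a ∈ Kˣ`, in terms of `ordLin`. -/
theorem ordLin_unitsIncl (a : Kˣ) :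
    haveI := intRing_isLocalRing O K L
    ordLin O K L (unitsIncl K L a) = ramIdx O L * dvrOrd O K (a : K) := by
  have := intRing_isDiscreteValuationRing O K L
  have := intRing_isFractionRing O K L
  rw [ordLin_apply]
  refine (unitsOrd_apply O K L
    (Additive.ofMul (Units.map (algebraMap K L : K →* L) a) : Additive Lˣ)).trans ?_
  exact dvrOrd_algebraMap_eq_ramIdx_mul O K L (a : K)

/-- The value of `uinv` (with respect to any `φ`) on the symbol class. -/
theorem unramInv_galSymClass (φ : L ≃ₐ[K] L) (χ : (L ≃ₐ[K] L) →* Multiplicative (ZMod n))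
    (a : Kˣ) :
    haveI := intRing_isLocalRing O K L
    unramInv O K L φ (galSymClass K L χ a)
      = (((((ramIdx O L : ℤ) * dvrOrd O K (a : K) * chLift χ φ : ℤ) : ℚ) / n : ℚ) :
          AddCircle (1 : ℚ)) := by
  unfold unramInv galSymClass
  rw [uinv_symClass, ordLin_unitsIncl]

/-- (S3) **Unramified formula**: `inv (a ∪ δχ) = ord_K(a) · χ(φ) / n` for unramified `L/K`. -/
theorem unramInv_galSymClass_of_unramified (hunr : IsUnramifiedExt O K L) (φ : L ≃ₐ[K] L)
    (χ : (L ≃ₐ[K] L) →* Multiplicative (ZMod n)) (a : Kˣ) :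
    unramInv O K L φ (galSymClass K L χ a)
      = ((((dvrOrd O K (a : K) * chLift χ φ : ℤ) : ℚ) / n : ℚ) : AddCircle (1 : ℚ)) := by
  rw [unramInv_galSymClass]
  have h : haveI := intRing_isLocalRing O K L; ramIdx O L = 1 := hunr
  rw [h]
  push_cast
  rw [one_mul]

end

end Fermat.Agent.CFT
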