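import Mathlib

/-!
# CFT, node C5t (part D1): `-ℓ` is an `(ℓ - 1)`-th power in `ℤ_ℓ[ζ_ℓ]`

`B` a Henselian local domain whose maximal ideal contains the prime number `ℓ`, `z ∈ B` a primitive
`ℓ`-th root of unity.

* `one_sub_mem_maximalIdeal` : `1 - z ∈ 𝔪`.
* `exists_root_neg_prime` : there is `w ≡ 1 mod 𝔪` with `((1 - z) w) ^ (ℓ - 1) = -ℓ`.
* `map_root_eq` : for a ring automorphism `τ` with `τ z = z ^ a` and `β = (1 - z) w`, `w ≡ 1`,
  any `c` with `τ (β ^ m) = c β ^ m` satisfies `c ≡ a ^ m mod 𝔪`.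
-/

set_option autoImplicit false

namespace Fermat.Agent.CFT.TameSym

open IsLocalRing Polynomial Finset

section Root

variable {B : Type} [CommRing B] [IsDomain B] [IsLocalRing B] {ℓ : ℕ}

/-- `1 - z ∈ 𝔪` for a primitive `ℓ`-th root of unity `z` when `ℓ ∈ 𝔪`. -/
theorem one_sub_mem_maximalIdeal (hℓ : ℓ.Prime) (hℓB : (ℓ : B) ∈ maximalIdeal B) {z : B}
    (hz : IsPrimitiveRoot z ℓ) : 1 - z ∈ maximalIdeal B := by
  obtain ⟨k, rfl⟩ : ∃ k, ℓ = k + 1 := ⟨ℓ - 1, (Nat.succ_pred_eq_of_pos hℓ.pos).symm⟩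
  have hprod := hz.prod_one_sub_pow_eq_order
  have hmem : ∏ j ∈ range k, (1 - z ^ (j + 1)) ∈ maximalIdeal B := by
    rw [hprod]; exact_mod_cast hℓB
  obtain ⟨j, hj, hjm⟩ := Ideal.IsPrime.prod_mem_iff.mp hmem
  have hcop : (j + 1).Coprime (k + 1) := by
    apply Nat.Coprime.symm
    rw [hℓ.coprime_iff_not_dvd]
    intro hd
    have := Nat.le_of_dvd (Nat.succ_pos j) hd
    have := mem_range.mp hj
    omega
  obtain ⟨u, hu⟩ := hz.associated_sub_one_pow_sub_one_of_coprime hcop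
  have h1 : z - 1 = (z ^ (j + 1) - 1) * ((u⁻¹ : Bˣ) : B) := by
    rw [← hu, mul_assoc, Units.mul_inv, mul_one]
  have h2 : 1 - z = (1 - z ^ (j + 1)) * ((u⁻¹ : Bˣ) : B) := by
    rw [← neg_sub, h1, ← neg_mul, neg_sub]
  rw [h2]
  exact Ideal.mul_mem_right _ _ hjm

/-- The residue of `z` is `1`. -/
theorem residue_primitiveRoot_eq_one (hℓ : ℓ.Prime) (hℓB : (ℓ : B) ∈ maximalIdeal B) {z : B}
    (hz : IsPrimitiveRoot z ℓ) : residue B z = 1 := by
  have := one_sub_mem_maximalIdeal hℓ hℓB hz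
  rw [← residue_eq_zero_iff, map_sub, map_one, sub_eq_zero] at this
  exact this.symm

/-- `ℓ = (1 - z) ^ (ℓ - 1) * E` with `E ≡ -1 mod 𝔪`. -/
theorem exists_prime_eq_pow_mul (hℓ : ℓ.Prime) (hℓB : (ℓ : B) ∈ maximalIdeal B) {z : B}
    (hz : IsPrimitiveRoot z ℓ) :
    ∃ E : B, (ℓ : B) = (1 - z) ^ (ℓ - 1) * E ∧ residue B E = -1 := by
  have hres := residue_primitiveRoot_eq_one hℓ hℓB hz
  obtain ⟨k, rfl⟩ : ∃ k, ℓ = k + 1 := ⟨ℓ - 1, (Nat.succ_pred_eq_of_pos hℓ.pos).symm⟩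
  have hprod := hz.prod_one_sub_pow_eq_order
  refine ⟨∏ j ∈ range k, ∑ i ∈ range (j + 1), z ^ i, ?_, ?_⟩
  · have : ∀ j ∈ range k, (1 - z ^ (j + 1)) = (1 - z) * ∑ i ∈ range (j + 1), z ^ i := by
      intro j _
      rw [mul_neg_geom_sum]
    rw [Nat.cast_add, Nat.cast_one, ← hprod, prod_congr rfl this, prod_mul_distrib, prod_const,
      card_range, Nat.add_sub_cancel]
  · rw [map_prod]
    have : ∀ j ∈ range k, residue B (∑ i ∈ range (j + 1), z ^ i) =
        ((j + 1 : ℕ) : ResidueField B) := by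
      intro j _
      rw [map_sum]
      simp [hres]
    rw [prod_congr rfl this, ← Nat.cast_prod, prod_range_add_one_eq_factorial]
    -- Wilson
    have : Fact (k + 1).Prime := ⟨hℓ⟩
    have hw : ((k.factorial + 1 : ℕ) : ZMod (k + 1)) = 0 := by
      have := ZMod.wilsons_lemma (p := k + 1)
      rw [Nat.add_sub_cancel] at this
      rw [Nat.cast_add, this]; simp
    obtain ⟨c, hc⟩ := (ZMod.natCast_eq_zero_iff _ _).mp hw
    have hℓ0 : ((k + 1 : ℕ) : ResidueField B) = 0 := by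
      rw [← map_natCast (residue B), residue_eq_zero_iff]; exact hℓB
    have : ((k.factorial + 1 : ℕ) : ResidueField B) = 0 := by
      rw [hc, Nat.cast_mul, hℓ0, zero_mul]
    rw [Nat.cast_add, Nat.cast_one] at this
    exact eq_neg_of_add_eq_zero_left this

/-- Conjugates of `β ^ m`, `β = (1 - z) w` with `w ≡ 1`: if `τ z = z ^ a` and
`τ (β ^ m) = c β ^ m` then `c ≡ a ^ m`. -/
theorem map_root_eq (hℓ : ℓ.Prime) (hℓB : (ℓ : B) ∈ maximalIdeal B) {z : B}
    (hz : IsPrimitiveRoot z ℓ) {w : B} (hw : w - 1 ∈ maximalIdeal B) (τ : B ≃+* B) {a : ℕ}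
    (hτ : τ z = z ^ a) (m : ℕ) {c : B}
    (hc : τ (((1 - z) * w) ^ m) = c * ((1 - z) * w) ^ m) :
    residue B c = (a : ResidueField B) ^ m := by
  have hres := residue_primitiveRoot_eq_one hℓ hℓB hz
  have hw1 : residue B w = 1 := by
    rw [← residue_eq_zero_iff, map_sub, map_one, sub_eq_zero] at hw
    exact hw
  have hτw : residue B (τ w) = 1 := by
    have h1 : τ w - 1 = τ (w - 1) := by rw [map_sub, map_one]
    have h2 : τ (w - 1) ∈ maximalIdeal B := by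
      rw [mem_maximalIdeal, mem_nonunits_iff, isUnit_map_iff]
      exact hw
    rw [← h1, ← residue_eq_zero_iff, map_sub, map_one, sub_eq_zero] at h2
    exact h2
  have hz1 : 1 - z ≠ 0 := by
    rw [sub_ne_zero]
    exact (hz.ne_one hℓ.one_lt).symm
  have hτβ : τ ((1 - z) * w) = (1 - z) * ((∑ i ∈ range a, z ^ i) * τ w) := by
    rw [map_mul, map_sub, map_one, hτ, ← mul_neg_geom_sum, mul_assoc]
  rw [map_pow, hτβ, mul_pow, mul_pow (1 - z) w, ← mul_assoc c, mul_comm c, mul_assoc] at hc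
  have hc' := mul_left_cancel₀ (pow_ne_zero m hz1) hc
  have := congrArg (residue B) hc'
  rw [map_pow, map_mul, map_mul, map_pow, hτw, hw1, map_sum] at this
  simp only [map_pow, hres, one_pow, sum_const, card_range, nsmul_eq_mul, mul_one] at this
  exact this.symm

end Root

section Hensel

variable {B : Type} [CommRing B] [IsDomain B] [HenselianLocalRing B] {ℓ : ℕ}

/-- There is `w ≡ 1 mod 𝔪` with `((1 - z) w) ^ (ℓ - 1) = -ℓ`. -/
theorem exists_root_neg_prime (hℓ : ℓ.Prime) (hℓB : (ℓ : B) ∈ maximalIdeal B) {z : B}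
    (hz : IsPrimitiveRoot z ℓ) :
    ∃ w : B, w - 1 ∈ maximalIdeal B ∧ ((1 - z) * w) ^ (ℓ - 1) = -(ℓ : B) := by
  obtain ⟨E, hE, hres⟩ := exists_prime_eq_pow_mul hℓ hℓB hz
  have hk : ℓ - 1 ≠ 0 := Nat.sub_ne_zero_of_lt hℓ.one_lt
  obtain ⟨w, hw, hw1⟩ := HenselianLocalRing.is_henselian (X ^ (ℓ - 1) - C (-E))
    (monic_X_pow_sub_C _ hk) 1 (by
      rw [eval_sub, eval_pow, eval_X, eval_C, one_pow, sub_neg_eq_add, ← residue_eq_zero_iff,
        map_add, map_one, hres, add_neg_cancel]) (by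
      rw [derivative_sub, derivative_C, sub_zero, derivative_X_pow, eval_mul, eval_C, eval_pow,
        eval_X, one_pow, mul_one, Nat.cast_sub hℓ.one_le, Nat.cast_one, ← neg_sub, IsUnit.neg_iff]
      exact isUnit_one_sub_self_of_mem_nonunits _ hℓB)
  refine ⟨w, hw1, ?_⟩
  rw [IsRoot.def, eval_sub, eval_pow, eval_X, eval_C, sub_eq_zero] at hw
  rw [mul_pow, hw, hE]
  ring

end Hensel

end Fermat.Agent.CFT.TameSym
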