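import Mathlib
import Fermat.Agent.CFT.Local.TameUnram
import Fermat.Agent.CFT.Local.TameCycloRoot

/-!
# CFT, node C5t (part D2): the tame formula for `ℚ_ℓ(ζ_ℓ)/ℚ_ℓ` (T4)

* `exists_kummer_root_cyclo` (general Layer-B setting with residue characteristic `ℓ`): if `L`
  contains a primitive `ℓ`-th root of unity `z` and `n m = ℓ - 1`, there is `β ∈ L` with
  `β ^ n = -ℓ` whose Kummer character satisfies `ζ₀ ^ χ_β(σ) ≡ a ^ m` whenever `σ z = z ^ a`.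
-/

set_option autoImplicit false
set_option linter.unusedSectionVars false
set_option linter.style.haveILetI false

namespace Fermat.Agent.CFT.TameSym

open IsLocalRing Polynomial Fermat.Agent.CFT

section Setting

variable {O K : Type} [CommRing O] [IsDomain O] [IsDiscreteValuationRing O]
  [IsAdicComplete (maximalIdeal O) O] [Finite (ResidueField O)]
  [Field K] [Algebra O K] [IsFractionRing O K] [CharZero K]
  {L : Type} [Field L] [Algebra K L] [FiniteDimensional K L] [Algebra O L] [IsScalarTower O K L]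
  [IsLocalRing (integralClosure O L)] [IsLocalHom (algebraMap O (integralClosure O L))]

/-- `ℚ_ℓ(ζ_ℓ) ∋ (-ℓ)^{1/n}` for `n ∣ ℓ - 1`, with its Kummer character. -/
theorem exists_kummer_root_cyclo {ℓ : ℕ} (hℓ : ℓ.Prime) (hℓO : (ℓ : O) ∈ maximalIdeal O)
    {n m : ℕ} [NeZero n] (hnm : n * m = ℓ - 1) {ζ : K} (hζ : IsPrimitiveRoot ζ n) {ζ₀ : O}
    (hζ₀ : algebraMap O K ζ₀ = ζ) {z : L} (hz : IsPrimitiveRoot z ℓ) :
    ∃ (β : L) (hβ0 : β ≠ 0) (hmem : β ^ n ∈ (algebraMap K L).range),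
      β ^ n = algebraMap K L (-(ℓ : K)) ∧
      ∀ (σ : L ≃ₐ[K] L) (a : ℕ), σ z = z ^ a →
        ζ₀ ^ (kummerChar hζ hβ0 hmem σ).toAdd.val - (a : O) ^ m ∈ maximalIdeal O := by
  haveI := intRing_henselianLocalRing O K L
  have hzint : IsIntegral O z := by
    apply IsIntegral.of_pow hℓ.pos
    rw [hz.pow_eq_one]
    exact isIntegral_one
  let zB : integralClosure O L := ⟨z, hzint⟩
  have hzB : IsPrimitiveRoot zB ℓ :=
    IsPrimitiveRoot.of_map_of_injective (f := (integralClosure O L).val) hz Subtype.val_injective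
  have hℓB : ((ℓ : ℕ) : integralClosure O L) ∈ maximalIdeal (integralClosure O L) := by
    rw [← map_natCast (algebraMap O (integralClosure O L))]
    exact map_nonunit _ _ hℓO
  obtain ⟨w, hw1, hw⟩ := exists_root_neg_prime hℓ hℓB hzB
  let βB : integralClosure O L := ((1 - zB) * w) ^ m
  have hβBn : βB ^ n = -((ℓ : ℕ) : integralClosure O L) := by
    rw [← hw, ← pow_mul, mul_comm m n, hnm]
  have hℓL : ((ℓ : ℕ) : L) ≠ 0 := by
    haveI : CharZero L := charZero_of_injective_algebraMap (algebraMap K L).injective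
    exact Nat.cast_ne_zero.mpr hℓ.ne_zero
  have hβn : (βB : L) ^ n = algebraMap K L (-(ℓ : K)) := by
    have := congrArg (fun x : integralClosure O L => (x : L)) hβBn
    simpa using this
  have hβ0 : (βB : L) ≠ 0 := by
    intro h
    rw [h, zero_pow (NeZero.ne n), map_neg, map_natCast] at hβn
    exact hℓL (neg_eq_zero.mp hβn.symm)
  have hmem : (βB : L) ^ n ∈ (algebraMap K L).range := ⟨_, hβn.symm⟩
  refine ⟨(βB : L), hβ0, hmem, hβn, ?_⟩
  intro σ a hσ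
  set k := (kummerChar hζ hβ0 hmem σ).toAdd.val with hk
  have hspec := kummerChar_spec hζ hβ0 hmem σ
  let τ : integralClosure O L ≃+* integralClosure O L :=
    (galRestrict O K L (integralClosure O L) σ).toRingEquiv
  have hτz : τ zB = zB ^ a := by
    apply Subtype.ext
    change ((galRestrict O K L (integralClosure O L) σ zB : integralClosure O L) : L) = _
    rw [galRestrict_coe]
    simpa using hσ
  have hτβ : τ (((1 - zB) * w) ^ m) =
      algebraMap O (integralClosure O L) (ζ₀ ^ k) * ((1 - zB) * w) ^ m := by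
    apply Subtype.ext
    change ((galRestrict O K L (integralClosure O L) σ βB : integralClosure O L) : L) = _
    have hζpow : algebraMap K L (ζ ^ k) = algebraMap O L (ζ₀ ^ k) := by
      rw [IsScalarTower.algebraMap_apply O K L, map_pow (algebraMap O K), hζ₀]
    rw [galRestrict_coe, hspec, hζpow]
    rfl
  have hres := map_root_eq hℓ hℓB hzB hw1 τ hτz m hτβ
  have hmemB : algebraMap O (integralClosure O L) (ζ₀ ^ k - (a : O) ^ m) ∈
      maximalIdeal (integralClosure O L) := by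
    rw [← residue_eq_zero_iff, map_sub, map_sub, hres, map_pow, map_pow, map_natCast, map_natCast,
      sub_self]
  exact mem_maximalIdeal_of_algebraMap_mem O L hmemB

end Setting

section SymPow

variable {F : Type} [Field F] {n : ℕ} {A : Type} [AddCommGroup A] (S : SymbolSystem F n A)
  (L : Type) [Field L] [Algebra F L] [FiniteDimensional F L] [IsGalois F L]

theorem sym_char_one (a : Fˣ) : S.sym L 1 a = 0 := by
  have := S.sym_char_mul L 1 1 a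
  rw [mul_one] at this
  exact left_eq_add.mp this

theorem sym_char_pow (χ : (L ≃ₐ[F] L) →* Multiplicative (ZMod n)) (c : ℕ) (a : Fˣ) :
    S.sym L (χ ^ c) a = c • S.sym L χ a := by
  induction c with
  | zero => rw [pow_zero, zero_smul]; exact sym_char_one S L a
  | succ c ih => rw [pow_succ, S.sym_char_mul, ih, succ_nsmul]

end SymPow

section Padic

variable (ℓ : ℕ) [hℓ : Fact ℓ.Prime]

theorem card_residueField_padicInt : Nat.card (ResidueField ℤ_[ℓ]) = ℓ := by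
  rw [Nat.card_congr (PadicInt.residueField (p := ℓ)).toEquiv, Nat.card_zmod]

variable {ℓ}

theorem mem_maximalIdeal_padicInt_iff (x : ℤ_[ℓ]) :
    x ∈ maximalIdeal ℤ_[ℓ] ↔ PadicInt.toZMod x = 0 := by
  rw [← PadicInt.ker_toZMod, RingHom.mem_ker]

/-- A primitive `n`-th root of unity of `ℤ_ℓ` (`n m = ℓ - 1`) reducing to `g ^ m`. -/
theorem exists_primitiveRoot_padicInt {n m : ℕ} (hnm : n * m = ℓ - 1) (g : (ZMod ℓ)ˣ)
    (hg : orderOf g = ℓ - 1) :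
    ∃ ζ₀ : ℤ_[ℓ], IsPrimitiveRoot ζ₀ n ∧ PadicInt.toZMod ζ₀ = (g : ZMod ℓ) ^ m := by
  haveI := henselianLocalRing_of_isAdicComplete ℤ_[ℓ]
  have hk : ℓ - 1 ≠ 0 := Nat.sub_ne_zero_of_lt hℓ.out.one_lt
  set a₀ : ℤ_[ℓ] := (((g : ZMod ℓ).val : ℕ) : ℤ_[ℓ]) with ha₀
  have hres : PadicInt.toZMod a₀ = (g : ZMod ℓ) := by
    rw [ha₀, map_natCast, ZMod.natCast_zmod_val]
  have hg0 : (g : ZMod ℓ) ≠ 0 := g.ne_zero
  obtain ⟨ζ₁, hroot, hclose⟩ := HenselianLocalRing.is_henselian (X ^ (ℓ - 1) - C (1 : ℤ_[ℓ]))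
    (monic_X_pow_sub_C _ hk) a₀ (by
      rw [mem_maximalIdeal_padicInt_iff, eval_sub, eval_pow, eval_X, eval_C, map_sub, map_pow,
        map_one, hres, ZMod.pow_card_sub_one_eq_one hg0, sub_self]) (by
      rw [derivative_sub, derivative_C, sub_zero, derivative_X_pow, eval_mul, eval_C, eval_pow,
        eval_X]
      have : ((ℓ - 1 : ℕ) : ℤ_[ℓ]) * a₀ ^ (ℓ - 1 - 1) ∉ maximalIdeal ℤ_[ℓ] := by
        rw [mem_maximalIdeal_padicInt_iff, map_mul, map_pow, map_natCast, hres,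
          Nat.cast_sub hℓ.out.one_le, Nat.cast_one, ZMod.natCast_self, zero_sub]
        exact mul_ne_zero (neg_ne_zero.mpr one_ne_zero) (pow_ne_zero _ hg0)
      rw [mem_maximalIdeal, mem_nonunits_iff, not_not] at this
      exact_mod_cast this)
  have hζ₁res : PadicInt.toZMod ζ₁ = (g : ZMod ℓ) := by
    rw [mem_maximalIdeal_padicInt_iff, map_sub, sub_eq_zero] at hclose
    rw [hclose, hres]
  rw [IsRoot.def, eval_sub, eval_pow, eval_X, eval_C, sub_eq_zero] at hroot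
  have hprim : IsPrimitiveRoot ζ₁ (ℓ - 1) := by
    rw [IsPrimitiveRoot.iff_def]
    refine ⟨hroot, fun l hl => ?_⟩
    have h1 := congrArg PadicInt.toZMod hl
    rw [map_pow, map_one, hζ₁res] at h1
    rw [← hg]
    apply orderOf_dvd_of_pow_eq_one
    apply Units.ext
    rw [Units.val_pow_eq_pow_val, h1, Units.val_one]
  refine ⟨ζ₁ ^ m, hprim.pow (Nat.pos_of_ne_zero hk) (by rw [mul_comm]; exact hnm.symm), ?_⟩
  rw [map_pow, hζ₁res]

/-- **(T4)** The tame formula for `ℚ_ℓ(ζ_ℓ)/ℚ_ℓ`: for a symbol system over `ℚ_ℓ` satisfying the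
unramified formula, a finite Galois `L/ℚ_ℓ` containing a primitive `ℓ`-th root of unity `z`, the
mod-`ℓ` cyclotomic character `ω` of `L` and any `ψ : (ℤ/ℓ)ˣ → ℤ/n` (`n ∣ ℓ - 1`):
`(u, ψ ∘ ω) = - ι (ψ (u mod ℓ))` for `u ∈ ℤ_ℓˣ` and `(ℓ, ψ ∘ ω) = 0`. -/
theorem sym_cyclo {n : ℕ} [NeZero n] {A : Type} [AddCommGroup A] (S : SymbolSystem ℚ_[ℓ] n A)
    {ι : ZMod n →+ A} (hS : UnramFormula ℤ_[ℓ] S ι) (hn : n ∣ ℓ - 1)
    (L : Type) [Field L] [Algebra ℚ_[ℓ] L] [FiniteDimensional ℚ_[ℓ] L] [IsGalois ℚ_[ℓ] L]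
    {z : L} (hz : IsPrimitiveRoot z ℓ) (ω : (L ≃ₐ[ℚ_[ℓ]] L) →* (ZMod ℓ)ˣ)
    (hω : ∀ σ, σ z = z ^ ((ω σ : ZMod ℓ).val)) (ψ : (ZMod ℓ)ˣ →* Multiplicative (ZMod n)) :
    (∀ (u : ℤ_[ℓ]ˣ) (a : ℚ_[ℓ]ˣ), (a : ℚ_[ℓ]) = ((u : ℤ_[ℓ]) : ℚ_[ℓ]) →
      S.sym L (ψ.comp ω) a =
        - ι (ψ (Units.map ((PadicInt.toZMod (p := ℓ) : ℤ_[ℓ] →+* ZMod ℓ) : ℤ_[ℓ] →* ZMod ℓ)
          u)).toAdd) ∧
    (∀ a : ℚ_[ℓ]ˣ, (a : ℚ_[ℓ]) = (ℓ : ℚ_[ℓ]) → S.sym L (ψ.comp ω) a = 0) := by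
  obtain ⟨m, hm⟩ := hn
  have hk : ℓ - 1 ≠ 0 := Nat.sub_ne_zero_of_lt hℓ.out.one_lt
  have hm0 : m ≠ 0 := by
    rintro rfl
    exact hk (by rw [hm, mul_zero])
  -- a generator of `(ℤ/ℓ)ˣ` and the corresponding root of unity
  obtain ⟨g, hg⟩ := IsCyclic.exists_generator (α := (ZMod ℓ)ˣ)
  have hgord : orderOf g = ℓ - 1 := by
    rw [orderOf_eq_card_of_forall_mem_zpowers hg, Nat.card_eq_fintype_card, ZMod.card_units]
  obtain ⟨ζ₀, hζ₀prim, hζ₀res⟩ := exists_primitiveRoot_padicInt hm.symm g hgord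
  have hζ : IsPrimitiveRoot (algebraMap ℤ_[ℓ] ℚ_[ℓ] ζ₀) n :=
    hζ₀prim.map_of_injective (IsFractionRing.injective ℤ_[ℓ] ℚ_[ℓ])
  have hgpow : ∀ j : ℕ, ((g : ZMod ℓ) ^ m) ^ j = ((g ^ (m * j) : (ZMod ℓ)ˣ) : ZMod ℓ) := by
    intro j
    rw [Units.val_pow_eq_pow_val, pow_mul]
  -- the setting for `L`
  letI : Algebra ℤ_[ℓ] L := ((algebraMap ℚ_[ℓ] L).comp (algebraMap ℤ_[ℓ] ℚ_[ℓ])).toAlgebra
  haveI : IsScalarTower ℤ_[ℓ] ℚ_[ℓ] L := IsScalarTower.of_algebraMap_eq fun _ => rfl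
  haveI := intRing_isLocalRing ℤ_[ℓ] ℚ_[ℓ] L
  haveI := intRing_isLocalHom ℤ_[ℓ] ℚ_[ℓ] L
  have hℓO : ((ℓ : ℕ) : ℤ_[ℓ]) ∈ maximalIdeal ℤ_[ℓ] := by
    rw [PadicInt.maximalIdeal_eq_span_p]; exact Ideal.mem_span_singleton_self _
  obtain ⟨β, hβ0, hmem, hβn, hχ⟩ := exists_kummer_root_cyclo (O := ℤ_[ℓ]) (K := ℚ_[ℓ])
    hℓ.out hℓO hm.symm hζ rfl hz
  set χ := kummerChar hζ hβ0 hmem with hχdef
  -- `-ℓ` as a unit of `ℚ_ℓ`
  have hℓ0 : (-(ℓ : ℚ_[ℓ])) ≠ 0 := neg_ne_zero.mpr (Nat.cast_ne_zero.mpr hℓ.out.ne_zero)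
  set negℓ : ℚ_[ℓ]ˣ := Units.mk0 (-(ℓ : ℚ_[ℓ])) hℓ0 with hnegℓ
  have hsymχ : ∀ a, kummerSym S hζ a negℓ = S.sym L χ a := fun a =>
    kummerSym_eq S hζ a negℓ L hβn hβ0 hmem
  have hπ₀ : Irreducible (-((ℓ : ℕ) : ℤ_[ℓ])) := by
    rw [← neg_one_mul]
    exact (irreducible_units_mul (-1 : ℤ_[ℓ]ˣ)).mpr PadicInt.irreducible_p
  have hπ : (negℓ : ℚ_[ℓ]) = algebraMap ℤ_[ℓ] ℚ_[ℓ] (-((ℓ : ℕ) : ℤ_[ℓ])) := by
    rw [hnegℓ, Units.val_mk0, map_neg, map_natCast]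
  have hirr : Irreducible (kpoly n (negℓ : ℚ_[ℓ])) := by
    rw [hπ]; exact irreducible_kpoly_of_irreducible hπ₀
  have hcard := card_residueField_padicInt ℓ
  have hn' : n ∣ Nat.card (ResidueField ℤ_[ℓ]) - 1 := by rw [hcard, hm]; exact dvd_mul_right n m
  have hexp : (Nat.card (ResidueField ℤ_[ℓ]) - 1) / n = m := by
    rw [hcard, hm, Nat.mul_div_cancel_left m (NeZero.pos n)]
  -- Claim A
  have hA : ∀ σ, ((g : ZMod ℓ) ^ m) ^ (χ σ).toAdd.val = ((ω σ : (ZMod ℓ)ˣ) : ZMod ℓ) ^ m := by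
    intro σ
    have := hχ σ _ (hω σ)
    rw [mem_maximalIdeal_padicInt_iff, map_sub, map_pow, map_pow, map_natCast, hζ₀res,
      ZMod.natCast_zmod_val, sub_eq_zero] at this
    exact this
  -- Claims C and E
  set c := (ψ g).toAdd.val with hc
  have hpowers : ∀ x : (ZMod ℓ)ˣ, ∃ j : ℕ, g ^ j = x := fun x =>
    (mem_powers_iff_mem_zpowers.mpr (hg x))
  have hC : ∀ (x : (ZMod ℓ)ˣ) (κ : ZMod n),
      ((g : ZMod ℓ) ^ m) ^ κ.val = (x : ZMod ℓ) ^ m → (ψ x).toAdd = c • κ := by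
    intro x κ hκ
    obtain ⟨j, rfl⟩ := hpowers x
    have h1 : g ^ (m * κ.val) = g ^ (j * m) := by
      apply Units.ext
      rw [← hgpow, hκ, Units.val_pow_eq_pow_val, Units.val_pow_eq_pow_val, ← pow_mul]
    rw [pow_eq_pow_iff_modEq, hgord, hm, mul_comm m κ.val] at h1
    have h2 : κ.val ≡ j [MOD n] := Nat.ModEq.mul_right_cancel' hm0 h1
    have h3 : κ = (j : ZMod n) := by
      rw [← ZMod.natCast_zmod_val κ]
      exact (ZMod.natCast_eq_natCast_iff _ _ _).mpr h2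
    rw [map_pow, toAdd_pow, h3, nsmul_eq_mul, nsmul_eq_mul, hc, ZMod.natCast_zmod_val, mul_comm]
  have hE : ∀ x : (ZMod ℓ)ˣ, ∃ κ : ZMod n, ((g : ZMod ℓ) ^ m) ^ κ.val = (x : ZMod ℓ) ^ m := by
    intro x
    obtain ⟨j, rfl⟩ := hpowers x
    refine ⟨(j : ZMod n), ?_⟩
    have h1 : ((g : ZMod ℓ) ^ m) ^ n = 1 := by
      rw [← pow_mul, mul_comm, ← hm, ZMod.pow_card_sub_one_eq_one g.ne_zero]
    rw [ZMod.val_natCast, ← pow_eq_pow_mod _ h1, Units.val_pow_eq_pow_val, ← pow_mul, ← pow_mul,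
      mul_comm]
  -- Claim D
  have hD : ψ.comp ω = χ ^ c := by
    refine MonoidHom.ext fun σ => ?_
    have := hC (ω σ) (χ σ).toAdd (hA σ)
    rw [MonoidHom.comp_apply, MonoidHom.pow_apply]
    apply Multiplicative.toAdd.injective
    rw [this, toAdd_pow]
  have hpow : ∀ a, S.sym L (ψ.comp ω) a = c • S.sym L χ a := by
    intro a
    rw [hD]; exact sym_char_pow S L χ c a
  constructor
  · intro u a ha
    obtain ⟨κ, hκ⟩ := hE (Units.map ((PadicInt.toZMod (p := ℓ) : ℤ_[ℓ] →+* ZMod ℓ) :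
      ℤ_[ℓ] →* ZMod ℓ) u)
    have hκ' : ζ₀ ^ κ.val - (u : ℤ_[ℓ]) ^ ((Nat.card (ResidueField ℤ_[ℓ]) - 1) / n) ∈
        maximalIdeal ℤ_[ℓ] := by
      rw [hexp, mem_maximalIdeal_padicInt_iff, map_sub, map_pow, map_pow, hζ₀res, sub_eq_zero]
      exact hκ
    rw [hpow, ← hsymχ, kummerSym_unit_uniformizer_eq S hS hζ rfl hn' u.isUnit hπ₀ a negℓ ha hπ hκ',
      hC _ κ hκ, smul_neg, map_nsmul]
  · intro a ha
    have hneg : a = -negℓ := by
      apply Units.ext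
      rw [Units.val_neg, hnegℓ, Units.val_mk0, neg_neg, ha]
    rw [hpow, ← hsymχ, hneg, kummerSym_neg_self_of_irreducible S hζ negℓ hirr, smul_zero]

end Padic

end Fermat.Agent.CFT.TameSym
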