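import Mathlib
import Fermat.Agent.CFT.Local.TameCyclo

/-!
# CFT, node C5t (part D3): `ℚ_ℓ(ζ_ℓ)/ℚ_ℓ` has degree `ℓ - 1`; (T4) for arbitrary characters

* `exists_root_neg_prime_padic` : a finite extension `M ∋ ζ_ℓ` of `ℚ_ℓ` contains a root of
  `X ^ (ℓ - 1) + ℓ`.
* `le_finrank_cyclo_padic` : `ℓ - 1 ≤ [M : ℚ_ℓ]`.
* `autToPow_bijective_padic`, `finrank_cyclo_padic` : for `M = ℚ_ℓ(ζ_ℓ)` the cyclotomic character
  `Gal(M/ℚ_ℓ) → (ℤ/ℓ)ˣ` is bijective and `[M : ℚ_ℓ] = ℓ - 1`.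
* `sym_cyclo_char` : (T4) for an arbitrary character `χ` of `Gal(ℚ_ℓ(ζ_ℓ)/ℚ_ℓ)` with values in
  `ℤ/n`, `n ∣ ℓ - 1`.
-/

set_option autoImplicit false
set_option linter.unusedSectionVars false
set_option linter.style.haveILetI false

namespace Fermat.Agent.CFT.TameSym

open IsLocalRing Polynomial Fermat.Agent.CFT

section Padic

variable {ℓ : ℕ} [hℓ : Fact ℓ.Prime]
  (M : Type) [Field M] [Algebra ℚ_[ℓ] M] [FiniteDimensional ℚ_[ℓ] M]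

/-- A finite extension of `ℚ_ℓ` containing a primitive `ℓ`-th root of unity contains a root of
`X ^ (ℓ - 1) + ℓ`. -/
theorem exists_root_neg_prime_padic {z : M} (hz : IsPrimitiveRoot z ℓ) :
    ∃ β : M, β ^ (ℓ - 1) = algebraMap ℚ_[ℓ] M (-(ℓ : ℚ_[ℓ])) := by
  have hk : ℓ - 1 ≠ 0 := Nat.sub_ne_zero_of_lt hℓ.out.one_lt
  haveI : NeZero (ℓ - 1) := ⟨hk⟩
  obtain ⟨g, hg⟩ := IsCyclic.exists_generator (α := (ZMod ℓ)ˣ)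
  have hgord : orderOf g = ℓ - 1 := by
    rw [orderOf_eq_card_of_forall_mem_zpowers hg, Nat.card_eq_fintype_card, ZMod.card_units]
  obtain ⟨ζ₀, hζ₀prim, -⟩ := exists_primitiveRoot_padicInt (n := ℓ - 1) (m := 1) (mul_one _) g hgord
  have hζ : IsPrimitiveRoot (algebraMap ℤ_[ℓ] ℚ_[ℓ] ζ₀) (ℓ - 1) :=
    hζ₀prim.map_of_injective (IsFractionRing.injective ℤ_[ℓ] ℚ_[ℓ])
  letI : Algebra ℤ_[ℓ] M := ((algebraMap ℚ_[ℓ] M).comp (algebraMap ℤ_[ℓ] ℚ_[ℓ])).toAlgebra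
  haveI : IsScalarTower ℤ_[ℓ] ℚ_[ℓ] M := IsScalarTower.of_algebraMap_eq fun _ => rfl
  haveI := intRing_isLocalRing ℤ_[ℓ] ℚ_[ℓ] M
  haveI := intRing_isLocalHom ℤ_[ℓ] ℚ_[ℓ] M
  have hℓO : ((ℓ : ℕ) : ℤ_[ℓ]) ∈ maximalIdeal ℤ_[ℓ] := by
    rw [PadicInt.maximalIdeal_eq_span_p]; exact Ideal.mem_span_singleton_self _
  obtain ⟨β, -, -, hβn, -⟩ := exists_kummer_root_cyclo (O := ℤ_[ℓ]) (K := ℚ_[ℓ])
    hℓ.out hℓO (mul_one (ℓ - 1)) hζ rfl hz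
  exact ⟨β, hβn⟩

/-- `ℓ - 1 ≤ [M : ℚ_ℓ]` if `M ∋ ζ_ℓ`. -/
theorem le_finrank_cyclo_padic {z : M} (hz : IsPrimitiveRoot z ℓ) :
    ℓ - 1 ≤ Module.finrank ℚ_[ℓ] M := by
  have hk : ℓ - 1 ≠ 0 := Nat.sub_ne_zero_of_lt hℓ.out.one_lt
  haveI : NeZero (ℓ - 1) := ⟨hk⟩
  obtain ⟨β, hβ⟩ := exists_root_neg_prime_padic M hz
  have hπ₀ : Irreducible (-((ℓ : ℕ) : ℤ_[ℓ])) := by
    rw [← neg_one_mul]
    exact (irreducible_units_mul (-1 : ℤ_[ℓ]ˣ)).mpr PadicInt.irreducible_p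
  have hirr : Irreducible (kpoly (ℓ - 1) (-(ℓ : ℚ_[ℓ]))) := by
    have := irreducible_kpoly_of_irreducible (K := ℚ_[ℓ]) (n := ℓ - 1) hπ₀
    rwa [map_neg, map_natCast] at this
  have hmonic : (kpoly (ℓ - 1) (-(ℓ : ℚ_[ℓ]))).Monic := monic_X_pow_sub_C _ hk
  have hroot : aeval β (kpoly (ℓ - 1) (-(ℓ : ℚ_[ℓ]))) = 0 := by
    simp [kpoly, hβ]
  have hmin := minpoly.eq_of_irreducible_of_monic hirr hroot hmonic
  have hdeg : (kpoly (ℓ - 1) (-(ℓ : ℚ_[ℓ]))).natDegree = ℓ - 1 := natDegree_X_pow_sub_C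
  rw [← hdeg, hmin]
  exact minpoly.natDegree_le β

variable [IsGalois ℚ_[ℓ] M]

/-- For `M = ℚ_ℓ(ζ_ℓ)` the cyclotomic character is bijective. -/
theorem autToPow_bijective_padic {z : M} (hz : IsPrimitiveRoot z ℓ)
    (htop : IntermediateField.adjoin ℚ_[ℓ] {z} = ⊤) :
    Function.Bijective (hz.autToPow ℚ_[ℓ]) := by
  have hinj : Function.Injective (hz.autToPow ℚ_[ℓ]) := by
    intro σ τ hστ
    have h1 : σ z = τ z := by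
      rw [← hz.autToPow_spec ℚ_[ℓ] σ, ← hz.autToPow_spec ℚ_[ℓ] τ, hστ]
    have halg : IsAlgebraic ℚ_[ℓ] z := Algebra.IsAlgebraic.isAlgebraic z
    have hadj : Algebra.adjoin ℚ_[ℓ] {z} = ⊤ := by
      have := IntermediateField.adjoin_simple_toSubalgebra_of_isAlgebraic halg
      rw [← this, htop, IntermediateField.top_toSubalgebra]
    have : (σ : M →ₐ[ℚ_[ℓ]] M) = (τ : M →ₐ[ℚ_[ℓ]] M) := by
      refine AlgHom.ext_of_adjoin_eq_top hadj ?_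
      intro x hx
      rw [Set.mem_singleton_iff] at hx
      subst hx
      simpa using h1
    ext x
    have := congrArg (fun f : M →ₐ[ℚ_[ℓ]] M => f x) this
    simpa using this
  apply hinj.bijective_of_nat_card_le
  rw [Nat.card_eq_fintype_card (α := (ZMod ℓ)ˣ), ZMod.card_units, IsGalois.card_aut_eq_finrank]
  exact le_finrank_cyclo_padic M hz

/-- `[ℚ_ℓ(ζ_ℓ) : ℚ_ℓ] = ℓ - 1`. -/
theorem finrank_cyclo_padic {z : M} (hz : IsPrimitiveRoot z ℓ)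
    (htop : IntermediateField.adjoin ℚ_[ℓ] {z} = ⊤) : Module.finrank ℚ_[ℓ] M = ℓ - 1 := by
  rw [← IsGalois.card_aut_eq_finrank,
    Nat.card_congr (Equiv.ofBijective _ (autToPow_bijective_padic M hz htop)),
    Nat.card_eq_fintype_card, ZMod.card_units]

/-- Every exponent prime to `ℓ` is realised by an automorphism of `ℚ_ℓ(ζ_ℓ)`. -/
theorem exists_aut_pow_padic {z : M} (hz : IsPrimitiveRoot z ℓ)
    (htop : IntermediateField.adjoin ℚ_[ℓ] {z} = ⊤) (x : (ZMod ℓ)ˣ) :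
    ∃ σ : M ≃ₐ[ℚ_[ℓ]] M, σ z = z ^ (x : ZMod ℓ).val := by
  obtain ⟨σ, rfl⟩ := (autToPow_bijective_padic M hz htop).2 x
  exact ⟨σ, (hz.autToPow_spec ℚ_[ℓ] σ).symm⟩

/-- **(T4)** for an arbitrary character of `Gal(ℚ_ℓ(ζ_ℓ)/ℚ_ℓ)` with values in `ℤ/n`, `n ∣ ℓ - 1`:
`(u, χ) = - ι (χ σ_u)` where `σ_u z = z ^ (u mod ℓ)`, and `(ℓ, χ) = 0`. -/
theorem sym_cyclo_char {n : ℕ} [NeZero n] {A : Type} [AddCommGroup A]
    (S : SymbolSystem ℚ_[ℓ] n A) {ι : ZMod n →+ A} (hS : UnramFormula ℤ_[ℓ] S ι)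
    (hn : n ∣ ℓ - 1) {z : M} (hz : IsPrimitiveRoot z ℓ)
    (htop : IntermediateField.adjoin ℚ_[ℓ] {z} = ⊤)
    (χ : (M ≃ₐ[ℚ_[ℓ]] M) →* Multiplicative (ZMod n)) :
    (∀ (u : ℤ_[ℓ]ˣ) (σ : M ≃ₐ[ℚ_[ℓ]] M), σ z = z ^ (PadicInt.toZMod (u : ℤ_[ℓ])).val →
      S.sym M χ (Units.map ((PadicInt.Coe.ringHom : ℤ_[ℓ] →+* ℚ_[ℓ]) : ℤ_[ℓ] →* ℚ_[ℓ]) u) =
        - ι (χ σ).toAdd) ∧
    (∀ a : ℚ_[ℓ]ˣ, (a : ℚ_[ℓ]) = (ℓ : ℚ_[ℓ]) → S.sym M χ a = 0) := by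
  have hbij := autToPow_bijective_padic M hz htop
  set e : (M ≃ₐ[ℚ_[ℓ]] M) ≃* (ZMod ℓ)ˣ := MulEquiv.ofBijective (hz.autToPow ℚ_[ℓ]) hbij with he
  set ψ : (ZMod ℓ)ˣ →* Multiplicative (ZMod n) := χ.comp e.symm.toMonoidHom with hψ
  have hcomp : ψ.comp (hz.autToPow ℚ_[ℓ]) = χ := by
    refine MonoidHom.ext fun σ => ?_
    rw [hψ, MonoidHom.comp_apply, MonoidHom.comp_apply]
    congr 1
    exact e.symm_apply_apply σ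
  obtain ⟨h1, h2⟩ := sym_cyclo S hS hn M hz (hz.autToPow ℚ_[ℓ])
    (fun σ => (hz.autToPow_spec ℚ_[ℓ] σ).symm) ψ
  rw [hcomp] at h1 h2
  refine ⟨?_, h2⟩
  intro u σ hσ
  rw [h1 u _ rfl]
  congr 3
  have hω : hz.autToPow ℚ_[ℓ] σ =
      Units.map ((PadicInt.toZMod (p := ℓ) : ℤ_[ℓ] →+* ZMod ℓ) : ℤ_[ℓ] →* ZMod ℓ) u := by
    apply Units.ext
    apply ZMod.val_injective
    have h3 := hz.autToPow_spec ℚ_[ℓ] σ
    rw [hσ] at h3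
    exact hz.pow_inj (ZMod.val_lt _) (ZMod.val_lt _) h3
  rw [← hω, hψ, MonoidHom.comp_apply]
  congr 1
  exact e.symm_apply_apply σ

end Padic

end Fermat.Agent.CFT.TameSym
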