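import Mathlib
import Fermat.Agent.CFT.Local.GalSymbolUnram
import Fermat.Agent.CFT.Local.TameCycloChar

/-!
# CFT, node C5t (glue): the unramified formula for the symbols of a family of invariant maps

* `zmodCircle n : ZMod n →+ AddCircle (1 : ℚ)`, `j mod n ↦ j / n mod 1` (injective).
* `InvFamily.IsUnramCompat O I` : the invariant maps of the family `I` are the unramified invariant
  `unramInv O K L φ` on unramified extensions (`φ` a Frobenius element): LCF4.
* `unramFormula_symbolSystemOfInv` : then `symbolSystemOfInv I n` satisfies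
  `TameSym.UnramFormula O _ (zmodCircle n)`.
* `symbol_unit_uniformizer`, `symbol_cyclo_char` : the tame formulas (T3), (T4) for the concrete
  symbols `I.symbol n L χ a = I.inv L (a ∪ δχ)`.
-/

set_option autoImplicit false
set_option linter.unusedSectionVars false
set_option linter.style.haveILetI false

namespace Fermat.Agent.CFT.TameSym

open IsLocalRing Fermat.Agent.CFT

section Circle

variable (n : ℕ) [NeZero n]

/-- `j mod n ↦ j / n mod 1`. -/
noncomputable def zmodCircle : ZMod n →+ AddCircle (1 : ℚ) :=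
  ZMod.lift n ⟨AddMonoidHom.mk' (fun j : ℤ => (((j : ℚ) / n : ℚ) : AddCircle (1 : ℚ)))
    (fun a b => by push_cast; rw [add_div, AddCircle.coe_add]), by
      have hn : ((n : ℕ) : ℚ) ≠ 0 := Nat.cast_ne_zero.mpr (NeZero.ne n)
      simp only [AddMonoidHom.mk'_apply, Int.cast_natCast, div_self hn]
      exact AddCircle.coe_period 1⟩

variable {n}

theorem zmodCircle_intCast (j : ℤ) :
    zmodCircle n (j : ZMod n) = (((j : ℚ) / n : ℚ) : AddCircle (1 : ℚ)) := by
  simp [zmodCircle]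

theorem zmodCircle_apply (k : ZMod n) :
    zmodCircle n k = ((((k.val : ℕ) : ℚ) / n : ℚ) : AddCircle (1 : ℚ)) := by
  have := zmodCircle_intCast (n := n) (k.val : ℤ)
  rw [Int.cast_natCast, ZMod.natCast_zmod_val] at this
  rw [this]; push_cast; rfl

theorem zmodCircle_injective : Function.Injective (zmodCircle n) := by
  rw [injective_iff_map_eq_zero]
  intro k hk
  rw [zmodCircle_apply, AddCircle.coe_eq_zero_iff] at hk
  obtain ⟨m, hm⟩ := hk
  have hn : (0 : ℚ) < n := Nat.cast_pos.mpr (NeZero.pos n)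
  rw [zsmul_eq_mul, mul_one, eq_div_iff hn.ne'] at hm
  have h1 : (m : ℚ) * n < 1 * n := by
    rw [hm, one_mul]; exact_mod_cast ZMod.val_lt k
  have h2 : (0 : ℚ) ≤ m * n := by rw [hm]; positivity
  have h3 : m < 1 := by exact_mod_cast lt_of_mul_lt_mul_right h1 hn.le
  have h4 : 0 ≤ m := by
    by_contra hneg
    push_neg at hneg
    have : (m : ℚ) * n < 0 := mul_neg_of_neg_of_pos (by exact_mod_cast hneg) hn
    linarith
  have hm0 : m = 0 := by omega
  rw [hm0, Int.cast_zero, zero_mul] at hm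
  have : k.val = 0 := by exact_mod_cast hm.symm
  exact (ZMod.val_eq_zero k).mp this

end Circle

section Glue

variable (O : Type) {K : Type} [CommRing O] [IsDomain O] [IsDiscreteValuationRing O]
  [IsAdicComplete (maximalIdeal O) O] [Finite (ResidueField O)]
  [Field K] [Algebra O K] [IsFractionRing O K] [CharZero K]

/-- LCF4: on unramified extensions the invariant map of the family is the unramified invariant
with respect to a Frobenius element. -/
def IsUnramCompat (I : InvFamily K) : Prop :=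
  ∀ (L : Type) [Field L] [Algebra K L] [FiniteDimensional K L] [IsGalois K L] [Algebra O L]
    [IsScalarTower O K L] [IsLocalRing (integralClosure O L)]
    [IsLocalHom (algebraMap O (integralClosure O L))], IsUnramExt O L →
    ∀ φ : L ≃ₐ[K] L, IsFrob O K L φ → ∀ x, I.inv L x = unramInv O K L φ x

variable {O}

/-- The symbols of a family of invariant maps which is compatible with the unramified invariants
satisfy the unramified formula. -/
theorem unramFormula_symbolSystemOfInv (I : InvFamily K) (hI : IsUnramCompat O I) (n : ℕ)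
    [NeZero n] : UnramFormula O (symbolSystemOfInv I n) (zmodCircle n) := by
  intro L _ _ _ _ _ _ _ _ hunr φ hφ χ a
  rw [symbolSystemOfInv_sym, hI L hunr φ hφ,
    unramInv_galSymClass_of_unramified O K L ((isUnramifiedExt_iff_isUnramExt O K L).mpr hunr)]
  have h1 : dvrOrd O K (a : K) • (χ φ).toAdd =
      ((dvrOrd O K (a : K) * chLift χ φ : ℤ) : ZMod n) := by
    rw [zsmul_eq_mul, Int.cast_mul]
    congr 1
    exact (chLift_cast χ φ).symm
  rw [h1, zmodCircle_intCast]

/-- **(T3)** for the concrete symbols: `(u, χ_π) = - κ / n` for a unit `u` and a uniformizer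
`π`, where `ζ₀ ^ κ ≡ u ^ ((q - 1) / n)`. -/
theorem symbol_unit_uniformizer (I : InvFamily K) (hI : IsUnramCompat O I) {n : ℕ} [NeZero n]
    {ζ : K} {ζ₀ : O} (hζ : IsPrimitiveRoot ζ n) (hζ₀ : algebraMap O K ζ₀ = ζ)
    (hn : n ∣ Nat.card (ResidueField O) - 1) {u₀ π₀ : O} (hu₀ : IsUnit u₀)
    (hπ₀ : Irreducible π₀) (u π : Kˣ) (hu : (u : K) = algebraMap O K u₀)
    (hπ : (π : K) = algebraMap O K π₀) {κ : ZMod n}
    (hκ : ζ₀ ^ κ.val - u₀ ^ ((Nat.card (ResidueField O) - 1) / n) ∈ maximalIdeal O) :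
    kummerSym (symbolSystemOfInv I n) hζ u π = - zmodCircle n κ :=
  kummerSym_unit_uniformizer_eq (symbolSystemOfInv I n) (unramFormula_symbolSystemOfInv I hI n)
    hζ hζ₀ hn hu₀ hπ₀ u π hu hπ hκ

end Glue

section Cyclo

variable {ℓ : ℕ} [hℓ : Fact ℓ.Prime]

/-- **(T4)** for the concrete symbols over `ℚ_ℓ`: for a character `χ` of `Gal(ℚ_ℓ(ζ_ℓ)/ℚ_ℓ)` with
values in `ℤ/n`, `n ∣ ℓ - 1`: `(u, χ) = - χ(σ_u) / n` and `(ℓ, χ) = 0`. -/
theorem symbol_cyclo_char (I : InvFamily ℚ_[ℓ]) (hI : IsUnramCompat ℤ_[ℓ] I) {n : ℕ} [NeZero n]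
    (hn : n ∣ ℓ - 1) (M : Type) [Field M] [Algebra ℚ_[ℓ] M] [FiniteDimensional ℚ_[ℓ] M]
    [IsGalois ℚ_[ℓ] M] {z : M} (hz : IsPrimitiveRoot z ℓ)
    (htop : IntermediateField.adjoin ℚ_[ℓ] {z} = ⊤)
    (χ : (M ≃ₐ[ℚ_[ℓ]] M) →* Multiplicative (ZMod n)) :
    (∀ (u : ℤ_[ℓ]ˣ) (σ : M ≃ₐ[ℚ_[ℓ]] M), σ z = z ^ (PadicInt.toZMod (u : ℤ_[ℓ])).val →
      I.symbol n M χ (Units.map ((PadicInt.Coe.ringHom : ℤ_[ℓ] →+* ℚ_[ℓ]) : ℤ_[ℓ] →* ℚ_[ℓ]) u) =
        - zmodCircle n (χ σ).toAdd) ∧
    (∀ a : ℚ_[ℓ]ˣ, (a : ℚ_[ℓ]) = (ℓ : ℚ_[ℓ]) → I.symbol n M χ a = 0) :=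
  sym_cyclo_char M (symbolSystemOfInv I n) (unramFormula_symbolSystemOfInv I hI n) hn hz htop χ

end Cyclo

end Fermat.Agent.CFT.TameSym
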