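import Mathlib
import Fermat.Agent.CFT.LayerMaps

/-!
# CFT, Layer B: the interface "system of invariant maps on the layers of a tower"

`k ⊆ Ω` fields.  A `LayerInvSystem k Ω` is a family of additive maps
`inv h : H²(Gal(E'/E), E'ˣ) → ℚ/ℤ` for all layers `E ≤ E'` of `Ω/k`, such that for finite normal
layers: `inv` is injective, killed by the degree, multiplied by `[F:E]` under base change
(`layerMap`; in particular compatible with inflation and multiplied by the degree under
restriction), and takes the value `1/n` on a suitable layer over any finite `E`, for every `n ≥ 1`.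

This is the finite-level form of "local class formation" (axioms (T1), (T2) of the abstract
duality theorem); it is produced by Layer B (`LocalInv`) and consumed by the LC instantiation.
-/

set_option autoImplicit false
set_option linter.style.haveILetI false

open CategoryTheory groupCohomology IntermediateField

namespace Fermat.Agent.CFT

open GaloisTower LayerMaps

/-- A system of invariant maps on the layers of `Ω/k`. -/
structure LayerInvSystem (k Ω : Type) [Field k] [Field Ω] [Algebra k Ω] where
  /-- the invariant map of the layer `E'/E` (meaningful for finite normal layers) -/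
  inv : ∀ {E E' : IntermediateField k Ω} (h : E ≤ E'),
    groupCohomology (Rep.ofAlgebraAutOnUnits E (layer h)) 2 →+ AddCircle (1 : ℚ)
  inv_injective : ∀ {E E' : IntermediateField k Ω} (h : E ≤ E') [FiniteDimensional k E']
    [Normal E (layer h)], Function.Injective (inv h)
  finrank_nsmul_inv : ∀ {E E' : IntermediateField k Ω} (h : E ≤ E') [FiniteDimensional k E']
    [Normal E (layer h)] (x : groupCohomology (Rep.ofAlgebraAutOnUnits E (layer h)) 2),
    Module.finrank E (layer h) • inv h x = 0
  inv_layerMap : ∀ {E E' F F' : IntermediateField k Ω} (hEE' : E ≤ E') (hFF' : F ≤ F')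
    (hEF : E ≤ F) (hE'F' : E' ≤ F') [FiniteDimensional k F'] [Normal E (layer hEE')]
    [Normal F (layer hFF')] (x : groupCohomology (Rep.ofAlgebraAutOnUnits E (layer hEE')) 2),
    inv hFF' ((layerMap hEE' hFF' hEF hE'F' 2).hom x) =
      Module.finrank E (layer hEF) • inv hEE' x
  exists_inv_eq : ∀ (E : IntermediateField k Ω) [FiniteDimensional k E] (n : ℕ), 0 < n →
    ∃ (E' : IntermediateField k Ω) (h : E ≤ E'), FiniteDimensional k E' ∧ Normal E (layer h) ∧
      ∃ x : groupCohomology (Rep.ofAlgebraAutOnUnits E (layer h)) 2,
        inv h x = (((1 : ℚ) / (n : ℚ) : ℚ) : AddCircle (1 : ℚ))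

namespace LayerInvSystem

variable {k Ω : Type} [Field k] [Field Ω] [Algebra k Ω] (S : LayerInvSystem k Ω)

lemma finrank_layer_self (E : IntermediateField k Ω) :
    Module.finrank E (layer (le_refl E)) = 1 := by
  have h : (layer (le_refl E) : IntermediateField E Ω) = ⊥ := by
    ext x
    rw [IntermediateField.mem_bot]
    constructor
    · intro hx
      exact ⟨⟨x, hx⟩, rfl⟩
    · rintro ⟨y, rfl⟩
      exact y.2
  rw [h]
  exact IntermediateField.finrank_bot

/-- compatibility with inflation -/
theorem inv_layerInfl {E E' F' : IntermediateField k Ω} (hEE' : E ≤ E') (hE'F' : E' ≤ F')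
    [FiniteDimensional k F'] [Normal E (layer hEE')] [Normal E (layer (hEE'.trans hE'F'))]
    (x : groupCohomology (Rep.ofAlgebraAutOnUnits E (layer hEE')) 2) :
    S.inv (hEE'.trans hE'F') ((layerInfl hEE' hE'F' 2).hom x) = S.inv hEE' x := by
  have := S.inv_layerMap hEE' (hEE'.trans hE'F') le_rfl hE'F' x
  rw [finrank_layer_self, one_smul] at this
  exact this

/-- restriction multiplies the invariant by the degree -/
theorem inv_layerRest {E F F' : IntermediateField k Ω} (hEF : E ≤ F) (hFF' : F ≤ F')
    [FiniteDimensional k F'] [Normal E (layer (hEF.trans hFF'))] [Normal F (layer hFF')]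
    (x : groupCohomology (Rep.ofAlgebraAutOnUnits E (layer (hEF.trans hFF'))) 2) :
    S.inv hFF' ((layerRest hEF hFF' 2).hom x) =
      Module.finrank E (layer hEF) • S.inv (hEF.trans hFF') x :=
  S.inv_layerMap (hEF.trans hFF') hFF' hEF le_rfl x

end LayerInvSystem

end Fermat.Agent.CFT
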