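import Mathlib

/-!
# CFT, Layer B: extending invariant maps from a cofinal-in-cohomology subfamily

Abstract form of the statement "`Br(K)` is computed by unramified extensions".  `ι` is a directed
index set (finite Galois extensions `L/K`), `H i` abelian groups (`H²(L/K)`) with injective
functorial transition maps (inflation), `U ⊆ ι` a directed subfamily (unramified extensions)
with compatible injective maps `u i : H i → T` (the unramified invariants, `T = ℚ/ℤ`).
If every class of every `H i` becomes, after inflation, the inflation of a class of some `H j`,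
`j ∈ U` (`cover`), then the `u`'s extend uniquely to compatible injective maps
`inv i : H i → T` on all of `ι`.
-/

set_option autoImplicit false

namespace Fermat.Agent.CFT

namespace InvExtend

variable {ι : Type*} [Preorder ι] [IsDirected ι (· ≤ ·)]
  {H : ι → Type*} [∀ i, AddCommGroup (H i)]
  (infl : ∀ {i j : ι}, i ≤ j → H i →+ H j)
  (infl_comp : ∀ {i j k : ι} (h₁ : i ≤ j) (h₂ : j ≤ k) (x : H i),
    infl h₂ (infl h₁ x) = infl (h₁.trans h₂) x)
  (infl_inj : ∀ {i j : ι} (h : i ≤ j), Function.Injective (infl h))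
  (U : Set ι) (hU : ∀ i ∈ U, ∀ j ∈ U, ∃ k ∈ U, i ≤ k ∧ j ≤ k)
  {T : Type*} [AddCommGroup T]
  (u : ∀ i, i ∈ U → H i →+ T)
  (u_inj : ∀ i hi, Function.Injective (u i hi))
  (u_infl : ∀ i j (hi : i ∈ U) (hj : j ∈ U) (h : i ≤ j) (x : H i), u j hj (infl h x) = u i hi x)

/-- `t` is a value of the invariant of `x`, computed through the unramified index `j`. -/
def Rel (i : ι) (x : H i) (t : T) : Prop :=
  ∃ (j : ι) (hj : j ∈ U) (k : ι) (hik : i ≤ k) (hjk : j ≤ k) (y : H j),
    infl hjk y = infl hik x ∧ t = u j hj y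

include infl_comp infl_inj hU u_infl in
/-- **Key lemma**: the invariant does not depend on the unramified index used. -/
theorem Rel.unique {i : ι} {x : H i} {t t' : T} (h : Rel infl U u i x t)
    (h' : Rel infl U u i x t') : t = t' := by
  obtain ⟨j, hj, k, hik, hjk, y, hy, rfl⟩ := h
  obtain ⟨j', hj', k', hik', hjk', y', hy', rfl⟩ := h'
  obtain ⟨j'', hj'', hjj'', hj'j''⟩ := hU j hj j' hj'
  obtain ⟨k₁, hk₁, hk₁'⟩ := exists_ge_ge k k'
  obtain ⟨k'', hk'', hjk''⟩ := exists_ge_ge k₁ j''
  have hkk'' : k ≤ k'' := hk₁.trans hk''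
  have hk'k'' : k' ≤ k'' := hk₁'.trans hk''
  have e1 : infl (hjk.trans hkk'') y = infl (hik.trans hkk'') x := by
    rw [← infl_comp hjk hkk'', hy, infl_comp]
  have e2 : infl (hjk'.trans hk'k'') y' = infl (hik'.trans hk'k'') x := by
    rw [← infl_comp hjk' hk'k'', hy', infl_comp]
  have e3 : infl hjk'' (infl hjj'' y) = infl hjk'' (infl hj'j'' y') := by
    rw [infl_comp, infl_comp]
    exact e1.trans e2.symm
  have e4 := infl_inj hjk'' e3
  rw [← u_infl j j'' hj hj'' hjj'' y, ← u_infl j' j'' hj' hj'' hj'j'' y', e4]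

include infl_comp in
theorem Rel.map_infl {i i' : ι} (hii' : i ≤ i') {x : H i} {t : T} (h : Rel infl U u i x t) :
    Rel infl U u i' (infl hii' x) t := by
  obtain ⟨j, hj, k, hik, hjk, y, hy, rfl⟩ := h
  obtain ⟨k'', hkk'', hi'k''⟩ := exists_ge_ge k i'
  refine ⟨j, hj, k'', hi'k'', hjk.trans hkk'', y, ?_, rfl⟩
  rw [infl_comp, ← infl_comp hjk hkk'', hy, infl_comp]

include infl_comp hU u_infl in
theorem Rel.add {i : ι} {x x' : H i} {t t' : T} (h : Rel infl U u i x t)
    (h' : Rel infl U u i x' t') : Rel infl U u i (x + x') (t + t') := by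
  obtain ⟨j, hj, k, hik, hjk, y, hy, rfl⟩ := h
  obtain ⟨j', hj', k', hik', hjk', y', hy', rfl⟩ := h'
  obtain ⟨j'', hj'', hjj'', hj'j''⟩ := hU j hj j' hj'
  obtain ⟨k₁, hk₁, hk₁'⟩ := exists_ge_ge k k'
  obtain ⟨k'', hk'', hjk''⟩ := exists_ge_ge k₁ j''
  have hkk'' : k ≤ k'' := hk₁.trans hk''
  have hk'k'' : k' ≤ k'' := hk₁'.trans hk''
  refine ⟨j'', hj'', k'', hik.trans hkk'', hjk'', infl hjj'' y + infl hj'j'' y', ?_, ?_⟩
  · rw [map_add, map_add, infl_comp, infl_comp]
    have e1 : infl (hjj''.trans hjk'') y = infl (hik.trans hkk'') x := by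
      have : infl (hjj''.trans hjk'') y = infl (hjk.trans hkk'') y := rfl
      rw [this, ← infl_comp hjk hkk'', hy, infl_comp]
    have e2 : infl (hj'j''.trans hjk'') y' = infl (hik.trans hkk'') x' := by
      have : infl (hj'j''.trans hjk'') y' = infl (hjk'.trans hk'k'') y' := rfl
      rw [this, ← infl_comp hjk' hk'k'', hy', infl_comp]
    rw [e1, e2]
  · rw [map_add, u_infl j j'' hj hj'' hjj'' y, u_infl j' j'' hj' hj'' hj'j'' y']

variable (cover : ∀ (i : ι) (x : H i), ∃ t, Rel infl U u i x t)

include infl_comp infl_inj hU u_infl in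
/-- The extended invariant maps. -/
noncomputable def inv (i : ι) : H i →+ T :=
  AddMonoidHom.mk' (fun x => (cover i x).choose) fun x x' =>
    Rel.unique infl infl_comp infl_inj U hU u u_infl (cover i (x + x')).choose_spec
      (Rel.add infl infl_comp U hU u u_infl (cover i x).choose_spec (cover i x').choose_spec)

theorem inv_rel (i : ι) (x : H i) :
    Rel infl U u i x (inv infl infl_comp infl_inj U hU u u_infl cover i x) :=
  (cover i x).choose_spec

/-- **Characterisation** of the extended invariant. -/
theorem inv_eq_of_rel {i : ι} {x : H i} {t : T} (h : Rel infl U u i x t) :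
    inv infl infl_comp infl_inj U hU u u_infl cover i x = t :=
  Rel.unique infl infl_comp infl_inj U hU u u_infl
    (inv_rel infl infl_comp infl_inj U hU u u_infl cover i x) h

/-- Explicit form of the characterisation. -/
theorem inv_eq_of_infl_eq {i j k : ι} (hj : j ∈ U) (hik : i ≤ k) (hjk : j ≤ k) {x : H i}
    {y : H j} (h : infl hjk y = infl hik x) :
    inv infl infl_comp infl_inj U hU u u_infl cover i x = u j hj y :=
  inv_eq_of_rel infl infl_comp infl_inj U hU u u_infl cover ⟨j, hj, k, hik, hjk, y, h, rfl⟩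

theorem inv_eq_u {i : ι} (hi : i ∈ U) (x : H i) :
    inv infl infl_comp infl_inj U hU u u_infl cover i x = u i hi x :=
  inv_eq_of_infl_eq infl infl_comp infl_inj U hU u u_infl cover hi le_rfl le_rfl rfl

theorem inv_infl {i i' : ι} (h : i ≤ i') (x : H i) :
    inv infl infl_comp infl_inj U hU u u_infl cover i' (infl h x) =
      inv infl infl_comp infl_inj U hU u u_infl cover i x :=
  inv_eq_of_rel infl infl_comp infl_inj U hU u u_infl cover
    (Rel.map_infl infl infl_comp U u h (inv_rel infl infl_comp infl_inj U hU u u_infl cover i x))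

include u_inj in
theorem inv_injective (i : ι) :
    Function.Injective (inv infl infl_comp infl_inj U hU u u_infl cover i) := by
  rw [injective_iff_map_eq_zero]
  intro x hx
  obtain ⟨j, hj, k, hik, hjk, y, hy, ht⟩ := inv_rel infl infl_comp infl_inj U hU u u_infl cover i x
  rw [hx] at ht
  have hy0 : y = 0 := u_inj j hj (by rw [← ht, map_zero])
  rw [hy0, map_zero] at hy
  exact infl_inj hik (by rw [← hy, map_zero])

/-- The range of `inv i` is contained in the union of the ranges of the `u j`; more precisely every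
value is a value of some `u j`. -/
theorem exists_u_eq_inv (i : ι) (x : H i) :
    ∃ (j : ι) (hj : j ∈ U) (y : H j),
      inv infl infl_comp infl_inj U hU u u_infl cover i x = u j hj y := by
  obtain ⟨j, hj, k, hik, hjk, y, hy, ht⟩ := inv_rel infl infl_comp infl_inj U hU u u_infl cover i x
  exact ⟨j, hj, y, ht⟩

omit [IsDirected ι (· ≤ ·)] in
include infl_inj in
/-- **Counting criterion** for the covering hypothesis: if `H i` has at most as many elements as
`H j` and the image of `H j` in `H k` is contained in the image of `H i`, then the images agree. -/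
theorem exists_infl_eq_of_card_le {i j k : ι} (hik : i ≤ k) (hjk : j ≤ k) [Finite (H i)]
    (hcard : Nat.card (H i) ≤ Nat.card (H j))
    (hsub : ∀ y : H j, ∃ x : H i, infl hik x = infl hjk y) (x : H i) :
    ∃ y : H j, infl hjk y = infl hik x := by
  choose g hg using hsub
  have hginj : Function.Injective g := by
    intro y y' h
    apply infl_inj hjk
    rw [← hg y, ← hg y', h]
  obtain ⟨y, rfl⟩ := (hginj.bijective_of_nat_card_le hcard).2 x
  exact ⟨y, (hg y).symm⟩

end InvExtend

end Fermat.Agent.CFT
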