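import Mathlib
import Fermat.Agent.CFT.LayerMaps
import Fermat.Agent.CFT.Local.InvExtend
import Fermat.Agent.CFT.Local.LayerInv

/-!
# CFT, Layer B (B4e): from unramified invariants to a system of invariant maps

`LayerUnramData k Ω` packages, for the layers of a tower `k ⊆ Ω`:
* a notion of unramified layer with invariant maps `uinv` (injective, killed by the degree, taking
  the value `1/degree`, multiplied by `[F:E]` under base change), stable under composita and base
  change, existing in every degree;
* the general finite-level facts: inflation is injective on `H²`, `ker res = im inf`, and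
  `|H²(E'/E)| ≤ [E':E]` (second inequality).

From this we construct a `LayerInvSystem k Ω` (the classical argument "every class is split by an
unramified extension").
-/

set_option autoImplicit false
set_option linter.style.haveILetI false
set_option linter.unusedSectionVars false

open CategoryTheory groupCohomology IntermediateField

namespace Fermat.Agent.CFT

open GaloisTower LayerMaps

/-- Unramified data on the layers of a tower. -/
structure LayerUnramData (k Ω : Type) [Field k] [Field Ω] [Algebra k Ω] where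
  /-- the layer `E'/E` is unramified (finite Galois) -/
  IsUnr : ∀ {E E' : IntermediateField k Ω}, E ≤ E' → Prop
  /-- the unramified invariant -/
  uinv : ∀ {E E' : IntermediateField k Ω} (h : E ≤ E'),
    groupCohomology (Rep.ofAlgebraAutOnUnits E (layer h)) 2 →+ AddCircle (1 : ℚ)
  unr_fd : ∀ {E E' : IntermediateField k Ω} {h : E ≤ E'}, IsUnr h → FiniteDimensional k E'
  unr_normal : ∀ {E E' : IntermediateField k Ω} {h : E ≤ E'}, IsUnr h → Normal E (layer h)
  unr_sup : ∀ {E E₁ E₂ : IntermediateField k Ω} {h₁ : E ≤ E₁} {h₂ : E ≤ E₂}, IsUnr h₁ → IsUnr h₂ →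
    IsUnr (h₁.trans le_sup_left : E ≤ E₁ ⊔ E₂)
  unr_baseChange : ∀ {E E' F : IntermediateField k Ω} {h : E ≤ E'} (_ : E ≤ F)
    [FiniteDimensional k F], IsUnr h → IsUnr (le_sup_left : F ≤ F ⊔ E')
  exists_unr : ∀ (E : IntermediateField k Ω) [FiniteDimensional k E] (n : ℕ), 0 < n →
    ∃ (E' : IntermediateField k Ω) (h : E ≤ E'), IsUnr h ∧ Module.finrank E (layer h) = n
  uinv_injective : ∀ {E E' : IntermediateField k Ω} {h : E ≤ E'}, IsUnr h →
    Function.Injective (uinv h)
  finrank_nsmul_uinv : ∀ {E E' : IntermediateField k Ω} {h : E ≤ E'}, IsUnr h →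
    ∀ x, Module.finrank E (layer h) • uinv h x = 0
  exists_uinv_eq : ∀ {E E' : IntermediateField k Ω} {h : E ≤ E'}, IsUnr h →
    ∃ x, uinv h x = (((1 : ℚ) / (Module.finrank E (layer h) : ℚ) : ℚ) : AddCircle (1 : ℚ))
  uinv_layerMap : ∀ {E E' F F' : IntermediateField k Ω} {hEE' : E ≤ E'} {hFF' : F ≤ F'}
    (hEF : E ≤ F) (hE'F' : E' ≤ F'), IsUnr hEE' → IsUnr hFF' → ∀ [Normal E (layer hEE')]
    (x : groupCohomology (Rep.ofAlgebraAutOnUnits E (layer hEE')) 2),
    uinv hFF' ((layerMap hEE' hFF' hEF hE'F' 2).hom x) =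
      Module.finrank E (layer hEF) • uinv hEE' x
  infl_injective : ∀ {E E' F' : IntermediateField k Ω} (hEE' : E ≤ E') (hE'F' : E' ≤ F')
    [FiniteDimensional k F'] [Normal E (layer hEE')] [Normal E (layer (hEE'.trans hE'F'))],
    Function.Injective (layerInfl hEE' hE'F' 2).hom
  exists_infl_of_rest_eq_zero : ∀ {E F F' : IntermediateField k Ω} (hEF : E ≤ F) (hFF' : F ≤ F')
    [FiniteDimensional k F'] [Normal E (layer (hEF.trans hFF'))] [Normal E (layer hEF)]
    (x : groupCohomology (Rep.ofAlgebraAutOnUnits E (layer (hEF.trans hFF'))) 2),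
    (layerRest hEF hFF' 2).hom x = 0 → ∃ y, (layerInfl hEF hFF' 2).hom y = x
  card_le : ∀ {E E' : IntermediateField k Ω} (h : E ≤ E') [FiniteDimensional k E']
    [Normal E (layer h)],
    Finite (groupCohomology (Rep.ofAlgebraAutOnUnits E (layer h)) 2) ∧
      Nat.card (groupCohomology (Rep.ofAlgebraAutOnUnits E (layer h)) 2) ≤
        Module.finrank E (layer h)

namespace LayerUnramData

variable {k Ω : Type} [Field k] [Field Ω] [Algebra k Ω]

/-! ### Composita of layers -/

lemma layer_sup {E E₁ E₂ : IntermediateField k Ω} (h₁ : E ≤ E₁) (h₂ : E ≤ E₂) :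
    (layer (h₁.trans le_sup_left : E ≤ E₁ ⊔ E₂) : IntermediateField E Ω) =
      layer h₁ ⊔ layer h₂ := by
  apply le_antisymm
  · rw [IntermediateField.extendScalars_le_iff]
    refine sup_le ?_ ?_
    · intro x hx
      exact (le_sup_left : layer h₁ ≤ layer h₁ ⊔ layer h₂) hx
    · intro x hx
      exact (le_sup_right : layer h₂ ≤ layer h₁ ⊔ layer h₂) hx
  · refine sup_le ?_ ?_
    · rw [IntermediateField.extendScalars_le_extendScalars_iff]
      exact le_sup_left
    · rw [IntermediateField.extendScalars_le_extendScalars_iff]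
      exact le_sup_right

lemma normal_layer_sup {E E₁ E₂ : IntermediateField k Ω} (h₁ : E ≤ E₁) (h₂ : E ≤ E₂)
    [Normal E (layer h₁)] [Normal E (layer h₂)] :
    Normal E (layer (h₁.trans le_sup_left : E ≤ E₁ ⊔ E₂)) := by
  rw [layer_sup h₁ h₂]
  infer_instance

/-! ### The directed system of finite normal layers over a fixed base `E` -/

/-- Finite normal layers over `E`. -/
structure Idx (E : IntermediateField k Ω) where
  /-- the top field -/
  top : IntermediateField k Ω
  le : E ≤ top
  fd : FiniteDimensional k top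
  normal : Normal E (layer le)

attribute [instance] Idx.fd Idx.normal

variable {E : IntermediateField k Ω}

instance : Preorder (Idx E) := Preorder.lift Idx.top

lemma Idx.le_def (i j : Idx E) : i ≤ j ↔ i.top ≤ j.top := Iff.rfl

/-- the compositum of two indices -/
def Idx.sup (i j : Idx E) : Idx E where
  top := i.top ⊔ j.top
  le := i.le.trans le_sup_left
  fd := inferInstance
  normal := normal_layer_sup i.le j.le

lemma Idx.le_sup_left (i j : Idx E) : i ≤ i.sup j :=
  (_root_.le_sup_left : i.top ≤ i.top ⊔ j.top)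

lemma Idx.le_sup_right (i j : Idx E) : j ≤ i.sup j :=
  (_root_.le_sup_right : j.top ≤ i.top ⊔ j.top)

instance : IsDirected (Idx E) (· ≤ ·) :=
  ⟨fun i j => ⟨i.sup j, i.le_sup_left j, i.le_sup_right j⟩⟩

/-- the cohomology group attached to an index -/
abbrev Hidx (i : Idx E) : Type := groupCohomology (Rep.ofAlgebraAutOnUnits E (layer i.le)) 2

/-- inflation between indices -/
noncomputable def inflIdx {i j : Idx E} (hij : i ≤ j) : Hidx i →+ Hidx j :=
  (layerInfl i.le hij 2).hom.toAddMonoidHom

lemma inflIdx_apply {i j : Idx E} (hij : i ≤ j) (x : Hidx i) :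
    inflIdx hij x = (layerInfl i.le hij 2).hom x := rfl

lemma inflIdx_comp {i j l : Idx E} (h₁ : i ≤ j) (h₂ : j ≤ l) (x : Hidx i) :
    inflIdx h₂ (inflIdx h₁ x) = inflIdx (h₁.trans h₂) x := by
  have := layerMap_comp i.le j.le l.le (le_refl E) h₁ (le_refl E) h₂ 2
  exact congrArg (fun f => f.hom x) this

/-! ### The unramified subfamily and the covering property -/

variable (D : LayerUnramData k Ω)

/-- the unramified indices -/
def unrSet (E : IntermediateField k Ω) : Set (Idx E) := {i | D.IsUnr i.le}

lemma unrSet_directed (i : Idx E) (hi : i ∈ unrSet D E) (j : Idx E) (hj : j ∈ unrSet D E) :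
    ∃ l ∈ unrSet D E, i ≤ l ∧ j ≤ l :=
  ⟨i.sup j, D.unr_sup hi hj, i.le_sup_left j, i.le_sup_right j⟩

/-- the unramified invariant on an unramified index -/
noncomputable def uIdx (i : Idx E) (_ : i ∈ unrSet D E) : Hidx i →+ AddCircle (1 : ℚ) :=
  D.uinv i.le

lemma uIdx_infl (i j : Idx E) (hi : i ∈ unrSet D E) (hj : j ∈ unrSet D E) (h : i ≤ j)
    (x : Hidx i) : uIdx D j hj (inflIdx h x) = uIdx D i hi x := by
  have := D.uinv_layerMap (le_refl E) h hi hj x
  rw [LayerInvSystem.finrank_layer_self, one_smul] at this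
  exact this

include D in
lemma inflIdx_injective {i j : Idx E} (h : i ≤ j) :
    Function.Injective (inflIdx h) :=
  D.infl_injective i.le h

lemma finiteDimensional_layer_of_fd {E E' : IntermediateField k Ω} (h : E ≤ E')
    [FiniteDimensional k E'] : FiniteDimensional E (layer h) := by
  haveI : FiniteDimensional k (layer h) := ‹FiniteDimensional k E'›
  exact FiniteDimensional.right k E (layer h)

/-- an unramified index of degree `n` has at least `n` classes -/
lemma le_card_of_unr {i : Idx E} (hi : i ∈ unrSet D E) :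
    Finite (Hidx i) ∧ Module.finrank E (layer i.le) ≤ Nat.card (Hidx i) := by
  obtain ⟨hfin, -⟩ := D.card_le i.le
  refine ⟨hfin, ?_⟩
  haveI := finiteDimensional_layer_of_fd i.le
  have hn : 0 < Module.finrank E (layer i.le) := Module.finrank_pos
  obtain ⟨y, hy⟩ := D.exists_uinv_eq hi
  have h1 : addOrderOf (D.uinv i.le y) = Module.finrank E (layer i.le) := by
    rw [hy]
    exact AddCircle.addOrderOf_period_div hn
  have h2 : addOrderOf (D.uinv i.le y) ∣ addOrderOf y := addOrderOf_map_dvd _ y
  have h3 : addOrderOf y ∣ Nat.card (Hidx i) := addOrderOf_dvd_natCard y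
  rw [h1] at h2
  exact Nat.le_of_dvd Nat.card_pos (h2.trans h3)

/-- every class is matched by an unramified class of the same degree -/
theorem exists_unr_eq [FiniteDimensional k E] (i : Idx E) (x : Hidx i) :
    ∃ (j : Idx E) (_ : j ∈ unrSet D E) (y : Hidx j),
      Module.finrank E (layer j.le) = Module.finrank E (layer i.le) ∧
      inflIdx (i.le_sup_right j) y = inflIdx (i.le_sup_left j) x := by
  haveI := finiteDimensional_layer_of_fd i.le
  have hn : 0 < Module.finrank E (layer i.le) := Module.finrank_pos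
  obtain ⟨E'', hEE'', hunr, hdeg⟩ := D.exists_unr E _ hn
  let j : Idx E := ⟨E'', hEE'', D.unr_fd hunr, D.unr_normal hunr⟩
  have hj : j ∈ unrSet D E := hunr
  obtain ⟨hfi, hci⟩ := D.card_le i.le
  obtain ⟨hfj, hcj⟩ := le_card_of_unr D hj
  have hcard : Nat.card (Hidx i) ≤ Nat.card (Hidx j) :=
    hci.trans (le_trans (le_of_eq hdeg.symm) hcj)
  set l : Idx E := i.sup j with hl
  have hil : i.top ≤ l.top := i.le_sup_left j
  have hjl : j.top ≤ l.top := i.le_sup_right j
  have hsub : ∀ y : Hidx j, ∃ x' : Hidx i,
      inflIdx (i.le_sup_left j) x' = inflIdx (i.le_sup_right j) y := by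
    intro y
    have hbc : D.IsUnr hil := D.unr_baseChange i.le hunr
    haveI : Normal i.top (layer hil) := D.unr_normal hbc
    have hcomp := layerMap_comp j.le l.le hil (le_refl E) hjl i.le (le_refl l.top) 2
    have hval := D.uinv_layerMap (hEE' := j.le) (hFF' := hil) i.le hjl hunr hbc y
    have hkill : Module.finrank E (layer i.le) • D.uinv j.le y = 0 := by
      rw [← hdeg]
      exact D.finrank_nsmul_uinv hunr y
    rw [hkill] at hval
    have hzero : (layerMap j.le hil i.le hjl 2).hom y = 0 :=
      D.uinv_injective hbc (by rw [hval, map_zero])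
    have hrest : (layerRest i.le hil 2).hom (inflIdx hjl y) = 0 := by
      have := congrArg (fun f => f.hom y) hcomp
      exact this.trans hzero
    obtain ⟨x', hx'⟩ := D.exists_infl_of_rest_eq_zero i.le hil _ hrest
    exact ⟨x', hx'⟩
  obtain ⟨y, hy⟩ := InvExtend.exists_infl_eq_of_card_le (fun {_ _} h => inflIdx h)
    (fun {_ _} h => inflIdx_injective D h) (i.le_sup_left j) (i.le_sup_right j) hcard hsub x
  exact ⟨j, hj, y, hdeg, hy⟩

/-- **Every class is split by an unramified extension.** -/
theorem cover [FiniteDimensional k E] (i : Idx E) (x : Hidx i) :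
    ∃ t, InvExtend.Rel (fun {_ _} h => inflIdx h) (unrSet D E) (uIdx D) i x t := by
  obtain ⟨j, hj, y, -, hy⟩ := exists_unr_eq D i x
  exact ⟨_, j, hj, i.sup j, i.le_sup_left j, i.le_sup_right j, y, hy, rfl⟩

/-! ### The invariant maps -/

/-- The invariant map on the finite normal layers over a finite base `E`. -/
noncomputable def invIdx [FiniteDimensional k E] (i : Idx E) : Hidx i →+ AddCircle (1 : ℚ) :=
  InvExtend.inv (fun {_ _} h => inflIdx h) (fun h₁ h₂ x => inflIdx_comp h₁ h₂ x)
    (fun h => inflIdx_injective D h) (unrSet D E) (unrSet_directed D) (uIdx D) (uIdx_infl D)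
    (cover D) i

/-- **Characterisation** of `invIdx`. -/
theorem invIdx_eq_of_infl_eq [FiniteDimensional k E] {i j l : Idx E} (hj : j ∈ unrSet D E)
    (hil : i ≤ l) (hjl : j ≤ l) {x : Hidx i} {y : Hidx j} (h : inflIdx hjl y = inflIdx hil x) :
    invIdx D i x = D.uinv j.le y :=
  InvExtend.inv_eq_of_infl_eq (fun {_ _} h => inflIdx h) (fun h₁ h₂ x => inflIdx_comp h₁ h₂ x)
    (fun h => inflIdx_injective D h) (unrSet D E) (unrSet_directed D) (uIdx D) (uIdx_infl D)
    (cover D) hj hil hjl h

theorem invIdx_injective [FiniteDimensional k E] (i : Idx E) :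
    Function.Injective (invIdx D i) :=
  InvExtend.inv_injective (fun {_ _} h => inflIdx h) (fun h₁ h₂ x => inflIdx_comp h₁ h₂ x)
    (fun h => inflIdx_injective D h) (unrSet D E) (unrSet_directed D) (uIdx D)
    (fun _ hi => D.uinv_injective hi) (uIdx_infl D) (cover D) i

theorem invIdx_eq_uinv [FiniteDimensional k E] {i : Idx E} (hi : i ∈ unrSet D E) (x : Hidx i) :
    invIdx D i x = D.uinv i.le x :=
  InvExtend.inv_eq_u (fun {_ _} h => inflIdx h) (fun h₁ h₂ x => inflIdx_comp h₁ h₂ x)
    (fun h => inflIdx_injective D h) (unrSet D E) (unrSet_directed D) (uIdx D) (uIdx_infl D)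
    (cover D) hi x

theorem finrank_nsmul_invIdx [FiniteDimensional k E] (i : Idx E) (x : Hidx i) :
    Module.finrank E (layer i.le) • invIdx D i x = 0 := by
  obtain ⟨j, hj, y, hdeg, hy⟩ := exists_unr_eq D i x
  rw [invIdx_eq_of_infl_eq D hj (i.le_sup_left j) (i.le_sup_right j) hy, ← hdeg]
  exact D.finrank_nsmul_uinv hj y

/-- **Base change**: for a square of layers `E ≤ E'`, `F ≤ F'`, `E ≤ F`, `E' ≤ F'` the invariant
is multiplied by `[F:E]`. -/
theorem invIdx_layerMap {F : IntermediateField k Ω} [FiniteDimensional k E] [FiniteDimensional k F]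
    (hEF : E ≤ F) (i : Idx E) (i' : Idx F) (hii' : i.top ≤ i'.top) (x : Hidx i) :
    invIdx D i' ((layerMap i.le i'.le hEF hii' 2).hom x) =
      Module.finrank E (layer hEF) • invIdx D i x := by
  obtain ⟨j, hj, y, -, hy⟩ := exists_unr_eq D i x
  set l : Idx E := i.sup j with hl
  have hil : i ≤ l := i.le_sup_left j
  have hjl : j ≤ l := i.le_sup_right j
  -- the unramified layer over `F`
  have hbc : D.IsUnr (le_sup_left : F ≤ F ⊔ j.top) := D.unr_baseChange hEF hj
  let j' : Idx F := ⟨F ⊔ j.top, le_sup_left, D.unr_fd hbc, D.unr_normal hbc⟩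
  have hj' : j' ∈ unrSet D F := hbc
  have hjj' : j.top ≤ j'.top := (le_sup_right : j.top ≤ F ⊔ j.top)
  set l' : Idx F := i'.sup j' with hl'
  have hi'l' : i' ≤ l' := i'.le_sup_left j'
  have hj'l' : j' ≤ l' := i'.le_sup_right j'
  have hll' : l.top ≤ l'.top :=
    sup_le (hii'.trans hi'l') (hjj'.trans hj'l')
  set x' : Hidx i' := (layerMap i.le i'.le hEF hii' 2).hom x with hx'
  set y' : Hidx j' := (layerMap j.le j'.le hEF hjj' 2).hom y with hy'
  have key : inflIdx hj'l' y' = inflIdx hi'l' x' := by
    have e1 : inflIdx hj'l' y' = (layerMap j.le l'.le hEF (hjj'.trans hj'l') 2).hom y := by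
      have := layerMap_comp j.le j'.le l'.le hEF hjj' (le_refl F) hj'l' 2
      exact congrArg (fun f => f.hom y) this
    have e2 : inflIdx hi'l' x' = (layerMap i.le l'.le hEF (hii'.trans hi'l') 2).hom x := by
      have := layerMap_comp i.le i'.le l'.le hEF hii' (le_refl F) hi'l' 2
      exact congrArg (fun f => f.hom x) this
    have e3 : (layerMap l.le l'.le hEF hll' 2).hom (inflIdx hjl y) =
        (layerMap j.le l'.le hEF (hjj'.trans hj'l') 2).hom y := by
      have := layerMap_comp j.le l.le l'.le (le_refl E) hjl hEF hll' 2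
      exact congrArg (fun f => f.hom y) this
    have e4 : (layerMap l.le l'.le hEF hll' 2).hom (inflIdx hil x) =
        (layerMap i.le l'.le hEF (hii'.trans hi'l') 2).hom x := by
      have := layerMap_comp i.le l.le l'.le (le_refl E) hil hEF hll' 2
      exact congrArg (fun f => f.hom x) this
    rw [e1, e2, ← e3, ← e4, hy]
  rw [invIdx_eq_of_infl_eq D hj' hi'l' hj'l' key, invIdx_eq_of_infl_eq D hj hil hjl hy]
  exact D.uinv_layerMap hEF hjj' hj hbc y

/-! ### Packaging -/

lemma fd_of_le {E E' : IntermediateField k Ω} (h : E ≤ E') [FiniteDimensional k E'] :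
    FiniteDimensional k E :=
  Module.Finite.of_injective (IntermediateField.inclusion h).toLinearMap
    (IntermediateField.inclusion h).injective

open Classical in
/-- The invariant map of an arbitrary layer (zero unless the layer is finite and normal). -/
noncomputable def invLayer {E E' : IntermediateField k Ω} (h : E ≤ E') :
    groupCohomology (Rep.ofAlgebraAutOnUnits E (layer h)) 2 →+ AddCircle (1 : ℚ) :=
  if hc : FiniteDimensional k E' ∧ Normal E (layer h) then
    haveI := hc.1
    haveI := fd_of_le h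
    invIdx D (E := E) ⟨E', h, hc.1, hc.2⟩
  else 0

lemma invLayer_eq {E E' : IntermediateField k Ω} (h : E ≤ E') [hfd : FiniteDimensional k E']
    [hn : Normal E (layer h)] :
    haveI := fd_of_le h
    invLayer D h = invIdx D (E := E) ⟨E', h, hfd, hn⟩ := by
  unfold invLayer
  rw [dif_pos ⟨hfd, hn⟩]

/-- **The system of invariant maps** attached to unramified data. -/
noncomputable def toLayerInvSystem : LayerInvSystem k Ω where
  inv h := invLayer D h
  inv_injective {E E'} h _ _ := by
    haveI := fd_of_le h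
    rw [invLayer_eq D h]
    exact invIdx_injective D _
  finrank_nsmul_inv {E E'} h _ _ x := by
    haveI := fd_of_le h
    rw [invLayer_eq D h]
    exact finrank_nsmul_invIdx D ⟨E', h, inferInstance, inferInstance⟩ x
  inv_layerMap {E E' F F'} hEE' hFF' hEF hE'F' _ _ _ x := by
    haveI : FiniteDimensional k E' := fd_of_le hE'F'
    haveI := fd_of_le hEE'
    haveI := fd_of_le hFF'
    rw [invLayer_eq D hEE', invLayer_eq D hFF']
    exact invIdx_layerMap D hEF ⟨E', hEE', inferInstance, inferInstance⟩
      ⟨F', hFF', inferInstance, inferInstance⟩ hE'F' x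
  exists_inv_eq E _ n hn := by
    obtain ⟨E', h, hunr, hdeg⟩ := D.exists_unr E n hn
    haveI := D.unr_fd hunr
    haveI := D.unr_normal hunr
    obtain ⟨x, hx⟩ := D.exists_uinv_eq hunr
    refine ⟨E', h, inferInstance, inferInstance, x, ?_⟩
    rw [invLayer_eq D h, invIdx_eq_uinv D (i := ⟨E', h, inferInstance, inferInstance⟩) hunr x, hx,
      hdeg]

/-- On unramified layers the invariant is the unramified invariant. -/
theorem toLayerInvSystem_inv_eq_uinv {E E' : IntermediateField k Ω} {h : E ≤ E'}
    [FiniteDimensional k E] (hunr : D.IsUnr h)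
    (x : groupCohomology (Rep.ofAlgebraAutOnUnits E (layer h)) 2) :
    (toLayerInvSystem D).inv h x = D.uinv h x := by
  haveI := D.unr_fd hunr
  haveI := D.unr_normal hunr
  change invLayer D h x = _
  rw [invLayer_eq D h]
  exact invIdx_eq_uinv D (i := ⟨E', h, inferInstance, inferInstance⟩) hunr x

end LayerUnramData

end Fermat.Agent.CFT
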