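import Mathlib
import Fermat.Agent.CFT.Local.Instantiate
import Fermat.Agent.CFT.Local.Frobenius
import Fermat.Agent.CFT.Local.UnramLocal
import Fermat.Agent.CFT.Local.LayerAssembly

/-!
# CFT, Layer B: the unramified data of a local tower — definitions

`(O, k)` in the local SETTING, `k ⊆ Ω`.  For a layer `E ≤ E'` of `Ω/k` (finite over `k`) the base
`(integralClosure O E, E)` is again in the SETTING (`Tower.base_*`).  We define

* `IsUnrLayer O h` : the layer `E'/E` is finite and unramified;
* `uinvLayer O h` : the unramified invariant `H²(Gal(E'/E), E'ˣ) →+ ℚ/ℤ` (Frobenius normalisation;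
  zero unless the layer is finite Galois).

These are the `IsUnr`/`uinv` fields of `LayerUnramData`.
-/

set_option autoImplicit false
set_option linter.style.haveILetI false
set_option linter.unusedSectionVars false

open IsLocalRing IntermediateField groupCohomology

namespace Fermat.Agent.CFT

open GaloisTower Tower

section

variable (O : Type) {k Ω : Type} [CommRing O] [IsDomain O] [IsDiscreteValuationRing O]
  [IsAdicComplete (maximalIdeal O) O] [Finite (ResidueField O)]
  [Field k] [Algebra O k] [IsFractionRing O k] [CharZero k]
  [Field Ω] [Algebra k Ω] [Algebra O Ω] [IsScalarTower O k Ω]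

/-- The layer `E'/E` is a finite unramified extension of local fields. -/
def IsUnrLayer {E E' : IntermediateField k Ω} (h : E ≤ E') : Prop :=
  FiniteDimensional k E' ∧
    ∃ _ : IsLocalRing (integralClosure O E), IsUnramExt (integralClosure O E) (layer h)

open Classical in
/-- The unramified invariant of a layer (zero unless the layer is finite Galois). -/
noncomputable def uinvLayer {E E' : IntermediateField k Ω} (h : E ≤ E') :
    groupCohomology (Rep.ofAlgebraAutOnUnits E (layer h)) 2 →+ AddCircle (1 : ℚ) :=
  if hc : FiniteDimensional k E' ∧ IsGalois E (layer h) then by
    haveI := hc.1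
    haveI := hc.2
    haveI : FiniteDimensional k E := LayerUnramData.fd_of_le h
    haveI := base_isDiscreteValuationRing O k E
    haveI := base_isLocalRing O k E
    haveI := base_isAdicComplete O k E
    haveI := base_finite_residueField O k E
    haveI := base_isFractionRing O k E
    haveI := finiteDimensional_layer' h
    haveI := intRing_isLocalRing (integralClosure O E) E (layer h)
    haveI := intRing_isLocalHom (integralClosure O E) E (layer h)
    exact unramInv (integralClosure O E) E (layer h) (frob (integralClosure O E) E (layer h))
  else 0

/-- Unfolding `uinvLayer` on a finite Galois layer (all instances supplied explicitly; they are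
provided by `Tower.base_*`, `Tower.finiteDimensional_layer'`, `intRing_isLocalRing`,
`intRing_isLocalHom`). -/
theorem uinvLayer_eq {E E' : IntermediateField k Ω} (h : E ≤ E')
    [hfd : FiniteDimensional k E'] [hgal : IsGalois E (layer h)]
    [IsDiscreteValuationRing (integralClosure O E)]
    [IsAdicComplete (maximalIdeal (integralClosure O E)) (integralClosure O E)]
    [Finite (ResidueField (integralClosure O E))] [IsFractionRing (integralClosure O E) E]
    [FiniteDimensional E (layer h)]
    [IsLocalRing (integralClosure (integralClosure O E) (layer h))]
    [IsLocalHom (algebraMap (integralClosure O E) (integralClosure (integralClosure O E) (layer h)))] :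
    uinvLayer O h =
      unramInv (integralClosure O E) E (layer h) (frob (integralClosure O E) E (layer h)) := by
  unfold uinvLayer
  rw [dif_pos ⟨hfd, hgal⟩]

end

end Fermat.Agent.CFT
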