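import Fermat.Agent.CFT.Local.ExtDVROrd

/-!
# CFT / Local / B1a: towers `K ⊆ L ⊆ M` of finite extensions of a complete discretely valued field

* `mem_integralClosure_intRing_iff`: `integralClosure (integralClosure O L) M` and
  `integralClosure O M` are the same subset of `M`.
* `intRingTowerEquiv`: the resulting ring isomorphism (identity on `M`).
* `dvrOrd_eq_of_ringEquiv`, `dvrOrd_tower_eq`: the normalised valuation of `M` does not depend on
  which of the two descriptions is used.
* `ramIdx_tower`, `inertDeg_tower`: multiplicativity of `e` and `f`.
-/

set_option autoImplicit false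
set_option linter.unusedSectionVars false

open IsLocalRing

namespace Fermat.Agent.CFT

section Generic

/-- Two discrete valuation rings with the same fraction field `L`, identified by a ring
isomorphism compatible with the embeddings into `L`, have the same normalised valuation. -/
theorem dvrOrd_eq_of_ringEquiv (B₁ B₂ L : Type) [CommRing B₁] [IsDomain B₁]
    [IsDiscreteValuationRing B₁] [CommRing B₂] [IsDomain B₂] [IsDiscreteValuationRing B₂]
    [Field L] [Algebra B₁ L] [IsFractionRing B₁ L] [Algebra B₂ L] [IsFractionRing B₂ L]
    (τ : B₁ ≃+* B₂) (h : ∀ b : B₁, algebraMap B₂ L (τ b) = algebraMap B₁ L b) (x : L) :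
    dvrOrd B₁ L x = dvrOrd B₂ L x := by
  by_cases hx : x = 0
  · subst hx; simp
  obtain ⟨ϖ, hϖ⟩ := IsDiscreteValuationRing.exists_irreducible B₁
  obtain ⟨u, hu⟩ := exists_unit_mul_zpow_dvrOrd B₁ L hϖ hx
  have hτϖ : Irreducible (τ ϖ) := (MulEquiv.irreducible_iff τ.toMulEquiv).mpr hϖ
  have hx2 : x = algebraMap B₂ L ((Units.map (τ : B₁ →* B₂) u : B₂ˣ) : B₂) *
      (algebraMap B₂ L (τ ϖ)) ^ (dvrOrd B₁ L x) := by
    conv_lhs => rw [hu]
    rw [h ϖ]
    congr 1
    exact (h (u : B₁)).symm
  conv_rhs => rw [hx2]
  rw [dvrOrd_unit_mul_zpow B₂ L hτϖ]

end Generic

section Tower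

variable (O K : Type) [CommRing O] [IsDomain O] [IsDiscreteValuationRing O]
  [Field K] [Algebra O K] [IsFractionRing O K] [CharZero K]
  (L : Type) [Field L] [Algebra K L] [FiniteDimensional K L] [Algebra O L] [IsScalarTower O K L]
  (M : Type) [Field M] [Algebra L M] [FiniteDimensional L M] [Algebra K M] [IsScalarTower K L M]
  [Algebra O M] [IsScalarTower O K M]

include K

/-- In a tower `O → K → L → M`, `IsScalarTower O L M` holds. -/
theorem tower_isScalarTower_O_L_M : IsScalarTower O L M := by
  refine IsScalarTower.of_algebraMap_eq fun x => ?_
  rw [IsScalarTower.algebraMap_apply O K M, IsScalarTower.algebraMap_apply K L M,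
    ← IsScalarTower.algebraMap_apply O K L]

theorem tower_charZero : CharZero L :=
  charZero_of_injective_algebraMap (algebraMap K L).injective

theorem tower_isScalarTower_O_intRing_M [IsScalarTower O L M] :
    IsScalarTower O (integralClosure O L) M := by
  refine IsScalarTower.of_algebraMap_eq fun x => ?_
  rw [IsScalarTower.algebraMap_apply O L M]
  rfl

/-- `integralClosure (integralClosure O L) M` and `integralClosure O M` have the same elements. -/
theorem mem_integralClosure_intRing_iff (x : M) :
    x ∈ integralClosure (integralClosure O L) M ↔ x ∈ integralClosure O M := by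
  have := tower_isScalarTower_O_L_M O K L M
  have := tower_isScalarTower_O_intRing_M O K L M
  have := intRing_isIntegral O L
  constructor
  · intro hx
    exact isIntegral_trans (R := O) (A := integralClosure O L) x hx
  · intro hx
    exact IsIntegral.tower_top (R := O) (A := integralClosure O L) hx

/-- The identification `integralClosure (integralClosure O L) M ≃ integralClosure O M`. -/
noncomputable def intRingTowerEquiv :
    integralClosure (integralClosure O L) M ≃+* integralClosure O M :=
  RingEquiv.subringCongr (s := (integralClosure (integralClosure O L) M).toSubring)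
    (t := (integralClosure O M).toSubring)
    (by ext x; exact mem_integralClosure_intRing_iff O K L M x)

@[simp] theorem coe_intRingTowerEquiv (x : integralClosure (integralClosure O L) M) :
    ((intRingTowerEquiv O K L M x : integralClosure O M) : M) = (x : M) := rfl

@[simp] theorem coe_intRingTowerEquiv_symm (x : integralClosure O M) :
    (((intRingTowerEquiv O K L M).symm x : integralClosure (integralClosure O L) M) : M) =
      (x : M) := rfl

/-- The normalised valuation on `M` does not depend on whether the ring of integers of `M` is
described over `O` or over the ring of integers of `L`. -/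
theorem dvrOrd_tower_eq
    [IsDiscreteValuationRing (integralClosure (integralClosure O L) M)]
    [IsFractionRing (integralClosure (integralClosure O L) M) M]
    [IsDiscreteValuationRing (integralClosure O M)]
    [IsFractionRing (integralClosure O M) M] (x : M) :
    dvrOrd (integralClosure (integralClosure O L) M) M x =
      dvrOrd (integralClosure O M) M x :=
  dvrOrd_eq_of_ringEquiv _ _ M (intRingTowerEquiv O K L M) (fun _ => rfl) x

end Tower

section TowerComplete

variable (O K : Type) [CommRing O] [IsDomain O] [IsDiscreteValuationRing O]
  [IsAdicComplete (maximalIdeal O) O]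
  [Field K] [Algebra O K] [IsFractionRing O K] [CharZero K]
  (L : Type) [Field L] [Algebra K L] [FiniteDimensional K L] [Algebra O L] [IsScalarTower O K L]
  (M : Type) [Field M] [Algebra L M] [FiniteDimensional L M] [Algebra K M] [IsScalarTower K L M]
  [Algebra O M] [IsScalarTower O K M]

include K

/-- Multiplicativity of the ramification index in a tower `K ⊆ L ⊆ M`. -/
theorem ramIdx_tower [IsLocalRing (integralClosure O L)] [IsLocalRing (integralClosure O M)]
    [IsLocalRing (integralClosure (integralClosure O L) M)] :
    ramIdx O M = ramIdx O L * ramIdx (integralClosure O L) M := by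
  have : FiniteDimensional K M := FiniteDimensional.trans K L M
  have := tower_isScalarTower_O_L_M O K L M
  have := tower_charZero K L
  have := intRing_isDiscreteValuationRing O K L
  have := intRing_isFractionRing O K L
  have := intRing_isAdicComplete O K L
  have := intRing_isDiscreteValuationRing O K M
  have := intRing_isFractionRing O K M
  have := intRing_isDiscreteValuationRing (integralClosure O L) L M
  have := intRing_isFractionRing (integralClosure O L) L M
  obtain ⟨ϖ, hϖ⟩ := IsDiscreteValuationRing.exists_irreducible O
  have h1 := dvrOrd_algebraMap_irreducible O K M hϖ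
  have h2 := dvrOrd_algebraMap_irreducible O K L hϖ
  have h3 := dvrOrd_algebraMap_eq_ramIdx_mul (integralClosure O L) L M (algebraMap O L ϖ)
  rw [← IsScalarTower.algebraMap_apply O L M, dvrOrd_tower_eq O K L M, h1, h2] at h3
  have : (ramIdx O M : ℤ) = (ramIdx O L * ramIdx (integralClosure O L) M : ℕ) := by
    rw [h3]; push_cast; ring
  exact_mod_cast this

/-- Multiplicativity of the residue degree in a tower `K ⊆ L ⊆ M`. -/
theorem inertDeg_tower [IsLocalRing (integralClosure O L)] [IsLocalRing (integralClosure O M)]
    [IsLocalRing (integralClosure (integralClosure O L) M)] :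
    inertDeg O M = inertDeg O L * inertDeg (integralClosure O L) M := by
  have : FiniteDimensional K M := FiniteDimensional.trans K L M
  have := tower_isScalarTower_O_L_M O K L M
  have := tower_charZero K L
  have := intRing_isDiscreteValuationRing O K L
  have := intRing_isFractionRing O K L
  have := intRing_isAdicComplete O K L
  have e1 := ramIdx_mul_inertDeg O K L
  have e2 := ramIdx_mul_inertDeg O K M
  have e3 := ramIdx_mul_inertDeg (integralClosure O L) L M
  have e4 := ramIdx_tower O K L M
  have e5 := Module.finrank_mul_finrank K L M
  have hpos : 0 < ramIdx O M := ramIdx_pos O K M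
  apply Nat.eq_of_mul_eq_mul_left hpos
  rw [e2, ← e5, ← e1, ← e3, e4]
  ring

end TowerComplete

end Fermat.Agent.CFT
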