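import Mathlib
import Fermat.Agent.CFT.Herbrand

set_option autoImplicit false

/-!
# CFT, node B3 (core): cohomological triviality of `1 + Λ` by successive approximation

* `DNPair.exists_N_eq_of_filtration`: elementwise form of the successive approximation lemma;
* `DNPair.ofMulAut`: the `DNPair` on `Additive G` attached to an automorphism of a commutative
  group with `σ ^ n = 1`;
* `IsPiComplete π`: elementary `π`-adic separatedness and completeness of a commutative ring;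
* the core lemma: for a `σ`-stable additive subgroup `Λ ⊆ B`, stable under `π`, open, with
  `Λ * Λ ⊆ π Λ` and with `Ĥ⁰(Λ/πΛ) = Ĥ¹(Λ/πΛ) = 0`, the group `1 + Λ ⊆ Bˣ` has trivial
  `Ĥ⁰` and `Ĥ¹` (`exists_norm_eq_of_fixed`, `exists_div_eq_of_norm_eq_one`).
-/

namespace Fermat.Agent.CFT

open Finset

namespace DNPair

variable {A : Type*} [AddCommGroup A]

/-- **Successive approximation**, elementwise form (no condition `F 0 = ⊤`). -/
theorem exists_N_eq_of_filtration (P : DNPair A) (F : ℕ → AddSubgroup A)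
    (hN : ∀ i, ∀ a ∈ F i, P.N a ∈ F i)
    (hsep : ∀ a, (∀ i, a ∈ F i) → a = 0)
    (hcomplete : ∀ y : ℕ → A, (∀ i, y i ∈ F i) →
      ∃ s ∈ F 0, ∀ i, s - ∑ j ∈ range i, y j ∈ F i)
    (hgr : ∀ i, ∀ x ∈ F i, P.D x = 0 → ∃ y ∈ F i, x - P.N y ∈ F (i + 1))
    (x : A) (hx0 : x ∈ F 0) (hx : P.D x = 0) : ∃ s ∈ F 0, P.N s = x := by
  choose! Y hY1 hY2 using hgr
  let X : ℕ → A := fun i => Nat.rec x (fun i xi => xi - P.N (Y i xi)) i
  have hX0 : X 0 = x := rfl
  have hXs : ∀ i, X (i + 1) = X i - P.N (Y i (X i)) := fun i => rfl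
  have hXprop : ∀ i, X i ∈ F i ∧ P.D (X i) = 0 := by
    intro i
    induction i with
    | zero => exact ⟨hx0, hx⟩
    | succ i ih =>
      refine ⟨?_, ?_⟩
      · rw [hXs]
        exact hY2 i (X i) ih.1 ih.2
      · rw [hXs, map_sub, ih.2, P.D_N, sub_zero]
  let y : ℕ → A := fun i => Y i (X i)
  have hy : ∀ i, y i ∈ F i := fun i => hY1 i (X i) (hXprop i).1 (hXprop i).2
  obtain ⟨s, hs0, hs⟩ := hcomplete y hy
  refine ⟨s, hs0, ?_⟩
  have hXsum : ∀ i, X i = x - P.N (∑ j ∈ range i, y j) := by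
    intro i
    induction i with
    | zero => simp [hX0]
    | succ i ih =>
      have e1 : X (i + 1) = X i - P.N (y i) := hXs i
      rw [e1, ih, sum_range_succ, map_add]
      abel
  have hdiff : ∀ i, x - P.N s ∈ F i := by
    intro i
    have e : x - P.N s = X i - P.N (s - ∑ j ∈ range i, y j) := by
      rw [hXsum i, map_sub]
      abel
    rw [e]
    exact (F i).sub_mem (hXprop i).1 (hN i _ (hs i))
  exact (sub_eq_zero.mp (hsep _ hdiff)).symm

/-! ### The pair attached to an automorphism of a commutative group -/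

section MulAut

variable {G : Type*} [CommGroup G]

/-- The additive endomorphism of `Additive G` attached to `σ : G ≃* G`. -/
def addEndOfMulEquiv (σ : G ≃* G) : AddMonoid.End (Additive G) :=
  (MulEquiv.toAdditive σ).toAddMonoidHom

theorem addEndOfMulEquiv_apply (σ : G ≃* G) (u : Additive G) :
    addEndOfMulEquiv σ u = Additive.ofMul (σ u.toMul) := rfl

theorem addEndOfMulEquiv_pow_apply (σ : G ≃* G) (k : ℕ) (u : Additive G) :
    (addEndOfMulEquiv σ ^ k) u = Additive.ofMul ((σ ^ k) u.toMul) := by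
  induction k generalizing u with
  | zero => rfl
  | succ k ih =>
    rw [pow_succ]
    change (addEndOfMulEquiv σ ^ k) (addEndOfMulEquiv σ u) = _
    rw [ih, addEndOfMulEquiv_apply, pow_succ]
    rfl

/-- The `DNPair` on `Additive G` given by `D u = σ u / u`, `N u = ∏_{k<n} σ^k u`. -/
def ofMulAut (σ : G ≃* G) (n : ℕ) (hσ : σ ^ n = 1) : DNPair (Additive G) :=
  ofEnd (addEndOfMulEquiv σ) n (by
    ext u
    rw [addEndOfMulEquiv_pow_apply, hσ]
    rfl)

theorem ofMulAut_D_apply (σ : G ≃* G) (n : ℕ) (hσ : σ ^ n = 1) (u : Additive G) :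
    (ofMulAut σ n hσ).D u = Additive.ofMul (σ u.toMul / u.toMul) := rfl

theorem ofMulAut_N_apply (σ : G ≃* G) (n : ℕ) (hσ : σ ^ n = 1) (u : Additive G) :
    (ofMulAut σ n hσ).N u = Additive.ofMul (∏ k ∈ range n, (σ ^ k) u.toMul) := by
  unfold ofMulAut
  rw [ofEnd_N_apply]
  simp only [addEndOfMulEquiv_pow_apply]
  rw [ofMul_prod]

end MulAut

end DNPair

/-! ## Elementary `π`-adic completeness -/

/-- `B` is `π`-adically separated and complete. -/
structure IsPiComplete {B : Type*} [CommRing B] (π : B) : Prop where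
  sep : ∀ x : B, (∀ k : ℕ, π ^ k ∣ x) → x = 0
  complete : ∀ f : ℕ → B, (∀ k, π ^ k ∣ f (k + 1) - f k) → ∃ s, ∀ k, π ^ k ∣ s - f k

namespace IsPiComplete

variable {B : Type*} [CommRing B] {π : B}

/-- In a `π`-adically complete ring, `1 + π x` is a unit. -/
theorem isUnit_one_add_mul (h : IsPiComplete π) (x : B) : IsUnit (1 + π * x) := by
  let f : ℕ → B := fun k => ∑ j ∈ range k, (-(π * x)) ^ j
  have hf : ∀ k, π ^ k ∣ f (k + 1) - f k := by
    intro k
    simp only [f, sum_range_succ, add_sub_cancel_left]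
    rw [neg_pow, mul_pow]
    exact ⟨(-1) ^ k * x ^ k, by ring⟩
  obtain ⟨s, hs⟩ := h.complete f hf
  have key : (1 + π * x) * s = 1 := by
    rw [← sub_eq_zero]
    apply h.sep
    intro k
    have h1 : (1 + π * x) * f k = 1 - (-(π * x)) ^ k := by
      have := mul_neg_geom_sum (-(π * x)) k
      simp only [f]
      rw [← this]
      ring
    have h2 : (1 + π * x) * s - 1 = (1 + π * x) * (s - f k) - (-(π * x)) ^ k := by
      rw [mul_sub, h1]
      ring
    rw [h2]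
    refine dvd_sub (Dvd.dvd.mul_left (hs k) _) ?_
    rw [neg_pow, mul_pow]
    exact ⟨(-1) ^ k * x ^ k, by ring⟩
  exact IsUnit.of_mul_eq_one _ key

end IsPiComplete

/-! ## Good lattices and the unit groups `1 + Λ` -/

section Core

variable {B : Type*} [CommRing B]

/-- The additive subgroup `π Λ`. -/
def scaleSubgroup (π : B) (Λ : AddSubgroup B) : AddSubgroup B :=
  Λ.map (AddMonoidHom.mulLeft π)

theorem mem_scaleSubgroup {π : B} {Λ : AddSubgroup B} {x : B} :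
    x ∈ scaleSubgroup π Λ ↔ ∃ a ∈ Λ, π * a = x := by
  simp [scaleSubgroup, AddSubgroup.mem_map]

theorem ringAut_pow_succ_apply (σ : B ≃+* B) (k : ℕ) (x : B) :
    (σ ^ (k + 1)) x = σ ((σ ^ k) x) := by
  rw [pow_succ']
  rfl

theorem ringAut_pow_apply_of_fixed (σ : B ≃+* B) (k : ℕ) {x : B} (hx : σ x = x) :
    (σ ^ k) x = x := by
  induction k with
  | zero => rfl
  | succ k ih => rw [ringAut_pow_succ_apply, ih, hx]

/-- The trace `∑_{j<n} σ^j`. -/
def autTrace (σ : B ≃+* B) (n : ℕ) (x : B) : B := ∑ j ∈ range n, (σ ^ j) x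

theorem autTrace_add (σ : B ≃+* B) (n : ℕ) (x y : B) :
    autTrace σ n (x + y) = autTrace σ n x + autTrace σ n y := by
  simp [autTrace, sum_add_distrib]

theorem autTrace_sub (σ : B ≃+* B) (n : ℕ) (x y : B) :
    autTrace σ n (x - y) = autTrace σ n x - autTrace σ n y := by
  simp [autTrace, sum_sub_distrib]

theorem autTrace_mul_of_fixed (σ : B ≃+* B) (n : ℕ) {p : B} (hp : σ p = p) (x : B) :
    autTrace σ n (p * x) = p * autTrace σ n x := by
  simp only [autTrace, map_mul, ringAut_pow_apply_of_fixed σ _ hp, mul_sum]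

theorem map_autTrace (σ : B ≃+* B) (n : ℕ) (hσ : σ ^ n = 1) (x : B) :
    σ (autTrace σ n x) = autTrace σ n x := by
  unfold autTrace
  rw [map_sum]
  simp only [← ringAut_pow_succ_apply]
  rcases n with _ | n
  · simp
  · rw [sum_range_succ, sum_range_succ', hσ]
    simp

/-- A `σ`-stable, `π`-stable open additive subgroup `Λ ⊆ π B` with `Λ Λ ⊆ π Λ` which is
cohomologically trivial for the cyclic group generated by `σ` (`σ ^ n = 1`). -/
structure IsGoodLattice (π : B) (σ : B ≃+* B) (n : ℕ) (Λ : AddSubgroup B) : Prop where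
  map_mem : ∀ a ∈ Λ, σ a ∈ Λ
  smul_mem : ∀ a ∈ Λ, π * a ∈ Λ
  mul_mem : ∀ a ∈ Λ, ∀ b ∈ Λ, a * b ∈ scaleSubgroup π Λ
  dvd : ∀ a ∈ Λ, π ∣ a
  isOpen : ∃ m, ∀ x : B, π ^ m * x ∈ Λ
  h0 : ∀ a ∈ Λ, σ a = a → ∃ b ∈ Λ, a = autTrace σ n b
  h1 : ∀ a ∈ Λ, autTrace σ n a = 0 → ∃ b ∈ Λ, a = σ b - b

namespace IsGoodLattice

variable {π : B} {σ : B ≃+* B} {n : ℕ} {Λ : AddSubgroup B}

theorem scale_le (h : IsGoodLattice π σ n Λ) : scaleSubgroup π Λ ≤ Λ := by
  intro x hx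
  obtain ⟨a, ha, rfl⟩ := mem_scaleSubgroup.mp hx
  exact h.smul_mem a ha

theorem mul_mem' (h : IsGoodLattice π σ n Λ) {a b : B} (ha : a ∈ Λ) (hb : b ∈ Λ) : a * b ∈ Λ :=
  h.scale_le (h.mul_mem a ha b hb)

theorem pow_mem (h : IsGoodLattice π σ n Λ) {a : B} (ha : a ∈ Λ) (k : ℕ) : a ^ (k + 1) ∈ Λ := by
  induction k with
  | zero => simpa using ha
  | succ k ih => rw [pow_succ]; exact h.mul_mem' ih ha

theorem mul_mem_scale (h : IsGoodLattice π σ n Λ) {a b : B} (ha : a ∈ Λ)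
    (hb : b ∈ scaleSubgroup π Λ) : a * b ∈ scaleSubgroup π Λ := by
  obtain ⟨b', hb', rfl⟩ := mem_scaleSubgroup.mp hb
  exact mem_scaleSubgroup.mpr ⟨a * b', h.mul_mem' ha hb', by ring⟩

/-- The scaled lattice `π Λ` is again good. -/
theorem scale (h : IsGoodLattice π σ n Λ) (hπ : ∀ x : B, π * x = 0 → x = 0) (hσπ : σ π = π) :
    IsGoodLattice π σ n (scaleSubgroup π Λ) where
  map_mem a ha := by
    obtain ⟨a', ha', rfl⟩ := mem_scaleSubgroup.mp ha
    exact mem_scaleSubgroup.mpr ⟨σ a', h.map_mem a' ha', by rw [map_mul, hσπ]⟩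
  smul_mem a ha := mem_scaleSubgroup.mpr ⟨a, h.scale_le ha, rfl⟩
  mul_mem a ha b hb := by
    obtain ⟨a', ha', rfl⟩ := mem_scaleSubgroup.mp ha
    obtain ⟨c, hc, hc'⟩ := mem_scaleSubgroup.mp (h.mul_mem_scale ha' hb)
    exact mem_scaleSubgroup.mpr ⟨π * c, mem_scaleSubgroup.mpr ⟨c, hc, rfl⟩, by
      rw [hc']; ring⟩
  dvd a ha := h.dvd a (h.scale_le ha)
  isOpen := by
    obtain ⟨m, hm⟩ := h.isOpen
    exact ⟨m + 1, fun x => mem_scaleSubgroup.mpr ⟨π ^ m * x, hm x, by ring⟩⟩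
  h0 a ha hfix := by
    obtain ⟨a', ha', rfl⟩ := mem_scaleSubgroup.mp ha
    have hfix' : σ a' = a' := by
      apply sub_eq_zero.mp
      apply hπ
      rw [mul_sub]
      rw [map_mul, hσπ] at hfix
      rw [hfix, sub_self]
    obtain ⟨b, hb, hb'⟩ := h.h0 a' ha' hfix'
    exact ⟨π * b, mem_scaleSubgroup.mpr ⟨b, hb, rfl⟩, by
      rw [autTrace_mul_of_fixed σ n hσπ, hb']⟩
  h1 a ha htr := by
    obtain ⟨a', ha', rfl⟩ := mem_scaleSubgroup.mp ha
    rw [autTrace_mul_of_fixed σ n hσπ] at htr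
    obtain ⟨b, hb, hb'⟩ := h.h1 a' ha' (hπ _ htr)
    exact ⟨π * b, mem_scaleSubgroup.mpr ⟨b, hb, rfl⟩, by
      rw [map_mul, hσπ, hb']; ring⟩

/-- The subgroup `1 + Λ` of `Bˣ`. -/
def unitGroup (h : IsGoodLattice π σ n Λ) : Subgroup Bˣ where
  carrier := {u | (u : B) - 1 ∈ Λ}
  one_mem' := by simp
  mul_mem' := by
    intro u v hu hv
    change (u : B) - 1 ∈ Λ at hu
    change (v : B) - 1 ∈ Λ at hv
    change ((u * v : Bˣ) : B) - 1 ∈ Λ
    have e : ((u * v : Bˣ) : B) - 1 = ((u : B) - 1) + ((v : B) - 1) + ((u : B) - 1) * ((v : B) - 1) := by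
      push_cast; ring
    rw [e]
    exact Λ.add_mem (Λ.add_mem hu hv) (h.mul_mem' hu hv)
  inv_mem' := by
    intro u hu
    change (u : B) - 1 ∈ Λ at hu
    change ((u⁻¹ : Bˣ) : B) - 1 ∈ Λ
    obtain ⟨m, hm⟩ := h.isOpen
    set a : B := (u : B) - 1 with ha
    set s : B := ((u⁻¹ : Bˣ) : B) with hs
    have hus : (1 + a) * s = 1 := by
      have : (u : B) * ((u⁻¹ : Bˣ) : B) = 1 := by simp
      rw [ha, hs]; rw [← this]; ring
    -- geometric sum
    have hG : ∀ k : ℕ, (∑ j ∈ range (k + 1), (-a) ^ j) - 1 ∈ Λ := by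
      intro k
      induction k with
      | zero => simp
      | succ k ih =>
        rw [sum_range_succ]
        have e : ∑ j ∈ range (k + 1), (-a) ^ j + (-a) ^ (k + 1) - 1 =
            (∑ j ∈ range (k + 1), (-a) ^ j - 1) + (-a) ^ (k + 1) := by ring
        rw [e]
        exact Λ.add_mem ih (h.pow_mem (Λ.neg_mem hu) k)
    have hgeom := mul_neg_geom_sum (-a) (m + 1)
    have e : s - 1 = ((∑ j ∈ range (m + 1), (-a) ^ j) - 1) + (-a) ^ (m + 1) * s := by
      have h1 : (1 + a) * (∑ j ∈ range (m + 1), (-a) ^ j) = 1 - (-a) ^ (m + 1) := by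
        rw [← hgeom]; ring
      have h2 : ∑ j ∈ range (m + 1), (-a) ^ j = s * (1 - (-a) ^ (m + 1)) := by
        rw [← h1, ← mul_assoc, mul_comm s, hus, one_mul]
      rw [h2]; ring
    rw [e]
    refine Λ.add_mem (hG m) ?_
    obtain ⟨a', ha'⟩ := h.dvd a hu
    have e2 : (-a) ^ (m + 1) * s = π ^ m * (π * (-a') ^ (m + 1) * s) := by
      rw [ha']; ring
    rw [e2]
    exact hm _

theorem mem_unitGroup (h : IsGoodLattice π σ n Λ) {u : Bˣ} :
    u ∈ h.unitGroup ↔ (u : B) - 1 ∈ Λ := Iff.rfl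

end IsGoodLattice

end Core

/-! ## One step of the successive approximation -/

section Core2

variable {B : Type*} [CommRing B]

namespace IsGoodLattice

variable {π : B} {σ : B ≃+* B} {n : ℕ} {Λ : AddSubgroup B}

/-- Elements of `1 + Λ` are units in a `π`-adically complete ring. -/
theorem exists_unit (h : IsGoodLattice π σ n Λ) (hc : IsPiComplete π) {b : B} (hb : b ∈ Λ) :
    ∃ y : Bˣ, (y : B) = 1 + b ∧ y ∈ h.unitGroup := by
  obtain ⟨b', rfl⟩ := h.dvd b hb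
  refine ⟨(hc.isUnit_one_add_mul b').unit, IsUnit.unit_spec _, ?_⟩
  rw [mem_unitGroup, IsUnit.unit_spec]
  simpa using hb

/-- If `u, v ∈ 1 + Λ` and `u - v ∈ Λ'` where `Λ Λ' ⊆ Λ'`, then `u / v ∈ 1 + Λ'`. -/
theorem div_sub_one_mem (h : IsGoodLattice π σ n Λ) {u v : Bˣ} (hv : v ∈ h.unitGroup)
    (Λ' : AddSubgroup B) (hΛ' : ∀ a ∈ Λ, ∀ b ∈ Λ', a * b ∈ Λ') (huv : (u : B) - v ∈ Λ') :
    ((u / v : Bˣ) : B) - 1 ∈ Λ' := by
  have hv' := h.unitGroup.inv_mem hv
  rw [mem_unitGroup] at hv'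
  have e : ((u / v : Bˣ) : B) - 1 = ((u : B) - v) + (((v⁻¹ : Bˣ) : B) - 1) * ((u : B) - v) := by
    have h1 : (v : B) * ((v⁻¹ : Bˣ) : B) = 1 := by simp
    have h2 : ((u / v : Bˣ) : B) = (u : B) * ((v⁻¹ : Bˣ) : B) := by
      rw [div_eq_mul_inv]; push_cast; rfl
    rw [h2]
    calc (u : B) * ((v⁻¹ : Bˣ) : B) - 1 = (u : B) * ((v⁻¹ : Bˣ) : B) - (v : B) * ((v⁻¹ : Bˣ) : B) := by
          rw [h1]
      _ = _ := by ring
  rw [e]
  exact Λ'.add_mem huv (hΛ' _ hv' _ huv)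

/-- `∏ (1 + b_j) ≡ 1 + ∑ b_j` modulo `π Λ`. -/
theorem prod_one_add_sub_mem (h : IsGoodLattice π σ n Λ) (b : ℕ → B) (hb : ∀ j, b j ∈ Λ)
    (k : ℕ) :
    (∏ j ∈ range k, (1 + b j)) - 1 - ∑ j ∈ range k, b j ∈ scaleSubgroup π Λ := by
  induction k with
  | zero => simp
  | succ k ih =>
    rw [prod_range_succ, sum_range_succ]
    set P := ∏ j ∈ range k, (1 + b j) with hP
    set S := ∑ j ∈ range k, b j with hS
    have hPS : P - 1 ∈ Λ := by
      have : P - 1 = (P - 1 - S) + S := by ring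
      rw [this]
      exact Λ.add_mem (h.scale_le ih) (Λ.sum_mem fun j _ => hb j)
    have e : P * (1 + b k) - 1 - (S + b k) = (P - 1 - S) + (P - 1) * b k := by ring
    rw [e]
    exact (scaleSubgroup π Λ).add_mem ih (h.mul_mem _ hPS _ (hb k))

end IsGoodLattice

/-- The automorphism of `Bˣ` induced by a ring automorphism. -/
def unitsAut (σ : B ≃+* B) : Bˣ ≃* Bˣ := Units.mapEquiv σ.toMulEquiv

theorem coe_unitsAut (σ : B ≃+* B) (u : Bˣ) : ((unitsAut σ u : Bˣ) : B) = σ u := rfl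

theorem coe_unitsAut_pow (σ : B ≃+* B) (k : ℕ) (u : Bˣ) :
    ((((unitsAut σ) ^ k) u : Bˣ) : B) = (σ ^ k) (u : B) := by
  induction k with
  | zero => rfl
  | succ k ih =>
    rw [pow_succ']
    change σ ((((unitsAut σ) ^ k) u : Bˣ) : B) = _
    rw [ih, ringAut_pow_succ_apply]

theorem unitsAut_pow_eq_one (σ : B ≃+* B) (n : ℕ) (hσ : σ ^ n = 1) : unitsAut σ ^ n = 1 := by
  ext u
  rw [coe_unitsAut_pow, hσ]
  rfl

/-- The norm `∏_{k<n} σ^k u` on units. -/
def unitsNorm (σ : B ≃+* B) (n : ℕ) (u : Bˣ) : Bˣ := ∏ k ∈ range n, ((unitsAut σ) ^ k) u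

theorem coe_unitsNorm (σ : B ≃+* B) (n : ℕ) (u : Bˣ) :
    ((unitsNorm σ n u : Bˣ) : B) = ∏ k ∈ range n, (σ ^ k) (u : B) := by
  unfold unitsNorm
  rw [Units.coe_prod]
  simp only [coe_unitsAut_pow]

namespace IsGoodLattice

variable {π : B} {σ : B ≃+* B} {n : ℕ} {Λ : AddSubgroup B}

theorem pow_map_mem (h : IsGoodLattice π σ n Λ) (k : ℕ) {a : B} (ha : a ∈ Λ) : (σ ^ k) a ∈ Λ := by
  induction k with
  | zero => exact ha
  | succ k ih => rw [ringAut_pow_succ_apply]; exact h.map_mem _ ih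

theorem unitsAut_mem (h : IsGoodLattice π σ n Λ) {u : Bˣ} (hu : u ∈ h.unitGroup) :
    unitsAut σ u ∈ h.unitGroup := by
  rw [mem_unitGroup] at hu ⊢
  rw [coe_unitsAut]
  have : σ (u : B) - 1 = σ ((u : B) - 1) := by simp
  rw [this]
  exact h.map_mem _ hu

theorem unitsAut_pow_mem (h : IsGoodLattice π σ n Λ) (k : ℕ) {u : Bˣ} (hu : u ∈ h.unitGroup) :
    ((unitsAut σ) ^ k) u ∈ h.unitGroup := by
  rw [mem_unitGroup] at hu ⊢
  rw [coe_unitsAut_pow]
  have : (σ ^ k) (u : B) - 1 = (σ ^ k) ((u : B) - 1) := by simp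
  rw [this]
  exact h.pow_map_mem k hu

theorem unitsNorm_mem (h : IsGoodLattice π σ n Λ) {u : Bˣ} (hu : u ∈ h.unitGroup) :
    unitsNorm σ n u ∈ h.unitGroup :=
  h.unitGroup.prod_mem fun k _ => h.unitsAut_pow_mem k hu

/-- `N(1 + a) ≡ 1 + Tr a` modulo `π Λ`. -/
theorem coe_unitsNorm_sub_mem (h : IsGoodLattice π σ n Λ) {u : Bˣ} (hu : u ∈ h.unitGroup) :
    ((unitsNorm σ n u : Bˣ) : B) - 1 - autTrace σ n ((u : B) - 1) ∈ scaleSubgroup π Λ := by
  rw [mem_unitGroup] at hu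
  have := h.prod_one_add_sub_mem (fun j => (σ ^ j) ((u : B) - 1)) (fun j => h.pow_map_mem j hu) n
  rw [coe_unitsNorm]
  unfold autTrace
  convert this using 4 with j _
  simp

/-- One step of the approximation for `Ĥ⁰`. -/
theorem norm_step (h : IsGoodLattice π σ n Λ) (hc : IsPiComplete π) {u : Bˣ}
    (hu : u ∈ h.unitGroup) (hfix : unitsAut σ u = u) :
    ∃ y ∈ h.unitGroup, ((u / unitsNorm σ n y : Bˣ) : B) - 1 ∈ scaleSubgroup π Λ := by
  have hu' := hu
  rw [mem_unitGroup] at hu'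
  have hfix' : σ ((u : B) - 1) = (u : B) - 1 := by
    have := congrArg (fun v : Bˣ => (v : B)) hfix
    simp only [coe_unitsAut] at this
    simp [this]
  obtain ⟨b, hb, hab⟩ := h.h0 _ hu' hfix'
  obtain ⟨y, hy, hyV⟩ := h.exists_unit hc hb
  refine ⟨y, hyV, ?_⟩
  refine h.div_sub_one_mem (h.unitsNorm_mem hyV) _ (fun a ha b hb => h.mul_mem_scale ha hb) ?_
  have h1 := h.coe_unitsNorm_sub_mem hyV
  have e : (u : B) - (unitsNorm σ n y : Bˣ) =
      -(((unitsNorm σ n y : Bˣ) : B) - 1 - autTrace σ n ((y : B) - 1)) := by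
    rw [hy, add_sub_cancel_left, ← hab]; ring
  rw [e]
  exact (scaleSubgroup π Λ).neg_mem h1

/-- One step of the approximation for `Ĥ¹`. -/
theorem div_step (h : IsGoodLattice π σ n Λ) (hc : IsPiComplete π)
    (hπ : ∀ x : B, π * x = 0 → x = 0) (hσπ : σ π = π) (hσn : σ ^ n = 1) {u : Bˣ}
    (hu : u ∈ h.unitGroup) (hN : unitsNorm σ n u = 1) :
    ∃ y ∈ h.unitGroup, ((u / (unitsAut σ y / y) : Bˣ) : B) - 1 ∈ scaleSubgroup π Λ := by
  have hu' := hu
  rw [mem_unitGroup] at hu'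
  set a : B := (u : B) - 1 with ha
  have h1 := h.coe_unitsNorm_sub_mem hu
  rw [hN] at h1
  have h2 : autTrace σ n a ∈ scaleSubgroup π Λ := by
    have : autTrace σ n a = -(((1 : Bˣ) : B) - 1 - autTrace σ n a) := by simp
    rw [this]
    exact (scaleSubgroup π Λ).neg_mem h1
  obtain ⟨c, hc', hca⟩ := mem_scaleSubgroup.mp h2
  have hcfix : σ c = c := by
    apply sub_eq_zero.mp
    apply hπ
    have := map_autTrace σ n hσn a
    rw [← hca, map_mul, hσπ] at this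
    rw [mul_sub, this, sub_self]
  obtain ⟨d, hd, hcd⟩ := h.h0 c hc' hcfix
  have h3 : autTrace σ n (a - π * d) = 0 := by
    rw [autTrace_sub, autTrace_mul_of_fixed σ n hσπ, ← hcd, hca, sub_self]
  obtain ⟨b, hb, hab⟩ := h.h1 (a - π * d) (Λ.sub_mem hu' (h.smul_mem d hd)) h3
  obtain ⟨y, hy, hyV⟩ := h.exists_unit hc hb
  refine ⟨y, hyV, ?_⟩
  have e : u / (unitsAut σ y / y) = (u * y) / unitsAut σ y := by
    rw [div_div_eq_mul_div]
  rw [e]
  refine h.div_sub_one_mem (h.unitsAut_mem hyV) _ (fun a ha b hb => h.mul_mem_scale ha hb) ?_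
  have e2 : ((u * y : Bˣ) : B) - (unitsAut σ y : Bˣ) = π * d + a * b := by
    rw [coe_unitsAut]
    push_cast
    rw [hy, map_add, map_one]
    have hu1 : (u : B) = 1 + a := by rw [ha]; ring
    have hsb : σ b = a - π * d + b := by rw [hab]; ring
    rw [hu1, hsb]; ring
  rw [e2]
  exact (scaleSubgroup π Λ).add_mem (mem_scaleSubgroup.mpr ⟨d, hd, rfl⟩) (h.mul_mem _ hu' _ hb)

end IsGoodLattice

end Core2

/-! ## The tower `π ^ i Λ` and convergence of products -/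

section Core3

variable {B : Type*} [CommRing B]

/-- The tower `π ^ i Λ`. -/
def lam (π : B) (Λ : AddSubgroup B) : ℕ → AddSubgroup B
  | 0 => Λ
  | i + 1 => scaleSubgroup π (lam π Λ i)

theorem lam_zero (π : B) (Λ : AddSubgroup B) : lam π Λ 0 = Λ := rfl

theorem lam_succ (π : B) (Λ : AddSubgroup B) (i : ℕ) :
    lam π Λ (i + 1) = scaleSubgroup π (lam π Λ i) := rfl

theorem mem_lam_iff {π : B} {Λ : AddSubgroup B} {i : ℕ} {x : B} :
    x ∈ lam π Λ i ↔ ∃ a ∈ Λ, π ^ i * a = x := by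
  induction i generalizing x with
  | zero => simp [lam_zero]
  | succ i ih =>
    rw [lam_succ, mem_scaleSubgroup]
    constructor
    · rintro ⟨a, ha, rfl⟩
      obtain ⟨a', ha', rfl⟩ := ih.mp ha
      exact ⟨a', ha', by ring⟩
    · rintro ⟨a, ha, rfl⟩
      exact ⟨π ^ i * a, ih.mpr ⟨a, ha, rfl⟩, by ring⟩

namespace IsGoodLattice

variable {π : B} {σ : B ≃+* B} {n : ℕ} {Λ : AddSubgroup B}

theorem lam (h : IsGoodLattice π σ n Λ) (hπ : ∀ x : B, π * x = 0 → x = 0) (hσπ : σ π = π)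
    (i : ℕ) : IsGoodLattice π σ n (lam π Λ i) := by
  induction i with
  | zero => exact h
  | succ i ih => exact ih.scale hπ hσπ

theorem lam_succ_le (h : IsGoodLattice π σ n Λ) (i : ℕ) :
    Fermat.Agent.CFT.lam π Λ (i + 1) ≤ Fermat.Agent.CFT.lam π Λ i := by
  intro x hx
  obtain ⟨a, ha, rfl⟩ := mem_lam_iff.mp hx
  exact mem_lam_iff.mpr ⟨π * a, h.smul_mem a ha, by ring⟩

theorem lam_add_le (h : IsGoodLattice π σ n Λ) (i j : ℕ) :
    Fermat.Agent.CFT.lam π Λ (i + j) ≤ Fermat.Agent.CFT.lam π Λ i := by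
  induction j with
  | zero => exact le_rfl
  | succ j ih => exact (h.lam_succ_le (i + j)).trans ih

theorem lam_le (h : IsGoodLattice π σ n Λ) (i : ℕ) :
    Fermat.Agent.CFT.lam π Λ i ≤ Λ := by
  have := h.lam_add_le 0 i
  rwa [zero_add] at this

theorem mul_mem_lam (h : IsGoodLattice π σ n Λ) (i : ℕ) {a b : B} (ha : a ∈ Λ)
    (hb : b ∈ Fermat.Agent.CFT.lam π Λ i) : a * b ∈ Fermat.Agent.CFT.lam π Λ i := by
  obtain ⟨b', hb', rfl⟩ := mem_lam_iff.mp hb
  exact mem_lam_iff.mpr ⟨a * b', h.mul_mem' ha hb', by ring⟩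

theorem dvd_of_mem_lam {i : ℕ} {x : B} (hx : x ∈ Fermat.Agent.CFT.lam π Λ i) : π ^ i ∣ x := by
  obtain ⟨a, _, rfl⟩ := mem_lam_iff.mp hx
  exact Dvd.intro _ rfl

/-- Convergence of infinite products in `1 + Λ`. -/
theorem exists_limit (h : IsGoodLattice π σ n Λ) (hc : IsPiComplete π)
    (hπ : ∀ x : B, π * x = 0 → x = 0) (hσπ : σ π = π)
    (y : ℕ → Bˣ) (hy : ∀ i, (y i : B) - 1 ∈ Fermat.Agent.CFT.lam π Λ i) :
    ∃ s : Bˣ, s ∈ h.unitGroup ∧
      ∀ i, ((s / ∏ j ∈ range i, y j : Bˣ) : B) - 1 ∈ Fermat.Agent.CFT.lam π Λ i := by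
  have hgood := h.lam hπ hσπ
  -- partial products
  have hyV : ∀ i j, y (i + j) ∈ (hgood i).unitGroup := fun i j => h.lam_add_le i j (hy (i + j))
  have hp0 : ∀ i, ∏ j ∈ range i, y j ∈ h.unitGroup := by
    intro i
    refine h.unitGroup.prod_mem fun j _ => ?_
    have := hyV 0 j
    rw [zero_add] at this
    exact this
  have hA : ∀ i k, ((∏ j ∈ range (i + k), y j : Bˣ) : B) - (∏ j ∈ range i, y j : Bˣ) ∈
      Fermat.Agent.CFT.lam π Λ i := by
    intro i k
    rw [prod_range_add]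
    have hq : ∏ j ∈ range k, y (i + j) ∈ (hgood i).unitGroup :=
      (hgood i).unitGroup.prod_mem fun j _ => hyV i j
    rw [mem_unitGroup] at hq
    have hp := hp0 i
    rw [mem_unitGroup] at hp
    set p : Bˣ := ∏ j ∈ range i, y j
    set q : Bˣ := ∏ j ∈ range k, y (i + j)
    have e : ((p * q : Bˣ) : B) - (p : B) = ((q : B) - 1) + ((p : B) - 1) * ((q : B) - 1) := by
      push_cast; ring
    rw [e]
    exact (Fermat.Agent.CFT.lam π Λ i).add_mem hq (h.mul_mem_lam i hp hq)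
  obtain ⟨m, hm⟩ := h.isOpen
  obtain ⟨s₀, hs₀⟩ := hc.complete (fun k => ((∏ j ∈ range k, y j : Bˣ) : B))
    (fun k => dvd_of_mem_lam (hA k 1))
  have hB : ∀ i, s₀ - ((∏ j ∈ range i, y j : Bˣ) : B) ∈ Fermat.Agent.CFT.lam π Λ i := by
    intro i
    have e : s₀ - ((∏ j ∈ range i, y j : Bˣ) : B) =
        (s₀ - ((∏ j ∈ range (i + m), y j : Bˣ) : B)) +
        (((∏ j ∈ range (i + m), y j : Bˣ) : B) - ((∏ j ∈ range i, y j : Bˣ) : B)) := by ring
    rw [e]
    refine (Fermat.Agent.CFT.lam π Λ i).add_mem ?_ (hA i m)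
    obtain ⟨x, hx⟩ := hs₀ (i + m)
    rw [hx]
    exact mem_lam_iff.mpr ⟨π ^ m * x, hm x, by ring⟩
  have hs1 : s₀ - 1 ∈ Λ := by
    have := hB 0
    rw [lam_zero] at this
    simpa using this
  obtain ⟨s, hs, hsV⟩ := h.exists_unit hc hs1
  refine ⟨s, hsV, fun i => ?_⟩
  refine h.div_sub_one_mem (hp0 i) _ (fun a ha b hb => h.mul_mem_lam i ha hb) ?_
  have : (s : B) = s₀ := by rw [hs]; ring
  rw [this]
  exact hB i

end IsGoodLattice

end Core3

/-! ## Cohomological triviality of `1 + Λ` -/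

section Core4

variable {B : Type*} [CommRing B]

/-- The `DNPair` on `Additive Bˣ` attached to a ring automorphism with `σ ^ n = 1`:
`D u = σ u / u`, `N u = ∏_{k<n} σ^k u`. -/
def unitsPair (σ : B ≃+* B) (n : ℕ) (hσ : σ ^ n = 1) : DNPair (Additive Bˣ) :=
  DNPair.ofMulAut (unitsAut σ) n (unitsAut_pow_eq_one σ n hσ)

theorem unitsPair_D_apply (σ : B ≃+* B) (n : ℕ) (hσ : σ ^ n = 1) (u : Additive Bˣ) :
    (unitsPair σ n hσ).D u = Additive.ofMul (unitsAut σ u.toMul / u.toMul) := rfl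

theorem unitsPair_N_apply (σ : B ≃+* B) (n : ℕ) (hσ : σ ^ n = 1) (u : Additive Bˣ) :
    (unitsPair σ n hσ).N u = Additive.ofMul (unitsNorm σ n u.toMul) :=
  DNPair.ofMulAut_N_apply _ _ _ _

namespace IsGoodLattice

variable {π : B} {σ : B ≃+* B} {n : ℕ} {Λ : AddSubgroup B}

/-- The filtration of `Additive Bˣ` by the groups `1 + π ^ i Λ`. -/
def filtration (h : IsGoodLattice π σ n Λ) (hπ : ∀ x : B, π * x = 0 → x = 0) (hσπ : σ π = π)
    (i : ℕ) : AddSubgroup (Additive Bˣ) :=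
  Subgroup.toAddSubgroup (h.lam hπ hσπ i).unitGroup

theorem mem_filtration (h : IsGoodLattice π σ n Λ) (hπ : ∀ x : B, π * x = 0 → x = 0)
    (hσπ : σ π = π) (i : ℕ) (u : Additive Bˣ) :
    u ∈ h.filtration hπ hσπ i ↔ ((u.toMul : Bˣ) : B) - 1 ∈ Fermat.Agent.CFT.lam π Λ i := Iff.rfl

theorem filtration_sep (h : IsGoodLattice π σ n Λ) (hc : IsPiComplete π)
    (hπ : ∀ x : B, π * x = 0 → x = 0) (hσπ : σ π = π) (u : Additive Bˣ)
    (hu : ∀ i, u ∈ h.filtration hπ hσπ i) : u = 0 := by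
  have h1 : ((u.toMul : Bˣ) : B) - 1 = 0 :=
    hc.sep _ fun i => dvd_of_mem_lam ((h.mem_filtration hπ hσπ i u).mp (hu i))
  have h2 : (u.toMul : Bˣ) = 1 := Units.ext (by simpa using sub_eq_zero.mp h1)
  exact Additive.toMul.injective h2

theorem filtration_complete (h : IsGoodLattice π σ n Λ) (hc : IsPiComplete π)
    (hπ : ∀ x : B, π * x = 0 → x = 0) (hσπ : σ π = π) (y : ℕ → Additive Bˣ)
    (hy : ∀ i, y i ∈ h.filtration hπ hσπ i) :
    ∃ s ∈ h.filtration hπ hσπ 0, ∀ i, s - ∑ j ∈ range i, y j ∈ h.filtration hπ hσπ i := by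
  obtain ⟨s, hs, hs'⟩ := h.exists_limit hc hπ hσπ (fun i => (y i).toMul) hy
  refine ⟨Additive.ofMul s, hs, fun i => ?_⟩
  rw [mem_filtration]
  have : (Additive.ofMul s - ∑ j ∈ range i, y j).toMul = s / ∏ j ∈ range i, (y j).toMul := by
    rw [toMul_sub, toMul_sum]
    rfl
  rw [this]
  exact hs' i

/-- **`Ĥ⁰(1 + Λ) = 0`**: a `σ`-fixed unit in `1 + Λ` is the norm of a unit in `1 + Λ`. -/
theorem exists_norm_eq_of_fixed (h : IsGoodLattice π σ n Λ) (hc : IsPiComplete π)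
    (hπ : ∀ x : B, π * x = 0 → x = 0) (hσπ : σ π = π) (hσn : σ ^ n = 1) {u : Bˣ}
    (hu : u ∈ h.unitGroup) (hfix : unitsAut σ u = u) :
    ∃ y ∈ h.unitGroup, unitsNorm σ n y = u := by
  have key := DNPair.exists_N_eq_of_filtration (unitsPair σ n hσn) (h.filtration hπ hσπ)
    ?_ (h.filtration_sep hc hπ hσπ) (h.filtration_complete hc hπ hσπ) ?_
    (Additive.ofMul u) hu ?_
  · obtain ⟨s, hs, hs'⟩ := key
    refine ⟨s.toMul, hs, ?_⟩
    rw [unitsPair_N_apply] at hs'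
    exact Additive.ofMul.injective hs'
  · intro i a ha
    rw [unitsPair_N_apply]
    exact (h.lam hπ hσπ i).unitsNorm_mem ha
  · intro i x hx hDx
    rw [unitsPair_D_apply] at hDx
    have hfixx : unitsAut σ x.toMul = x.toMul := by
      have : unitsAut σ x.toMul / x.toMul = 1 := Additive.ofMul.injective hDx
      exact div_eq_one.mp this
    obtain ⟨y, hy, hy'⟩ := (h.lam hπ hσπ i).norm_step hc hx hfixx
    refine ⟨Additive.ofMul y, hy, ?_⟩
    rw [unitsPair_N_apply]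
    exact hy'
  · rw [unitsPair_D_apply]
    change Additive.ofMul (unitsAut σ u / u) = 0
    rw [hfix, div_self']
    rfl

/-- **`Ĥ¹(1 + Λ) = 0`**: a unit in `1 + Λ` of norm `1` is `σ y / y` with `y ∈ 1 + Λ`. -/
theorem exists_div_eq_of_norm_eq_one (h : IsGoodLattice π σ n Λ) (hc : IsPiComplete π)
    (hπ : ∀ x : B, π * x = 0 → x = 0) (hσπ : σ π = π) (hσn : σ ^ n = 1) {u : Bˣ}
    (hu : u ∈ h.unitGroup) (hN : unitsNorm σ n u = 1) :
    ∃ y ∈ h.unitGroup, unitsAut σ y / y = u := by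
  have key := DNPair.exists_N_eq_of_filtration (unitsPair σ n hσn).swap (h.filtration hπ hσπ)
    ?_ (h.filtration_sep hc hπ hσπ) (h.filtration_complete hc hπ hσπ) ?_
    (Additive.ofMul u) hu ?_
  · obtain ⟨s, hs, hs'⟩ := key
    refine ⟨s.toMul, hs, ?_⟩
    change (unitsPair σ n hσn).D s = _ at hs'
    rw [unitsPair_D_apply] at hs'
    exact Additive.ofMul.injective hs'
  · intro i a ha
    change (unitsPair σ n hσn).D a ∈ _
    rw [unitsPair_D_apply]
    exact (h.lam hπ hσπ i).unitGroup.div_mem ((h.lam hπ hσπ i).unitsAut_mem ha) ha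
  · intro i x hx hNx
    change (unitsPair σ n hσn).N x = 0 at hNx
    rw [unitsPair_N_apply] at hNx
    have hNx' : unitsNorm σ n x.toMul = 1 := Additive.ofMul.injective hNx
    obtain ⟨y, hy, hy'⟩ := (h.lam hπ hσπ i).div_step hc hπ hσπ hσn hx hNx'
    refine ⟨Additive.ofMul y, hy, ?_⟩
    change x - (unitsPair σ n hσn).D (Additive.ofMul y) ∈ _
    rw [unitsPair_D_apply]
    exact hy'
  · change (unitsPair σ n hσn).N (Additive.ofMul u) = 0
    rw [unitsPair_N_apply]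
    change Additive.ofMul (unitsNorm σ n u) = 0
    rw [hN]
    rfl

end IsGoodLattice

end Core4

/-! ## The Herbrand quotient of the unit group -/

section Core5

variable {B : Type*} [CommRing B]

/-- A quotient is finite as soon as a map to a finite type separates cosets. -/
theorem finite_quotient_of_map {A T : Type*} [AddCommGroup A] [Finite T] (S : AddSubgroup A)
    (φ : A → T) (hφ : ∀ a b, φ a = φ b → a - b ∈ S) : Finite (A ⧸ S) := by
  refine Finite.of_injective (fun q : A ⧸ S => φ (Quotient.out q)) ?_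
  intro q q' hqq'
  have := hφ _ _ hqq'
  rw [← QuotientAddGroup.out_eq' q, ← QuotientAddGroup.out_eq' q']
  exact (QuotientAddGroup.eq_iff_sub_mem).mpr this

namespace IsGoodLattice

variable {π : B} {σ : B ≃+* B} {n : ℕ} {Λ : AddSubgroup B}

/-- `1 + Λ` has finite index in `Bˣ` when the quotients `B / π ^ m` are finite. -/
theorem finite_quotient_unitGroup (h : IsGoodLattice π σ n Λ)
    (hfin : ∀ m : ℕ, Finite (B ⧸ Ideal.span {π ^ m})) :
    Finite (Additive Bˣ ⧸ Subgroup.toAddSubgroup h.unitGroup) := by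
  obtain ⟨m, hm⟩ := h.isOpen
  have := hfin m
  refine finite_quotient_of_map _
    (fun u : Additive Bˣ => Ideal.Quotient.mk (Ideal.span {π ^ m}) ((u.toMul : Bˣ) : B)) ?_
  intro u v huv
  rw [Ideal.Quotient.eq, Ideal.mem_span_singleton] at huv
  obtain ⟨x, hx⟩ := huv
  change ((u.toMul / v.toMul : Bˣ) : B) - 1 ∈ Λ
  have e : ((u.toMul / v.toMul : Bˣ) : B) - 1 = π ^ m * (x * ((v.toMul⁻¹ : Bˣ) : B)) := by
    have h1 : ((v.toMul : Bˣ) : B) * ((v.toMul⁻¹ : Bˣ) : B) = 1 := by simp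
    have h2 : ((u.toMul / v.toMul : Bˣ) : B) = (u.toMul : B) * ((v.toMul⁻¹ : Bˣ) : B) := by
      rw [div_eq_mul_inv]; push_cast; rfl
    rw [h2]
    calc (u.toMul : B) * ((v.toMul⁻¹ : Bˣ) : B) - 1
        = ((u.toMul : B) - (v.toMul : B)) * ((v.toMul⁻¹ : Bˣ) : B) := by rw [sub_mul, h1]
      _ = _ := by rw [hx]; ring
  rw [e]
  exact hm _

theorem unitsPair_D_mem (h : IsGoodLattice π σ n Λ) (hσn : σ ^ n = 1) :
    ∀ a ∈ Subgroup.toAddSubgroup h.unitGroup,
      (unitsPair σ n hσn).D a ∈ Subgroup.toAddSubgroup h.unitGroup := by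
  intro a ha
  rw [unitsPair_D_apply]
  exact h.unitGroup.div_mem (h.unitsAut_mem ha) ha

theorem unitsPair_N_mem (h : IsGoodLattice π σ n Λ) (hσn : σ ^ n = 1) :
    ∀ a ∈ Subgroup.toAddSubgroup h.unitGroup,
      (unitsPair σ n hσn).N a ∈ Subgroup.toAddSubgroup h.unitGroup := by
  intro a ha
  rw [unitsPair_N_apply]
  exact h.unitsNorm_mem ha

theorem subsingleton_H0_unitGroup (h : IsGoodLattice π σ n Λ) (hc : IsPiComplete π)
    (hπ : ∀ x : B, π * x = 0 → x = 0) (hσπ : σ π = π) (hσn : σ ^ n = 1) :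
    Subsingleton ((unitsPair σ n hσn).restrict (Subgroup.toAddSubgroup h.unitGroup)
      (h.unitsPair_D_mem hσn) (h.unitsPair_N_mem hσn)).H0 := by
  refine ⟨fun x y => ?_⟩
  suffices hz : ∀ x : ((unitsPair σ n hσn).restrict (Subgroup.toAddSubgroup h.unitGroup)
      (h.unitsPair_D_mem hσn) (h.unitsPair_N_mem hσn)).H0, x = 0 by rw [hz x, hz y]
  intro x
  obtain ⟨a, ha, rfl⟩ := DNPair.mk0_surjective _ x
  rw [DNPair.mk0_eq_zero_iff]
  have ha' : (unitsPair σ n hσn).D (a : Additive Bˣ) = 0 := congrArg Subtype.val ha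
  rw [unitsPair_D_apply] at ha'
  have hfix : unitsAut σ (a : Additive Bˣ).toMul = (a : Additive Bˣ).toMul :=
    div_eq_one.mp (Additive.ofMul.injective ha')
  obtain ⟨y, hy, hy'⟩ := h.exists_norm_eq_of_fixed hc hπ hσπ hσn a.2 hfix
  refine ⟨⟨Additive.ofMul y, hy⟩, Subtype.ext ?_⟩
  change (unitsPair σ n hσn).N (Additive.ofMul y) = a
  rw [unitsPair_N_apply]
  exact congrArg Additive.ofMul hy'

theorem subsingleton_H1_unitGroup (h : IsGoodLattice π σ n Λ) (hc : IsPiComplete π)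
    (hπ : ∀ x : B, π * x = 0 → x = 0) (hσπ : σ π = π) (hσn : σ ^ n = 1) :
    Subsingleton ((unitsPair σ n hσn).restrict (Subgroup.toAddSubgroup h.unitGroup)
      (h.unitsPair_D_mem hσn) (h.unitsPair_N_mem hσn)).H1 := by
  refine ⟨fun x y => ?_⟩
  suffices hz : ∀ x : ((unitsPair σ n hσn).restrict (Subgroup.toAddSubgroup h.unitGroup)
      (h.unitsPair_D_mem hσn) (h.unitsPair_N_mem hσn)).H1, x = 0 by rw [hz x, hz y]
  intro x
  obtain ⟨a, ha, rfl⟩ := DNPair.mk1_surjective _ x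
  rw [DNPair.mk1_eq_zero_iff]
  have ha' : (unitsPair σ n hσn).N (a : Additive Bˣ) = 0 := congrArg Subtype.val ha
  rw [unitsPair_N_apply] at ha'
  have hN : unitsNorm σ n (a : Additive Bˣ).toMul = 1 := Additive.ofMul.injective ha'
  obtain ⟨y, hy, hy'⟩ := h.exists_div_eq_of_norm_eq_one hc hπ hσπ hσn a.2 hN
  refine ⟨⟨Additive.ofMul y, hy⟩, Subtype.ext ?_⟩
  change (unitsPair σ n hσn).D (Additive.ofMul y) = a
  rw [unitsPair_D_apply]
  exact congrArg Additive.ofMul hy'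

/-- **The Herbrand quotient of `Bˣ` is `1`** as soon as `B` contains a good lattice and the
quotients `B / π ^ m` are finite. -/
theorem herbrand_unitsPair (h : IsGoodLattice π σ n Λ) (hc : IsPiComplete π)
    (hπ : ∀ x : B, π * x = 0 → x = 0) (hσπ : σ π = π) (hσn : σ ^ n = 1)
    (hfin : ∀ m : ℕ, Finite (B ⧸ Ideal.span {π ^ m})) :
    (unitsPair σ n hσn).IsHFinite ∧ (unitsPair σ n hσn).herbrand = 1 := by
  have := h.finite_quotient_unitGroup hfin
  have h0 := h.subsingleton_H0_unitGroup hc hπ hσπ hσn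
  have h1 := h.subsingleton_H1_unitGroup hc hπ hσπ hσn
  have hV : ((unitsPair σ n hσn).restrict (Subgroup.toAddSubgroup h.unitGroup)
      (h.unitsPair_D_mem hσn) (h.unitsPair_N_mem hσn)).IsHFinite := ⟨inferInstance, inferInstance⟩
  have hP := DNPair.isHFinite_of_restrict_of_finite_quotient _ _ _ _ hV
  refine ⟨hP, ?_⟩
  rw [← (DNPair.herbrand_restrict_of_finite_quotient _ _ (h.unitsPair_D_mem hσn)
    (h.unitsPair_N_mem hσn) hP).2]
  unfold DNPair.herbrand
  rw [Nat.card_unique, Nat.card_unique]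
  simp

end IsGoodLattice

end Core5

end Fermat.Agent.CFT
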