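import Mathlib
import Fermat.Agent.CFT.Local.UnitFiltration

set_option autoImplicit false

namespace Fermat.Agent.CFT

open Finset

namespace DNPair

section ShiftH1

variable (n : ℕ) [NeZero n] (X : Type*) [AddCommGroup X]

/-- Induced modules have trivial `Ĥ¹` (no finiteness assumption). -/
theorem subsingleton_H1_shift : Subsingleton (shift n X).H1 := by
  refine ⟨fun u v => ?_⟩
  suffices h : ∀ u : (shift n X).H1, u = 0 by rw [h u, h v]
  intro u
  obtain ⟨f, hf, rfl⟩ := (shift n X).mk1_surjective u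
  rw [mk1_eq_zero_iff]
  have hsum : ∑ j : ZMod n, f j = 0 := by
    have := congrFun hf 0
    rwa [shift_N_apply] at this
  have hn : 0 < n := Nat.pos_of_ne_zero (NeZero.ne n)
  rcases Nat.eq_or_lt_of_le (Nat.one_le_iff_ne_zero.mpr (NeZero.ne n)) with h1n | h1n
  · -- `n = 1`
    subst h1n
    refine ⟨0, ?_⟩
    rw [map_zero]
    ext i
    have : i = 0 := Subsingleton.elim _ _
    subst this
    have : ∑ j : ZMod 1, f j = f 0 := by
      rw [Finset.sum_eq_single (0 : ZMod 1)]
      · intro b _ hb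
        exact absurd (Subsingleton.elim b 0) hb
      · intro h
        exact absurd (Finset.mem_univ _) h
    rw [← this, hsum]
    rfl
  have : Fact (1 < n) := ⟨h1n⟩
  -- partial sums
  let S : ℕ → X := fun m => ∑ k ∈ range (m + 1), f (k : ZMod n)
  have hStot : S (n - 1) = 0 := by
    simp only [S]
    rw [Nat.sub_add_cancel hn, ← hsum]
    refine Finset.sum_nbij (fun k => (k : ZMod n)) (fun _ _ => Finset.mem_univ _) ?_ ?_
      (fun _ _ => rfl)
    · intro a ha b hb hab
      simp only [Finset.coe_range, Set.mem_Iio] at ha hb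
      have h1 : (a : ZMod n) = b := hab
      rw [ZMod.natCast_eq_natCast_iff'] at h1
      rwa [Nat.mod_eq_of_lt ha, Nat.mod_eq_of_lt hb] at h1
    · intro j _
      refine ⟨j.val, ?_, ?_⟩
      · simp [ZMod.val_lt]
      · simp
  refine ⟨fun i => -S i.val, ?_⟩
  ext i
  rw [shift_D_apply]
  by_cases hi : i = 0
  · subst hi
    have h1 : ((0 : ZMod n) - 1).val = n - 1 := by
      rw [zero_sub, ZMod.neg_val, if_neg one_ne_zero, ZMod.val_one]
    rw [h1, hStot, ZMod.val_zero]
    simp [S]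
  · have hv : i.val ≠ 0 := fun h => hi ((ZMod.val_eq_zero i).mp h)
    have h1 : (i - 1).val = i.val - 1 := by
      have hle : (1 : ZMod n).val ≤ i.val := by
        rw [ZMod.val_one]; omega
      rw [ZMod.val_sub hle, ZMod.val_one]
    rw [h1]
    simp only [S]
    rw [Nat.sub_add_cancel (Nat.one_le_iff_ne_zero.mpr hv), sum_range_succ, ZMod.natCast_zmod_val]
    abel

end ShiftH1

end DNPair

section NormalLattice

theorem pow_zmod_val_add_one {G : Type*} [Group G] (n : ℕ) [NeZero n] {g : G} (hg : g ^ n = 1)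
    (i : ZMod n) : g ^ (i + 1).val = g ^ (i.val + 1) := by
  rw [ZMod.val_add, ZMod.val_one_eq_one_mod, Nat.add_mod_mod, ← pow_eq_pow_mod _ hg]

variable {O B : Type*} [CommRing O] [CommRing B] [Algebra O B]
variable (n : ℕ) [NeZero n] (σ : B ≃ₐ[O] B) (β : B)

/-- The map `c ↦ ∑ i, c i • σ^i β`. -/
noncomputable def normalMap : (ZMod n → O) →ₗ[O] B :=
  ∑ i : ZMod n, (LinearMap.proj i).smulRight ((σ ^ i.val) β)

theorem normalMap_apply (c : ZMod n → O) :
    normalMap n σ β c = ∑ i : ZMod n, c i • (σ ^ i.val) β := by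
  simp [normalMap, LinearMap.sum_apply]

variable {n σ}

theorem map_normalMap (hσn : σ ^ n = 1) (c : ZMod n → O) :
    σ (normalMap n σ β c) = normalMap n σ β (DNPair.shiftEnd n O c) := by
  rw [normalMap_apply, normalMap_apply, map_sum]
  have h := Equiv.sum_comp (Equiv.addRight (1 : ZMod n))
    (fun i => DNPair.shiftEnd n O c i • (σ ^ i.val) β)
  rw [← h]
  refine Finset.sum_congr rfl fun i _ => ?_
  rw [map_smul, Equiv.coe_addRight, DNPair.shiftEnd_apply, add_sub_cancel_right,
    pow_zmod_val_add_one n hσn, pow_succ']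
  rfl

theorem pow_map_normalMap (hσn : σ ^ n = 1) (k : ℕ) (c : ZMod n → O) :
    (σ ^ k) (normalMap n σ β c) = normalMap n σ β ((DNPair.shiftEnd n O ^ k) c) := by
  induction k generalizing c with
  | zero => rfl
  | succ k ih =>
    rw [pow_succ, pow_succ]
    change (σ ^ k) (σ (normalMap n σ β c)) = normalMap n σ β ((DNPair.shiftEnd n O ^ k)
      (DNPair.shiftEnd n O c))
    rw [map_normalMap β hσn, ih]

theorem toRingEquiv_pow_apply (τ : B ≃ₐ[O] B) (k : ℕ) (x : B) :
    (τ.toRingEquiv ^ k) x = (τ ^ k) x := by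
  induction k with
  | zero => rfl
  | succ k ih =>
    rw [ringAut_pow_succ_apply, ih, pow_succ']
    rfl

theorem toRingEquiv_pow_eq_one {τ : B ≃ₐ[O] B} {k : ℕ} (h : τ ^ k = 1) :
    τ.toRingEquiv ^ k = 1 := by
  ext x
  rw [toRingEquiv_pow_apply, h]
  rfl

theorem autTrace_normalMap (hσn : σ ^ n = 1) (c : ZMod n → O) :
    autTrace σ.toRingEquiv n (normalMap n σ β c) = normalMap n σ β ((DNPair.shift n O).N c) := by
  unfold autTrace DNPair.shift
  rw [DNPair.ofEnd_N_apply, map_sum]
  refine Finset.sum_congr rfl fun k _ => ?_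
  rw [toRingEquiv_pow_apply, pow_map_normalMap β hσn]

variable (n σ)

/-- The lattice `π ^ (N + 1) M` with `M = ⊕ O σ^i β`. -/
noncomputable def normalLattice (ϖ : O) (N : ℕ) : AddSubgroup B :=
  AddMonoidHom.range ((AddMonoidHom.mulLeft ((algebraMap O B ϖ) ^ (N + 1))).comp
    (normalMap n σ β).toAddMonoidHom)

variable {n σ}

theorem mem_normalLattice {ϖ : O} {N : ℕ} {x : B} :
    x ∈ normalLattice n σ β ϖ N ↔
      ∃ c, (algebraMap O B ϖ) ^ (N + 1) * normalMap n σ β c = x := Iff.rfl

/-- The normal lattice is a good lattice. -/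
theorem isGoodLattice_normalLattice [IsDomain B] (hσn : σ ^ n = 1) (ϖ : O)
    (hπ : algebraMap O B ϖ ≠ 0) (N : ℕ) (hinj : Function.Injective (normalMap n σ β))
    (hN : ∀ b : B, ∃ c, (algebraMap O B ϖ) ^ N * b = normalMap n σ β c) :
    IsGoodLattice (algebraMap O B ϖ) σ.toRingEquiv n (normalLattice n σ β ϖ N) := by
  set π : B := algebraMap O B ϖ with hπdef
  have hσπ : σ π = π := σ.commutes ϖ
  have hpow : π ^ (N + 1) ≠ 0 := pow_ne_zero _ hπ
  have hsmul : ∀ c : ZMod n → O, π * normalMap n σ β c = normalMap n σ β (ϖ • c) := by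
    intro c
    rw [map_smul, Algebra.smul_def]
  refine ⟨?_, ?_, ?_, ?_, ?_, ?_, ?_⟩
  · intro a ha
    obtain ⟨c, rfl⟩ := (mem_normalLattice β).mp ha
    refine (mem_normalLattice β).mpr ⟨DNPair.shiftEnd n O c, ?_⟩
    change _ = σ (π ^ (N + 1) * normalMap n σ β c)
    rw [map_mul, map_pow, hσπ, map_normalMap β hσn]
  · intro a ha
    obtain ⟨c, rfl⟩ := (mem_normalLattice β).mp ha
    refine (mem_normalLattice β).mpr ⟨ϖ • c, ?_⟩
    rw [← hsmul]; ring
  · intro a ha b hb
    obtain ⟨c, rfl⟩ := (mem_normalLattice β).mp ha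
    obtain ⟨c', rfl⟩ := (mem_normalLattice β).mp hb
    obtain ⟨c'', hc''⟩ := hN (normalMap n σ β c * normalMap n σ β c')
    refine mem_scaleSubgroup.mpr ⟨π ^ (N + 1) * normalMap n σ β c'',
      (mem_normalLattice β).mpr ⟨c'', rfl⟩, ?_⟩
    rw [← hc'']; ring
  · intro a ha
    obtain ⟨c, rfl⟩ := (mem_normalLattice β).mp ha
    exact ⟨π ^ N * normalMap n σ β c, by ring⟩
  · refine ⟨N + 1 + N, fun x => ?_⟩
    obtain ⟨c, hc⟩ := hN x
    refine (mem_normalLattice β).mpr ⟨c, ?_⟩
    rw [← hc]; ring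
  · intro a ha hfix
    obtain ⟨c, rfl⟩ := (mem_normalLattice β).mp ha
    change σ (π ^ (N + 1) * normalMap n σ β c) = π ^ (N + 1) * normalMap n σ β c at hfix
    rw [map_mul, map_pow, hσπ, map_normalMap β hσn] at hfix
    have h1 : DNPair.shiftEnd n O c = c := hinj (mul_left_cancel₀ hpow hfix)
    have hD : (DNPair.shift n O).D c = 0 := by
      ext i
      rw [DNPair.shift_D_apply]
      have := congrFun h1 i
      rw [DNPair.shiftEnd_apply] at this
      rw [this, sub_self]
      rfl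
    have := DNPair.subsingleton_H0_shift n O
    obtain ⟨c', hc'⟩ := (DNPair.mk0_eq_zero_iff _ (ha := hD)).mp (Subsingleton.elim _ _)
    refine ⟨π ^ (N + 1) * normalMap n σ β c', (mem_normalLattice β).mpr ⟨c', rfl⟩, ?_⟩
    have hfixpow : σ.toRingEquiv (π ^ (N + 1)) = π ^ (N + 1) := by
      change σ (π ^ (N + 1)) = _
      rw [map_pow, hσπ]
    rw [autTrace_mul_of_fixed _ _ hfixpow, autTrace_normalMap β hσn, hc']
  · intro a ha htr
    obtain ⟨c, rfl⟩ := (mem_normalLattice β).mp ha
    have hfixpow : σ.toRingEquiv (π ^ (N + 1)) = π ^ (N + 1) := by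
      change σ (π ^ (N + 1)) = _
      rw [map_pow, hσπ]
    rw [autTrace_mul_of_fixed _ _ hfixpow, autTrace_normalMap β hσn] at htr
    have h1 : normalMap n σ β ((DNPair.shift n O).N c) = 0 := by
      rcases mul_eq_zero.mp htr with h | h
      · exact absurd h hpow
      · exact h
    have hNc : (DNPair.shift n O).N c = 0 := hinj (by rw [h1, map_zero])
    have := DNPair.subsingleton_H1_shift n O
    obtain ⟨c', hc'⟩ := (DNPair.mk1_eq_zero_iff _ (ha := hNc)).mp (Subsingleton.elim _ _)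
    refine ⟨π ^ (N + 1) * normalMap n σ β c', (mem_normalLattice β).mpr ⟨c', rfl⟩, ?_⟩
    change π ^ (N + 1) * normalMap n σ β c =
      σ (π ^ (N + 1) * normalMap n σ β c') - π ^ (N + 1) * normalMap n σ β c'
    rw [map_mul, map_pow, hσπ, map_normalMap β hσn, ← mul_sub, ← map_sub, ← hc']
    rfl

end NormalLattice

section Complete

variable {O B : Type*} [CommRing O] [CommRing B] [Algebra O B]

theorem mem_span_singleton_pow_smul_top_iff (ϖ : O) (k : ℕ) (x : B) :
    x ∈ ((Ideal.span {ϖ}) ^ k • ⊤ : Submodule O B) ↔ (algebraMap O B ϖ) ^ k ∣ x := by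
  rw [Ideal.span_singleton_pow, Submodule.ideal_span_singleton_smul,
    Submodule.mem_smul_pointwise_iff_exists]
  constructor
  · rintro ⟨b, _, rfl⟩
    exact ⟨b, by rw [Algebra.smul_def, map_pow]⟩
  · rintro ⟨b, rfl⟩
    exact ⟨b, trivial, by rw [Algebra.smul_def, map_pow]⟩

theorem finite_quotient_span_pow [Module.Finite O B] (ϖ : O) [Finite (O ⧸ Ideal.span {ϖ})]
    (m : ℕ) : Finite (B ⧸ Ideal.span {(algebraMap O B ϖ) ^ m}) := by
  have h1 : Finite (O ⧸ (Ideal.span {ϖ}) ^ m) :=
    Ideal.finite_quotient_pow ⟨{ϖ}, by simp⟩ m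
  have h2 : Finite (B ⧸ ((Ideal.span {ϖ}) ^ m • ⊤ : Submodule O B)) :=
    Submodule.finite_quotient_smul _ Module.Finite.fg_top
  refine finite_quotient_of_map (Ideal.span {(algebraMap O B ϖ) ^ m}).toAddSubgroup
    (fun x : B => Submodule.Quotient.mk (p := ((Ideal.span {ϖ}) ^ m • ⊤ : Submodule O B)) x) ?_
  intro a b hab
  rw [Submodule.Quotient.eq, mem_span_singleton_pow_smul_top_iff] at hab
  exact Ideal.mem_span_singleton.mpr hab

theorem IsPiComplete.of_isAdicComplete (ϖ : O) [IsAdicComplete (Ideal.span {ϖ}) B] :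
    IsPiComplete (algebraMap O B ϖ) where
  sep x hx := by
    refine IsHausdorff.haus (inferInstance : IsHausdorff (Ideal.span {ϖ}) B) x fun k => ?_
    rw [SModEq.zero, mem_span_singleton_pow_smul_top_iff]
    exact hx k
  complete f hf := by
    have hmono : ∀ {m k : ℕ}, m ≤ k → f m ≡ f k [SMOD ((Ideal.span {ϖ}) ^ m • ⊤ : Submodule O B)] := by
      intro m k hmk
      induction k, hmk using Nat.le_induction with
      | base => rfl
      | succ k hk ih =>
        refine ih.trans ?_
        rw [SModEq.comm, SModEq.sub_mem, mem_span_singleton_pow_smul_top_iff]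
        exact (pow_dvd_pow _ hk).trans (hf k)
    obtain ⟨s, hs⟩ := IsPrecomplete.prec (inferInstance : IsPrecomplete (Ideal.span {ϖ}) B) hmono
    refine ⟨s, fun k => ?_⟩
    have := hs k
    rw [SModEq.comm, SModEq.sub_mem, mem_span_singleton_pow_smul_top_iff] at this
    exact this

end Complete

end Fermat.Agent.CFT
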