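import Mathlib
import Fermat.Agent.CFT.Local.NormalLattice
import Fermat.Agent.CFT.Local.ExtDVR
import Fermat.Prelude.Thm_IsAdicComplete_of_module_finite

/-!
# CFT, node B3 (i): the Herbrand quotient of the unit group of a cyclic extension of local fields

Setting: `O` a complete DVR with finite residue field and fraction field `K` of characteristic
`0`, `L/K` a finite cyclic Galois extension with generator `σ`, `B = integralClosure O L`.

* `exists_normal_lattice_data`: a normal basis generator `β ∈ B` with bounded denominators;
* `intUnitsPair O K L σ hσn : DNPair (Additive Bˣ)`;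
* `herbrand_intUnitsPair`: `h(Bˣ) = 1`.
-/

set_option autoImplicit false
set_option linter.unusedSectionVars false

namespace Fermat.Agent.CFT

open Finset IsLocalRing

section IntRing

variable (O K : Type) [CommRing O] [IsDomain O] [IsDiscreteValuationRing O]
  [Field K] [Algebra O K] [IsFractionRing O K] [CharZero K]
  (L : Type) [Field L] [Algebra K L] [FiniteDimensional K L] [Algebra O L] [IsScalarTower O K L]

theorem orderOf_eq_finrank_of_forall_mem_zpowers [IsGalois K L] (σ : L ≃ₐ[K] L)
    (hσ : ∀ τ : L ≃ₐ[K] L, τ ∈ Subgroup.zpowers σ) : orderOf σ = Module.finrank K L := by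
  rw [orderOf_eq_card_of_forall_mem_zpowers hσ, IsGalois.card_aut_eq_finrank]

theorem galRestrict_pow_coe (σ : L ≃ₐ[K] L) (k : ℕ) (x : integralClosure O L) :
    (((galRestrict O K L (integralClosure O L) σ) ^ k) x : L) = (σ ^ k) (x : L) := by
  rw [← map_pow]
  exact galRestrict_coe O K L (σ ^ k) x

theorem galRestrict_pow_eq_one {σ : L ≃ₐ[K] L} {k : ℕ} (h : σ ^ k = 1) :
    (galRestrict O K L (integralClosure O L) σ) ^ k = 1 := by
  rw [← map_pow, h, map_one]

/-- `[L : K] ≠ 0`, as a local instance. -/
theorem neZero_finrank_field : NeZero (Module.finrank K L) := ⟨Module.finrank_pos.ne'⟩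

attribute [local instance] neZero_finrank_field

/-- **Normal integral basis up to bounded denominators.**  There are `β` in the ring of
integers `B` of `L` and `N` such that `c ↦ ∑ c_i σ^i β` is injective on `O^n` and its image
contains `ϖ ^ N B`. -/
theorem exists_normal_lattice_data [IsGalois K L] (σ : L ≃ₐ[K] L)
    (hσ : ∀ τ : L ≃ₐ[K] L, τ ∈ Subgroup.zpowers σ) (ϖ : O) (hϖ : Irreducible ϖ) :
    ∃ (β : integralClosure O L) (N : ℕ),
      Function.Injective (normalMap (Module.finrank K L)
        (galRestrict O K L (integralClosure O L) σ) β) ∧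
      ∀ b : integralClosure O L, ∃ c,
        (algebraMap O (integralClosure O L) ϖ) ^ N * b =
          normalMap (Module.finrank K L) (galRestrict O K L (integralClosure O L) σ) β c := by
  classical
  set n := Module.finrank K L with hn
  have hord : orderOf σ = n := orderOf_eq_finrank_of_forall_mem_zpowers K L σ hσ
  set σB := galRestrict O K L (integralClosure O L) σ with hσB
  -- the normal basis generator, scaled into `B`
  set x₀ : L := IsGalois.normalBasis K L 1 with hx₀
  have halg : IsAlgebraic O x₀ :=
    (IsFractionRing.isAlgebraic_iff O K L).mpr (Algebra.IsAlgebraic.isAlgebraic x₀)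
  obtain ⟨d, hd0, hdint⟩ := halg.exists_integral_multiple
  have hdK : algebraMap O K d ≠ 0 := by
    rwa [Ne, map_eq_zero_iff _ (IsFractionRing.injective O K)]
  let β : integralClosure O L := ⟨d • x₀, hdint⟩
  -- the conjugates of `β` form a `K`-basis of `L`
  let e : ZMod n → (L ≃ₐ[K] L) := fun i => σ ^ i.val
  have he : Function.Injective e := by
    intro i j hij
    have hi : i.val < orderOf σ := by rw [hord]; exact ZMod.val_lt i
    have hj : j.val < orderOf σ := by rw [hord]; exact ZMod.val_lt j
    exact ZMod.val_injective n (pow_injOn_Iio_orderOf (Set.mem_Iio.2 hi) (Set.mem_Iio.2 hj) hij)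
  have hv0 : LinearIndependent K (fun i : ZMod n => IsGalois.normalBasis K L (e i)) :=
    (IsGalois.normalBasis K L).linearIndependent.comp e he
  have hv1 := hv0.units_smul (fun _ => Units.mk0 (algebraMap O K d) hdK)
  have hveq : ((fun _ : ZMod n => Units.mk0 (algebraMap O K d) hdK) •
      fun i : ZMod n => IsGalois.normalBasis K L (e i)) =
      fun i : ZMod n => (σ ^ i.val) ((β : integralClosure O L) : L) := by
    ext i
    change (algebraMap O K d) • IsGalois.normalBasis K L (e i) = (σ ^ i.val) (d • x₀)
    rw [IsGalois.normalBasis_apply, ← algebraMap_smul K d x₀, map_smul]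
  rw [hveq] at hv1
  have hcard : Fintype.card (ZMod n) = Module.finrank K L := ZMod.card n
  let bs : Module.Basis (ZMod n) K L := basisOfLinearIndependentOfCardEqFinrank hv1 hcard
  have hbs : ∀ i, bs i = (σ ^ i.val) ((β : integralClosure O L) : L) := fun i => by
    simp only [bs, coe_basisOfLinearIndependentOfCardEqFinrank]
  -- the normal map in coordinates
  have hcoe : ∀ c : ZMod n → O, ((normalMap n σB β c : integralClosure O L) : L) =
      ∑ i, (algebraMap O K (c i)) • bs i := by
    intro c
    rw [normalMap_apply]
    change (integralClosure O L).val (∑ i, c i • (σB ^ i.val) β) = _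
    rw [map_sum]
    refine Finset.sum_congr rfl fun i _ => ?_
    rw [map_smul, hbs, algebraMap_smul]
    congr 1
    exact galRestrict_pow_coe O K L σ i.val β
  refine ⟨β, ?_⟩
  have hinj : Function.Injective (normalMap n σB β) := by
    intro c c' hcc'
    have h1 := congrArg (fun y : integralClosure O L => (y : L)) hcc'
    simp only [hcoe] at h1
    ext i
    have h2 := DFunLike.congr_fun (congrArg bs.repr h1) i
    rw [bs.repr_sum_self, bs.repr_sum_self] at h2
    exact IsFractionRing.injective O K h2
  -- bounded denominators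
  have hfin : Module.Finite O (integralClosure O L) := intRing_finite O K L
  obtain ⟨S, hS⟩ := (Module.Finite.fg_top : (⊤ : Submodule O (integralClosure O L)).FG)
  obtain ⟨D, hD⟩ := IsLocalization.exist_integer_multiples (nonZeroDivisors O) (S ×ˢ univ)
    (fun p : (integralClosure O L) × ZMod n => bs.repr (p.1 : L) p.2)
  have hSM : ∀ s ∈ S, ∃ c, normalMap n σB β c = (D : O) • s := by
    intro s hs
    have : ∀ i : ZMod n, ∃ c : O, algebraMap O K c = (D : O) • bs.repr (s : L) i :=
      fun i => hD (s, i) (Finset.mem_product.mpr ⟨hs, Finset.mem_univ _⟩)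
    choose c hc using this
    refine ⟨c, Subtype.ext ?_⟩
    rw [hcoe]
    change _ = (D : O) • (s : L)
    conv_rhs => rw [← bs.sum_repr (s : L), Finset.smul_sum]
    refine Finset.sum_congr rfl fun i _ => ?_
    rw [hc, smul_assoc]
  have hall : ∀ b : integralClosure O L, ∃ c, normalMap n σB β c = (D : O) • b := by
    have hle : (⊤ : Submodule O (integralClosure O L)) ≤
        (LinearMap.range (normalMap n σB β)).comap (LinearMap.lsmul O (integralClosure O L) D) := by
      rw [← hS, Submodule.span_le]
      intro s hs
      exact hSM s hs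
    intro b
    exact hle (Submodule.mem_top (x := b))
  have hD0 : (D : O) ≠ 0 := nonZeroDivisors.coe_ne_zero D
  obtain ⟨N, u, hu⟩ := IsDiscreteValuationRing.eq_unit_mul_pow_irreducible hD0 hϖ
  refine ⟨N, hinj, fun b => ?_⟩
  obtain ⟨c, hc⟩ := hall b
  refine ⟨((u⁻¹ : Oˣ) : O) • c, ?_⟩
  rw [map_smul, hc, hu, smul_smul, ← mul_assoc, Units.inv_mul, one_mul, Algebra.smul_def, map_pow]

/-- The `DNPair` of the unit group `Bˣ` of the ring of integers of `L`, for the automorphism
induced by `σ`. -/
noncomputable def intUnitsPair (σ : L ≃ₐ[K] L) (hσn : σ ^ Module.finrank K L = 1) :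
    DNPair (Additive (integralClosure O L)ˣ) :=
  unitsPair (galRestrict O K L (integralClosure O L) σ).toRingEquiv (Module.finrank K L)
    (toRingEquiv_pow_eq_one (galRestrict_pow_eq_one O K L hσn))

/-- **B3 (i)**: for a cyclic extension `L/K` of local fields with generator `σ`, the Herbrand
quotient of the unit group of the ring of integers of `L` is `1`. -/
theorem herbrand_intUnitsPair [IsAdicComplete (maximalIdeal O) O] [Finite (ResidueField O)]
    [IsGalois K L] (σ : L ≃ₐ[K] L) (hσ : ∀ τ : L ≃ₐ[K] L, τ ∈ Subgroup.zpowers σ)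
    (hσn : σ ^ Module.finrank K L = 1) :
    (intUnitsPair O K L σ hσn).IsHFinite ∧ (intUnitsPair O K L σ hσn).herbrand = 1 := by
  obtain ⟨ϖ, hϖ⟩ := IsDiscreteValuationRing.exists_irreducible O
  obtain ⟨β, N, hinj, hN⟩ := exists_normal_lattice_data O K L σ hσ ϖ hϖ
  have hfin : Module.Finite O (integralClosure O L) := intRing_finite O K L
  have hπ : algebraMap O (integralClosure O L) ϖ ≠ 0 := by
    rw [Ne, map_eq_zero_iff _ (intRing_algebraMap_injective O K L)]
    exact hϖ.ne_zero
  have hgood := isGoodLattice_normalLattice β (galRestrict_pow_eq_one O K L hσn) ϖ hπ N hinj hN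
  have hmax : maximalIdeal O = Ideal.span {ϖ} := hϖ.maximalIdeal_eq
  have hcompl : IsAdicComplete (Ideal.span {ϖ}) (integralClosure O L) := by
    rw [← hmax]
    exact IsAdicComplete.of_module_finite (maximalIdeal O) (integralClosure O L)
  have hpc : IsPiComplete (algebraMap O (integralClosure O L) ϖ) :=
    IsPiComplete.of_isAdicComplete ϖ
  have hres : Finite (O ⧸ Ideal.span {ϖ}) := by
    rw [← hmax]
    exact (inferInstance : Finite (ResidueField O))
  exact hgood.herbrand_unitsPair hpc (fun x hx => (mul_eq_zero.mp hx).resolve_left hπ)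
    ((galRestrict O K L (integralClosure O L) σ).commutes ϖ)
    (toRingEquiv_pow_eq_one (galRestrict_pow_eq_one O K L hσn))
    (fun m => finite_quotient_span_pow ϖ m)

end IntRing

end Fermat.Agent.CFT
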