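import Mathlib
import Fermat.Agent.CFT.Local.HerbrandUnits
import Fermat.Agent.CFT.Local.ExtDVROrd

/-!
# CFT, node B3 (ii): the Herbrand quotient of `Lˣ` for a cyclic extension of local fields

* `fieldUnitsPair K L σ hσn : DNPair (Additive Lˣ)`;
* `intUnitsToField`, `fieldUnitsToInt`, `shortExact_units`: `0 → Bˣ → Lˣ → ℤ → 0`;
* `herbrand_fieldUnitsPair`: `h(Lˣ) = [L : K]`.
-/

set_option autoImplicit false
set_option linter.unusedSectionVars false

namespace Fermat.Agent.CFT

open Finset IsLocalRing

section FieldUnits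

variable (O K : Type) [CommRing O] [IsDomain O] [IsDiscreteValuationRing O]
  [IsAdicComplete (maximalIdeal O) O]
  [Field K] [Algebra O K] [IsFractionRing O K] [CharZero K]
  (L : Type) [Field L] [Algebra K L] [FiniteDimensional K L] [Algebra O L] [IsScalarTower O K L]

/-- The `DNPair` of `Lˣ` for the automorphism `σ`. -/
noncomputable def fieldUnitsPair (σ : L ≃ₐ[K] L) (hσn : σ ^ Module.finrank K L = 1) :
    DNPair (Additive Lˣ) :=
  unitsPair σ.toRingEquiv (Module.finrank K L) (toRingEquiv_pow_eq_one hσn)

/-- The inclusion `Bˣ → Lˣ` as a morphism of pairs. -/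
noncomputable def intUnitsToField (σ : L ≃ₐ[K] L) (hσn : σ ^ Module.finrank K L = 1) :
    DNPair.Hom (intUnitsPair O K L σ hσn) (fieldUnitsPair K L σ hσn) where
  toFun := (Units.map (algebraMap (integralClosure O L) L : integralClosure O L →* L)).toAdditive
  map_D u := by
    change Additive.ofMul (Units.map _ (unitsAut _ u.toMul / u.toMul)) =
      Additive.ofMul (unitsAut _ (Units.map _ u.toMul) / Units.map _ u.toMul)
    rw [map_div]
    congr 2
    ext
    exact galRestrict_coe O K L σ _
  map_N u := by
    have h1 := unitsPair_N_apply (galRestrict O K L (integralClosure O L) σ).toRingEquiv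
      (Module.finrank K L) (toRingEquiv_pow_eq_one (galRestrict_pow_eq_one O K L hσn)) u
    have h2 := unitsPair_N_apply σ.toRingEquiv (Module.finrank K L) (toRingEquiv_pow_eq_one hσn)
      ((Units.map (algebraMap (integralClosure O L) L :
        integralClosure O L →* L)).toAdditive u)
    unfold intUnitsPair fieldUnitsPair
    rw [h1, h2]
    change Additive.ofMul (Units.map _ (unitsNorm _ _ u.toMul)) =
      Additive.ofMul (unitsNorm _ _ (Units.map _ u.toMul))
    congr 1
    ext
    rw [coe_unitsNorm, Units.coe_map, coe_unitsNorm, MonoidHom.coe_coe, map_prod]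
    refine Finset.prod_congr rfl fun k _ => ?_
    rw [toRingEquiv_pow_apply, toRingEquiv_pow_apply]
    exact galRestrict_pow_coe O K L σ k _

/-- The valuation `Lˣ → ℤ` as an additive map. -/
noncomputable def ordAddHom [IsDiscreteValuationRing (integralClosure O L)]
    [IsFractionRing (integralClosure O L) L] : Additive Lˣ →+ ℤ where
  toFun x := dvrOrd (integralClosure O L) L ((x.toMul : Lˣ) : L)
  map_zero' := by simp
  map_add' x y := by
    change dvrOrd (integralClosure O L) L (((x.toMul * y.toMul : Lˣ)) : L) = _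
    rw [Units.val_mul, dvrOrd_mul _ _ x.toMul.ne_zero y.toMul.ne_zero]

theorem ordAddHom_apply [IsDiscreteValuationRing (integralClosure O L)]
    [IsFractionRing (integralClosure O L) L] (x : Additive Lˣ) :
    ordAddHom O L x = dvrOrd (integralClosure O L) L ((x.toMul : Lˣ) : L) := rfl

theorem ordAddHom_galois [IsDiscreteValuationRing (integralClosure O L)]
    [IsFractionRing (integralClosure O L) L] (σ : L ≃ₐ[K] L) (x : Additive Lˣ) :
    ordAddHom O L (DNPair.addEndOfMulEquiv (unitsAut σ.toRingEquiv) x) = ordAddHom O L x :=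
  dvrOrd_galois O K L σ _

theorem ordAddHom_galois_pow [IsDiscreteValuationRing (integralClosure O L)]
    [IsFractionRing (integralClosure O L) L] (σ : L ≃ₐ[K] L) (k : ℕ) (x : Additive Lˣ) :
    ordAddHom O L ((DNPair.addEndOfMulEquiv (unitsAut σ.toRingEquiv) ^ k) x) =
      ordAddHom O L x := by
  induction k generalizing x with
  | zero => rfl
  | succ k ih =>
    rw [pow_succ]
    change ordAddHom O L ((DNPair.addEndOfMulEquiv (unitsAut σ.toRingEquiv) ^ k)
      (DNPair.addEndOfMulEquiv (unitsAut σ.toRingEquiv) x)) = _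
    rw [ih, ordAddHom_galois O K L σ]

/-- The valuation as a morphism of pairs `Lˣ → ℤ`. -/
noncomputable def fieldUnitsToInt [IsDiscreteValuationRing (integralClosure O L)]
    [IsFractionRing (integralClosure O L) L] (σ : L ≃ₐ[K] L)
    (hσn : σ ^ Module.finrank K L = 1) :
    DNPair.Hom (fieldUnitsPair K L σ hσn) (DNPair.ofTrivial ℤ (Module.finrank K L)) where
  toFun := ordAddHom O L
  map_D x := by
    change ordAddHom O L (DNPair.addEndOfMulEquiv (unitsAut σ.toRingEquiv) x - x) = 0
    rw [map_sub, ordAddHom_galois O K L σ, sub_self]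
  map_N x := by
    have h : (fieldUnitsPair K L σ hσn).N x = ∑ k ∈ range (Module.finrank K L),
        (DNPair.addEndOfMulEquiv (unitsAut σ.toRingEquiv) ^ k) x := by
      unfold fieldUnitsPair unitsPair DNPair.ofMulAut
      rw [DNPair.ofEnd_N_apply]
    rw [h, map_sum]
    simp only [ordAddHom_galois_pow O K L σ]
    rw [Finset.sum_const, Finset.card_range]
    rfl

/-- `0 → Bˣ → Lˣ → ℤ → 0` as a short exact sequence of pairs. -/
theorem shortExact_units [IsDiscreteValuationRing (integralClosure O L)]
    [IsFractionRing (integralClosure O L) L] (σ : L ≃ₐ[K] L)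
    (hσn : σ ^ Module.finrank K L = 1) :
    DNPair.ShortExact (intUnitsToField O K L σ hσn) (fieldUnitsToInt O K L σ hσn) where
  inj := by
    intro u v huv
    have h1 : Units.map (algebraMap (integralClosure O L) L : integralClosure O L →* L) u.toMul =
        Units.map (algebraMap (integralClosure O L) L : integralClosure O L →* L) v.toMul :=
      Additive.ofMul.injective huv
    have h2 := congrArg (fun w : Lˣ => (w : L)) h1
    simp only [Units.coe_map, MonoidHom.coe_coe] at h2
    exact Additive.toMul.injective (Units.ext (Subtype.ext h2))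
  surj := by
    intro m
    obtain ⟨x, hx⟩ := dvrOrdHom_surjective (integralClosure O L) L (Multiplicative.ofAdd m)
    refine ⟨Additive.ofMul x, ?_⟩
    rw [dvrOrdHom_apply] at hx
    exact Multiplicative.ofAdd.injective hx
  exact := by
    intro x
    change dvrOrd (integralClosure O L) L ((x.toMul : Lˣ) : L) = 0 ↔ _
    rw [dvrOrd_eq_zero_iff (integralClosure O L) L x.toMul.ne_zero]
    constructor
    · rintro ⟨u, hu⟩
      exact ⟨Additive.ofMul u, Additive.toMul.injective (Units.ext hu)⟩
    · rintro ⟨u, rfl⟩
      exact ⟨u.toMul, rfl⟩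

/-- **B3 (ii)**: the Herbrand quotient of `Lˣ` is `[L : K]`. -/
theorem herbrand_fieldUnitsPair [Finite (ResidueField O)] [IsGalois K L] (σ : L ≃ₐ[K] L)
    (hσ : ∀ τ : L ≃ₐ[K] L, τ ∈ Subgroup.zpowers σ) (hσn : σ ^ Module.finrank K L = 1) :
    (fieldUnitsPair K L σ hσn).IsHFinite ∧
      (fieldUnitsPair K L σ hσn).herbrand = Module.finrank K L := by
  have := intRing_isDiscreteValuationRing O K L
  have := intRing_isFractionRing O K L
  have hn : Module.finrank K L ≠ 0 := Module.finrank_pos.ne'
  have hex := shortExact_units O K L σ hσn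
  obtain ⟨hP, hP1⟩ := herbrand_intUnitsPair O K L σ hσ hσn
  have hR := DNPair.isHFinite_ofTrivial_int (Module.finrank K L) hn
  refine ⟨hex.isHFinite_mid hP hR, ?_⟩
  rw [hex.herbrand_mul hP hR, hP1, one_mul, DNPair.herbrand_int _ hn]

end FieldUnits

end Fermat.Agent.CFT
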