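import Mathlib
import Fermat.Agent.CFT.Local.HerbrandField

/-!
# CFT, node B3 (iii): the norm index of a cyclic extension of local fields

* `prod_range_pow_eq_prod_univ`, `prod_range_pow_apply_eq_norm`: `∏_{k<n} σ^k x = N_{L/K} x`;
* `subsingleton_H1_fieldUnitsPair`: Hilbert 90, `Ĥ¹(Lˣ) = 0`;
* `DNPair.toH0`: maps into `Ĥ⁰`;
* `baseUnitsToH0 : Kˣ →* Multiplicative Ĥ⁰(Lˣ)`, surjective with kernel the norm group;
* `card_H0_fieldUnitsPair`: `|Ĥ⁰(Lˣ)| = [L : K]`;
* `index_norm_range`: `[Kˣ : N Lˣ] = [L : K]`.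
-/

set_option autoImplicit false
set_option linter.unusedSectionVars false

namespace Fermat.Agent.CFT

open Finset IsLocalRing

section CyclicProd

variable {K L : Type*} [Field K] [Field L] [Algebra K L] [FiniteDimensional K L] [IsGalois K L]

/-- In a cyclic Galois group generated by `σ`, a product over the group is a product over the
powers of `σ`. -/
theorem prod_range_pow_eq_prod_univ {M : Type*} [CommMonoid M] (σ : L ≃ₐ[K] L)
    (hσ : ∀ τ : L ≃ₐ[K] L, τ ∈ Subgroup.zpowers σ) (f : (L ≃ₐ[K] L) → M) :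
    ∏ k ∈ range (Module.finrank K L), f (σ ^ k) = ∏ τ : L ≃ₐ[K] L, f τ := by
  have hord : orderOf σ = Module.finrank K L := by
    rw [orderOf_eq_card_of_forall_mem_zpowers hσ, IsGalois.card_aut_eq_finrank]
  refine Finset.prod_nbij (fun k => σ ^ k) (fun _ _ => Finset.mem_univ _) ?_ ?_ (fun _ _ => rfl)
  · intro a ha b hb hab
    simp only [Finset.coe_range, Set.mem_Iio] at ha hb
    rw [← hord] at ha hb
    exact pow_injOn_Iio_orderOf (Set.mem_Iio.2 ha) (Set.mem_Iio.2 hb) hab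
  · intro τ _
    have hfin : IsOfFinOrder σ := isOfFinOrder_of_finite σ
    obtain ⟨k, hk⟩ := (Submonoid.mem_powers_iff _ _).mp
      (hfin.mem_powers_iff_mem_zpowers.mpr (hσ τ))
    refine ⟨k % orderOf σ, ?_, ?_⟩
    · simp only [Finset.coe_range, Set.mem_Iio]
      rw [← hord]
      exact Nat.mod_lt _ hfin.orderOf_pos
    · change σ ^ (k % orderOf σ) = τ
      rw [pow_mod_orderOf, hk]

/-- An element fixed by a generator of the Galois group lies in the base field. -/
theorem mem_range_algebraMap_of_fixed_generator (σ : L ≃ₐ[K] L)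
    (hσ : ∀ τ : L ≃ₐ[K] L, τ ∈ Subgroup.zpowers σ) {x : L} (hx : σ x = x) :
    x ∈ Set.range (algebraMap K L) := by
  rw [IsGalois.mem_range_algebraMap_iff_fixed]
  intro τ
  obtain ⟨m, rfl⟩ := Subgroup.mem_zpowers_iff.mp (hσ τ)
  have hstab : σ ∈ MulAction.stabilizer (L ≃ₐ[K] L) x := hx
  exact (MulAction.stabilizer (L ≃ₐ[K] L) x).zpow_mem hstab m

/-- `∏_{k<n} σ^k x = N_{L/K}(x)` for a generator `σ`. -/
theorem prod_range_pow_apply_eq_norm (σ : L ≃ₐ[K] L)
    (hσ : ∀ τ : L ≃ₐ[K] L, τ ∈ Subgroup.zpowers σ) (x : L) :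
    ∏ k ∈ range (Module.finrank K L), (σ ^ k) x = algebraMap K L (Algebra.norm K x) := by
  rw [Algebra.norm_eq_prod_automorphisms]
  exact prod_range_pow_eq_prod_univ σ hσ (fun τ => τ x)

end CyclicProd

namespace DNPair

section ToH0

variable {A X : Type*} [AddCommGroup A] [AddCommGroup X]

/-- A homomorphism into `ker D` induces a map to `Ĥ⁰`. -/
def toH0 (P : DNPair A) (φ : X →+ A) (hφ : ∀ x, P.D (φ x) = 0) : X →+ P.H0 :=
  (QuotientAddGroup.mk' _).comp
    (φ.codRestrict P.D.ker fun x => AddMonoidHom.mem_ker.mpr (hφ x))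

theorem toH0_apply (P : DNPair A) (φ : X →+ A) (hφ : ∀ x, P.D (φ x) = 0) (x : X) :
    P.toH0 φ hφ x = P.mk0 (φ x) (hφ x) := rfl

theorem toH0_eq_zero_iff (P : DNPair A) (φ : X →+ A) (hφ : ∀ x, P.D (φ x) = 0) (x : X) :
    P.toH0 φ hφ x = 0 ↔ ∃ b, P.N b = φ x := by
  rw [toH0_apply, mk0_eq_zero_iff]

theorem toH0_surjective (P : DNPair A) (φ : X →+ A) (hφ : ∀ x, P.D (φ x) = 0)
    (h : ∀ a, P.D a = 0 → ∃ x, φ x = a) : Function.Surjective (P.toH0 φ hφ) := by
  intro y
  obtain ⟨a, ha, rfl⟩ := P.mk0_surjective y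
  obtain ⟨x, rfl⟩ := h a ha
  exact ⟨x, rfl⟩

end ToH0

end DNPair

section Field

variable (K L : Type) [Field K] [Field L] [Algebra K L] [FiniteDimensional K L] [IsGalois K L]

/-- The norm of `fieldUnitsPair` is the field norm. -/
theorem coe_unitsNorm_eq_norm (σ : L ≃ₐ[K] L) (hσ : ∀ τ : L ≃ₐ[K] L, τ ∈ Subgroup.zpowers σ)
    (x : Lˣ) :
    ((unitsNorm σ.toRingEquiv (Module.finrank K L) x : Lˣ) : L) =
      algebraMap K L (Algebra.norm K (x : L)) := by
  rw [coe_unitsNorm, ← prod_range_pow_apply_eq_norm σ hσ]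
  refine Finset.prod_congr rfl fun k _ => ?_
  rw [toRingEquiv_pow_apply]

/-- **Hilbert 90**: `Ĥ¹(Lˣ) = 0` for a cyclic extension. -/
theorem subsingleton_H1_fieldUnitsPair (σ : L ≃ₐ[K] L)
    (hσ : ∀ τ : L ≃ₐ[K] L, τ ∈ Subgroup.zpowers σ) (hσn : σ ^ Module.finrank K L = 1) :
    Subsingleton (fieldUnitsPair K L σ hσn).H1 := by
  refine ⟨fun x y => ?_⟩
  suffices hz : ∀ x : (fieldUnitsPair K L σ hσn).H1, x = 0 by rw [hz x, hz y]
  intro x
  obtain ⟨a, ha, rfl⟩ := DNPair.mk1_surjective _ x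
  rw [DNPair.mk1_eq_zero_iff]
  have ha' : unitsNorm σ.toRingEquiv (Module.finrank K L) a.toMul = 1 := by
    unfold fieldUnitsPair at ha
    rw [unitsPair_N_apply] at ha
    exact Additive.ofMul.injective ha
  have hnorm : Algebra.norm K ((a.toMul : Lˣ) : L) = 1 := by
    have h1 := coe_unitsNorm_eq_norm K L σ hσ a.toMul
    rw [ha', Units.val_one] at h1
    exact (algebraMap K L).injective (by rw [← h1, map_one])
  have : IsCyclic (L ≃ₐ[K] L) := ⟨⟨σ, hσ⟩⟩
  obtain ⟨y, hy⟩ := groupCohomology.exists_div_of_norm_eq_one (K := K) (L := L) hσ hnorm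
  refine ⟨Additive.ofMul y⁻¹, ?_⟩
  unfold fieldUnitsPair
  rw [unitsPair_D_apply]
  apply Additive.toMul.injective
  apply Units.ext
  change ((unitsAut σ.toRingEquiv y⁻¹ / y⁻¹ : Lˣ) : L) = (a.toMul : Lˣ)
  rw [← hy, map_inv, inv_div_inv, Units.val_div_eq_div_val, coe_unitsAut]
  rfl

/-- `|Ĥ⁰(Lˣ)| = [L : K]`, given that the Herbrand quotient is `[L : K]`. -/
theorem card_H0_fieldUnitsPair_of_herbrand (σ : L ≃ₐ[K] L)
    (hσ : ∀ τ : L ≃ₐ[K] L, τ ∈ Subgroup.zpowers σ) (hσn : σ ^ Module.finrank K L = 1)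
    (hh : (fieldUnitsPair K L σ hσn).herbrand = Module.finrank K L) :
    Nat.card (fieldUnitsPair K L σ hσn).H0 = Module.finrank K L := by
  have := subsingleton_H1_fieldUnitsPair K L σ hσ hσn
  unfold DNPair.herbrand at hh
  have h1 : Nat.card (fieldUnitsPair K L σ hσn).H1 = 1 := Nat.card_unique
  rw [h1, Nat.cast_one, div_one] at hh
  exact_mod_cast hh


theorem fieldUnitsPair_D_algebraMap (σ : L ≃ₐ[K] L) (hσn : σ ^ Module.finrank K L = 1)
    (x : Additive Kˣ) :
    (fieldUnitsPair K L σ hσn).D ((Units.map (algebraMap K L : K →* L)).toAdditive x) = 0 := by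
  unfold fieldUnitsPair
  rw [unitsPair_D_apply]
  change Additive.ofMul (unitsAut σ.toRingEquiv (Units.map _ x.toMul) / Units.map _ x.toMul) = 0
  have : unitsAut σ.toRingEquiv (Units.map (algebraMap K L : K →* L) x.toMul) =
      Units.map (algebraMap K L : K →* L) x.toMul := by
    ext
    exact σ.commutes _
  rw [this, div_self']
  rfl

/-- The map `Kˣ → Ĥ⁰(Lˣ)`. -/
noncomputable def baseUnitsToH0 (σ : L ≃ₐ[K] L) (hσn : σ ^ Module.finrank K L = 1) :
    Kˣ →* Multiplicative (fieldUnitsPair K L σ hσn).H0 :=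
  AddMonoidHom.toMultiplicativeRight
    ((fieldUnitsPair K L σ hσn).toH0 (Units.map (algebraMap K L : K →* L)).toAdditive
      (fieldUnitsPair_D_algebraMap K L σ hσn))

theorem baseUnitsToH0_surjective (σ : L ≃ₐ[K] L)
    (hσ : ∀ τ : L ≃ₐ[K] L, τ ∈ Subgroup.zpowers σ) (hσn : σ ^ Module.finrank K L = 1) :
    Function.Surjective (baseUnitsToH0 K L σ hσn) := by
  intro y
  have hsurj := DNPair.toH0_surjective (fieldUnitsPair K L σ hσn)
    (Units.map (algebraMap K L : K →* L)).toAdditive (fieldUnitsPair_D_algebraMap K L σ hσn) ?_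
  · obtain ⟨x, hx⟩ := hsurj y.toAdd
    exact ⟨x.toMul, congrArg Multiplicative.ofAdd hx⟩
  · intro a ha
    unfold fieldUnitsPair at ha
    rw [unitsPair_D_apply] at ha
    have h1 : unitsAut σ.toRingEquiv a.toMul = a.toMul :=
      div_eq_one.mp (Additive.ofMul.injective ha)
    have h2 : σ ((a.toMul : Lˣ) : L) = ((a.toMul : Lˣ) : L) :=
      congrArg (fun u : Lˣ => (u : L)) h1
    obtain ⟨c, hc⟩ := mem_range_algebraMap_of_fixed_generator σ hσ h2
    have hc0 : c ≠ 0 := by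
      rintro rfl
      rw [map_zero] at hc
      exact a.toMul.ne_zero hc.symm
    exact ⟨Additive.ofMul (Units.mk0 c hc0), Additive.toMul.injective (Units.ext hc)⟩

theorem ker_baseUnitsToH0 (σ : L ≃ₐ[K] L)
    (hσ : ∀ τ : L ≃ₐ[K] L, τ ∈ Subgroup.zpowers σ) (hσn : σ ^ Module.finrank K L = 1) :
    (baseUnitsToH0 K L σ hσn).ker = (Units.map (Algebra.norm K : L →* K)).range := by
  ext x
  rw [MonoidHom.mem_ker, MonoidHom.mem_range]
  have h0 : baseUnitsToH0 K L σ hσn x = 1 ↔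
      ∃ b, (fieldUnitsPair K L σ hσn).N b =
        (Units.map (algebraMap K L : K →* L)).toAdditive (Additive.ofMul x) := by
    rw [← DNPair.toH0_eq_zero_iff _ _ (fieldUnitsPair_D_algebraMap K L σ hσn)]
    exact ⟨fun h => congrArg Multiplicative.toAdd h, fun h => congrArg Multiplicative.ofAdd h⟩
  rw [h0]
  constructor
  · rintro ⟨b, hb⟩
    refine ⟨b.toMul, ?_⟩
    unfold fieldUnitsPair at hb
    rw [unitsPair_N_apply] at hb
    have h1 : unitsNorm σ.toRingEquiv (Module.finrank K L) b.toMul =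
        Units.map (algebraMap K L : K →* L) x := Additive.ofMul.injective hb
    have h2 := congrArg (fun u : Lˣ => (u : L)) h1
    simp only [coe_unitsNorm_eq_norm K L σ hσ] at h2
    exact Units.ext ((algebraMap K L).injective h2)
  · rintro ⟨y, rfl⟩
    refine ⟨Additive.ofMul y, ?_⟩
    unfold fieldUnitsPair
    rw [unitsPair_N_apply]
    apply Additive.toMul.injective
    apply Units.ext
    exact coe_unitsNorm_eq_norm K L σ hσ y

/-- **B3 (iii)**: the norm group `N_{L/K} Lˣ` has index `|Ĥ⁰(Lˣ)|` in `Kˣ`. -/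
theorem index_norm_range_eq_card_H0 (σ : L ≃ₐ[K] L)
    (hσ : ∀ τ : L ≃ₐ[K] L, τ ∈ Subgroup.zpowers σ) (hσn : σ ^ Module.finrank K L = 1) :
    (Units.map (Algebra.norm K : L →* K)).range.index =
      Nat.card (fieldUnitsPair K L σ hσn).H0 := by
  rw [← ker_baseUnitsToH0 K L σ hσ hσn, Subgroup.index_ker,
    MonoidHom.range_eq_top.mpr (baseUnitsToH0_surjective K L σ hσ hσn), Subgroup.card_top]
  rfl

end Field

section Local

variable (O K : Type) [CommRing O] [IsDomain O] [IsDiscreteValuationRing O]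
  [IsAdicComplete (maximalIdeal O) O] [Finite (ResidueField O)]
  [Field K] [Algebra O K] [IsFractionRing O K] [CharZero K]
  (L : Type) [Field L] [Algebra K L] [FiniteDimensional K L] [Algebra O L] [IsScalarTower O K L]
  [IsGalois K L]

include O

/-- **B3 (iii)**: `|Ĥ⁰(Lˣ)| = [L : K]` for a cyclic extension of local fields. -/
theorem card_H0_fieldUnitsPair (σ : L ≃ₐ[K] L)
    (hσ : ∀ τ : L ≃ₐ[K] L, τ ∈ Subgroup.zpowers σ) (hσn : σ ^ Module.finrank K L = 1) :
    Nat.card (fieldUnitsPair K L σ hσn).H0 = Module.finrank K L :=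
  card_H0_fieldUnitsPair_of_herbrand K L σ hσ hσn (herbrand_fieldUnitsPair O K L σ hσ hσn).2

/-- **B3 (iii)**: the norm index `[Kˣ : N_{L/K} Lˣ] = [L : K]` for a cyclic extension of local
fields. -/
theorem index_norm_range (σ : L ≃ₐ[K] L)
    (hσ : ∀ τ : L ≃ₐ[K] L, τ ∈ Subgroup.zpowers σ) :
    (Units.map (Algebra.norm K : L →* K)).range.index = Module.finrank K L := by
  have hσn : σ ^ Module.finrank K L = 1 := by
    rw [← orderOf_eq_finrank_of_forall_mem_zpowers K L σ hσ]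
    exact pow_orderOf_eq_one σ
  rw [index_norm_range_eq_card_H0 K L σ hσ hσn, card_H0_fieldUnitsPair O K L σ hσ hσn]

end Local

end Fermat.Agent.CFT
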