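import Mathlib
import Fermat.Agent.CFT.Local.NormIndex

/-!
# CFT, node B3 (iii), units: the unit norm index of a cyclic extension of local fields

* `exists_H0map_eq_mk0_iff`: the image of `Ĥ⁰(Lˣ) → Ĥ⁰(ℤ) = ℤ/n` is `eℤ/nℤ`;
* `card_H1_intUnitsPair`, `card_H0_intUnitsPair`: `|Ĥ¹(Bˣ)| = |Ĥ⁰(Bˣ)| = e(L/K)`;
* `algebraMap_norm_intRing`: `N_{B/O} = N_{L/K}` on `B`;
* `baseIntUnitsToH0 : Oˣ →* Multiplicative Ĥ⁰(Bˣ)`, surjective with kernel `N Bˣ`;
* `index_unit_norm_range`: `[Oˣ : N_{B/O} Bˣ] = e(L/K)`.
-/

set_option autoImplicit false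
set_option linter.unusedSectionVars false

namespace Fermat.Agent.CFT

open Finset IsLocalRing
open scoped nonZeroDivisors

section UnitIndexA

variable (O K : Type) [CommRing O] [IsDomain O] [IsDiscreteValuationRing O]
  [IsAdicComplete (maximalIdeal O) O] [Finite (ResidueField O)]
  [Field K] [Algebra O K] [IsFractionRing O K] [CharZero K]
  (L : Type) [Field L] [Algebra K L] [FiniteDimensional K L] [Algebra O L] [IsScalarTower O K L]
  [IsGalois K L]

theorem DNPair.ofTrivial_D_apply (A : Type*) [AddCommGroup A] (n : ℕ) (a : A) :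
    (DNPair.ofTrivial A n).D a = 0 := rfl

theorem DNPair.ofTrivial_N_apply (A : Type*) [AddCommGroup A] (n : ℕ) (a : A) :
    (DNPair.ofTrivial A n).N a = n • a := rfl

/-- The image of `Ĥ⁰(Lˣ) → Ĥ⁰(ℤ) = ℤ/n` is `eℤ/nℤ`. -/
theorem exists_H0map_eq_mk0_iff [IsDiscreteValuationRing (integralClosure O L)]
    [IsFractionRing (integralClosure O L) L] (σ : L ≃ₐ[K] L)
    (hσ : ∀ τ : L ≃ₐ[K] L, τ ∈ Subgroup.zpowers σ) (hσn : σ ^ Module.finrank K L = 1) (m : ℤ) :
    (∃ y : (fieldUnitsPair K L σ hσn).H0, (fieldUnitsToInt O K L σ hσn).H0map y =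
        (DNPair.ofTrivial ℤ (Module.finrank K L)).mk0 m (DNPair.ofTrivial_D_apply ℤ _ m)) ↔ (ramIdx O L : ℤ) ∣ m := by
  have hef : (ramIdx O L : ℤ) ∣ (Module.finrank K L : ℤ) := by
    rw [← ramIdx_mul_inertDeg O K L]
    push_cast
    exact Dvd.intro _ rfl
  constructor
  · rintro ⟨y, hy⟩
    obtain ⟨a, ha, rfl⟩ := DNPair.mk0_surjective _ y
    rw [DNPair.Hom.H0map_mk0, DNPair.mk0_eq_mk0_iff] at hy
    obtain ⟨b, hb⟩ := hy
    -- `a` comes from `K`
    have ha' := ha
    unfold fieldUnitsPair at ha'
    rw [unitsPair_D_apply] at ha'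
    have h1 : unitsAut σ.toRingEquiv a.toMul = a.toMul :=
      div_eq_one.mp (Additive.ofMul.injective ha')
    have h2 : σ ((a.toMul : Lˣ) : L) = ((a.toMul : Lˣ) : L) :=
      congrArg (fun u : Lˣ => (u : L)) h1
    obtain ⟨c, hc⟩ := mem_range_algebraMap_of_fixed_generator σ hσ h2
    have hord : (fieldUnitsToInt O K L σ hσn).toFun a = ramIdx O L * dvrOrd O K c := by
      change dvrOrd (integralClosure O L) L ((a.toMul : Lˣ) : L) = _
      rw [← hc, dvrOrd_algebraMap_eq_ramIdx_mul O K L c]
    have hb' : (Module.finrank K L : ℤ) * b = (fieldUnitsToInt O K L σ hσn).toFun a - m := by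
      rw [← hb, DNPair.ofTrivial_N_apply]
      simp
    rw [hord] at hb'
    have hm : m = ramIdx O L * dvrOrd O K c - (Module.finrank K L : ℤ) * b := by
      rw [hb']; ring
    rw [hm]
    exact dvd_sub (Dvd.intro _ rfl) (Dvd.dvd.mul_right hef b)
  · rintro ⟨k, rfl⟩
    obtain ⟨c, hc⟩ := dvrOrdHom_surjective O K (Multiplicative.ofAdd k)
    rw [dvrOrdHom_apply] at hc
    have hck : dvrOrd O K (c : K) = k := Multiplicative.ofAdd.injective hc
    refine ⟨(fieldUnitsPair K L σ hσn).mk0
      ((Units.map (algebraMap K L : K →* L)).toAdditive (Additive.ofMul c))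
      (fieldUnitsPair_D_algebraMap K L σ hσn _), ?_⟩
    rw [DNPair.Hom.H0map_mk0]
    refine DNPair.mk0_congr _ ?_ _
    change dvrOrd (integralClosure O L) L (algebraMap K L (c : K)) = _
    rw [dvrOrd_algebraMap_eq_ramIdx_mul O K L, hck]

/-- **B3 (iii)**: `|Ĥ¹(Bˣ)| = e(L/K)`. -/
theorem card_H1_intUnitsPair [IsLocalRing (integralClosure O L)] (σ : L ≃ₐ[K] L)
    (hσ : ∀ τ : L ≃ₐ[K] L, τ ∈ Subgroup.zpowers σ) (hσn : σ ^ Module.finrank K L = 1) :
    Nat.card (intUnitsPair O K L σ hσn).H1 = ramIdx O L := by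
  have := intRing_isDiscreteValuationRing O K L
  have := intRing_isFractionRing O K L
  have hex := shortExact_units O K L σ hσn
  have hH1 := subsingleton_H1_fieldUnitsPair K L σ hσ hσn
  -- the surjection `ℤ → Ĥ¹(Bˣ)`
  let ψ : ℤ →+ (DNPair.ofTrivial ℤ (Module.finrank K L)).H0 :=
    (DNPair.ofTrivial ℤ (Module.finrank K L)).toH0 (AddMonoidHom.id ℤ)
      (DNPair.ofTrivial_D_apply ℤ _)
  let χ : ℤ →+ (intUnitsPair O K L σ hσn).H1 := hex.conn.comp ψ
  have hψ : Function.Surjective ψ :=
    DNPair.toH0_surjective _ _ _ (fun a _ => ⟨a, rfl⟩)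
  have hconn : Function.Surjective hex.conn := by
    intro y
    exact (hex.exact_H1_left y).mp (Subsingleton.elim _ _)
  have hχ : Function.Surjective χ := hconn.comp hψ
  have hker : χ.ker = AddSubgroup.zmultiples (ramIdx O L : ℤ) := by
    ext m
    rw [AddMonoidHom.mem_ker, Int.mem_zmultiples_iff]
    change hex.conn (ψ m) = 0 ↔ _
    rw [hex.exact_H0_right]
    exact exists_H0map_eq_mk0_iff O K L σ hσ hσn m
  have h1 := AddSubgroup.index_ker χ
  rw [hker, Int.index_zmultiples, Int.natAbs_natCast,
    AddMonoidHom.range_eq_top.mpr hχ, AddSubgroup.card_top] at h1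
  exact h1.symm

/-- **B3 (iii)**: `|Ĥ⁰(Bˣ)| = e(L/K)`. -/
theorem card_H0_intUnitsPair [IsLocalRing (integralClosure O L)] (σ : L ≃ₐ[K] L)
    (hσ : ∀ τ : L ≃ₐ[K] L, τ ∈ Subgroup.zpowers σ) (hσn : σ ^ Module.finrank K L = 1) :
    Nat.card (intUnitsPair O K L σ hσn).H0 = ramIdx O L := by
  obtain ⟨hfin, hh⟩ := herbrand_intUnitsPair O K L σ hσ hσn
  have h1 := card_H1_intUnitsPair O K L σ hσ hσn
  unfold DNPair.herbrand at hh
  have hpos : (Nat.card (intUnitsPair O K L σ hσn).H1 : ℚ) ≠ 0 := by
    exact_mod_cast hfin.card_H1_pos.ne'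
  rw [div_eq_one_iff_eq hpos] at hh
  rw [← h1]
  exact_mod_cast hh

end UnitIndexA

section UnitIndex

variable (O K : Type) [CommRing O] [IsDomain O] [IsDiscreteValuationRing O]
  [IsAdicComplete (maximalIdeal O) O]
  [Field K] [Algebra O K] [IsFractionRing O K] [CharZero K]
  (L : Type) [Field L] [Algebra K L] [FiniteDimensional K L] [Algebra O L] [IsScalarTower O K L]

/-- The norm of an integral element, computed in `O`. -/
theorem algebraMap_norm_intRing (b : integralClosure O L) :
    algebraMap O K (Algebra.norm O b) = Algebra.norm K ((b : integralClosure O L) : L) := by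
  have h1 : Module.Free O (integralClosure O L) := intRing_free O K L
  have h2 : Module.Finite O (integralClosure O L) := intRing_finite O K L
  have h3 : IsLocalization (Algebra.algebraMapSubmonoid (integralClosure O L) O⁰) L :=
    IsIntegralClosure.isLocalization O K L (integralClosure O L)
  exact (Algebra.norm_localization O O⁰ (Rₘ := K) (Sₘ := L) b).symm

/-- A unit of the ring of integers of `L` which lies in `K` comes from a unit of `O`. -/
theorem exists_unit_of_mem_range (b : (integralClosure O L)ˣ)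
    (hb : ((b : integralClosure O L) : L) ∈ Set.range (algebraMap K L)) :
    ∃ u : Oˣ, algebraMap O (integralClosure O L) (u : O) = (b : integralClosure O L) := by
  have key : ∀ x : integralClosure O L, (x : L) ∈ Set.range (algebraMap K L) →
      ∃ c : O, algebraMap O (integralClosure O L) c = x := by
    rintro x ⟨c, hc⟩
    have hint : IsIntegral O c := by
      have : IsIntegral O (algebraMap K L c) := hc ▸ x.2
      exact (isIntegral_algebraMap_iff (algebraMap K L).injective).mp this
    obtain ⟨c₀, hc₀⟩ := IsIntegrallyClosed.isIntegral_iff.mp hint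
    refine ⟨c₀, Subtype.ext ?_⟩
    change algebraMap O L c₀ = (x : L)
    rw [IsScalarTower.algebraMap_apply O K L, hc₀, hc]
  obtain ⟨c, hc⟩ := key b hb
  have hb' : (((b⁻¹ : (integralClosure O L)ˣ) : integralClosure O L) : L) ∈
      Set.range (algebraMap K L) := by
    obtain ⟨x, hx⟩ := hb
    refine ⟨x⁻¹, ?_⟩
    rw [map_inv₀, hx]
    have h1 : ((b : integralClosure O L) : L) * (((b⁻¹ : (integralClosure O L)ˣ) :
        integralClosure O L) : L) = 1 := by
      have h0 : (b : integralClosure O L) * ((b⁻¹ : (integralClosure O L)ˣ) :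
          integralClosure O L) = 1 := Units.mul_inv b
      have := congrArg (algebraMap (integralClosure O L) L) h0
      rw [map_mul, map_one] at this
      exact this
    exact (eq_inv_of_mul_eq_one_right h1).symm
  obtain ⟨c', hc'⟩ := key _ hb'
  have hinj := intRing_algebraMap_injective O K L
  have hcc' : c * c' = 1 := by
    apply hinj
    rw [map_mul, hc, hc', map_one, Units.mul_inv]
  exact ⟨⟨c, c', hcc', by rw [mul_comm]; exact hcc'⟩, hc⟩

theorem intUnitsPair_D_algebraMap (σ : L ≃ₐ[K] L) (hσn : σ ^ Module.finrank K L = 1)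
    (x : Additive Oˣ) :
    (intUnitsPair O K L σ hσn).D
      ((Units.map (algebraMap O (integralClosure O L) : O →* integralClosure O L)).toAdditive x)
      = 0 := by
  unfold intUnitsPair
  rw [unitsPair_D_apply]
  change Additive.ofMul (unitsAut _ (Units.map _ x.toMul) / Units.map _ x.toMul) = 0
  have : unitsAut (galRestrict O K L (integralClosure O L) σ).toRingEquiv
      (Units.map (algebraMap O (integralClosure O L) : O →* integralClosure O L) x.toMul) =
      Units.map (algebraMap O (integralClosure O L) : O →* integralClosure O L) x.toMul := by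
    ext
    exact congrArg Subtype.val ((galRestrict O K L (integralClosure O L) σ).commutes _)
  rw [this, div_self']
  rfl

/-- The map `Oˣ → Ĥ⁰(Bˣ)`. -/
noncomputable def baseIntUnitsToH0 (σ : L ≃ₐ[K] L) (hσn : σ ^ Module.finrank K L = 1) :
    Oˣ →* Multiplicative (intUnitsPair O K L σ hσn).H0 :=
  AddMonoidHom.toMultiplicativeRight
    ((intUnitsPair O K L σ hσn).toH0
      (Units.map (algebraMap O (integralClosure O L) : O →* integralClosure O L)).toAdditive
      (intUnitsPair_D_algebraMap O K L σ hσn))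

theorem baseIntUnitsToH0_surjective [IsGalois K L] (σ : L ≃ₐ[K] L)
    (hσ : ∀ τ : L ≃ₐ[K] L, τ ∈ Subgroup.zpowers σ) (hσn : σ ^ Module.finrank K L = 1) :
    Function.Surjective (baseIntUnitsToH0 O K L σ hσn) := by
  intro y
  have hsurj := DNPair.toH0_surjective (intUnitsPair O K L σ hσn)
    (Units.map (algebraMap O (integralClosure O L) : O →* integralClosure O L)).toAdditive
    (intUnitsPair_D_algebraMap O K L σ hσn) ?_
  · obtain ⟨x, hx⟩ := hsurj y.toAdd
    exact ⟨x.toMul, congrArg Multiplicative.ofAdd hx⟩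
  · intro a ha
    unfold intUnitsPair at ha
    rw [unitsPair_D_apply] at ha
    have h1 : unitsAut (galRestrict O K L (integralClosure O L) σ).toRingEquiv a.toMul =
        a.toMul := div_eq_one.mp (Additive.ofMul.injective ha)
    have h2 : σ (((a.toMul : (integralClosure O L)ˣ) : integralClosure O L) : L) =
        (((a.toMul : (integralClosure O L)ˣ) : integralClosure O L) : L) := by
      have h3 : (galRestrict O K L (integralClosure O L) σ)
          ((a.toMul : (integralClosure O L)ˣ) : integralClosure O L) =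
          ((a.toMul : (integralClosure O L)ˣ) : integralClosure O L) :=
        congrArg (fun u : (integralClosure O L)ˣ => (u : integralClosure O L)) h1
      rw [← galRestrict_coe O K L σ, h3]
    obtain ⟨u, hu⟩ := exists_unit_of_mem_range O K L a.toMul
      (mem_range_algebraMap_of_fixed_generator σ hσ h2)
    exact ⟨Additive.ofMul u, Additive.toMul.injective (Units.ext hu)⟩

theorem ker_baseIntUnitsToH0 [IsGalois K L] (σ : L ≃ₐ[K] L)
    (hσ : ∀ τ : L ≃ₐ[K] L, τ ∈ Subgroup.zpowers σ) (hσn : σ ^ Module.finrank K L = 1) :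
    (baseIntUnitsToH0 O K L σ hσn).ker =
      (Units.map (Algebra.norm O : integralClosure O L →* O)).range := by
  have hnorm : ∀ v : (integralClosure O L)ˣ,
      unitsNorm (galRestrict O K L (integralClosure O L) σ).toRingEquiv (Module.finrank K L) v =
        Units.map (algebraMap O (integralClosure O L) : O →* integralClosure O L)
          (Units.map (Algebra.norm O : integralClosure O L →* O) v) := by
    intro v
    apply Units.ext
    apply Subtype.ext
    rw [coe_unitsNorm]
    change (integralClosure O L).val (∏ k ∈ range (Module.finrank K L), _) =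
      algebraMap O L (Algebra.norm O (v : integralClosure O L))
    rw [map_prod, IsScalarTower.algebraMap_apply O K L, algebraMap_norm_intRing O K L,
      ← prod_range_pow_apply_eq_norm σ hσ]
    refine Finset.prod_congr rfl fun k _ => ?_
    rw [toRingEquiv_pow_apply]
    exact galRestrict_pow_coe O K L σ k _
  have hinj : Function.Injective
      (Units.map (algebraMap O (integralClosure O L) : O →* integralClosure O L)) :=
    Units.map_injective (intRing_algebraMap_injective O K L)
  ext x
  rw [MonoidHom.mem_ker, MonoidHom.mem_range]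
  have h0 : baseIntUnitsToH0 O K L σ hσn x = 1 ↔
      ∃ b, (intUnitsPair O K L σ hσn).N b =
        (Units.map (algebraMap O (integralClosure O L) :
          O →* integralClosure O L)).toAdditive (Additive.ofMul x) := by
    rw [← DNPair.toH0_eq_zero_iff _ _ (intUnitsPair_D_algebraMap O K L σ hσn)]
    exact ⟨fun h => congrArg Multiplicative.toAdd h, fun h => congrArg Multiplicative.ofAdd h⟩
  rw [h0]
  constructor
  · rintro ⟨b, hb⟩
    refine ⟨b.toMul, ?_⟩
    unfold intUnitsPair at hb
    rw [unitsPair_N_apply] at hb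
    have h1 : unitsNorm (galRestrict O K L (integralClosure O L) σ).toRingEquiv
        (Module.finrank K L) b.toMul =
        Units.map (algebraMap O (integralClosure O L) : O →* integralClosure O L) x :=
      Additive.ofMul.injective hb
    rw [hnorm] at h1
    exact hinj h1
  · rintro ⟨y, rfl⟩
    refine ⟨Additive.ofMul y, ?_⟩
    unfold intUnitsPair
    rw [unitsPair_N_apply]
    exact congrArg Additive.ofMul (hnorm y)

/-- The unit norm group `N Bˣ` has index `|Ĥ⁰(Bˣ)|` in `Oˣ`. -/
theorem index_unit_norm_range_eq_card_H0 [IsGalois K L] (σ : L ≃ₐ[K] L)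
    (hσ : ∀ τ : L ≃ₐ[K] L, τ ∈ Subgroup.zpowers σ) (hσn : σ ^ Module.finrank K L = 1) :
    (Units.map (Algebra.norm O : integralClosure O L →* O)).range.index =
      Nat.card (intUnitsPair O K L σ hσn).H0 := by
  rw [← ker_baseIntUnitsToH0 O K L σ hσ hσn, Subgroup.index_ker,
    MonoidHom.range_eq_top.mpr (baseIntUnitsToH0_surjective O K L σ hσ hσn), Subgroup.card_top]
  rfl

end UnitIndex

section UnitIndexFinal

variable (O K : Type) [CommRing O] [IsDomain O] [IsDiscreteValuationRing O]
  [IsAdicComplete (maximalIdeal O) O] [Finite (ResidueField O)]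
  [Field K] [Algebra O K] [IsFractionRing O K] [CharZero K]
  (L : Type) [Field L] [Algebra K L] [FiniteDimensional K L] [Algebra O L] [IsScalarTower O K L]
  [IsGalois K L]

/-- **B3 (iii)**: the unit norm index `[Oˣ : N Bˣ] = e(L/K)` for a cyclic extension of local
fields. -/
theorem index_unit_norm_range [IsLocalRing (integralClosure O L)] (σ : L ≃ₐ[K] L)
    (hσ : ∀ τ : L ≃ₐ[K] L, τ ∈ Subgroup.zpowers σ) :
    (Units.map (Algebra.norm O : integralClosure O L →* O)).range.index = ramIdx O L := by
  have hσn : σ ^ Module.finrank K L = 1 := by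
    rw [← orderOf_eq_finrank_of_forall_mem_zpowers K L σ hσ]
    exact pow_orderOf_eq_one σ
  rw [index_unit_norm_range_eq_card_H0 O K L σ hσ hσn, card_H0_intUnitsPair O K L σ hσ hσn]

end UnitIndexFinal

end Fermat.Agent.CFT
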