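import Mathlib
import Fermat.Agent.CFT.Local.NormOrd
import Fermat.Agent.CFT.Local.UnitNormIndex
import Fermat.Agent.CFT.Local.UnramBasic
import Fermat.Agent.CFT.Local.Frobenius
import Fermat.Agent.CFT.Local.ExtDVRTower

/-!
# CFT / Local (C3K' N4): converse of "unramified ⇒ units are norms", inertia in towers

Setting B (`O` complete DVR with finite residue field, `K = Frac O` of characteristic zero).

* `exists_unit_of_norm_eq_unit`: an element whose norm is a unit of `O` is a unit of `O_L`;
* `ramIdx_eq_one_of_forall_unit_norm` (N4): `L/K` cyclic and every unit of `O` a norm from `L`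
  ⇒ `e(L/K) = 1` (from the unit norm index `[Oˣ : N O_Lˣ] = e`);
* `forall_unit_norm_iff_ramIdx_eq_one` (N2 + N4);
* `fixingGal K F L ≤ Gal(L/K)` (the automorphisms fixing `F`), `galIncl : Gal(L/F) →* Gal(L/K)`;
* `galIncl_mem_inertiaGal_iff`: `I(L/F) = I(L/K) ∩ Gal(L/F)`;
* `ramIdx_eq_one_iff_inertiaGal_le`: in a tower `K ⊆ F ⊆ L`, `L/K` Galois:
  `e(F/K) = 1 ↔ I(L/K) ≤ Gal(L/F)`.
-/

set_option autoImplicit false
set_option linter.unusedSectionVars false

open IsLocalRing

namespace Fermat.Agent.CFT

section NormConverse

variable (O K : Type) [CommRing O] [IsDomain O] [IsDiscreteValuationRing O]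
  [IsAdicComplete (maximalIdeal O) O] [Finite (ResidueField O)]
  [Field K] [Algebra O K] [IsFractionRing O K] [CharZero K]
  (L : Type) [Field L] [Algebra K L] [FiniteDimensional K L] [Algebra O L] [IsScalarTower O K L]

/-- An element of `L` whose norm is a unit of `O` is a unit of the ring of integers of `L`. -/
theorem exists_unit_of_norm_eq_unit (u : Oˣ) (y : L)
    (hy : Algebra.norm K y = algebraMap O K (u : O)) :
    ∃ s : (integralClosure O L)ˣ, ((s : integralClosure O L) : L) = y := by
  have := intRing_isLocalRing O K L
  have := intRing_isDiscreteValuationRing O K L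
  have := intRing_isFractionRing O K L
  have hu0 : algebraMap O K (u : O) ≠ 0 := by
    intro h
    exact u.ne_zero (IsFractionRing.injective O K (by rw [h, map_zero]))
  have hy0 : y ≠ 0 := by
    rintro rfl
    rw [Algebra.norm_zero] at hy
    exact hu0 hy.symm
  have h1 : dvrOrd O K (Algebra.norm K y) = 0 := by
    rw [hy]
    exact (dvrOrd_eq_zero_iff O K hu0).mpr ⟨u, rfl⟩
  rw [dvrOrd_norm_eq_zero_iff O K L y] at h1
  obtain ⟨s, hs⟩ := (dvrOrd_eq_zero_iff (integralClosure O L) L hy0).mp h1
  exact ⟨s, hs⟩

/-- (N4, abstract) If every unit of `O` is a norm from a cyclic extension `L/K`, then `L/K` is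
unramified. -/
theorem ramIdx_eq_one_of_forall_unit_norm [IsGalois K L] [IsLocalRing (integralClosure O L)]
    (σ : L ≃ₐ[K] L)
    (hσ : ∀ τ : L ≃ₐ[K] L, τ ∈ Subgroup.zpowers σ)
    (h : ∀ u : Oˣ, ∃ y : L, Algebra.norm K y = algebraMap O K (u : O)) : ramIdx O L = 1 := by
  rw [← index_unit_norm_range O K L σ hσ, Subgroup.index_eq_one, eq_top_iff]
  rintro u -
  obtain ⟨y, hy⟩ := h u
  obtain ⟨s, hs⟩ := exists_unit_of_norm_eq_unit O K L u y hy
  refine ⟨s, ?_⟩
  apply Units.ext
  apply IsFractionRing.injective O K
  rw [Units.coe_map]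
  change algebraMap O K (Algebra.norm O (s : integralClosure O L)) = _
  rw [algebraMap_norm_intRing O K L, hs, hy]

/-- (N2 + N4, abstract) For a cyclic extension `L/K` of local fields: all units of `O` are norms
iff `L/K` is unramified. -/
theorem forall_unit_norm_iff_ramIdx_eq_one [IsGalois K L] [IsLocalRing (integralClosure O L)]
    (σ : L ≃ₐ[K] L)
    (hσ : ∀ τ : L ≃ₐ[K] L, τ ∈ Subgroup.zpowers σ) :
    (∀ u : Oˣ, ∃ y : L, Algebra.norm K y = algebraMap O K (u : O)) ↔ ramIdx O L = 1 := by
  constructor
  · exact ramIdx_eq_one_of_forall_unit_norm O K L σ hσ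
  · intro h u
    obtain ⟨s, hs⟩ := exists_unit_norm_eq_of_isUnramifiedExt O K L
      ((isUnramifiedExt_iff O K L).mpr h) u
    exact ⟨_, hs⟩

end NormConverse

end Fermat.Agent.CFT

namespace Fermat.Agent.CFT

section InertiaTower

variable (O K : Type) [CommRing O] [IsDomain O] [IsDiscreteValuationRing O]
  [IsAdicComplete (maximalIdeal O) O] [Finite (ResidueField O)]
  [Field K] [Algebra O K] [IsFractionRing O K] [CharZero K]
  (F : Type) [Field F] [Algebra K F] [FiniteDimensional K F] [Algebra O F] [IsScalarTower O K F]
  (L : Type) [Field L] [Algebra F L] [FiniteDimensional F L] [Algebra K L] [IsScalarTower K F L]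
  [Algebra O L] [IsScalarTower O K L]

/-- The subgroup of `Gal(L/K)` fixing the intermediate field `F`. -/
def fixingGal : Subgroup (L ≃ₐ[K] L) where
  carrier := {σ | ∀ x : F, σ (algebraMap F L x) = algebraMap F L x}
  mul_mem' {σ τ} hσ hτ x := by rw [AlgEquiv.mul_apply, hτ x, hσ x]
  one_mem' x := rfl
  inv_mem' {σ} hσ x := by
    have := congrArg (σ⁻¹ : L ≃ₐ[K] L) (hσ x)
    rw [← AlgEquiv.mul_apply, inv_mul_cancel, AlgEquiv.one_apply] at this
    exact this.symm

theorem mem_fixingGal_iff (σ : L ≃ₐ[K] L) :
    σ ∈ fixingGal K F L ↔ ∀ x : F, σ (algebraMap F L x) = algebraMap F L x := Iff.rfl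

/-- `Gal(L/F) → Gal(L/K)`. -/
def galIncl : (L ≃ₐ[F] L) →* (L ≃ₐ[K] L) where
  toFun τ := τ.restrictScalars K
  map_one' := rfl
  map_mul' _ _ := rfl

theorem galIncl_apply (τ : L ≃ₐ[F] L) (x : L) : galIncl K F L τ x = τ x := rfl

theorem galIncl_injective : Function.Injective (galIncl K F L) :=
  AlgEquiv.restrictScalars_injective K

theorem range_galIncl : (galIncl K F L).range = fixingGal K F L := by
  ext σ
  constructor
  · rintro ⟨τ, rfl⟩ x
    exact τ.commutes x
  · intro h
    exact ⟨{ σ with commutes' := h }, by ext x; rfl⟩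

end InertiaTower

end Fermat.Agent.CFT

namespace Fermat.Agent.CFT

section InertiaTower2

variable (O K : Type) [CommRing O] [IsDomain O] [IsDiscreteValuationRing O]
  [IsAdicComplete (maximalIdeal O) O] [Finite (ResidueField O)]
  [Field K] [Algebra O K] [IsFractionRing O K] [CharZero K]
  (F : Type) [Field F] [Algebra K F] [FiniteDimensional K F] [Algebra O F] [IsScalarTower O K F]
  (L : Type) [Field L] [Algebra F L] [FiniteDimensional F L] [Algebra K L] [IsScalarTower K F L]
  [Algebra O L] [IsScalarTower O K L]

/-- Inertia of `L/F` is the part of the inertia of `L/K` fixing `F`. -/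
theorem galIncl_mem_inertiaGal_iff [FiniteDimensional K L]
    [IsLocalRing (integralClosure O L)] [IsLocalHom (algebraMap O (integralClosure O L))]
    [IsDiscreteValuationRing (integralClosure O F)]
    [IsAdicComplete (maximalIdeal (integralClosure O F)) (integralClosure O F)]
    [Finite (ResidueField (integralClosure O F))] [IsFractionRing (integralClosure O F) F]
    [CharZero F] [IsLocalRing (integralClosure (integralClosure O F) L)]
    [IsLocalHom (algebraMap (integralClosure O F) (integralClosure (integralClosure O F) L))]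
    (τ : L ≃ₐ[F] L) :
    galIncl K F L τ ∈ inertiaGal O K L ↔ τ ∈ inertiaGal (integralClosure O F) F L := by
  rw [mem_inertiaGal_iff, mem_inertiaGal_iff]
  set e := intRingTowerEquiv O K F L with he
  have hmax : ∀ y : integralClosure (integralClosure O F) L,
      y ∈ maximalIdeal (integralClosure (integralClosure O F) L) ↔
        e y ∈ maximalIdeal (integralClosure O L) := by
    intro y
    rw [mem_maximalIdeal, mem_maximalIdeal, mem_nonunits_iff, mem_nonunits_iff,
      isUnit_map_iff]
  have hcomm : ∀ x : integralClosure (integralClosure O F) L,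
      e (galRestrict (integralClosure O F) F L (integralClosure (integralClosure O F) L) τ x - x) =
        galRestrict O K L (integralClosure O L) (galIncl K F L τ) (e x) - e x := by
    intro x
    apply Subtype.ext
    rw [map_sub]
    change ((e _ : integralClosure O L) : L) - ((e x : integralClosure O L) : L) =
      ((galRestrict O K L (integralClosure O L) (galIncl K F L τ) (e x) :
        integralClosure O L) : L) - ((e x : integralClosure O L) : L)
    congr 1
    rw [he, coe_intRingTowerEquiv]
    have h1 := algebraMap_galRestrict_apply (integralClosure O F) (K := F) (L := L)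
      (B := integralClosure (integralClosure O F) L) τ x
    have h2 := algebraMap_galRestrict_apply O (K := K) (L := L)
      (B := integralClosure O L) (galIncl K F L τ) (intRingTowerEquiv O K F L x)
    exact h1.trans h2.symm
  constructor
  · intro h x
    rw [hmax, hcomm]
    exact h (e x)
  · intro h x
    obtain ⟨x, rfl⟩ := e.surjective x
    rw [← hcomm, ← hmax]
    exact h x

/-- **Inertia and unramified subextensions**: in a tower `K ⊆ F ⊆ L` of local fields with `L/K`
Galois, `F/K` is unramified iff the inertia group of `L/K` fixes `F`. -/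
theorem ramIdx_eq_one_iff_inertiaGal_le [IsGalois K L] [FiniteDimensional K L]
    [IsLocalRing (integralClosure O F)] [IsLocalRing (integralClosure O L)]
    [IsLocalHom (algebraMap O (integralClosure O L))] :
    ramIdx O F = 1 ↔ inertiaGal O K L ≤ fixingGal K F L := by
  have := intRing_isDiscreteValuationRing O K F
  have := intRing_isAdicComplete O K F
  have := intRing_finite_residueField O K F
  have := intRing_isFractionRing O K F
  have := tower_charZero K F
  have := intRing_isLocalRing (integralClosure O F) F L
  have := intRing_isLocalHom (integralClosure O F) F L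
  have : IsGalois F L := IsGalois.tower_top_of_isGalois K F L
  have h1 : Nat.card (inertiaGal O K L) = ramIdx O L := card_inertiaGal O K L
  have h2 : Nat.card (inertiaGal (integralClosure O F) F L) = ramIdx (integralClosure O F) L :=
    card_inertiaGal (integralClosure O F) F L
  have h3 : ramIdx O L = ramIdx O F * ramIdx (integralClosure O F) L := ramIdx_tower O K F L
  have h4 : inertiaGal (integralClosure O F) F L =
      (inertiaGal O K L).comap (galIncl K F L) := by
    ext τ
    rw [Subgroup.mem_comap, galIncl_mem_inertiaGal_iff O K F L τ]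
  have h5 : Nat.card (inertiaGal O K L ⊓ fixingGal K F L : Subgroup (L ≃ₐ[K] L)) =
      ramIdx (integralClosure O F) L := by
    rw [← h2, h4, ← range_galIncl, inf_comm, ← Subgroup.map_comap_eq]
    exact Subgroup.card_map_of_injective (galIncl_injective K F L)
  have hpos : 0 < ramIdx (integralClosure O F) L := ramIdx_pos (integralClosure O F) F L
  constructor
  · intro h
    rw [h, one_mul] at h3
    have hle : inertiaGal O K L ⊓ fixingGal K F L ≤ inertiaGal O K L := inf_le_left
    have heq := Subgroup.eq_of_le_of_card_ge hle (by rw [h1, h5, h3])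
    rw [← heq]
    exact inf_le_right
  · intro h
    rw [inf_eq_left.mpr h, h1, h3] at h5
    exact Nat.eq_of_mul_eq_mul_right hpos (by rw [one_mul]; exact h5)

end InertiaTower2

end Fermat.Agent.CFT
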