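import Mathlib
import Fermat.Agent.CFT.Local.GalSymbol
import Fermat.Agent.CFT.GalMapInfRes
import Fermat.Agent.CFT.Local.UnramNormConv

/-!
# CFT / Local (C3K' N6): a character is unramified iff its symbol kills the units

Setting B with finite residue field, `L/K` finite Galois, `p` prime,
`χ : Gal(L/K) →* Multiplicative (ZMod p)`.

* `charField K L χ` the fixed field of `ker χ`, `charQuot K L χ` the induced faithful character
  of `Gal(charField/K)`, `finrank_charField` (`= p` for `χ ≠ 1`);
* `galSymClass_eq_zero_iff_exists_norm_charField`: `a ∪ δχ = 0` in `H²(Gal(L/K), Lˣ)` iff `a` is a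
  norm from the fixed field of `ker χ` (inflation is injective);
* `forall_inertiaGal_eq_one_iff` (N6): `χ` is trivial on the inertia group iff `u ∪ δχ = 0` for
  all units `u` of `O`.
-/

set_option autoImplicit false
set_option linter.unusedSectionVars false

open IsLocalRing groupCohomology

namespace Fermat.Agent.CFT

section CharFactor

variable (K L : Type) [Field K] [Field L] [Algebra K L] [FiniteDimensional K L] [IsGalois K L]
  {p : ℕ} [Fact p.Prime]

/-- The fixed field of the kernel of a character. -/
abbrev charField (χ : (L ≃ₐ[K] L) →* Multiplicative (ZMod p)) : IntermediateField K L :=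
  IntermediateField.fixedField χ.ker

theorem fixingSubgroup_charField (χ : (L ≃ₐ[K] L) →* Multiplicative (ZMod p)) :
    (charField K L χ).fixingSubgroup = χ.ker :=
  IntermediateField.fixingSubgroup_fixedField χ.ker

theorem ker_restrictNormalHom_charField (χ : (L ≃ₐ[K] L) →* Multiplicative (ZMod p)) :
    (AlgEquiv.restrictNormalHom (F := K) (K₁ := L) (charField K L χ)).ker = χ.ker := by
  rw [IntermediateField.restrictNormalHom_ker, fixingSubgroup_charField]

/-- The faithful character of `Gal(F/K)`, `F` the fixed field of `ker χ`, induced by `χ`. -/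
noncomputable def charQuot (χ : (L ≃ₐ[K] L) →* Multiplicative (ZMod p)) :
    (charField K L χ ≃ₐ[K] charField K L χ) →* Multiplicative (ZMod p) :=
  (AlgEquiv.restrictNormalHom (F := K) (K₁ := L) (charField K L χ)).liftOfSurjective
    (AlgEquiv.restrictNormalHom_surjective L) ⟨χ, (ker_restrictNormalHom_charField K L χ).le⟩

theorem charQuot_comp (χ : (L ≃ₐ[K] L) →* Multiplicative (ZMod p)) :
    (charQuot K L χ).comp (AlgEquiv.restrictNormalHom (charField K L χ)) = χ :=
  MonoidHom.liftOfRightInverse_comp _ _ _ _

theorem charQuot_injective (χ : (L ≃ₐ[K] L) →* Multiplicative (ZMod p)) :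
    Function.Injective (charQuot K L χ) := by
  rw [injective_iff_map_eq_one]
  intro y hy
  obtain ⟨σ, rfl⟩ := AlgEquiv.restrictNormalHom_surjective (F := K) (K₁ := charField K L χ) L y
  have h1 : χ σ = 1 := by
    rw [← hy]
    exact (DFunLike.congr_fun (charQuot_comp K L χ) σ).symm
  have h2 : σ ∈ (AlgEquiv.restrictNormalHom (F := K) (K₁ := L) (charField K L χ)).ker := by
    rw [ker_restrictNormalHom_charField]
    exact h1
  exact h2

theorem finrank_charField (χ : (L ≃ₐ[K] L) →* Multiplicative (ZMod p)) (hχ : χ ≠ 1) :
    Module.finrank K (charField K L χ) = p := by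
  rw [IntermediateField.finrank_eq_fixingSubgroup_index, fixingSubgroup_charField,
    Subgroup.index_ker]
  have hp : Fact (Nat.card (Multiplicative (ZMod p))).Prime := by
    rw [Nat.card_eq_fintype_card, Fintype.card_multiplicative, ZMod.card]
    exact ‹Fact p.Prime›
  rcases Subgroup.eq_bot_or_eq_top_of_prime_card χ.range with h | h
  · exfalso
    apply hχ
    ext σ : 1
    have : χ σ ∈ χ.range := ⟨σ, rfl⟩
    rw [h, Subgroup.mem_bot] at this
    exact this
  · rw [h, Subgroup.card_top, Nat.card_eq_fintype_card, Fintype.card_multiplicative, ZMod.card]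

end CharFactor

end Fermat.Agent.CFT

namespace Fermat.Agent.CFT

section SymbolNorm

variable (K L : Type) [Field K] [Field L] [Algebra K L] [FiniteDimensional K L] [IsGalois K L]
  {p : ℕ} [Fact p.Prime]

/-- For `χ ≠ 1`: `a ∪ δχ = 0` in `H²(Gal(L/K), Lˣ)` iff `a` is a norm from the fixed field of
`ker χ`. -/
theorem galSymClass_eq_zero_iff_exists_norm_charField
    (χ : (L ≃ₐ[K] L) →* Multiplicative (ZMod p)) (hχ : χ ≠ 1) (a : Kˣ) :
    galSymClass K L χ a = 0 ↔ ∃ y : charField K L χ, Algebra.norm K y = (a : K) := by
  have hp : NeZero p := ⟨(Fact.out : p.Prime).ne_zero⟩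
  rw [← galSymClass_eq_zero_iff K (charField K L χ) (charQuot K L χ) (charQuot_injective K L χ)
    (finrank_charField K L χ hχ) a]
  have h1 := galInfl_galSymClass K (charField K L χ) L (charQuot K L χ) a
  rw [charQuot_comp] at h1
  rw [← h1]
  constructor
  · intro h
    apply galInfl_injective K (charField K L χ) L
    rw [h, map_zero]
  · intro h
    rw [h, map_zero]

end SymbolNorm

end Fermat.Agent.CFT

namespace Fermat.Agent.CFT

section UnramChar

variable (O K : Type) [CommRing O] [IsDomain O] [IsDiscreteValuationRing O]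
  [IsAdicComplete (maximalIdeal O) O] [Finite (ResidueField O)]
  [Field K] [Algebra O K] [IsFractionRing O K] [CharZero K]
  (L : Type) [Field L] [Algebra K L] [FiniteDimensional K L] [Algebra O L] [IsScalarTower O K L]
  [IsGalois K L] [IsLocalRing (integralClosure O L)]
  [IsLocalHom (algebraMap O (integralClosure O L))]
  {p : ℕ} [Fact p.Prime]

omit [Algebra O L] [IsScalarTower O K L] [IsLocalRing (integralClosure O L)]
  [IsLocalHom (algebraMap O (integralClosure O L))] in
theorem fixingGal_charField (χ : (L ≃ₐ[K] L) →* Multiplicative (ZMod p)) :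
    fixingGal K (charField K L χ) L = χ.ker := by
  rw [← fixingSubgroup_charField K L χ]
  ext σ
  rw [mem_fixingGal_iff, IntermediateField.mem_fixingSubgroup_iff]
  constructor
  · intro h x hx
    exact h ⟨x, hx⟩
  · intro h x
    exact h x x.2

/-- The fixed field of `ker χ` is unramified over `K` iff `χ` is trivial on inertia. -/
theorem ramIdx_charField_eq_one_iff (χ : (L ≃ₐ[K] L) →* Multiplicative (ZMod p))
    [IsLocalRing (integralClosure O (charField K L χ))] :
    ramIdx O (charField K L χ) = 1 ↔ ∀ g ∈ inertiaGal O K L, χ g = 1 := by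
  rw [ramIdx_eq_one_iff_inertiaGal_le O K (charField K L χ) L, fixingGal_charField]
  rfl

/-- (N6, abstract) A character `χ : Gal(L/K) → ℤ/p` of a finite Galois extension of local fields
is unramified (trivial on the inertia group) iff the symbol classes `u ∪ δχ ∈ H²(Gal(L/K), Lˣ)`
vanish for all units `u` of `O`. -/
theorem forall_inertiaGal_eq_one_iff (χ : (L ≃ₐ[K] L) →* Multiplicative (ZMod p)) :
    (∀ g ∈ inertiaGal O K L, χ g = 1) ↔
      ∀ u : Oˣ, galSymClass K L χ (Units.map (algebraMap O K : O →* K) u) = 0 := by
  have hp : NeZero p := ⟨(Fact.out : p.Prime).ne_zero⟩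
  by_cases hχ : χ = 1
  · subst hχ
    constructor
    · intro _ u
      exact galSymClass_one_char K L _
    · intro _ g _
      rfl
  have := intRing_isLocalRing O K (charField K L χ)
  rw [← ramIdx_charField_eq_one_iff O K L χ]
  have hcyc : IsCyclic (charField K L χ ≃ₐ[K] charField K L χ) :=
    isCyclic_of_injective (charQuot K L χ) (charQuot_injective K L χ)
  obtain ⟨σ, hσ⟩ := hcyc.exists_generator
  rw [← forall_unit_norm_iff_ramIdx_eq_one O K (charField K L χ) σ hσ]
  constructor
  · intro h u
    rw [galSymClass_eq_zero_iff_exists_norm_charField K L χ hχ]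
    exact h u
  · intro h u
    have := h u
    rw [galSymClass_eq_zero_iff_exists_norm_charField K L χ hχ] at this
    exact this

end UnramChar

end Fermat.Agent.CFT
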