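import Fermat.Agent.CFT.Local.ExtDVROrd

/-!
# CFT / Local / B1a: norms and valuations in a finite extension of a complete discretely valued field

* `dvrOrd_eq_of_span_eq_pow`, `span_singleton_eq_maximalIdeal_pow`: valuation via ideals.
* `relNorm_maximalIdeal_intRing`: `N_{L/K}(𝔪_L) = 𝔪_K ^ f`.
* `dvrOrd_norm`: `ord_K (N_{L/K} x) = f(L/K) · ord_L x` for all `x : L`.
* `intNorm_intRing_isUnit_iff`: the norm of an integer is a unit iff it is a unit.
-/

set_option autoImplicit false
set_option linter.unusedSectionVars false

open IsLocalRing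

namespace Fermat.Agent.CFT

section Generic

variable (B L : Type) [CommRing B] [IsDomain B] [IsDiscreteValuationRing B]
  [Field L] [Algebra B L] [IsFractionRing B L]

/-- If `(b) = 𝔪^k` then `ord b = k`. -/
theorem dvrOrd_eq_of_span_eq_pow {b : B} {k : ℕ}
    (h : Ideal.span {b} = maximalIdeal B ^ k) : dvrOrd B L (algebraMap B L b) = k := by
  have hne : maximalIdeal B ≠ ⊥ := IsDiscreteValuationRing.not_a_field B
  have hb : b ≠ 0 := by
    rintro rfl
    rw [Ideal.span_singleton_zero] at h
    exact pow_ne_zero k hne h.symm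
  have h1 : b ∈ maximalIdeal B ^ k := by rw [← h]; exact Ideal.mem_span_singleton_self b
  have h2 : b ∉ maximalIdeal B ^ (k + 1) := by
    intro hmem
    have hle : maximalIdeal B ^ k ≤ maximalIdeal B ^ (k + 1) := by
      rw [← h, Ideal.span_singleton_le_iff_mem]; exact hmem
    exact not_le_of_gt (Ideal.pow_succ_lt_pow hne k) hle
  rw [mem_maximalIdeal_pow_iff_le_dvrOrd B L hb] at h1 h2
  push_cast at h1 h2
  omega

/-- `(b) = 𝔪 ^ (ord b)` for nonzero `b`. -/
theorem span_singleton_eq_maximalIdeal_pow {b : B} (hb : b ≠ 0) :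
    Ideal.span {b} = maximalIdeal B ^ (dvrOrd B L (algebraMap B L b)).toNat := by
  obtain ⟨ϖ, hϖ⟩ := IsDiscreteValuationRing.exists_irreducible B
  obtain ⟨n, hn⟩ := IsDiscreteValuationRing.ideal_eq_span_pow_irreducible
    (s := Ideal.span {b}) (by rwa [Ne, Ideal.span_singleton_eq_bot]) hϖ
  have hm : maximalIdeal B = Ideal.span {ϖ} := hϖ.maximalIdeal_eq
  have hI : Ideal.span {b} = maximalIdeal B ^ n := by
    rw [hn, hm, Ideal.span_singleton_pow]
  have := dvrOrd_eq_of_span_eq_pow B L hI
  rw [this, Int.toNat_natCast, hI]

end Generic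

section Norm

variable (O K : Type) [CommRing O] [IsDomain O] [IsDiscreteValuationRing O]
  [IsAdicComplete (maximalIdeal O) O]
  [Field K] [Algebra O K] [IsFractionRing O K] [CharZero K]
  (L : Type) [Field L] [Algebra K L] [FiniteDimensional K L] [Algebra O L] [IsScalarTower O K L]

include K in
theorem perfectField_fractionRing : PerfectField (FractionRing O) := by
  have : CharZero O := (algebraMap O K).charZero
  have : CharZero (FractionRing O) :=
    charZero_of_injective_algebraMap (IsFractionRing.injective O (FractionRing O))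
  infer_instance

include K in
/-- `N_{L/K}(𝔪_L) = 𝔪_K ^ f`. -/
theorem relNorm_maximalIdeal_intRing [IsDiscreteValuationRing (integralClosure O L)] :
    haveI := intRing_finite O K L
    haveI := intRing_faithfulSMul O K L
    Ideal.relNorm O (maximalIdeal (integralClosure O L)) = maximalIdeal O ^ inertDeg O L := by
  have := intRing_finite O K L
  have := intRing_faithfulSMul O K L
  have := intRing_liesOver O K L
  have := perfectField_fractionRing O K
  exact Ideal.relNorm_eq_pow_of_isMaximal (maximalIdeal (integralClosure O L)) (maximalIdeal O)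

/-- `ord_K (N_{L/K} b) = f · ord_L b` for integers `b`. -/
theorem dvrOrd_norm_of_mem [IsDiscreteValuationRing (integralClosure O L)]
    [IsFractionRing (integralClosure O L) L] (b : integralClosure O L) :
    dvrOrd O K (Algebra.norm K (b : L)) =
      inertDeg O L * dvrOrd (integralClosure O L) L (b : L) := by
  have := intRing_finite O K L
  have := intRing_faithfulSMul O K L
  have := intRing_isIntegral O L
  by_cases hb : b = 0
  · subst hb
    simp
  have hspan := span_singleton_eq_maximalIdeal_pow (integralClosure O L) L hb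
  have hrel := congrArg (Ideal.relNorm O) hspan
  rw [Ideal.relNorm_singleton, map_pow, relNorm_maximalIdeal_intRing O K L, ← pow_mul] at hrel
  have h1 := dvrOrd_eq_of_span_eq_pow O K hrel
  rw [Algebra.algebraMap_intNorm (K := K) (L := L)] at h1
  have hnn : 0 ≤ dvrOrd (integralClosure O L) L (algebraMap (integralClosure O L) L b) :=
    dvrOrd_algebraMap_nonneg _ L b
  change dvrOrd O K (Algebra.norm K (algebraMap (integralClosure O L) L b)) = _
  rw [h1]
  push_cast
  rw [Int.toNat_of_nonneg hnn]
  rfl

/-- `ord_K (N_{L/K} x) = f(L/K) · ord_L x` for all `x : L`. -/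
theorem dvrOrd_norm [IsDiscreteValuationRing (integralClosure O L)]
    [IsFractionRing (integralClosure O L) L] (x : L) :
    dvrOrd O K (Algebra.norm K x) = inertDeg O L * dvrOrd (integralClosure O L) L x := by
  by_cases hx : x = 0
  · subst hx; simp
  obtain ⟨b, c, hc, hbc⟩ := IsFractionRing.div_surjective (integralClosure O L) x
  have hc0 : (c : integralClosure O L) ≠ 0 := nonZeroDivisors.ne_zero hc
  have hcL : algebraMap (integralClosure O L) L c ≠ 0 :=
    algebraMap_ne_zero_of_ne_zero _ L hc0
  have hbx : algebraMap (integralClosure O L) L b = x * algebraMap (integralClosure O L) L c := by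
    rw [← hbc, div_mul_cancel₀ _ hcL]
  have hNx : Algebra.norm K x ≠ 0 := (Algebra.norm_ne_zero_iff).mpr hx
  have hNc : Algebra.norm K (algebraMap (integralClosure O L) L c) ≠ 0 :=
    (Algebra.norm_ne_zero_iff).mpr hcL
  have e1 := dvrOrd_norm_of_mem O K L b
  have e2 := dvrOrd_norm_of_mem O K L c
  change dvrOrd O K (Algebra.norm K (algebraMap (integralClosure O L) L b)) =
    _ * dvrOrd _ L (algebraMap (integralClosure O L) L b) at e1
  change dvrOrd O K (Algebra.norm K (algebraMap (integralClosure O L) L c)) =
    _ * dvrOrd _ L (algebraMap (integralClosure O L) L c) at e2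
  rw [hbx, map_mul, dvrOrd_mul O K hNx hNc, dvrOrd_mul _ L hx hcL, e2] at e1
  linarith

/-- The norm of a nonzero element of `L` is a unit of `O` iff the element is a unit of `O_L`:
`ord_K (N x) = 0 ↔ ord_L x = 0`. -/
theorem dvrOrd_norm_eq_zero_iff [IsDiscreteValuationRing (integralClosure O L)]
    [IsFractionRing (integralClosure O L) L] (x : L) :
    dvrOrd O K (Algebra.norm K x) = 0 ↔ dvrOrd (integralClosure O L) L x = 0 := by
  rw [dvrOrd_norm O K L x]
  have hf : (inertDeg O L : ℤ) ≠ 0 := by
    have := inertDeg_pos O K L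
    exact_mod_cast this.ne'
  constructor
  · intro h
    rcases mul_eq_zero.mp h with h | h
    · exact absurd h hf
    · exact h
  · intro h
    rw [h, mul_zero]

end Norm

end Fermat.Agent.CFT
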