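import Mathlib
import Fermat.Agent.CFT.Local.UnitNormIndex
import Fermat.Agent.CFT.Local.ExtDVRNorm

/-!
# CFT, node B3 (iii): norm indices in `IsCyclic` form, and valuations of norms

* `normIndex_eq_finrank` (N1): `[Kˣ : N Lˣ] = [L : K]` for `[IsCyclic Gal(L/K)]`;
* `unitNormIndex_eq_ramIdx` (N2): `[Oˣ : N Bˣ] = e(L/K)` (subgroups of `Oˣ`);
* `inertDeg_dvd_dvrOrd_of_mem_norm_range` (N3), from `dvrOrd_norm` (ExtDVRNorm.lean);
* `mem_norm_range_iff_of_ramIdx_eq_one` (N3, unramified cyclic):
  `x ∈ N Lˣ ↔ [L : K] ∣ ord_K x`.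
-/

set_option autoImplicit false
set_option linter.unusedSectionVars false

namespace Fermat.Agent.CFT

open Finset IsLocalRing

section Cyclic

variable (O K : Type) [CommRing O] [IsDomain O] [IsDiscreteValuationRing O]
  [IsAdicComplete (maximalIdeal O) O] [Finite (ResidueField O)]
  [Field K] [Algebra O K] [IsFractionRing O K] [CharZero K]
  (L : Type) [Field L] [Algebra K L] [FiniteDimensional K L] [Algebra O L] [IsScalarTower O K L]
  [IsGalois K L]

include O in
/-- **(N1)** `[Kˣ : N_{L/K} Lˣ] = [L : K]` for a cyclic extension of local fields. -/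
theorem normIndex_eq_finrank [IsCyclic (L ≃ₐ[K] L)] :
    (MonoidHom.range (Units.map (Algebra.norm K : L →* K))).index = Module.finrank K L := by
  obtain ⟨σ, hσ⟩ := IsCyclic.exists_generator (α := L ≃ₐ[K] L)
  exact index_norm_range O K L σ hσ

/-- **(N2)** `[Oˣ : N_{B/O} Bˣ] = e(L/K)` (as subgroups of `Oˣ`) for a cyclic extension of local
fields. -/
theorem unitNormIndex_eq_ramIdx [IsCyclic (L ≃ₐ[K] L)] [IsLocalRing (integralClosure O L)] :
    (MonoidHom.range (Units.map (Algebra.norm O : integralClosure O L →* O))).index =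
      ramIdx O L := by
  obtain ⟨σ, hσ⟩ := IsCyclic.exists_generator (α := L ≃ₐ[K] L)
  exact index_unit_norm_range O K L σ hσ

/-- **(N3)** the valuation of a norm is divisible by the residue degree. -/
theorem inertDeg_dvd_dvrOrd_of_mem_norm_range [IsLocalRing (integralClosure O L)] (x : Kˣ)
    (hx : x ∈ MonoidHom.range (Units.map (Algebra.norm K : L →* K))) :
    (inertDeg O L : ℤ) ∣ dvrOrd O K (x : K) := by
  have := intRing_isDiscreteValuationRing O K L
  have := intRing_isFractionRing O K L
  obtain ⟨y, rfl⟩ := hx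
  rw [Units.coe_map]
  have h := dvrOrd_norm O K L (y : L)
  exact Dvd.intro _ h.symm

/-- **(N3)**, unramified cyclic case: `x ∈ N Lˣ ↔ [L : K] ∣ ord_K x`. -/
theorem mem_norm_range_iff_of_ramIdx_eq_one [IsCyclic (L ≃ₐ[K] L)]
    [IsLocalRing (integralClosure O L)] (hunr : ramIdx O L = 1) (x : Kˣ) :
    x ∈ MonoidHom.range (Units.map (Algebra.norm K : L →* K)) ↔
      (Module.finrank K L : ℤ) ∣ dvrOrd O K (x : K) := by
  have hf : inertDeg O L = Module.finrank K L := by
    rw [← ramIdx_mul_inertDeg O K L, hunr, one_mul]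
  constructor
  · intro hx
    rw [← hf]
    exact inertDeg_dvd_dvrOrd_of_mem_norm_range O K L x hx
  · rintro ⟨k, hk⟩
    obtain ⟨ϖ, hϖ⟩ := IsDiscreteValuationRing.exists_irreducible O
    obtain ⟨u, hu⟩ := exists_unit_mul_zpow_dvrOrd O K hϖ x.ne_zero
    -- the unit part is a norm
    have htop : MonoidHom.range (Units.map (Algebra.norm O : integralClosure O L →* O)) = ⊤ := by
      rw [← Subgroup.index_eq_one, unitNormIndex_eq_ramIdx O K L, hunr]
    obtain ⟨v, hv⟩ : u ∈ MonoidHom.range
        (Units.map (Algebra.norm O : integralClosure O L →* O)) := by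
      rw [htop]; exact Subgroup.mem_top u
    have hv' : Algebra.norm K (((v : integralClosure O L)) : L) = algebraMap O K (u : O) := by
      rw [← algebraMap_norm_intRing O K L, ← hv]
      rfl
    -- the uniformiser part is a norm
    have hϖ0 : algebraMap O K ϖ ≠ 0 := algebraMap_ne_zero_of_ne_zero O K hϖ.ne_zero
    set c : K := (algebraMap O K ϖ) ^ k with hc
    have hc0 : c ≠ 0 := zpow_ne_zero _ hϖ0
    have hcn : Algebra.norm K (algebraMap K L c) = (algebraMap O K ϖ) ^ (dvrOrd O K (x : K)) := by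
      rw [Algebra.norm_algebraMap, hc, hk, mul_comm, zpow_mul, zpow_natCast]
    have hvL : (((v : integralClosure O L)) : L) ≠ 0 := by
      intro h0
      rw [h0, Algebra.norm_zero] at hv'
      exact (algebraMap_ne_zero_of_ne_zero O K u.ne_zero) hv'.symm
    refine ⟨Units.mk0 ((((v : integralClosure O L)) : L) * algebraMap K L c)
      (mul_ne_zero hvL ((map_ne_zero _).mpr hc0)), ?_⟩
    apply Units.ext
    rw [Units.coe_map]
    change Algebra.norm K ((((v : integralClosure O L)) : L) * algebraMap K L c) = (x : K)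
    rw [map_mul, hv', hcn, ← hu]

end Cyclic

end Fermat.Agent.CFT
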