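import Mathlib
import Fermat.Agent.CFT.Tate.H2Devissage
import Fermat.Agent.CFT.GalMapTransport
import Fermat.Agent.CFT.GalCyclicH2Quot
import Fermat.Agent.CFT.Local.NormIndexCyclic
import Fermat.Agent.CFT.Local.ExtDVRTower

/-!
# CFT, Layer B (B4c): the local second inequality `|H²(Gal(L/K), Lˣ)| ≤ [L : K]`

For a finite Galois extension `L/K` of local fields (SETTING of `Local/UnramLocal.lean`),
`H²(Gal(L/K), Lˣ)` is finite of order at most `[L : K]` (`card_H2_le_finrank`).

Route: the abstract dévissage `card_H2_le_card_of_hereditary` (`Tate/H2Devissage.lean`) applied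
to the predicate `LocalPr P B` = "`(P, B)` is isomorphic to `(Gal(L/K), Lˣ)` for some finite Galois
extension of local fields": it is stable under restriction to subgroups (fixed fields,
`GalMapTransport.lean`), forces `H¹ = 0` (Hilbert 90), and bounds the cyclic layers of prime
degree (`GalCyclicH2Quot.lean` + the norm index `normIndex_eq_finrank`).
-/

set_option autoImplicit false

open CategoryTheory Limits groupCohomology Rep IsLocalRing

namespace Fermat.Agent.CFT

section Transport

variable {k P Q : Type} [CommRing k] [Group P] [Group Q]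

/-- A linear equivalence which intertwines the actions through `f` is an isomorphism
`B ≅ res f X`. -/
noncomputable def repIsoResOfLinearEquiv (B : Rep k P) (X : Rep k Q) (f : P →* Q)
    (l : B.V ≃ₗ[k] X.V) (hl : ∀ g b, l (B.ρ g b) = X.ρ (f g) (l b)) : B ≅ res f X :=
  Rep.mkIso (Representation.Equiv.mk l (fun g => LinearMap.ext fun b => hl g b))

lemma repIsoResOfLinearEquiv_hom_apply (B : Rep k P) (X : Rep k Q) (f : P →* Q)
    (l : B.V ≃ₗ[k] X.V) (hl : ∀ g b, l (B.ρ g b) = X.ρ (f g) (l b)) (b : B.V) :
    (repIsoResOfLinearEquiv B X f l hl).hom.hom b = l b := rfl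

/-- The linear equivalence underlying an isomorphism `B ≅ res f X`. -/
noncomputable def linearEquivOfRepIsoRes {B : Rep k P} {X : Rep k Q} {f : P →* Q}
    (i : B ≅ res f X) : B.V ≃ₗ[k] X.V :=
  (Representation.equivOfIso i).toLinearEquiv

lemma linearEquivOfRepIsoRes_ρ {B : Rep k P} {X : Rep k Q} {f : P →* Q}
    (i : B ≅ res f X) (g : P) (b : B.V) :
    linearEquivOfRepIsoRes i (B.ρ g b) = X.ρ (f g) (linearEquivOfRepIsoRes i b) :=
  Rep.hom_comm_apply i.hom g b

end Transport

/-! ### Transport of `quotientToInvariants` along an isomorphism -/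

section QuotTransport

variable {k P Q : Type} [CommRing k] [Group P] [Group Q] (B : Rep k P) (X : Rep k Q) (e : P ≃* Q)
  (i : B ≅ res e.toMonoidHom X) (N : Subgroup P) [N.Normal] (N' : Subgroup Q) [N'.Normal]
  (hN : N.map e.toMonoidHom = N')

omit [N.Normal] [N'.Normal] in
include hN in
lemma mem_iff_of_map_eq (g : P) : g ∈ N ↔ e g ∈ N' := by
  rw [← hN]
  constructor
  · intro hg
    exact ⟨g, hg, rfl⟩
  · rintro ⟨g', hg', h⟩
    have : g' = g := e.injective h
    exact this ▸ hg'

/-- The linear equivalence `B^N ≃ X^{N'}` induced by `B ≅ res e X` when `e N = N'`. -/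
noncomputable def invariantsLinearEquivOfRepIso :
    (B.quotientToInvariants N).V ≃ₗ[k] (X.quotientToInvariants N').V :=
  LinearEquiv.ofSubmodules (linearEquivOfRepIsoRes i)
    (Representation.invariants (B.ρ.comp N.subtype))
    (Representation.invariants (X.ρ.comp N'.subtype)) (by
    refine SetLike.ext fun x => ?_
    simp only [Submodule.mem_map, Representation.mem_invariants]
    constructor
    · rintro ⟨b, hb, rfl⟩ ⟨s', hs'⟩
      obtain ⟨s, rfl⟩ := e.surjective s'
      have hs : s ∈ N := (mem_iff_of_map_eq e N N' hN s).2 hs'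
      have := linearEquivOfRepIsoRes_ρ i s b
      have hb' : B.ρ s b = b := hb ⟨s, hs⟩
      rw [hb'] at this
      exact this.symm
    · intro hx
      refine ⟨(linearEquivOfRepIsoRes i).symm x, ?_, LinearEquiv.apply_symm_apply _ x⟩
      rintro ⟨s, hs⟩
      apply (linearEquivOfRepIsoRes i).injective
      have h1 := linearEquivOfRepIsoRes_ρ i s ((linearEquivOfRepIsoRes i).symm x)
      rw [LinearEquiv.apply_symm_apply] at h1
      have h2 : X.ρ (e s) x = x := hx ⟨e s, (mem_iff_of_map_eq e N N' hN s).1 hs⟩
      show (linearEquivOfRepIsoRes i) (B.ρ s ((linearEquivOfRepIsoRes i).symm x)) = _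
      rw [h1, LinearEquiv.apply_symm_apply]
      exact h2)

lemma coe_invariantsLinearEquivOfRepIso (b : (B.quotientToInvariants N).V) :
    ((invariantsLinearEquivOfRepIso B X e i N N' hN b : (X.quotientToInvariants N').V) : X.V) =
      linearEquivOfRepIsoRes i (b : B.V) := rfl

/-- `B^N ≅ res ē (X^{N'})` as representations of `P ⧸ N`. -/
noncomputable def quotientToInvariantsIsoOfRepIso :
    B.quotientToInvariants N ≅
      res (QuotientGroup.congr N N' e hN).toMonoidHom (X.quotientToInvariants N') :=
  repIsoResOfLinearEquiv _ _ _ (invariantsLinearEquivOfRepIso B X e i N N' hN) (by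
    intro c b
    induction c using QuotientGroup.induction_on with
    | H g =>
      apply Subtype.ext
      exact linearEquivOfRepIsoRes_ρ i g (b : B.V))

/-- Transport of `Hⁿ(P ⧸ N, B^N)` along an isomorphism. -/
noncomputable def quotientCohLinearEquivOfRepIso (n : ℕ) :
    groupCohomology (B.quotientToInvariants N) n ≃ₗ[k]
      groupCohomology (X.quotientToInvariants N') n :=
  cohLinearEquivOfRepIso _ _ (QuotientGroup.congr N N' e hN)
    (quotientToInvariantsIsoOfRepIso B X e i N N' hN) n

end QuotTransport



/-! ### The bundled SETTING and the hereditary predicate -/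

/-- A finite Galois extension `L/K` of local fields: `O` a complete discrete valuation ring with
finite residue field and fraction field `K` of characteristic zero. -/
structure LocalGalPair where
  /-- the valuation ring of the base field -/
  O : Type
  /-- the base field -/
  K : Type
  /-- the top field -/
  L : Type
  [commRingO : CommRing O]
  [isDomainO : IsDomain O]
  [dvrO : IsDiscreteValuationRing O]
  [fieldK : Field K]
  [algOK : Algebra O K]
  [fracOK : IsFractionRing O K]
  [charZeroK : CharZero K]
  [fieldL : Field L]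
  [algKL : Algebra K L]
  [finKL : FiniteDimensional K L]
  [algOL : Algebra O L]
  [towerOKL : IsScalarTower O K L]
  [completeO : IsAdicComplete (maximalIdeal O) O]
  [finiteResO : Finite (ResidueField O)]
  [galKL : IsGalois K L]

attribute [instance] LocalGalPair.commRingO LocalGalPair.isDomainO LocalGalPair.dvrO
  LocalGalPair.fieldK LocalGalPair.algOK LocalGalPair.fracOK LocalGalPair.charZeroK
  LocalGalPair.fieldL LocalGalPair.algKL LocalGalPair.finKL LocalGalPair.algOL
  LocalGalPair.towerOKL LocalGalPair.completeO LocalGalPair.finiteResO LocalGalPair.galKL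

/-- The hereditary predicate: `(P, B)` is isomorphic to `(Gal(L/K), Lˣ)` for a finite Galois
extension of local fields. -/
def LocalPr (P : Type) [Group P] (B : Rep.{0} ℤ P) : Prop :=
  ∃ (D : LocalGalPair) (e : P ≃* (D.L ≃ₐ[D.K] D.L)),
    Nonempty (B ≅ res e.toMonoidHom (Rep.ofAlgebraAutOnUnits D.K D.L))

/-- Hilbert 90 for the hereditary predicate. -/
theorem LocalPr.isZero_H1 {P : Type} [Group P] {B : Rep.{0} ℤ P} (h : LocalPr P B) :
    IsZero (groupCohomology B 1) := by
  obtain ⟨D, e, ⟨i⟩⟩ := h
  have iso := cohIsoOfRepIso (Rep.ofAlgebraAutOnUnits D.K D.L) B e i 1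
  have : Subsingleton (groupCohomology (Rep.ofAlgebraAutOnUnits D.K D.L) 1) :=
    (inferInstance : Subsingleton (groupCohomology.H1 (Rep.ofAlgebraAutOnUnits D.K D.L)))
  exact IsZero.of_iso (ModuleCat.isZero_of_subsingleton _) iso


/-! ### The cyclic layers of prime degree -/

section CyclicLayer

open IntermediateField

variable (O K L : Type) [CommRing O] [IsDomain O] [IsDiscreteValuationRing O] [Field K]
  [Algebra O K] [IsFractionRing O K] [CharZero K] [Field L] [Algebra K L] [FiniteDimensional K L]
  [Algebra O L] [IsScalarTower O K L] [IsAdicComplete (maximalIdeal O) O]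
  [Finite (ResidueField O)] [IsGalois K L]

include O in
/-- For a normal subgroup `N` of prime index of `Gal(L/K)`, `L/K` local:
`|H²(Gal(L/K)/N, (Lˣ)^N)| ≤ [Gal(L/K) : N]`. -/
theorem card_H2_quotientToInvariants_le_of_prime_index (N : Subgroup (L ≃ₐ[K] L)) [N.Normal]
    (hN : N.index.Prime) :
    Finite (groupCohomology ((Rep.ofAlgebraAutOnUnits K L).quotientToInvariants N) 2) ∧
      Nat.card (groupCohomology ((Rep.ofAlgebraAutOnUnits K L).quotientToInvariants N) 2) ≤
        N.index := by
  have hcard : Nat.card ((L ≃ₐ[K] L) ⧸ N) = N.index := (Subgroup.index_eq_card N).symm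
  have : Fact N.index.Prime := ⟨hN⟩
  have : IsCyclic ((L ≃ₐ[K] L) ⧸ N) := isCyclic_of_prime_card hcard
  have : IsCyclic (fixedField N ≃ₐ[K] fixedField N) :=
    isCyclic_of_surjective (galFixedQuotEquiv K L N) (galFixedQuotEquiv K L N).surjective
  have hfin : Module.finrank K (fixedField N) = N.index := by
    rw [← IsGalois.card_aut_eq_finrank K (fixedField N), ← hcard]
    exact (Nat.card_congr (galFixedQuotEquiv K L N).toEquiv).symm
  have hidx : (MonoidHom.range (Units.map (Algebra.norm K : fixedField N →* K))).index =
      N.index := by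
    rw [normIndex_eq_finrank O K (fixedField N), hfin]
  have hfi : (MonoidHom.range (Units.map (Algebra.norm K : fixedField N →* K))).FiniteIndex :=
    ⟨by rw [hidx]; exact hN.ne_zero⟩
  have hfinq : Finite (Kˣ ⧸ MonoidHom.range (Units.map (Algebra.norm K : fixedField N →* K))) :=
    Subgroup.finite_quotient_of_finiteIndex
  refine ⟨(finite_H2_quotientToInvariants_iff_of_isCyclic K L N).2 hfinq, ?_⟩
  rw [card_H2_quotientToInvariants_of_isCyclic K L N, ← Subgroup.index_eq_card, hidx]

end CyclicLayer

/-- The cyclic layer bound for the hereditary predicate. -/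
theorem LocalPr.card_H2_quotient_le {P : Type} [Group P] {B : Rep.{0} ℤ P} (h : LocalPr P B)
    (N : Subgroup P) [N.Normal] (hN : N.index.Prime) :
    Finite (groupCohomology (B.quotientToInvariants N) 2) ∧
      Nat.card (groupCohomology (B.quotientToInvariants N) 2) ≤ N.index := by
  obtain ⟨D, e, ⟨i⟩⟩ := h
  have hn' : (N.map e.toMonoidHom).Normal := Subgroup.Normal.map inferInstance _ e.surjective
  have hidx : (N.map e.toMonoidHom).index = N.index := Subgroup.index_map_equiv N e
  have E := quotientCohLinearEquivOfRepIso B (Rep.ofAlgebraAutOnUnits D.K D.L) e i N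
    (N.map e.toMonoidHom) rfl 2
  have key := card_H2_quotientToInvariants_le_of_prime_index D.O D.K D.L (N.map e.toMonoidHom)
    (hidx.symm ▸ hN)
  refine ⟨E.toEquiv.finite_iff.2 key.1, ?_⟩
  rw [Nat.card_congr E.toEquiv, ← hidx]
  exact key.2


/-! ### Heredity: restriction to subgroups -/

section Intermediate

open IntermediateField

variable (O K L : Type) [CommRing O] [IsDomain O] [IsDiscreteValuationRing O] [Field K]
  [Algebra O K] [IsFractionRing O K] [CharZero K] [Field L] [Algebra K L] [FiniteDimensional K L]
  [Algebra O L] [IsScalarTower O K L] [IsAdicComplete (maximalIdeal O) O]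
  [Finite (ResidueField O)] [IsGalois K L] (E : IntermediateField K L)

/-- The extension `L/E` of local fields, for an intermediate field `E` of a finite Galois
extension `L/K` of local fields (valuation ring of `E`: the integral closure of `O`). -/
noncomputable def LocalGalPair.ofIntermediate : LocalGalPair :=
  haveI := intRing_isDiscreteValuationRing O K E
  haveI := intRing_isFractionRing O K E
  haveI : CharZero E := charZero_of_injective_algebraMap (algebraMap K E).injective
  haveI := intRing_isAdicComplete O K E
  haveI := intRing_finite_residueField O K E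
  { O := integralClosure O E
    K := E
    L := L }

end Intermediate


/-- The hereditary predicate is stable under restriction to subgroups. -/
theorem LocalPr.res {P : Type} [Group P] {B : Rep.{0} ℤ P} (h : LocalPr P B)
    (H : Subgroup P) : LocalPr H (res H.subtype B) := by
  obtain ⟨D, e, ⟨i⟩⟩ := h
  refine ⟨LocalGalPair.ofIntermediate D.O D.K D.L
      (IntermediateField.fixedField (H.map e.toMonoidHom)),
    (e.subgroupMap H).trans (galFixedEquiv D.K D.L (H.map e.toMonoidHom)), ?_⟩
  have hl := linearEquivOfRepIsoRes_ρ i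
  generalize linearEquivOfRepIsoRes i = l at hl
  refine ⟨repIsoResOfLinearEquiv _ _ _ l ?_⟩
  intro g b
  have h1 := hl (g : P) b
  refine h1.trans ?_
  apply Additive.toMul.injective
  apply Units.ext
  exact (galFixedEquiv_apply D.K D.L (H.map e.toMonoidHom) (e.subgroupMap H g) _).symm

/-! ### The second inequality -/

/-- **Local second inequality** (B4c): for a finite Galois extension `L/K` of local fields,
`H²(Gal(L/K), Lˣ)` is finite of order at most `[L : K]`. -/
theorem card_H2_le_finrank (O K L : Type) [CommRing O] [IsDomain O] [IsDiscreteValuationRing O]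
    [Field K] [Algebra O K] [IsFractionRing O K] [CharZero K] [Field L] [Algebra K L]
    [FiniteDimensional K L] [Algebra O L] [IsScalarTower O K L]
    [IsAdicComplete (maximalIdeal O) O] [Finite (ResidueField O)] [IsGalois K L] :
    Finite (groupCohomology (Rep.ofAlgebraAutOnUnits K L) 2) ∧
      Nat.card (groupCohomology (Rep.ofAlgebraAutOnUnits K L) 2) ≤ Module.finrank K L := by
  have h0 : LocalPr (L ≃ₐ[K] L) (Rep.ofAlgebraAutOnUnits K L) :=
    ⟨{ O := O, K := K, L := L }, MulEquiv.refl _, ⟨Iso.refl _⟩⟩
  have key := card_H2_le_card_of_hereditary LocalPr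
    (fun P _ _ B H hB => hB.res H)
    (fun P _ _ B hB => hB.isZero_H1)
    (fun P _ _ B N _ hB hN => hB.card_H2_quotient_le N hN)
    (L ≃ₐ[K] L) (Rep.ofAlgebraAutOnUnits K L) h0
  rw [IsGalois.card_aut_eq_finrank K L] at key
  exact key

end Fermat.Agent.CFT
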