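import Mathlib
import Fermat.Agent.CFT.Local.UnramBasic

/-!
# CFT, local layer (B1b): existence of unramified extensions

Setting B of `ExtDVR.lean` with finite residue field: `O` a complete discrete valuation ring with
finite residue field `k`, `K = Frac O` of characteristic zero.

* `exists_root_lift`, `root_lift_unique` : Hensel lifting of simple roots (polynomial over a base
  ring, root in a Henselian local algebra).
* `exists_isUnramPoly` : unramified polynomials (monic, irreducible reduction) of every degree.
* `isUnramExt_of_root`, `splits_of_root`, `isGalois_of_root` : a finite extension `L/K` of degree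
  `deg g` containing a root of an unramified polynomial `g` is unramified and Galois.
* `unramPoly O m`, `UnramExt O K m` : a chosen unramified extension of degree `m`, with its
  instances (`Field`, `Algebra K`, `Algebra O`, `IsScalarTower O K`, `FiniteDimensional K`,
  `IsGalois K`), `finrank_unramExt`, `isUnramExt_unramExt`.
* `exists_unramified_extension` : existential form.
-/

set_option autoImplicit false
set_option linter.unusedSectionVars false
set_option linter.style.haveILetI false

namespace Fermat.Agent.CFT

open IsLocalRing Polynomial

section Res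

variable {O B : Type*} [CommRing O] [IsLocalRing O] [CommRing B] [IsLocalRing B] [Algebra O B]
  [IsLocalHom (algebraMap O B)]

/-- Reduction of polynomial evaluation. -/
theorem aeval_residue_map (g : O[X]) (x : B) :
    aeval (residue B x) (g.map (residue O)) = residue B (aeval x g) := by
  rw [← ResidueField.algebraMap_eq O, aeval_map_algebraMap, ← ResidueField.algebraMap_eq B,
    aeval_algebraMap_apply]

end Res
section Hensel

variable {O B : Type*} [CommRing O] [CommRing B] [HenselianLocalRing B] [Algebra O B]

/-- Hensel's lemma for polynomials with coefficients in a base ring: a simple root in the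
residue field lifts to a root. -/
theorem exists_root_lift {g : O[X]} (hg : g.Monic) (a₀ : ResidueField B)
    (h0 : aeval a₀ g = 0) (h1 : aeval a₀ (derivative g) ≠ 0) :
    ∃ a : B, aeval a g = 0 ∧ residue B a = a₀ := by
  have H := ((HenselianLocalRing.TFAE B).out 0 1).mp ‹HenselianLocalRing B›
  obtain ⟨a, ha, hres⟩ := H (g.map (algebraMap O B)) (hg.map _) a₀
    (by rwa [aeval_map_algebraMap])
    (by rwa [derivative_map, aeval_map_algebraMap])
  refine ⟨a, ?_, hres⟩
  rwa [IsRoot.def, eval_map_algebraMap] at ha

/-- Uniqueness of the Hensel lift of a simple root. -/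
theorem root_lift_unique {g : O[X]} {a b : B} (ha : aeval a g = 0) (hb : aeval b g = 0)
    (hab : residue B a = residue B b)
    (h1 : aeval (residue B a) (derivative g) ≠ 0) : a = b := by
  apply IsLocalRing.eq_of_eval_eq_zero_of_not_isUnit_sub (f := g.map (algebraMap O B))
  · rwa [eval_map_algebraMap]
  · rwa [eval_map_algebraMap]
  · rw [← mem_nonunits_iff, ← mem_maximalIdeal, ← residue_eq_zero_iff, map_sub, hab, sub_self]
  · rw [derivative_map, eval_map_algebraMap, ← residue_ne_zero_iff_isUnit,
      ← ResidueField.algebraMap_eq, ← aeval_algebraMap_apply]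
    exact h1

end Hensel

/-- Over a finite field there are monic irreducible polynomials of every positive degree. -/
theorem exists_monic_irreducible_natDegree_eq (k : Type*) [Field k] [Finite k] (m : ℕ)
    (hm : 0 < m) : ∃ f : k[X], f.Monic ∧ Irreducible f ∧ f.natDegree = m := by
  obtain ⟨p, hp⟩ := CharP.exists k
  haveI : Fact p.Prime := ⟨CharP.char_is_prime k p⟩
  haveI : NeZero m := ⟨hm.ne'⟩
  obtain ⟨α, hα⟩ := Field.exists_primitive_element k (FiniteField.Extension k p m)
  have hint : IsIntegral k α := Algebra.IsIntegral.isIntegral α
  refine ⟨minpoly k α, minpoly.monic hint, minpoly.irreducible hint, ?_⟩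
  rw [(Field.primitive_element_iff_minpoly_natDegree_eq k α).mp hα,
    FiniteField.finrank_extension]

/-- Over a discrete valuation ring with finite residue field there are unramified polynomials of
every positive degree. -/
theorem exists_isUnramPoly (O : Type) [CommRing O] [IsDomain O] [IsDiscreteValuationRing O]
    [Finite (ResidueField O)] (m : ℕ) (hm : 0 < m) :
    ∃ g : O[X], IsUnramPoly g ∧ g.natDegree = m := by
  obtain ⟨f, hf1, hf2, hf3⟩ := exists_monic_irreducible_natDegree_eq (ResidueField O) m hm
  obtain ⟨g, hg1, hg2, hg3⟩ := Polynomial.lifts_and_natDegree_eq_and_monic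
    ((Polynomial.mem_lifts f).mpr (map_surjective (residue O) residue_surjective f)) hf1
  exact ⟨g, ⟨hg3, hg1 ▸ hf2⟩, hg2.trans hf3⟩

section Setting

variable {O K : Type} [CommRing O] [IsDomain O] [IsDiscreteValuationRing O]
  [IsAdicComplete (maximalIdeal O) O] [Finite (ResidueField O)]
  [Field K] [Algebra O K] [IsFractionRing O K] [CharZero K]
  {L : Type} [Field L] [Algebra K L] [FiniteDimensional K L] [Algebra O L] [IsScalarTower O K L]

omit [Finite (ResidueField O)] in
include K in
/-- If `L` contains a root of an unramified polynomial of degree `[L:K]`, then `L/K` is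
unramified. -/
theorem isUnramExt_of_root {g : O[X]} (hg : IsUnramPoly g) (θ : L) (hθ : aeval θ g = 0)
    (hdeg : Module.finrank K L = g.natDegree) : IsUnramExt O L := by
  haveI := intRing_isLocalRing O K L
  haveI := intRing_isLocalHom O K L
  haveI := intRing_finite O K L
  apply isUnramExt_of_finrank_le_inertDeg O K L
  rw [inertDeg_eq_finrank O K L, hdeg]
  have hint : IsIntegral O θ := ⟨g, hg.monic, by rwa [← aeval_def]⟩
  let θB : integralClosure O L := ⟨θ, hint⟩
  have h0 : aeval θB g = 0 := by
    apply Subtype.ext
    rw [← Subalgebra.aeval_coe]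
    exact hθ
  have h1 : aeval (residue _ θB) (g.map (residue O)) = 0 := by
    rw [aeval_residue_map, h0, map_zero]
  have h2 : minpoly (ResidueField O) (residue _ θB) = g.map (residue O) :=
    (minpoly.eq_of_irreducible_of_monic hg.irreducible_map h1 (hg.monic.map _)).symm
  have h3 := minpoly.natDegree_le (A := ResidueField O) (residue _ θB)
  rwa [h2, hg.monic.natDegree_map] at h3

include K in
/-- If `L` contains a root of an unramified polynomial `g`, then `g` splits in `L`. -/
theorem splits_of_root {g : O[X]} (hg : IsUnramPoly g) (θ : L) (hθ : aeval θ g = 0) :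
    (g.map (algebraMap O L)).Splits := by
  classical
  haveI := intRing_isLocalRing O K L
  haveI := intRing_isLocalHom O K L
  haveI := intRing_finite O K L
  haveI := intRing_henselianLocalRing O K L
  haveI := intRing_finite_residueField O K L
  have hint : IsIntegral O θ := ⟨g, hg.monic, by rwa [← aeval_def]⟩
  let θB : integralClosure O L := ⟨θ, hint⟩
  have h0 : aeval θB g = 0 := by
    apply Subtype.ext
    rw [← Subalgebra.aeval_coe]
    exact hθ
  have h1 : aeval (residue _ θB) (g.map (residue O)) = 0 := by
    rw [aeval_residue_map, h0, map_zero]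
  have h2 : minpoly (ResidueField O) (residue _ θB) = g.map (residue O) :=
    (minpoly.eq_of_irreducible_of_monic hg.irreducible_map h1 (hg.monic.map _)).symm
  have hsplit : ((g.map (residue O)).map (algebraMap (ResidueField O)
      (ResidueField (integralClosure O L)))).Splits := by
    rw [← h2]
    exact Normal.splits inferInstance _
  have hsep : (g.map (residue O)).Separable :=
    PerfectField.separable_of_irreducible hg.irreducible_map
  set R := ((g.map (residue O)).map (algebraMap (ResidueField O)
      (ResidueField (integralClosure O L)))).roots with hR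
  have hRcard : R.card = g.natDegree := by
    rw [hR, splits_iff_card_roots.mp hsplit, natDegree_map, hg.monic.natDegree_map]
  have hRnodup : R.Nodup := nodup_roots hsep.map
  have hlift : ∀ a₀ ∈ R.toFinset, ∃ a : integralClosure O L, aeval a g = 0 ∧ residue _ a = a₀ := by
    intro a₀ ha₀
    rw [Multiset.mem_toFinset, hR, mem_roots', IsRoot.def, eval_map_algebraMap] at ha₀
    have e1 : aeval a₀ g = 0 := by
      rw [← ha₀.2, ← ResidueField.algebraMap_eq, aeval_map_algebraMap]
    have e2 : aeval a₀ (derivative g) ≠ 0 := by
      have := hsep.aeval_derivative_ne_zero ha₀.2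
      rwa [← ResidueField.algebraMap_eq, derivative_map, aeval_map_algebraMap] at this
    exact exists_root_lift hg.monic a₀ e1 e2
  choose! F hF using hlift
  have hinj : Set.InjOn (fun a₀ => ((F a₀ : integralClosure O L) : L)) (R.toFinset : Set _) := by
    intro a ha b hb hab
    have : F a = F b := Subtype.ext hab
    rw [← (hF a ha).2, ← (hF b hb).2, this]
  have hsub : R.toFinset.image (fun a₀ => ((F a₀ : integralClosure O L) : L)) ⊆
      (g.map (algebraMap O L)).roots.toFinset := by
    intro x hx
    rw [Finset.mem_image] at hx
    obtain ⟨a₀, ha₀, rfl⟩ := hx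
    rw [Multiset.mem_toFinset, mem_roots', IsRoot.def, eval_map_algebraMap]
    refine ⟨(hg.monic.map _).ne_zero, ?_⟩
    rw [Subalgebra.aeval_coe, (hF a₀ ha₀).1]
    rfl
  have hcard := Finset.card_le_card hsub
  rw [Finset.card_image_of_injOn hinj, Multiset.toFinset_card_of_nodup hRnodup, hRcard] at hcard
  rw [splits_iff_card_roots]
  apply le_antisymm
  · exact card_roots' _
  · rw [hg.monic.natDegree_map]
    exact hcard.trans (Multiset.toFinset_card_le _)

omit [IsAdicComplete (maximalIdeal O) O] [Finite (ResidueField O)] [CharZero K] in
/-- An unramified polynomial is irreducible over the fraction field. -/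
theorem IsUnramPoly.irreducible_map_fraction {g : O[X]} (hg : IsUnramPoly g) :
    Irreducible (g.map (algebraMap O K)) :=
  (hg.monic.irreducible_iff_irreducible_map_fraction_map).mp hg.irreducible

omit [IsAdicComplete (maximalIdeal O) O] [Finite (ResidueField O)] [CharZero K] in
theorem minpoly_eq_of_root {g : O[X]} (hg : IsUnramPoly g) (θ : L) (hθ : aeval θ g = 0) :
    minpoly K θ = g.map (algebraMap O K) := by
  symm
  apply minpoly.eq_of_irreducible_of_monic (hg.irreducible_map_fraction (K := K)) _
    (hg.monic.map _)
  rwa [aeval_map_algebraMap]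

omit [IsAdicComplete (maximalIdeal O) O] [Finite (ResidueField O)] [CharZero K] in
theorem adjoin_root_eq_top {g : O[X]} (hg : IsUnramPoly g) (θ : L) (hθ : aeval θ g = 0)
    (hdeg : Module.finrank K L = g.natDegree) : Algebra.adjoin K {θ} = ⊤ := by
  have h1 : IntermediateField.adjoin K {θ} = ⊤ := by
    rw [Field.primitive_element_iff_minpoly_natDegree_eq, minpoly_eq_of_root hg θ hθ,
      hg.monic.natDegree_map, hdeg]
  have hint : IsAlgebraic K θ := Algebra.IsAlgebraic.isAlgebraic θ
  rw [← IntermediateField.adjoin_simple_toSubalgebra_of_isAlgebraic hint, h1]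
  rfl

/-- If `L` is generated by a root of an unramified polynomial of degree `[L:K]` then `L/K` is
Galois. -/
theorem isGalois_of_root {g : O[X]} (hg : IsUnramPoly g) (θ : L) (hθ : aeval θ g = 0)
    (hdeg : Module.finrank K L = g.natDegree) : IsGalois K L := by
  have hsplit := splits_of_root (K := K) hg θ hθ
  haveI : IsSplittingField K L (g.map (algebraMap O K)) := by
    refine IsSplittingField.mk ?_ ?_
    · rwa [Polynomial.map_map, ← IsScalarTower.algebraMap_eq]
    · rw [eq_top_iff, ← adjoin_root_eq_top hg θ hθ hdeg]
      apply Algebra.adjoin_mono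
      rw [Set.singleton_subset_iff, mem_rootSet]
      refine ⟨(hg.monic.map _).ne_zero, ?_⟩
      rwa [aeval_map_algebraMap]
  exact IsGalois.of_separable_splitting_field (hg.irreducible_map_fraction (K := K)).separable

end Setting

section Concrete

variable (O K : Type) [CommRing O] [IsDomain O] [IsDiscreteValuationRing O]
  [IsAdicComplete (maximalIdeal O) O] [Finite (ResidueField O)]
  [Field K] [Algebra O K] [IsFractionRing O K] [CharZero K]

omit [IsAdicComplete (maximalIdeal O) O] [Finite (ResidueField O)] in
theorem isUnramPoly_X : IsUnramPoly (X : O[X]) :=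
  ⟨monic_X, by rw [Polynomial.map_X]; exact irreducible_X⟩

open Classical in
/-- A chosen unramified polynomial of degree `m` (of degree `1` when `m = 0`). -/
noncomputable def unramPoly (m : ℕ) : O[X] :=
  if hm : 0 < m then (exists_isUnramPoly O m hm).choose else X

omit [IsAdicComplete (maximalIdeal O) O] in
theorem unramPoly_isUnramPoly (m : ℕ) : IsUnramPoly (unramPoly O m) := by
  unfold unramPoly
  split_ifs with hm
  · exact (exists_isUnramPoly O m hm).choose_spec.1
  · exact isUnramPoly_X O

omit [IsAdicComplete (maximalIdeal O) O] in
theorem natDegree_unramPoly (m : ℕ) (hm : 0 < m) : (unramPoly O m).natDegree = m := by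
  unfold unramPoly
  rw [dif_pos hm]
  exact (exists_isUnramPoly O m hm).choose_spec.2

/-- The chosen unramified extension of `K` of degree `m`. -/
def UnramExt (m : ℕ) : Type := AdjoinRoot ((unramPoly O m).map (algebraMap O K))

namespace UnramExt

variable (m : ℕ)

noncomputable instance : Field (UnramExt O K m) :=
  haveI : Fact (Irreducible ((unramPoly O m).map (algebraMap O K))) :=
    ⟨(unramPoly_isUnramPoly O m).irreducible_map_fraction⟩
  inferInstanceAs (Field (AdjoinRoot ((unramPoly O m).map (algebraMap O K))))

noncomputable instance : Algebra K (UnramExt O K m) :=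
  inferInstanceAs (Algebra K (AdjoinRoot ((unramPoly O m).map (algebraMap O K))))

noncomputable instance : Algebra O (UnramExt O K m) :=
  inferInstanceAs (Algebra O (AdjoinRoot ((unramPoly O m).map (algebraMap O K))))

instance : IsScalarTower O K (UnramExt O K m) :=
  inferInstanceAs (IsScalarTower O K (AdjoinRoot ((unramPoly O m).map (algebraMap O K))))

instance : FiniteDimensional K (UnramExt O K m) :=
  ((unramPoly_isUnramPoly O m).monic.map (algebraMap O K)).finite_adjoinRoot

/-- The canonical root of `unramPoly O m` in `UnramExt O K m`. -/
noncomputable def root : UnramExt O K m :=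
  AdjoinRoot.root ((unramPoly O m).map (algebraMap O K))

theorem aeval_root : aeval (root O K m) (unramPoly O m) = 0 := by
  rw [← aeval_map_algebraMap K]
  exact (AdjoinRoot.aeval_eq _).trans AdjoinRoot.mk_self

theorem finrank_eq_natDegree :
    Module.finrank K (UnramExt O K m) = (unramPoly O m).natDegree := by
  have hne : (unramPoly O m).map (algebraMap O K) ≠ 0 :=
    ((unramPoly_isUnramPoly O m).monic.map _).ne_zero
  have := (AdjoinRoot.powerBasis hne).finrank
  rw [AdjoinRoot.powerBasis_dim, (unramPoly_isUnramPoly O m).monic.natDegree_map] at this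
  exact this

end UnramExt

theorem finrank_unramExt (m : ℕ) (hm : 0 < m) : Module.finrank K (UnramExt O K m) = m := by
  rw [UnramExt.finrank_eq_natDegree, natDegree_unramPoly O m hm]

theorem isUnramExt_unramExt (m : ℕ) : IsUnramExt O (UnramExt O K m) :=
  isUnramExt_of_root (K := K) (unramPoly_isUnramPoly O m) (UnramExt.root O K m)
    (UnramExt.aeval_root O K m) (UnramExt.finrank_eq_natDegree O K m)

instance isGalois_unramExt (m : ℕ) : IsGalois K (UnramExt O K m) :=
  isGalois_of_root (K := K) (unramPoly_isUnramPoly O m) (UnramExt.root O K m)
    (UnramExt.aeval_root O K m) (UnramExt.finrank_eq_natDegree O K m)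

/-- Existence of unramified extensions of every degree. -/
theorem exists_unramified_extension (m : ℕ) (hm : 0 < m) :
    ∃ (L : Type) (_ : Field L) (_ : Algebra K L) (_ : Algebra O L) (_ : IsScalarTower O K L)
      (_ : FiniteDimensional K L), IsGalois K L ∧ Module.finrank K L = m ∧ IsUnramExt O L :=
  ⟨UnramExt O K m, inferInstance, inferInstance, inferInstance, inferInstance, inferInstance,
    inferInstance, finrank_unramExt O K m hm, isUnramExt_unramExt O K m⟩

end Concrete

end Fermat.Agent.CFT
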