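import Mathlib
import Fermat.Agent.CFT.Local.UnramExists
import Fermat.Agent.CFT.Local.Frobenius
import Fermat.Agent.CFT.Local.ExtDVRTower
import Fermat.Prelude.Thm_IsLocalRing_isAdicComplete_of_module_finite

/-!
# CFT, local layer (B1b): structure of unramified extensions, compositum, Frobenius compatibility

Setting B of `ExtDVR.lean` with finite residue field.

* `isUnramExt_of_separable_root` (key lemma): if `L = K(θ)` with `θ` a root of a monic `g : O[X]`
  with separable reduction, then `L/K` is unramified and the residue field is `k(θ̄)`.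
* `exists_isUnramPoly_root_of_isUnramExt`, `IsUnramExt.isGalois`: an unramified extension is
  generated by a root of an unramified polynomial of degree `[L:K]`, hence is Galois.
* `isUnramExt_compositum`: `E/K` unramified, `M = L·E` ⇒ `M/L` unramified.
* `IsFrobPow O K L j σ` (`σ x ≡ x ^ (q ^ j)`), `isFrobPow_frob_pow`, `IsFrobPow.eq_frob_pow`,
  `IsFrobPow.restrictNormal`, `IsFrob.isFrobPow_restrictScalars`.
* `restrictNormal_frob_eq_frob_pow`: `Frob_{M/L}|_E = Frob_{E/K} ^ f(L/K)`.
* `restrictNormal_restrictScalars_injective`: `Gal(M/L) → Gal(E/K)` is injective when `M = L·E`.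
-/

set_option autoImplicit false
set_option linter.unusedSectionVars false
set_option linter.style.haveILetI false

namespace Fermat.Agent.CFT

open IsLocalRing Polynomial

section Setting

variable {O K : Type} [CommRing O] [IsDomain O] [IsDiscreteValuationRing O]
  [IsAdicComplete (maximalIdeal O) O] [Finite (ResidueField O)]
  [Field K] [Algebra O K] [IsFractionRing O K] [CharZero K]
  {L : Type} [Field L] [Algebra K L] [FiniteDimensional K L] [Algebra O L] [IsScalarTower O K L]

omit [Finite (ResidueField O)] in
/-- `O[X]/(h)` is a Henselian local ring for an unramified polynomial `h` over a complete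
discrete valuation ring. -/
theorem IsUnramPoly.henselianLocalRing_adjoinRoot {h : O[X]} (hh : IsUnramPoly h) :
    letI := hh.isLocalRing_adjoinRoot
    HenselianLocalRing (AdjoinRoot h) := by
  letI := hh.isLocalRing_adjoinRoot
  haveI := hh.finite_adjoinRoot
  haveI : FaithfulSMul O (AdjoinRoot h) :=
    (faithfulSMul_iff_algebraMap_injective O (AdjoinRoot h)).mpr hh.algebraMap_injective
  haveI : IsAdicComplete (maximalIdeal (AdjoinRoot h)) (AdjoinRoot h) :=
    IsLocalRing.isAdicComplete_of_module_finite (𝒪 := O)
  exact henselianLocalRing_of_isAdicComplete _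

include K in
/-- **Key lemma.**  Let `g` be a monic polynomial over `O` with separable reduction and `θ ∈ L` a
root of `g` generating `L` over `K`.  Then `L/K` is unramified, and the residue field of `L` is
generated by the residue class of `θ`. -/
theorem isUnramExt_of_separable_root {g : O[X]} (hg : g.Monic)
    (hsep : (g.map (residue O)).Separable) (θ : integralClosure O L) (hθ : aeval θ g = 0)
    (hgen : Algebra.adjoin K {(θ : L)} = ⊤) :
    haveI := intRing_isLocalRing O K L
    haveI := intRing_isLocalHom O K L
    IsUnramExt O L ∧
      (minpoly (ResidueField O) (residue (integralClosure O L) θ)).natDegree =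
        Module.finrank K L := by
  haveI := intRing_isLocalRing O K L
  haveI := intRing_isLocalHom O K L
  haveI := intRing_finite O K L
  haveI := intRing_henselianLocalRing O K L
  haveI := intRing_finite_residueField O K L
  set θ' := residue (integralClosure O L) θ with hθ'
  -- the minimal polynomial of the residue class and a monic lift
  have hint : IsIntegral (ResidueField O) θ' := Algebra.IsIntegral.isIntegral θ'
  obtain ⟨h, hh1, hh2, hh3⟩ := Polynomial.lifts_and_natDegree_eq_and_monic
    ((Polynomial.mem_lifts (minpoly (ResidueField O) θ')).mpr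
      (map_surjective (residue O) residue_surjective _)) (minpoly.monic hint)
  have hunr : IsUnramPoly h := ⟨hh3, hh1 ▸ minpoly.irreducible hint⟩
  have hhsep : (h.map (residue O)).Separable :=
    PerfectField.separable_of_irreducible hunr.irreducible_map
  -- simple root conditions
  have aeval_res : ∀ (p : O[X]) (x : ResidueField (integralClosure O L)),
      aeval x (p.map (residue O)) = aeval x p := by
    intro p x
    rw [← ResidueField.algebraMap_eq, aeval_map_algebraMap]
  have e1 : aeval θ' h = 0 := by
    rw [← aeval_res, hh1, minpoly.aeval]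
  have e2 : aeval θ' (derivative h) ≠ 0 := by
    have := hhsep.aeval_derivative_ne_zero ((aeval_res h θ').trans e1)
    rwa [derivative_map, aeval_res] at this
  have g1 : aeval θ' g = 0 := by
    rw [hθ', ← aeval_res, aeval_residue_map, hθ, map_zero]
  have g2 : aeval θ' (derivative g) ≠ 0 := by
    have := hsep.aeval_derivative_ne_zero ((aeval_res g θ').trans g1)
    rwa [derivative_map, aeval_res] at this
  -- Hensel: a root `α` of `h` in `O_L` with the same residue class as `θ`
  obtain ⟨α, hα0, hαres⟩ := exists_root_lift hh3 θ' e1 e2
  have hαL : aeval (α : L) h = 0 := by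
    rw [Subalgebra.aeval_coe, hα0]; rfl
  -- the ring `R' = O[X]/(h)`
  letI := hunr.isLocalRing_adjoinRoot
  haveI := hunr.henselianLocalRing_adjoinRoot
  set ψ := rootHomInt hh3 (α : L) hαL with hψ
  have hψroot : ψ (AdjoinRoot.root h) = α := by
    apply Subtype.ext
    rw [coe_rootHomInt, rootHom_root]
  have hloc : ∀ x ∈ maximalIdeal (AdjoinRoot h), ψ x ∈ maximalIdeal (integralClosure O L) := by
    intro x hx
    rw [hunr.maximalIdeal_adjoinRoot] at hx
    have hle : (maximalIdeal O).map (AdjoinRoot.of h) ≤
        (maximalIdeal (integralClosure O L)).comap ψ := by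
      rw [Ideal.map_le_iff_le_comap]
      intro a ha
      rw [Ideal.mem_comap, Ideal.mem_comap]
      have : ψ (AdjoinRoot.of h a) = algebraMap O (integralClosure O L) a := ψ.commutes a
      rw [this]
      exact map_nonunit _ a ha
    exact hle hx
  have hψaeval : ∀ (p : O[X]) (x : AdjoinRoot h), ψ (aeval x p) = aeval (ψ x) p := by
    intro p x
    rw [aeval_algHom_apply]
  -- `g (root)` is in the maximal ideal and `g' (root)` is a unit
  have hres_eq : ∀ (p : O[X]), residue _ (aeval α p) = aeval θ' p := by
    intro p
    rw [← aeval_residue_map, hαres, aeval_res]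
  have k1 : aeval (AdjoinRoot.root h) g ∈ maximalIdeal (AdjoinRoot h) := by
    by_contra hcon
    rw [mem_maximalIdeal, mem_nonunits_iff, not_not] at hcon
    have := hcon.map ψ
    rw [hψaeval, hψroot, ← residue_ne_zero_iff_isUnit, hres_eq] at this
    exact this g1
  have k2 : IsUnit (aeval (AdjoinRoot.root h) (derivative g)) := by
    by_contra hcon
    have := hloc _ ((mem_maximalIdeal _).mpr hcon)
    rw [hψaeval, hψroot, ← residue_eq_zero_iff, hres_eq] at this
    exact g2 this
  -- Hensel in `R'`
  obtain ⟨r, hr0, hrres⟩ := HenselianLocalRing.is_henselian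
    (g.map (algebraMap O (AdjoinRoot h))) (hg.map _) (AdjoinRoot.root h)
    (by rwa [eval_map_algebraMap]) (by rwa [derivative_map, eval_map_algebraMap])
  rw [IsRoot.def, eval_map_algebraMap] at hr0
  have hψr0 : aeval (ψ r) g = 0 := by rw [← hψaeval, hr0, map_zero]
  have hψrres : residue _ (ψ r) = θ' := by
    rw [← hαres, ← sub_eq_zero, ← map_sub, ← hψroot, ← map_sub, residue_eq_zero_iff]
    exact hloc _ hrres
  have hψrθ : ψ r = θ :=
    root_lift_unique hψr0 hθ hψrres (by rw [hψrres]; exact g2)
  -- hence `θ ∈ K[α]`
  have hθmem : (θ : L) ∈ Algebra.adjoin K {(α : L)} := by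
    rw [← hψrθ, coe_rootHomInt]
    obtain ⟨p, rfl⟩ := AdjoinRoot.mk_surjective r
    have : rootHom h (α : L) hαL (AdjoinRoot.mk h p) = aeval (α : L) p := by
      rw [← AdjoinRoot.aeval_eq, ← aeval_algHom_apply, rootHom_root]
    rw [this, ← aeval_map_algebraMap K]
    exact aeval_mem_adjoin_singleton K (α : L)
  have hαtop : Algebra.adjoin K {(α : L)} = ⊤ := by
    rw [eq_top_iff, ← hgen]
    exact Algebra.adjoin_le (Set.singleton_subset_iff.mpr hθmem)
  have hαalg : IsAlgebraic K (α : L) := Algebra.IsAlgebraic.isAlgebraic _
  have hαtop' : IntermediateField.adjoin K {(α : L)} = ⊤ := by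
    apply IntermediateField.toSubalgebra_injective
    rw [IntermediateField.adjoin_simple_toSubalgebra_of_isAlgebraic hαalg, hαtop]
    rfl
  have hdeg1 : Module.finrank K L ≤ h.natDegree := by
    rw [← (Field.primitive_element_iff_minpoly_natDegree_eq K (α : L)).mp hαtop',
      ← hh3.natDegree_map (algebraMap O K)]
    apply natDegree_le_of_dvd
    · apply minpoly.dvd
      rw [aeval_map_algebraMap]; exact hαL
    · exact (hh3.map _).ne_zero
  have hdeg2 : h.natDegree ≤ inertDeg O L := by
    rw [hh2, inertDeg_eq_finrank O K L]
    exact minpoly.natDegree_le θ'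
  refine ⟨isUnramExt_of_finrank_le_inertDeg O K L (hdeg1.trans hdeg2), ?_⟩
  rw [← hh2]
  exact le_antisymm (hdeg2.trans (inertDeg_le_finrank O K L)) hdeg1

include K in
/-- An unramified extension is generated by a root of an unramified polynomial of degree
`[L:K]`. -/
theorem exists_isUnramPoly_root_of_isUnramExt (h : IsUnramExt O L) :
    ∃ (g : O[X]) (θ : integralClosure O L), IsUnramPoly g ∧
      g.natDegree = Module.finrank K L ∧ aeval θ g = 0 := by
  haveI := intRing_isLocalRing O K L
  haveI := intRing_isLocalHom O K L
  haveI := intRing_finite O K L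
  haveI := intRing_henselianLocalRing O K L
  haveI := intRing_finite_residueField O K L
  obtain ⟨θ', hθ'⟩ := Field.exists_primitive_element (ResidueField O)
    (ResidueField (integralClosure O L))
  have hint : IsIntegral (ResidueField O) θ' := Algebra.IsIntegral.isIntegral θ'
  obtain ⟨g, hg1, hg2, hg3⟩ := Polynomial.lifts_and_natDegree_eq_and_monic
    ((Polynomial.mem_lifts (minpoly (ResidueField O) θ')).mpr
      (map_surjective (residue O) residue_surjective _)) (minpoly.monic hint)
  have hunr : IsUnramPoly g := ⟨hg3, hg1 ▸ minpoly.irreducible hint⟩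
  have hsep : (g.map (residue O)).Separable :=
    PerfectField.separable_of_irreducible hunr.irreducible_map
  have aeval_res : ∀ (p : O[X]) (x : ResidueField (integralClosure O L)),
      aeval x (p.map (residue O)) = aeval x p := by
    intro p x
    rw [← ResidueField.algebraMap_eq, aeval_map_algebraMap]
  have e1 : aeval θ' g = 0 := by
    rw [← aeval_res, hg1, minpoly.aeval]
  have e2 : aeval θ' (derivative g) ≠ 0 := by
    have := hsep.aeval_derivative_ne_zero ((aeval_res g θ').trans e1)
    rwa [derivative_map, aeval_res] at this
  obtain ⟨θ, hθ0, -⟩ := exists_root_lift hg3 θ' e1 e2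
  refine ⟨g, θ, hunr, ?_, hθ0⟩
  rw [hg2, (Field.primitive_element_iff_minpoly_natDegree_eq _ θ').mp hθ',
    ← inertDeg_eq_finrank O K L]
  exact (isUnramExt_iff_inertDeg O K L).mp h

include O in
/-- An unramified extension is Galois. -/
theorem IsUnramExt.isGalois (h : IsUnramExt O L) : IsGalois K L := by
  obtain ⟨g, θ, hg, hdeg, hθ⟩ := exists_isUnramPoly_root_of_isUnramExt (K := K) h
  refine isGalois_of_root (K := K) hg (θ : L) ?_ hdeg.symm
  rw [Subalgebra.aeval_coe, hθ]; rfl

end Setting

section Compositum

variable (O K : Type) [CommRing O] [IsDomain O] [IsDiscreteValuationRing O]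
  [IsAdicComplete (maximalIdeal O) O] [Finite (ResidueField O)]
  [Field K] [Algebra O K] [IsFractionRing O K] [CharZero K]
  (L : Type) [Field L] [Algebra K L] [FiniteDimensional K L] [Algebra O L] [IsScalarTower O K L]
  (E : Type) [Field E] [Algebra K E] [FiniteDimensional K E] [Algebra O E] [IsScalarTower O K E]
  (M : Type) [Field M] [Algebra L M] [FiniteDimensional L M] [Algebra K M] [IsScalarTower K L M]
  [Algebra O M] [IsScalarTower O K M] [Algebra E M] [IsScalarTower K E M]

include K in
/-- **Compositum with an unramified extension.**  If `E/K` is unramified and `M` is generated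
over `L` by (the image of) `E`, then `M/L` is unramified. -/
theorem isUnramExt_compositum [IsLocalRing (integralClosure O L)] (hE : IsUnramExt O E)
    (hgen : Algebra.adjoin L (Set.range (algebraMap E M)) = ⊤) :
    IsUnramExt (integralClosure O L) M := by
  -- the setting for `(O_L, L, M)`
  haveI : FiniteDimensional K M := FiniteDimensional.trans K L M
  haveI := tower_isScalarTower_O_L_M O K L M
  haveI := tower_charZero K L
  haveI := intRing_isDiscreteValuationRing O K L
  haveI := intRing_isFractionRing O K L
  haveI := intRing_isAdicComplete O K L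
  haveI := intRing_finite_residueField O K L
  haveI := intRing_isLocalHom O K L
  haveI := tower_isScalarTower_O_intRing_M O K L M
  haveI : IsScalarTower O E M := by
    refine IsScalarTower.of_algebraMap_eq fun x => ?_
    rw [IsScalarTower.algebraMap_apply O K M, IsScalarTower.algebraMap_apply K E M,
      ← IsScalarTower.algebraMap_apply O K E]
  obtain ⟨g, θ, hg, hdeg, hθ⟩ := exists_isUnramPoly_root_of_isUnramExt (K := K) hE
  have hθE : aeval (θ : E) g = 0 := by
    rw [Subalgebra.aeval_coe, hθ]; rfl
  have htop : Algebra.adjoin K {(θ : E)} = ⊤ := adjoin_root_eq_top hg (θ : E) hθE hdeg.symm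
  set θM : M := algebraMap E M (θ : E) with hθM
  have hθM0 : aeval θM g = 0 := by
    rw [hθM, aeval_algebraMap_apply, hθE, map_zero]
  have hintO : IsIntegral O θM := ⟨g, hg.monic, by rwa [← aeval_def]⟩
  have hint : IsIntegral (integralClosure O L) θM := hintO.tower_top
  let θ' : integralClosure (integralClosure O L) M := ⟨θM, hint⟩
  set gL : (integralClosure O L)[X] := g.map (algebraMap O (integralClosure O L)) with hgL
  have hθ'0 : aeval θ' gL = 0 := by
    apply Subtype.ext
    rw [← Subalgebra.aeval_coe, hgL, aeval_map_algebraMap]
    exact hθM0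
  have hsep : (gL.map (residue (integralClosure O L))).Separable := by
    have h1 : gL.map (residue (integralClosure O L)) = (g.map (residue O)).map
        (algebraMap (ResidueField O) (ResidueField (integralClosure O L))) := by
      rw [hgL, Polynomial.map_map, Polynomial.map_map]
      rfl
    rw [h1]
    exact (PerfectField.separable_of_irreducible hg.irreducible_map).map
  have hgen' : Algebra.adjoin L {((θ' : integralClosure (integralClosure O L) M) : M)} = ⊤ := by
    rw [eq_top_iff, ← hgen]
    apply Algebra.adjoin_le
    rintro _ ⟨y, rfl⟩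
    have hy : y ∈ Algebra.adjoin K {(θ : E)} := htop ▸ Algebra.mem_top
    rw [Algebra.adjoin_singleton_eq_range_aeval] at hy
    obtain ⟨p, rfl⟩ := hy
    have : algebraMap E M (aeval (θ : E) p) = aeval θM (p.map (algebraMap K L)) := by
      rw [aeval_map_algebraMap, ← aeval_algebraMap_apply]
    rw [AlgHom.toRingHom_eq_coe, RingHom.coe_coe, this]
    exact aeval_mem_adjoin_singleton L θM
  exact (isUnramExt_of_separable_root (K := L) (hg.monic.map _) hsep θ' hθ'0 hgen').1

end Compositum

section FrobPow

variable (O K : Type) [CommRing O] [IsDomain O] [IsDiscreteValuationRing O]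
  [IsAdicComplete (maximalIdeal O) O] [Finite (ResidueField O)]
  [Field K] [Algebra O K] [IsFractionRing O K] [CharZero K]
  (L : Type) [Field L] [Algebra K L] [FiniteDimensional K L] [Algebra O L] [IsScalarTower O K L]
  [IsLocalRing (integralClosure O L)] [IsLocalHom (algebraMap O (integralClosure O L))]

/-- `σ x ≡ x ^ (q ^ j)` modulo the maximal ideal of `O_L` (`q` the cardinality of the residue field
of `O`). -/
def IsFrobPow (j : ℕ) (σ : L ≃ₐ[K] L) : Prop :=
  ∀ x : integralClosure O L, galRestrict O K L (integralClosure O L) σ x -
    x ^ (Nat.card (ResidueField O) ^ j) ∈ maximalIdeal (integralClosure O L)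

theorem isFrobPow_iff (j : ℕ) (σ : L ≃ₐ[K] L) :
    IsFrobPow O K L j σ ↔ ∀ y : ResidueField (integralClosure O L),
      resGal O K L σ y = y ^ (Nat.card (ResidueField O) ^ j) := by
  constructor
  · intro h y
    obtain ⟨x, rfl⟩ := residue_surjective y
    rw [resGal_residue, ← sub_eq_zero, ← map_pow, ← map_sub, residue_eq_zero_iff]
    exact h x
  · intro h x
    rw [← residue_eq_zero_iff, map_sub, map_pow, ← resGal_residue, h, sub_self]

theorem isFrobPow_one_iff (σ : L ≃ₐ[K] L) : IsFrobPow O K L 1 σ ↔ IsFrob O K L σ := by
  simp only [IsFrobPow, IsFrob, pow_one]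

/-- `Frob ^ j` is a `j`-th Frobenius power. -/
theorem isFrobPow_frob_pow [IsGalois K L] (j : ℕ) : IsFrobPow O K L j (frob O K L ^ j) := by
  rw [isFrobPow_iff]
  induction j with
  | zero => intro y; simp
  | succ j ih =>
    intro y
    rw [pow_succ', map_mul, AlgEquiv.mul_apply, ih, map_pow,
      (isFrob_iff O K L _).mp (isFrob_frob O K L), ← pow_mul, ← pow_succ']

variable {O K L} in
/-- In an unramified extension, a `j`-th Frobenius power is `Frob ^ j`. -/
theorem IsFrobPow.eq_frob_pow [IsGalois K L] (h : IsUnramExt O L) {j : ℕ} {σ : L ≃ₐ[K] L}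
    (hσ : IsFrobPow O K L j σ) : σ = frob O K L ^ j := by
  apply (resGal_bijective O K L h).1
  ext y
  rw [(isFrobPow_iff O K L j σ).mp hσ, (isFrobPow_iff O K L j _).mp (isFrobPow_frob_pow O K L j)]

end FrobPow

section Restrict

variable {O K : Type} [CommRing O] [IsDomain O] [IsDiscreteValuationRing O]
  [IsAdicComplete (maximalIdeal O) O] [Finite (ResidueField O)]
  [Field K] [Algebra O K] [IsFractionRing O K] [CharZero K]
  {E : Type} [Field E] [Algebra K E] [FiniteDimensional K E] [Algebra O E] [IsScalarTower O K E]
  [IsLocalRing (integralClosure O E)] [IsLocalHom (algebraMap O (integralClosure O E))]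
  {M : Type} [Field M] [Algebra K M] [FiniteDimensional K M] [Algebra O M] [IsScalarTower O K M]
  [IsLocalRing (integralClosure O M)] [IsLocalHom (algebraMap O (integralClosure O M))]
  [Algebra E M] [IsScalarTower K E M] [Normal K E]

/-- The restriction of a `j`-th Frobenius power to a normal subextension is a `j`-th Frobenius
power. -/
theorem IsFrobPow.restrictNormal {j : ℕ} {σ : M ≃ₐ[K] M} (hσ : IsFrobPow O K M j σ) :
    IsFrobPow O K E j (σ.restrictNormal E) := by
  haveI : IsScalarTower O E M := by
    refine IsScalarTower.of_algebraMap_eq fun x => ?_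
    rw [IsScalarTower.algebraMap_apply O K M, IsScalarTower.algebraMap_apply K E M,
      ← IsScalarTower.algebraMap_apply O K E]
  let ι : integralClosure O E →ₐ[O] integralClosure O M :=
    (IsScalarTower.toAlgHom O E M).mapIntegralClosure
  intro y
  by_contra hcon
  rw [mem_maximalIdeal, mem_nonunits_iff, not_not] at hcon
  have hunit := hcon.map ι
  have key : ι (galRestrict O K E (integralClosure O E) (σ.restrictNormal E) y -
      y ^ (Nat.card (ResidueField O) ^ j)) =
      galRestrict O K M (integralClosure O M) σ (ι y) -
        (ι y) ^ (Nat.card (ResidueField O) ^ j) := by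
    apply Subtype.ext
    rw [map_sub, map_pow]
    simp only [AddSubgroupClass.coe_sub, SubmonoidClass.coe_pow, galRestrict_coe]
    congr 1
    rw [AlgHom.coe_mapIntegralClosure, AlgHom.coe_mapIntegralClosure, galRestrict_coe]
    exact AlgEquiv.restrictNormal_commutes σ E (y : E)
  rw [key] at hunit
  exact (mem_maximalIdeal _).mp (hσ (ι y)) hunit

end Restrict

section Tower

variable (O K : Type) [CommRing O] [IsDomain O] [IsDiscreteValuationRing O]
  [IsAdicComplete (maximalIdeal O) O] [Finite (ResidueField O)]
  [Field K] [Algebra O K] [IsFractionRing O K] [CharZero K]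
  (L : Type) [Field L] [Algebra K L] [FiniteDimensional K L] [Algebra O L] [IsScalarTower O K L]
  [IsLocalRing (integralClosure O L)] [IsLocalHom (algebraMap O (integralClosure O L))]
  (M : Type) [Field M] [Algebra L M] [FiniteDimensional L M] [Algebra K M] [IsScalarTower K L M]
  [Algebra O M] [IsScalarTower O K M]

include K in
/-- The residue field of `O_L` has `q ^ f` elements. -/
theorem card_residueField_intRing :
    Nat.card (ResidueField (integralClosure O L)) =
      Nat.card (ResidueField O) ^ inertDeg O L := by
  haveI := intRing_finite O K L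
  rw [inertDeg_eq_finrank O K L]
  exact Module.natCard_eq_pow_finrank

/-- A Frobenius element of `M/L` is, as an automorphism of `M/K`, an `f(L/K)`-th Frobenius
power. -/
theorem IsFrob.isFrobPow_restrictScalars [FiniteDimensional K M] [CharZero L]
    [IsDiscreteValuationRing (integralClosure O L)] [IsFractionRing (integralClosure O L) L]
    [IsLocalRing (integralClosure (integralClosure O L) M)]
    [IsLocalRing (integralClosure O M)]
    {φ : M ≃ₐ[L] M} (hφ : IsFrob (integralClosure O L) L M φ) :
    IsFrobPow O K M (inertDeg O L) (φ.restrictScalars K) := by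
  intro x
  have h1 := hφ ((intRingTowerEquiv O K L M).symm x)
  rw [card_residueField_intRing O K L] at h1
  have hτ : ∀ z : integralClosure (integralClosure O L) M,
      z ∈ maximalIdeal (integralClosure (integralClosure O L) M) →
        intRingTowerEquiv O K L M z ∈ maximalIdeal (integralClosure O M) := by
    intro z hz
    rw [mem_maximalIdeal, mem_nonunits_iff] at hz ⊢
    rwa [isUnit_map_iff]
  have h2 := hτ _ h1
  convert h2 using 1
  apply Subtype.ext
  rw [map_sub, map_pow, RingEquiv.apply_symm_apply]
  simp only [AddSubgroupClass.coe_sub, SubmonoidClass.coe_pow, galRestrict_coe,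
    coe_intRingTowerEquiv, coe_intRingTowerEquiv_symm]
  rfl


/-- **Frobenius compatibility.**  Let `E/K` be unramified (Galois), `L/K` finite, and `M` a field
containing both with `M/L` Galois.  The restriction to `E` of the Frobenius of `M/L` is the
`f(L/K)`-th power of the Frobenius of `E/K`. -/
theorem restrictNormal_frob_eq_frob_pow [FiniteDimensional K M] [CharZero L]
    [IsDiscreteValuationRing (integralClosure O L)] [IsFractionRing (integralClosure O L) L]
    [IsAdicComplete (maximalIdeal (integralClosure O L)) (integralClosure O L)]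
    [Finite (ResidueField (integralClosure O L))]
    [IsLocalRing (integralClosure (integralClosure O L) M)]
    [IsLocalHom (algebraMap (integralClosure O L) (integralClosure (integralClosure O L) M))]
    [IsLocalRing (integralClosure O M)] [IsLocalHom (algebraMap O (integralClosure O M))]
    [IsGalois L M]
    (E : Type) [Field E] [Algebra K E] [FiniteDimensional K E] [Algebra O E] [IsScalarTower O K E]
    [IsLocalRing (integralClosure O E)] [IsLocalHom (algebraMap O (integralClosure O E))]
    [Algebra E M] [IsScalarTower K E M] [IsGalois K E] (hE : IsUnramExt O E) :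
    ((frob (integralClosure O L) L M).restrictScalars K).restrictNormal E =
      frob O K E ^ inertDeg O L :=
  ((isFrob_frob (integralClosure O L) L M).isFrobPow_restrictScalars O K L M).restrictNormal.eq_frob_pow
    hE

omit [IsDomain O] [IsDiscreteValuationRing O] [IsAdicComplete (maximalIdeal O) O]
  [Finite (ResidueField O)] [Algebra O K] [IsFractionRing O K] [CharZero K] [FiniteDimensional K L]
  [Algebra O L] [IsScalarTower O K L] [IsLocalRing (integralClosure O L)]
  [IsLocalHom (algebraMap O (integralClosure O L))] [FiniteDimensional L M] [Algebra O M]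
  [IsScalarTower O K M] in
/-- If `M` is generated over `L` by `E`, restriction `Gal(M/L) → Gal(E/K)` is injective. -/
theorem restrictNormal_restrictScalars_injective
    (E : Type) [Field E] [Algebra K E] [Algebra E M] [IsScalarTower K E M] [Normal K E]
    (hgen : Algebra.adjoin L (Set.range (algebraMap E M)) = ⊤) :
    Function.Injective
      (fun σ : M ≃ₐ[L] M => (σ.restrictScalars K).restrictNormal E) := by
  intro σ τ h
  have key : ∀ y : E, σ (algebraMap E M y) = τ (algebraMap E M y) := by
    intro y
    have h1 := AlgEquiv.restrictNormal_commutes (σ.restrictScalars K) E y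
    have h2 := AlgEquiv.restrictNormal_commutes (τ.restrictScalars K) E y
    have h3 : (σ.restrictScalars K).restrictNormal E y = (τ.restrictScalars K).restrictNormal E y :=
      DFunLike.congr_fun h y
    rw [h3] at h1
    exact h1.symm.trans h2
  have : (σ : M →ₐ[L] M) = (τ : M →ₐ[L] M) := by
    apply AlgHom.ext_of_adjoin_eq_top hgen
    rintro _ ⟨y, rfl⟩
    exact key y
  ext x
  exact DFunLike.congr_fun this x

end Tower

end Fermat.Agent.CFT
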