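import Mathlib
import Fermat.Agent.CFT.Local.UnramCompositum
import Fermat.Agent.CFT.GalMap

/-!
# CFT, local layer (B1b): unramified base change in the shapes used by the local class formation

Setting B of `ExtDVR.lean` with finite residue field on `(O, K)`.

* `isUnramExt_of_separable_root'` (U3-0): `L = K(η)`, `η` a root of a monic `g : O[X]` with
  separable reduction ⟹ `L/K` unramified.
* `isUnramExt_baseChange` (U3-a): square `K ⊆ L' ⊆ M`, `K ⊆ E ⊆ M`, `M = E·L'`, `L'/K` unramified
  ⟹ `M/E` unramified.  `isUnramExt_of_tower` : `L'/K` and `M/L'` unramified ⟹ `M/K` unramified.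
* `galRes_eq_frob_pow` (U3-b): a Frobenius of `M/E` restricts to `Frob_{L'/K} ^ f(E/K)`.
* `ramIdx_baseChange`, `dvrOrd_algebraMap_baseChange` (U3-c).
* `exists_unramified_intermediateField` (U3-d): unramified subextensions of every degree inside
  an algebraically closed field.
-/

set_option autoImplicit false
set_option linter.unusedSectionVars false
set_option linter.style.haveILetI false

namespace Fermat.Agent.CFT

open IsLocalRing Polynomial

section Criterion

variable {O K : Type} [CommRing O] [IsDomain O] [IsDiscreteValuationRing O]
  [IsAdicComplete (maximalIdeal O) O] [Finite (ResidueField O)]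
  [Field K] [Algebra O K] [IsFractionRing O K] [CharZero K]
  {L : Type} [Field L] [Algebra K L] [FiniteDimensional K L] [Algebra O L] [IsScalarTower O K L]

include K in
/-- (U3-0) If `L = K(η)` with `η` a root of a monic polynomial over `O` with separable reduction,
then `L/K` is unramified. -/
theorem isUnramExt_of_separable_root' {g : O[X]} (hg : g.Monic)
    (hsep : (g.map (residue O)).Separable) (η : L) (hη : aeval η g = 0)
    (hgen : IntermediateField.adjoin K {η} = ⊤) : IsUnramExt O L := by
  have hint : IsIntegral O η := ⟨g, hg, by rwa [← aeval_def]⟩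
  have h0 : aeval (⟨η, hint⟩ : integralClosure O L) g = 0 := by
    apply Subtype.ext
    rw [← Subalgebra.aeval_coe]
    exact hη
  have hgen' : Algebra.adjoin K {η} = ⊤ := by
    rw [← IntermediateField.adjoin_simple_toSubalgebra_of_isAlgebraic
      (Algebra.IsAlgebraic.isAlgebraic η), hgen]
    rfl
  exact (isUnramExt_of_separable_root (K := K) hg hsep ⟨η, hint⟩ h0 hgen').1

end Criterion

section Square

variable (O K : Type) [CommRing O] [IsDomain O] [IsDiscreteValuationRing O]
  [IsAdicComplete (maximalIdeal O) O] [Finite (ResidueField O)]
  [Field K] [Algebra O K] [IsFractionRing O K] [CharZero K]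
  (L' : Type) [Field L'] [Algebra K L'] [FiniteDimensional K L'] [Algebra O L']
  [IsScalarTower O K L']
  (E : Type) [Field E] [Algebra K E] [FiniteDimensional K E] [Algebra O E] [IsScalarTower O K E]
  (M : Type) [Field M] [Algebra K M] [Algebra O M] [IsScalarTower O K M]
  [Algebra L' M] [IsScalarTower K L' M] [Algebra E M] [IsScalarTower K E M]
  [FiniteDimensional E M]

include K in
/-- (U3-a) **Unramified base change.**  In a square `K ⊆ L' ⊆ M`, `K ⊆ E ⊆ M` with `M = E·L'` and
`L'/K` unramified, the extension `M/E` is unramified. -/
theorem isUnramExt_baseChange [IsLocalRing (integralClosure O E)] (hL' : IsUnramExt O L')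
    (hgen : IntermediateField.adjoin E (Set.range (algebraMap L' M)) = ⊤) :
    IsUnramExt (integralClosure O E) M := by
  apply isUnramExt_compositum O K E L' M hL'
  have halg : Algebra.IsAlgebraic E M := inferInstance
  rw [← IntermediateField.adjoin_toSubalgebra (F := E) (E := M), hgen]
  rfl

end Square

section TowerUnram

variable (O K : Type) [CommRing O] [IsDomain O] [IsDiscreteValuationRing O]
  [IsAdicComplete (maximalIdeal O) O] [Finite (ResidueField O)]
  [Field K] [Algebra O K] [IsFractionRing O K] [CharZero K]
  (L : Type) [Field L] [Algebra K L] [FiniteDimensional K L] [Algebra O L] [IsScalarTower O K L]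
  (M : Type) [Field M] [Algebra L M] [FiniteDimensional L M] [Algebra K M] [IsScalarTower K L M]
  [Algebra O M] [IsScalarTower O K M]

include K in
/-- A tower of unramified extensions is unramified. -/
theorem isUnramExt_of_tower [IsLocalRing (integralClosure O L)] (hL : IsUnramExt O L)
    (hM : IsUnramExt (integralClosure O L) M) : IsUnramExt O M := by
  haveI : FiniteDimensional K M := FiniteDimensional.trans K L M
  haveI := tower_isScalarTower_O_L_M O K L M
  haveI := tower_charZero K L
  haveI := intRing_isDiscreteValuationRing O K L
  haveI := intRing_isFractionRing O K L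
  haveI := intRing_isAdicComplete O K L
  haveI := intRing_isLocalRing O K M
  haveI := intRing_isLocalRing (integralClosure O L) L M
  rw [isUnramExt_iff_ramIdx O K M, ramIdx_tower O K L M, (isUnramExt_iff_ramIdx O K L).mp hL,
    (isUnramExt_iff_ramIdx (integralClosure O L) L M).mp hM]

include K in
/-- In a tower `K ⊆ L ⊆ M` with `M/K` unramified, `L/K` is unramified. -/
theorem isUnramExt_bot_of_tower [IsLocalRing (integralClosure O L)] (hM : IsUnramExt O M) :
    IsUnramExt O L := by
  haveI : FiniteDimensional K M := FiniteDimensional.trans K L M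
  haveI := tower_isScalarTower_O_L_M O K L M
  haveI := tower_charZero K L
  haveI := intRing_isDiscreteValuationRing O K L
  haveI := intRing_isFractionRing O K L
  haveI := intRing_isAdicComplete O K L
  haveI := intRing_isLocalRing O K M
  haveI := intRing_isLocalRing (integralClosure O L) L M
  have h := (isUnramExt_iff_ramIdx O K M).mp hM
  rw [ramIdx_tower O K L M] at h
  exact (isUnramExt_iff_ramIdx O K L).mpr (Nat.eq_one_of_mul_eq_one_right h)

include K in
/-- In a tower `K ⊆ L ⊆ M` with `M/K` unramified, `M/L` is unramified. -/
theorem isUnramExt_top_of_tower [IsLocalRing (integralClosure O L)] (hM : IsUnramExt O M) :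
    IsUnramExt (integralClosure O L) M := by
  haveI : FiniteDimensional K M := FiniteDimensional.trans K L M
  haveI := tower_isScalarTower_O_L_M O K L M
  haveI := tower_charZero K L
  haveI := intRing_isDiscreteValuationRing O K L
  haveI := intRing_isFractionRing O K L
  haveI := intRing_isAdicComplete O K L
  haveI := intRing_isLocalRing O K M
  haveI := intRing_isLocalRing (integralClosure O L) L M
  have h := (isUnramExt_iff_ramIdx O K M).mp hM
  rw [ramIdx_tower O K L M] at h
  exact (isUnramExt_iff_ramIdx (integralClosure O L) L M).mpr (Nat.eq_one_of_mul_eq_one_left h)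

end TowerUnram

section FrobSquare

variable (O K : Type) [CommRing O] [IsDomain O] [IsDiscreteValuationRing O]
  [IsAdicComplete (maximalIdeal O) O] [Finite (ResidueField O)]
  [Field K] [Algebra O K] [IsFractionRing O K] [CharZero K]
  (L' : Type) [Field L'] [Algebra K L'] [FiniteDimensional K L'] [Algebra O L']
  [IsScalarTower O K L']
  [IsLocalRing (integralClosure O L')] [IsLocalHom (algebraMap O (integralClosure O L'))]
  (E : Type) [Field E] [Algebra K E] [FiniteDimensional K E] [Algebra O E] [IsScalarTower O K E]
  [IsLocalRing (integralClosure O E)] [IsLocalHom (algebraMap O (integralClosure O E))]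
  (M : Type) [Field M] [Algebra K M] [FiniteDimensional K M] [Algebra O M] [IsScalarTower O K M]
  [IsLocalRing (integralClosure O M)] [IsLocalHom (algebraMap O (integralClosure O M))]
  [Algebra L' M] [IsScalarTower K L' M] [Algebra E M] [IsScalarTower K E M]
  [FiniteDimensional E M]

/-- (U3-b) **Frobenius base change.**  In a square `K ⊆ L' ⊆ M`, `K ⊆ E ⊆ M` with `L'/K`
unramified Galois, a Frobenius element `φ` of `M/E` restricts on `L'` to the `f(E/K)`-th power of
the Frobenius of `L'/K`. -/
theorem galRes_eq_frob_pow [CharZero E]
    [IsDiscreteValuationRing (integralClosure O E)] [IsFractionRing (integralClosure O E) E]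
    [IsLocalRing (integralClosure (integralClosure O E) M)]
    [IsGalois K L'] (hL' : IsUnramExt O L') {φ : M ≃ₐ[E] M}
    (hφ : IsFrob (integralClosure O E) E M φ) :
    galRes K L' E M φ = frob O K L' ^ inertDeg O E :=
  ((hφ.isFrobPow_restrictScalars O K E M).restrictNormal (E := L')).eq_frob_pow hL'

omit [FiniteDimensional K E] [Algebra O E] [IsScalarTower O K E]
  [IsLocalRing (integralClosure O E)] [IsLocalHom (algebraMap O (integralClosure O E))]
  [Algebra E M] [IsScalarTower K E M] [FiniteDimensional E M] [Algebra K E] in
/-- Special case `E = K`: a Frobenius element of `M/K` restricts to the Frobenius of an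
unramified Galois subextension `L'/K`. -/
theorem IsFrob.restrictNormal_eq_frob [IsGalois K L'] (hL' : IsUnramExt O L') {φ : M ≃ₐ[K] M}
    (hφ : IsFrob O K M φ) : φ.restrictNormal L' = frob O K L' := by
  have h1 : IsFrobPow O K M 1 φ := (isFrobPow_one_iff O K M φ).mpr hφ
  rw [(h1.restrictNormal (E := L')).eq_frob_pow hL', pow_one]

end FrobSquare

section OrdTower

variable (O K : Type) [CommRing O] [IsDomain O] [IsDiscreteValuationRing O]
  [IsAdicComplete (maximalIdeal O) O]
  [Field K] [Algebra O K] [IsFractionRing O K] [CharZero K]
  (L : Type) [Field L] [Algebra K L] [FiniteDimensional K L] [Algebra O L] [IsScalarTower O K L]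
  (M : Type) [Field M] [Algebra L M] [FiniteDimensional L M] [Algebra K M] [IsScalarTower K L M]
  [Algebra O M] [IsScalarTower O K M]

include K in
/-- (U3-c) `ord_M (x) = e(M/L) · ord_L (x)` for `x ∈ L`, with `ord_M` computed on the ring of
integers of `M` over `O`. -/
theorem dvrOrd_algebraMap_tower [IsDiscreteValuationRing (integralClosure O L)]
    [IsFractionRing (integralClosure O L) L]
    [IsDiscreteValuationRing (integralClosure O M)] [IsFractionRing (integralClosure O M) M]
    [IsLocalRing (integralClosure (integralClosure O L) M)] (x : L) :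
    dvrOrd (integralClosure O M) M (algebraMap L M x) =
      ramIdx (integralClosure O L) M * dvrOrd (integralClosure O L) L x := by
  haveI : FiniteDimensional K M := FiniteDimensional.trans K L M
  haveI := tower_isScalarTower_O_L_M O K L M
  haveI := tower_charZero K L
  haveI := intRing_isAdicComplete O K L
  haveI := intRing_isDiscreteValuationRing (integralClosure O L) L M
  haveI := intRing_isFractionRing (integralClosure O L) L M
  rw [← dvrOrd_tower_eq O K L M]
  exact dvrOrd_algebraMap_eq_ramIdx_mul (integralClosure O L) L M x

end OrdTower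

section RamSquare

variable (O K : Type) [CommRing O] [IsDomain O] [IsDiscreteValuationRing O]
  [IsAdicComplete (maximalIdeal O) O] [Finite (ResidueField O)]
  [Field K] [Algebra O K] [IsFractionRing O K] [CharZero K]
  (L' : Type) [Field L'] [Algebra K L'] [FiniteDimensional K L'] [Algebra O L']
  [IsScalarTower O K L']
  (E : Type) [Field E] [Algebra K E] [FiniteDimensional K E] [Algebra O E] [IsScalarTower O K E]
  (M : Type) [Field M] [Algebra K M] [Algebra O M] [IsScalarTower O K M]
  [Algebra L' M] [IsScalarTower K L' M] [Algebra E M] [IsScalarTower K E M]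
  [FiniteDimensional E M] [FiniteDimensional L' M]

include K in
/-- (U3-c) In a square with `L'/K` and `M/E` unramified, `e(M/L') = e(E/K)`. -/
theorem ramIdx_baseChange [IsLocalRing (integralClosure O E)] [IsLocalRing (integralClosure O L')]
    [IsLocalRing (integralClosure (integralClosure O L') M)]
    (hL' : IsUnramExt O L') (hM : IsUnramExt (integralClosure O E) M) :
    ramIdx (integralClosure O L') M = ramIdx O E := by
  haveI : FiniteDimensional K M := FiniteDimensional.trans K E M
  haveI := intRing_isLocalRing O K M
  -- the setting for `(O_E, E, M)`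
  haveI := tower_isScalarTower_O_L_M O K E M
  haveI := tower_charZero K E
  haveI := intRing_isDiscreteValuationRing O K E
  haveI := intRing_isFractionRing O K E
  haveI := intRing_isAdicComplete O K E
  haveI := intRing_isLocalRing (integralClosure O E) E M
  have h1 := ramIdx_tower O K L' M
  have h2 := ramIdx_tower O K E M
  rw [(isUnramExt_iff_ramIdx O K L').mp hL', one_mul] at h1
  rw [(isUnramExt_iff_ramIdx (integralClosure O E) E M).mp hM, mul_one] at h2
  rw [← h1, h2]

end RamSquare

section Closure

variable (O K : Type) [CommRing O] [IsDomain O] [IsDiscreteValuationRing O]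
  [IsAdicComplete (maximalIdeal O) O] [Finite (ResidueField O)]
  [Field K] [Algebra O K] [IsFractionRing O K] [CharZero K]
  (Ω : Type) [Field Ω] [Algebra K Ω] [Algebra O Ω] [IsScalarTower O K Ω] [IsAlgClosed Ω]

/-- (U3-d) Inside an algebraically closed field there are unramified (Galois) subextensions of
every degree. -/
theorem exists_unramified_intermediateField (m : ℕ) (hm : 0 < m) :
    ∃ K' : IntermediateField K Ω, FiniteDimensional K K' ∧ Module.finrank K K' = m ∧
      IsGalois K K' ∧ IsUnramExt O K' := by
  have hg := unramPoly_isUnramPoly O m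
  have hdeg := natDegree_unramPoly O m hm
  obtain ⟨η, hη⟩ := IsAlgClosed.exists_aeval_eq_zero Ω ((unramPoly O m).map (algebraMap O K)) (by
    rw [degree_eq_natDegree (hg.monic.map _).ne_zero, hg.monic.natDegree_map, hdeg]
    exact_mod_cast hm.ne')
  rw [aeval_map_algebraMap] at hη
  have hint : IsIntegral K η := ⟨(unramPoly O m).map (algebraMap O K), hg.monic.map _, by
    rw [← aeval_def, aeval_map_algebraMap]; exact hη⟩
  have hmin : minpoly K η = (unramPoly O m).map (algebraMap O K) := by
    symm
    apply minpoly.eq_of_irreducible_of_monic (hg.irreducible_map_fraction (K := K)) _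
      (hg.monic.map _)
    rwa [aeval_map_algebraMap]
  haveI : FiniteDimensional K (IntermediateField.adjoin K {η}) :=
    IntermediateField.adjoin.finiteDimensional hint
  have hfin : Module.finrank K (IntermediateField.adjoin K {η}) = m := by
    rw [IntermediateField.adjoin.finrank hint, hmin, hg.monic.natDegree_map, hdeg]
  haveI : IsScalarTower O (IntermediateField.adjoin K {η}) Ω :=
    IsScalarTower.of_algebraMap_eq (fun _ => rfl)
  have hθ : aeval (IntermediateField.AdjoinSimple.gen K η) (unramPoly O m) = 0 := by
    apply (algebraMap (IntermediateField.adjoin K {η}) Ω).injective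
    rw [map_zero, ← aeval_algebraMap_apply, IntermediateField.AdjoinSimple.algebraMap_gen]
    exact hη
  refine ⟨IntermediateField.adjoin K {η}, inferInstance, hfin, ?_, ?_⟩
  · exact isGalois_of_root (K := K) hg _ hθ (hfin.trans hdeg.symm)
  · exact isUnramExt_of_root (K := K) hg _ hθ (hfin.trans hdeg.symm)

end Closure

end Fermat.Agent.CFT
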