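import Mathlib
import Fermat.Agent.CFT.Local.UnramLocal
import Fermat.Agent.CFT.Local.Frobenius

/-!
# CFT, Layer B: independence of the model of the base ring

The local theory (`ExtDVR`, `Frobenius`, `UnramLocal`) is developed over a base `(O, K)` and a
finite extension `L/K` with ring of integers `integralClosure O L`.  When the setting is applied to
a layer `F'/F` of a tower, the base ring appears in several models (`integralClosure O₀ F`,
`integralClosure (integralClosure O₀ E) F`, ...).  This file shows that everything is independent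
of the model: for a ring isomorphism `e : O₁ ≃+* O₂` compatible with the maps to `K`,

* `isIntegral_iff_of_ringEquiv`, `dvrOrd_eq_of_range_eq`, `dvrOrd_intRing_eq_of_ringEquiv`;
* `ordLin_eq_of_ringEquiv`, `unramInv_eq_of_ringEquiv`;
* `ramIdx_eq_of_ringEquiv`, `inertDeg_eq_of_ringEquiv`, `isUnramExt_iff_of_ringEquiv`;
* `isFrob_iff_dvrOrd`, `isFrob_iff_of_ringEquiv`.
-/

set_option autoImplicit false
set_option linter.unusedSectionVars false
set_option linter.overlappingInstances false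

namespace Fermat.Agent.CFT

open IsLocalRing groupCohomology

section Generic

variable (B₁ B₂ L : Type) [CommRing B₁] [IsDomain B₁] [IsDiscreteValuationRing B₁]
  [CommRing B₂] [IsDomain B₂] [IsDiscreteValuationRing B₂]
  [Field L] [Algebra B₁ L] [IsFractionRing B₁ L] [Algebra B₂ L] [IsFractionRing B₂ L]

/-- Two discrete valuation rings with the same image in their common fraction field define the
same normalised valuation. -/
theorem dvrOrd_eq_of_range_eq (h : (algebraMap B₁ L).range = (algebraMap B₂ L).range) (x : L) :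
    dvrOrd B₁ L x = dvrOrd B₂ L x := by
  have hnn : ∀ y : L, y ≠ 0 → (0 ≤ dvrOrd B₁ L y ↔ 0 ≤ dvrOrd B₂ L y) := by
    intro y hy
    rw [dvrOrd_nonneg_iff B₁ L hy, dvrOrd_nonneg_iff B₂ L hy, h]
  have hz : ∀ y : L, y ≠ 0 → (dvrOrd B₁ L y = 0 ↔ dvrOrd B₂ L y = 0) := by
    intro y hy
    have h1 := hnn y hy
    have h2 := hnn y⁻¹ (inv_ne_zero hy)
    rw [dvrOrd_inv, dvrOrd_inv] at h2
    constructor <;> intro h0 <;> omega
  obtain ⟨π₁, hπ₁⟩ := dvrOrd_surjective B₁ L 1
  obtain ⟨π₂, hπ₂⟩ := dvrOrd_surjective B₂ L 1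
  have hπ₁0 : π₁ ≠ 0 := by
    rintro rfl
    rw [dvrOrd_zero] at hπ₁
    omega
  have hπ₂0 : π₂ ≠ 0 := by
    rintro rfl
    rw [dvrOrd_zero] at hπ₂
    omega
  have hm0 : 0 ≤ dvrOrd B₂ L π₁ := (hnn π₁ hπ₁0).mp (by omega)
  have hm1 : dvrOrd B₂ L π₁ ≠ 0 := fun h0 => by
    have := (hz π₁ hπ₁0).mpr h0
    omega
  have hm'0 : 0 ≤ dvrOrd B₁ L π₂ := (hnn π₂ hπ₂0).mpr (by omega)
  have hm'1 : dvrOrd B₁ L π₂ ≠ 0 := fun h0 => by
    have := (hz π₂ hπ₂0).mp h0
    omega
  -- the element `π₂ / π₁ ^ m'`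
  have hkey : dvrOrd B₂ L π₁ = 1 := by
    have hy0 : π₂ * (π₁ ^ (dvrOrd B₁ L π₂))⁻¹ ≠ 0 :=
      mul_ne_zero hπ₂0 (inv_ne_zero (zpow_ne_zero _ hπ₁0))
    have h1 : dvrOrd B₁ L (π₂ * (π₁ ^ (dvrOrd B₁ L π₂))⁻¹) = 0 := by
      rw [dvrOrd_mul B₁ L hπ₂0 (inv_ne_zero (zpow_ne_zero _ hπ₁0)), dvrOrd_inv, dvrOrd_zpow, hπ₁]
      ring
    have h2 := (hz _ hy0).mp h1
    rw [dvrOrd_mul B₂ L hπ₂0 (inv_ne_zero (zpow_ne_zero _ hπ₁0)), dvrOrd_inv, dvrOrd_zpow,
      hπ₂] at h2
    have h3 : dvrOrd B₁ L π₂ * dvrOrd B₂ L π₁ = 1 := by linarith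
    have h4 : 1 ≤ dvrOrd B₂ L π₁ := by omega
    have h5 : 1 ≤ dvrOrd B₁ L π₂ := by omega
    nlinarith
  by_cases hx : x = 0
  · subst hx
    rw [dvrOrd_zero, dvrOrd_zero]
  have hy0 : x * (π₁ ^ (dvrOrd B₁ L x))⁻¹ ≠ 0 :=
    mul_ne_zero hx (inv_ne_zero (zpow_ne_zero _ hπ₁0))
  have h1 : dvrOrd B₁ L (x * (π₁ ^ (dvrOrd B₁ L x))⁻¹) = 0 := by
    rw [dvrOrd_mul B₁ L hx (inv_ne_zero (zpow_ne_zero _ hπ₁0)), dvrOrd_inv, dvrOrd_zpow, hπ₁]
    ring
  have h2 := (hz _ hy0).mp h1
  rw [dvrOrd_mul B₂ L hx (inv_ne_zero (zpow_ne_zero _ hπ₁0)), dvrOrd_inv, dvrOrd_zpow,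
    hkey] at h2
  linarith

end Generic

section Integral

variable {O₁ O₂ L : Type} [CommRing O₁] [CommRing O₂] [CommRing L] [Algebra O₁ L] [Algebra O₂ L]

/-- Integrality transfers along a ring isomorphism of the base rings compatible with the maps to
`L`. -/
theorem isIntegral_of_ringEquiv (e : O₁ ≃+* O₂)
    (he : ∀ a, algebraMap O₂ L (e a) = algebraMap O₁ L a) {x : L} (hx : IsIntegral O₁ x) :
    IsIntegral O₂ x := by
  obtain ⟨p, hp, hpx⟩ := hx
  refine ⟨p.map (e : O₁ →+* O₂), hp.map _, ?_⟩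
  rw [Polynomial.eval₂_map]
  have : (algebraMap O₂ L).comp (e : O₁ →+* O₂) = algebraMap O₁ L := RingHom.ext he
  rw [this]
  exact hpx

theorem isIntegral_iff_of_ringEquiv (e : O₁ ≃+* O₂)
    (he : ∀ a, algebraMap O₂ L (e a) = algebraMap O₁ L a) (x : L) :
    IsIntegral O₁ x ↔ IsIntegral O₂ x := by
  refine ⟨isIntegral_of_ringEquiv e he, isIntegral_of_ringEquiv e.symm fun a => ?_⟩
  rw [← he (e.symm a), RingEquiv.apply_symm_apply]

theorem range_algebraMap_integralClosure_eq_of_ringEquiv (e : O₁ ≃+* O₂)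
    (he : ∀ a, algebraMap O₂ L (e a) = algebraMap O₁ L a) :
    (algebraMap (integralClosure O₁ L) L).range = (algebraMap (integralClosure O₂ L) L).range := by
  ext x
  constructor
  · rintro ⟨y, rfl⟩
    exact ⟨⟨(y : L), (isIntegral_iff_of_ringEquiv e he _).mp y.2⟩, rfl⟩
  · rintro ⟨y, rfl⟩
    exact ⟨⟨(y : L), (isIntegral_iff_of_ringEquiv e he _).mpr y.2⟩, rfl⟩

end Integral

section Setting

variable (O₁ O₂ K : Type) [CommRing O₁] [IsDomain O₁] [IsDiscreteValuationRing O₁]
  [IsAdicComplete (maximalIdeal O₁) O₁]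
  [CommRing O₂] [IsDomain O₂] [IsDiscreteValuationRing O₂]
  [IsAdicComplete (maximalIdeal O₂) O₂]
  [Field K] [Algebra O₁ K] [IsFractionRing O₁ K] [Algebra O₂ K] [IsFractionRing O₂ K] [CharZero K]
  (L : Type) [Field L] [Algebra K L] [FiniteDimensional K L]
  [Algebra O₁ L] [IsScalarTower O₁ K L] [Algebra O₂ L] [IsScalarTower O₂ K L]
  (e : O₁ ≃+* O₂) (he : ∀ a, algebraMap O₂ K (e a) = algebraMap O₁ K a)

include he in
theorem algebraMap_top_of_ringEquiv (a : O₁) : algebraMap O₂ L (e a) = algebraMap O₁ L a := by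
  rw [IsScalarTower.algebraMap_apply O₂ K L, he, ← IsScalarTower.algebraMap_apply O₁ K L]

include he in
theorem range_algebraMap_eq_of_ringEquiv :
    (algebraMap O₁ K).range = (algebraMap O₂ K).range := by
  ext x
  constructor
  · rintro ⟨a, rfl⟩
    exact ⟨e a, he a⟩
  · rintro ⟨a, rfl⟩
    exact ⟨e.symm a, by rw [← he, RingEquiv.apply_symm_apply]⟩

include he in
/-- The normalised valuation of `L` does not depend on the model of the base ring. -/
theorem dvrOrd_intRing_eq_of_ringEquiv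
    [IsDiscreteValuationRing (integralClosure O₁ L)] [IsFractionRing (integralClosure O₁ L) L]
    [IsDiscreteValuationRing (integralClosure O₂ L)] [IsFractionRing (integralClosure O₂ L) L]
    (x : L) :
    dvrOrd (integralClosure O₁ L) L x = dvrOrd (integralClosure O₂ L) L x :=
  dvrOrd_eq_of_range_eq _ _ L
    (range_algebraMap_integralClosure_eq_of_ringEquiv e
      (algebraMap_top_of_ringEquiv O₁ O₂ K L e he)) x

include he in
theorem ordLin_eq_of_ringEquiv : ordLin O₁ K L = ordLin O₂ K L := by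
  have := intRing_isDiscreteValuationRing O₁ K L
  have := intRing_isFractionRing O₁ K L
  have := intRing_isDiscreteValuationRing O₂ K L
  have := intRing_isFractionRing O₂ K L
  ext a
  change dvrOrd (integralClosure O₁ L) L ((Additive.toMul a : Lˣ) : L) =
    dvrOrd (integralClosure O₂ L) L ((Additive.toMul a : Lˣ) : L)
  exact dvrOrd_intRing_eq_of_ringEquiv O₁ O₂ K L e he _

include he in
/-- The unramified invariant does not depend on the model of the base ring. -/
theorem unramInv_eq_of_ringEquiv (φ : L ≃ₐ[K] L) : unramInv O₁ K L φ = unramInv O₂ K L φ := by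
  have h := ordLin_eq_of_ringEquiv O₁ O₂ K L e he
  unfold unramInv
  congr 1

include he in
theorem ramIdx_eq_of_ringEquiv [IsLocalRing (integralClosure O₁ L)]
    [IsLocalRing (integralClosure O₂ L)] : ramIdx O₁ L = ramIdx O₂ L := by
  have := intRing_isDiscreteValuationRing O₁ K L
  have := intRing_isFractionRing O₁ K L
  have := intRing_isDiscreteValuationRing O₂ K L
  have := intRing_isFractionRing O₂ K L
  obtain ⟨π, hπ⟩ := dvrOrd_surjective O₁ K 1
  have h1 := dvrOrd_algebraMap_eq_ramIdx_mul O₁ K L π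
  have h2 := dvrOrd_algebraMap_eq_ramIdx_mul O₂ K L π
  rw [← dvrOrd_eq_of_range_eq O₁ O₂ K (range_algebraMap_eq_of_ringEquiv O₁ O₂ K e he) π, hπ,
    ← dvrOrd_intRing_eq_of_ringEquiv O₁ O₂ K L e he, h1, hπ] at h2
  have : (ramIdx O₁ L : ℤ) = ramIdx O₂ L := by linarith
  exact_mod_cast this

include he in
theorem isUnramExt_iff_of_ringEquiv : IsUnramExt O₁ L ↔ IsUnramExt O₂ L := by
  have := intRing_isLocalRing O₁ K L
  have := intRing_isLocalRing O₂ K L
  rw [isUnramExt_iff_ramIdx O₁ K L, isUnramExt_iff_ramIdx O₂ K L,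
    ramIdx_eq_of_ringEquiv O₁ O₂ K L e he]

end Setting

section Frob

variable (O K : Type) [CommRing O] [IsDomain O] [IsDiscreteValuationRing O]
  [IsAdicComplete (maximalIdeal O) O] [Finite (ResidueField O)]
  [Field K] [Algebra O K] [IsFractionRing O K] [CharZero K]
  (L : Type) [Field L] [Algebra K L] [FiniteDimensional K L] [Algebra O L] [IsScalarTower O K L]
  [IsLocalRing (integralClosure O L)] [IsLocalHom (algebraMap O (integralClosure O L))]

/-- Intrinsic form of the Frobenius condition. -/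
theorem isFrob_iff_dvrOrd [IsDiscreteValuationRing (integralClosure O L)]
    [IsFractionRing (integralClosure O L) L] (φ : L ≃ₐ[K] L) :
    IsFrob O K L φ ↔ ∀ x : L, IsIntegral O x →
      (φ x - x ^ Nat.card (ResidueField O) = 0 ∨
        0 < dvrOrd (integralClosure O L) L (φ x - x ^ Nat.card (ResidueField O))) := by
  have hcoe : ∀ x : integralClosure O L,
      algebraMap (integralClosure O L) L
        (galRestrict O K L (integralClosure O L) φ x - x ^ Nat.card (ResidueField O)) =
        φ (x : L) - (x : L) ^ Nat.card (ResidueField O) := by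
    intro x
    rw [map_sub, map_pow, algebraMap_galRestrict_apply]
    rfl
  have hmem : ∀ z : integralClosure O L, z ∈ maximalIdeal (integralClosure O L) ↔
      (algebraMap (integralClosure O L) L z = 0 ∨
        0 < dvrOrd (integralClosure O L) L (algebraMap (integralClosure O L) L z)) := by
    intro z
    by_cases hz : z = 0
    · subst hz
      simp
    · rw [mem_maximalIdeal_iff_dvrOrd_pos (integralClosure O L) L hz]
      constructor
      · intro h; exact Or.inr h
      · rintro (h | h)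
        · exact absurd h (algebraMap_ne_zero_of_ne_zero (integralClosure O L) L hz)
        · exact h
  constructor
  · intro h x hx
    have := (hmem _).mp (h ⟨x, hx⟩)
    rw [hcoe] at this
    exact this
  · intro h x
    rw [hmem, hcoe]
    exact h (x : L) x.2

end Frob

section SettingFrob

variable (O₁ O₂ K : Type) [CommRing O₁] [IsDomain O₁] [IsDiscreteValuationRing O₁]
  [IsAdicComplete (maximalIdeal O₁) O₁] [Finite (ResidueField O₁)]
  [CommRing O₂] [IsDomain O₂] [IsDiscreteValuationRing O₂]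
  [IsAdicComplete (maximalIdeal O₂) O₂] [Finite (ResidueField O₂)]
  [Field K] [Algebra O₁ K] [IsFractionRing O₁ K] [Algebra O₂ K] [IsFractionRing O₂ K] [CharZero K]
  (L : Type) [Field L] [Algebra K L] [FiniteDimensional K L]
  [Algebra O₁ L] [IsScalarTower O₁ K L] [Algebra O₂ L] [IsScalarTower O₂ K L]
  (e : O₁ ≃+* O₂) (he : ∀ a, algebraMap O₂ K (e a) = algebraMap O₁ K a)

omit [Algebra O₁ K] [Algebra O₂ K] [IsFractionRing O₁ K] [IsFractionRing O₂ K] in
theorem card_residueField_eq_of_ringEquiv (e : O₁ ≃+* O₂) :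
    Nat.card (ResidueField O₁) = Nat.card (ResidueField O₂) :=
  Nat.card_congr (IsLocalRing.ResidueField.mapEquiv e).toEquiv

include he in
/-- The Frobenius condition does not depend on the model of the base ring. -/
theorem isFrob_iff_of_ringEquiv
    [IsLocalRing (integralClosure O₁ L)] [IsLocalHom (algebraMap O₁ (integralClosure O₁ L))]
    [IsLocalRing (integralClosure O₂ L)] [IsLocalHom (algebraMap O₂ (integralClosure O₂ L))]
    (φ : L ≃ₐ[K] L) : IsFrob O₁ K L φ ↔ IsFrob O₂ K L φ := by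
  have := intRing_isDiscreteValuationRing O₁ K L
  have := intRing_isFractionRing O₁ K L
  have := intRing_isDiscreteValuationRing O₂ K L
  have := intRing_isFractionRing O₂ K L
  rw [isFrob_iff_dvrOrd O₁ K L φ, isFrob_iff_dvrOrd O₂ K L φ,
    card_residueField_eq_of_ringEquiv O₁ O₂ e]
  refine forall_congr' fun x => ?_
  rw [isIntegral_iff_of_ringEquiv e (algebraMap_top_of_ringEquiv O₁ O₂ K L e he) x,
    dvrOrd_intRing_eq_of_ringEquiv O₁ O₂ K L e he]

include he in
theorem inertDeg_eq_of_ringEquiv [IsLocalRing (integralClosure O₁ L)]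
    [IsLocalRing (integralClosure O₂ L)] : inertDeg O₁ L = inertDeg O₂ L := by
  have h1 := ramIdx_mul_inertDeg O₁ K L
  have h2 := ramIdx_mul_inertDeg O₂ K L
  rw [← h2, ramIdx_eq_of_ringEquiv O₁ O₂ K L e he] at h1
  exact Nat.eq_of_mul_eq_mul_left (ramIdx_pos O₂ K L) h1

include he in
/-- The chosen Frobenius of one model is a Frobenius element for the other model. -/
theorem isFrob_frob_of_ringEquiv [IsGalois K L]
    [IsLocalRing (integralClosure O₁ L)] [IsLocalHom (algebraMap O₁ (integralClosure O₁ L))]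
    [IsLocalRing (integralClosure O₂ L)] [IsLocalHom (algebraMap O₂ (integralClosure O₂ L))] :
    IsFrob O₁ K L (frob O₂ K L) :=
  (isFrob_iff_of_ringEquiv O₁ O₂ K L e he _).mpr (isFrob_frob O₂ K L)

end SettingFrob

end Fermat.Agent.CFT
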