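import Mathlib
import Fermat.Agent.CFT.Local.UnramBaseChange
import Fermat.Agent.CFT.Local.UnramLocal

/-!
# CFT, node B4d: base change of the unramified invariant

In a commutative square of local fields `K ⊆ L' ⊆ M`, `K ⊆ E ⊆ M` with `L'/K` and `M/E`
unramified Galois, `inv_{M/E} (galMap y) = [E : K] • inv_{L'/K} y`
(`unramInv_galMap`), and the special case `E = K` of inflation (`unramInv_galInfl`).
-/

set_option autoImplicit false
set_option linter.unusedSectionVars false

namespace Fermat.Agent.CFT

open IsLocalRing groupCohomology

section Square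

variable (O K : Type) [CommRing O] [IsDomain O] [IsDiscreteValuationRing O]
  [IsAdicComplete (maximalIdeal O) O] [Finite (ResidueField O)]
  [Field K] [Algebra O K] [IsFractionRing O K] [CharZero K]
  (L' : Type) [Field L'] [Algebra K L'] [FiniteDimensional K L'] [Algebra O L']
  [IsScalarTower O K L']
  (E : Type) [Field E] [Algebra K E] [FiniteDimensional K E] [Algebra O E] [IsScalarTower O K E]
  (M : Type) [Field M] [Algebra K M] [Algebra O M] [IsScalarTower O K M]
  [Algebra L' M] [IsScalarTower K L' M] [Algebra E M] [IsScalarTower K E M]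
  [FiniteDimensional E M]

/-- `ord_M ∘ (L'ˣ → Mˣ) = e(E/K) · ord_{L'}` when `L'/K` and `M/E` are unramified. -/
theorem ordLin_galUnitsHom [IsGalois K L']
    [IsLocalRing (integralClosure O L')]
    [CharZero E] [IsDiscreteValuationRing (integralClosure O E)]
    [IsFractionRing (integralClosure O E) E]
    [IsAdicComplete (maximalIdeal (integralClosure O E)) (integralClosure O E)]
    (hL' : IsUnramExt O L') (hM : IsUnramExt (integralClosure O E) M)
    (a : (Rep.ofAlgebraAutOnUnits K L' : Rep.{0} ℤ (L' ≃ₐ[K] L'))) :
    ordLin (integralClosure O E) E M ((galUnitsHom K L' E M).hom a) =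
      (ramIdx O E : ℤ) * ordLin O K L' a := by
  have hKM : FiniteDimensional K M := FiniteDimensional.trans K E M
  have hL'M : FiniteDimensional L' M := FiniteDimensional.right K L' M
  have := tower_charZero K L'
  have := intRing_isDiscreteValuationRing O K L'
  have := intRing_isFractionRing O K L'
  have := intRing_isAdicComplete O K L'
  have := intRing_isDiscreteValuationRing O K M
  have := intRing_isFractionRing O K M
  have := intRing_isDiscreteValuationRing (integralClosure O E) E M
  have := intRing_isFractionRing (integralClosure O E) E M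
  have := intRing_isLocalRing (integralClosure O L') L' M
  change dvrOrd (integralClosure (integralClosure O E) M) M
    (algebraMap L' M ((Additive.toMul a : L'ˣ) : L')) =
      (ramIdx O E : ℤ) * dvrOrd (integralClosure O L') L' ((Additive.toMul a : L'ˣ) : L')
  rw [dvrOrd_tower_eq O K E M, dvrOrd_algebraMap_tower O K L' M,
    ramIdx_baseChange O K L' E M hL' hM]

/-- **(B4d) Base change of the unramified invariant.**  For a commutative square of local fields
`K ⊆ L' ⊆ M`, `K ⊆ E ⊆ M` with `L'/K` and `M/E` unramified Galois and `φ` a Frobenius element of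
`M/E`:  `inv_{M/E} (galMap y) = [E : K] • inv_{L'/K} y`. -/
theorem unramInv_galMap [IsGalois K L']
    [IsLocalRing (integralClosure O L')] [IsLocalHom (algebraMap O (integralClosure O L'))]
    [CharZero E] [IsDiscreteValuationRing (integralClosure O E)]
    [IsFractionRing (integralClosure O E) E]
    [IsAdicComplete (maximalIdeal (integralClosure O E)) (integralClosure O E)]
    [IsLocalRing (integralClosure (integralClosure O E) M)]
    (hL' : IsUnramExt O L') (hM : IsUnramExt (integralClosure O E) M)
    {φ : M ≃ₐ[E] M} (hφ : IsFrob (integralClosure O E) E M φ)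
    (y : H2 (Rep.ofAlgebraAutOnUnits K L' : Rep.{0} ℤ (L' ≃ₐ[K] L'))) :
    unramInv (integralClosure O E) E M φ ((galMap K L' E M 2).hom y) =
      Module.finrank K E • unramInv O K L' (frob O K L') y := by
  have hKM : FiniteDimensional K M := FiniteDimensional.trans K E M
  have := intRing_isLocalRing O K M
  have := intRing_isLocalHom O K M
  have := intRing_isLocalHom O K E
  have hres := galRes_eq_frob_pow O K L' E M hL' hφ
  have h := uinv_map (ordLin_ρ O K L') (ordLin_ρ (integralClosure O E) E M)
    (galRes K L' E M) (galUnitsHom K L' E M) (ramIdx O E : ℤ)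
    (ordLin_galUnitsHom O K L' E M hL' hM) (inertDeg O E) hres y
  have hef : ((ramIdx O E : ℤ) * (inertDeg O E : ℕ)) = ((Module.finrank K E : ℕ) : ℤ) := by
    rw [← ramIdx_mul_inertDeg O K E]
    push_cast
    ring
  rw [hef, natCast_zsmul] at h
  exact h

end Square

section Infl

variable (O K : Type) [CommRing O] [IsDomain O] [IsDiscreteValuationRing O]
  [IsAdicComplete (maximalIdeal O) O] [Finite (ResidueField O)]
  [Field K] [Algebra O K] [IsFractionRing O K] [CharZero K]
  (L' : Type) [Field L'] [Algebra K L'] [FiniteDimensional K L'] [Algebra O L']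
  [IsScalarTower O K L']
  (M : Type) [Field M] [Algebra K M] [FiniteDimensional K M] [Algebra O M] [IsScalarTower O K M]
  [Algebra L' M] [IsScalarTower K L' M]

/-- **Inflation between unramified extensions** `K ⊆ L' ⊆ M` preserves the invariant. -/
theorem unramInv_galInfl [IsGalois K L'] [IsGalois K M]
    [IsLocalRing (integralClosure O L')] [IsLocalHom (algebraMap O (integralClosure O L'))]
    [IsLocalRing (integralClosure O M)] [IsLocalHom (algebraMap O (integralClosure O M))]
    (hM : IsUnramExt O M)
    (y : H2 (Rep.ofAlgebraAutOnUnits K L' : Rep.{0} ℤ (L' ≃ₐ[K] L'))) :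
    unramInv O K M (frob O K M) ((galInfl K L' M 2).hom y) =
      unramInv O K L' (frob O K L') y := by
  have hL'M : FiniteDimensional L' M := FiniteDimensional.right K L' M
  have hL' : IsUnramExt O L' := isUnramExt_bot_of_tower O K L' M hM
  have hML' : IsUnramExt (integralClosure O L') M := isUnramExt_top_of_tower O K L' M hM
  have := tower_charZero K L'
  have := intRing_isDiscreteValuationRing O K L'
  have := intRing_isFractionRing O K L'
  have := intRing_isAdicComplete O K L'
  have := intRing_isDiscreteValuationRing O K M
  have := intRing_isFractionRing O K M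
  have := intRing_isLocalRing (integralClosure O L') L' M
  have he : ramIdx (integralClosure O L') M = 1 :=
    (isUnramExt_iff_ramIdx (integralClosure O L') L' M).mp hML'
  have hres : galRes K L' K M (frob O K M) = frob O K L' ^ 1 := by
    rw [pow_one, galRes_infl_apply]
    exact IsFrob.restrictNormal_eq_frob O K L' M hL' (isFrob_frob O K M)
  have hj : ∀ a : (Rep.ofAlgebraAutOnUnits K L' : Rep.{0} ℤ (L' ≃ₐ[K] L')),
      ordLin O K M ((galUnitsHom K L' K M).hom a) = (1 : ℤ) * ordLin O K L' a := by
    intro a
    change dvrOrd (integralClosure O M) M (algebraMap L' M ((Additive.toMul a : L'ˣ) : L')) =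
      (1 : ℤ) * dvrOrd (integralClosure O L') L' ((Additive.toMul a : L'ˣ) : L')
    rw [dvrOrd_algebraMap_tower O K L' M, he]
    push_cast
    ring
  have h := uinv_map (ordLin_ρ O K L') (ordLin_ρ O K M) (galRes K L' K M)
    (galUnitsHom K L' K M) 1 hj 1 hres y
  rw [Nat.cast_one, mul_one, one_zsmul] at h
  exact h

end Infl

end Fermat.Agent.CFT
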