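import Mathlib
import Fermat.Agent.CFT.Local.LayerUnramDefs
import Fermat.Agent.CFT.Local.BaseRingIndep
import Fermat.Agent.CFT.Local.UnramInvBaseChange
import Fermat.Agent.CFT.Local.UnramCompositum

/-!
# CFT, Layer B: the unramified invariants of the layers of a local tower

`(O, k)` in the local SETTING, `k ⊆ Ω`.  With `IsUnrLayer O` and `uinvLayer O` of
`LayerUnramDefs.lean` we prove the fields `uinv_injective`, `finrank_nsmul_uinv`, `exists_uinv_eq`
and `uinv_layerMap` of `LayerUnramData` (verbatim):

* `uinvLayer_injective`, `finrank_nsmul_uinvLayer`, `exists_uinvLayer_eq`;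
* `uinvLayer_layerMap` : base change `inv_{F'/F} ∘ layerMap = [F : E] • inv_{E'/E}` for a square of
  unramified layers (from `unramInv_galMap` and the independence of the model of the base ring,
  `BaseRingIndep.lean`, applied to `intBaseEquiv`).
-/

set_option autoImplicit false
set_option linter.style.haveILetI false
set_option linter.unusedSectionVars false

open IsLocalRing IntermediateField groupCohomology

namespace Fermat.Agent.CFT

open GaloisTower Tower LayerMaps

section BaseModels

variable (O : Type) {k Ω : Type} [CommRing O] [Field k] [Algebra O k]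
  [Field Ω] [Algebra k Ω] [Algebra O Ω] [IsScalarTower O k Ω]

theorem isScalarTower_base_mid {E F : IntermediateField k Ω} (hEF : E ≤ F) :
    letI := algBase hEF
    IsScalarTower (integralClosure O E) F Ω := by
  letI := algBase hEF
  exact IsScalarTower.of_algebraMap_eq fun _ => rfl

/-- Integrality of an element of `F` over the integers of a subfield `E` is integrality
over `O`. -/
theorem isIntegral_base_iff {E F : IntermediateField k Ω} (hEF : E ≤ F) (x : F) :
    letI := algBase hEF
    IsIntegral (integralClosure O E) x ↔ IsIntegral O x := by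
  letI := algBase hEF
  haveI := isScalarTower_base_mid O hEF
  haveI := isScalarTower_mid O F
  rw [← isIntegral_algebraMap_iff (R := integralClosure O E) (A := F) (B := Ω)
      (algebraMap F Ω).injective,
    ← isIntegral_algebraMap_iff (R := O) (A := F) (B := Ω) (algebraMap F Ω).injective]
  exact isIntegral_intRing_iff O E (algebraMap F Ω x)

/-- The two models of the ring of integers of `F`: over the integers of a subfield `E`, and
over `O`. -/
noncomputable def intBaseEquiv {E F : IntermediateField k Ω} (hEF : E ≤ F) :
    letI := algBase hEF
    integralClosure (integralClosure O E) F ≃+* integralClosure O F :=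
  letI := algBase hEF
  { toFun := fun x => ⟨(x : F), (isIntegral_base_iff O hEF (x : F)).mp x.2⟩
    invFun := fun y => ⟨(y : F), (isIntegral_base_iff O hEF (y : F)).mpr y.2⟩
    left_inv := fun _ => rfl
    right_inv := fun _ => rfl
    map_mul' := fun _ _ => rfl
    map_add' := fun _ _ => rfl }

theorem intBaseEquiv_compat {E F : IntermediateField k Ω} (hEF : E ≤ F) :
    letI := algBase hEF
    ∀ a : integralClosure (integralClosure O E) F,
      algebraMap (integralClosure O F) F (intBaseEquiv O hEF a) =
        algebraMap (integralClosure (integralClosure O E) F) F a := by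
  letI := algBase hEF
  intro a
  rfl

end BaseModels

section Main

variable (O : Type) {k Ω : Type} [CommRing O] [IsDomain O] [IsDiscreteValuationRing O]
  [IsAdicComplete (maximalIdeal O) O] [Finite (ResidueField O)]
  [Field k] [Algebra O k] [IsFractionRing O k] [CharZero k]
  [Field Ω] [Algebra k Ω] [Algebra O Ω] [IsScalarTower O k Ω]

/-- Unpacking an unramified layer: the generator property of the Frobenius and the unfolding of
`uinvLayer`. -/
theorem IsUnrLayer.spec {E E' : IntermediateField k Ω} {h : E ≤ E'} (hu : IsUnrLayer O h) :
    ∃ (_ : FiniteDimensional k E') (_ : FiniteDimensional k E)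
      (_ : IsDiscreteValuationRing (integralClosure O E))
      (_ : IsAdicComplete (maximalIdeal (integralClosure O E)) (integralClosure O E))
      (_ : Finite (ResidueField (integralClosure O E)))
      (_ : IsFractionRing (integralClosure O E) E)
      (_ : FiniteDimensional E (layer h))
      (_ : IsGalois E (layer h))
      (_ : IsLocalRing (integralClosure (integralClosure O E) (layer h)))
      (_ : IsLocalHom (algebraMap (integralClosure O E)
        (integralClosure (integralClosure O E) (layer h)))),
      IsUnramExt (integralClosure O E) (layer h) ∧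
      uinvLayer O h =
        unramInv (integralClosure O E) E (layer h) (frob (integralClosure O E) E (layer h)) := by
  obtain ⟨hfd, hloc, hunr⟩ := hu
  haveI := hfd
  haveI : FiniteDimensional k E := LayerUnramData.fd_of_le h
  haveI := base_isDiscreteValuationRing O k E
  haveI := base_isAdicComplete O k E
  haveI := base_finite_residueField O k E
  haveI := base_isFractionRing O k E
  haveI := finiteDimensional_layer' h
  haveI := intRing_isLocalRing (integralClosure O E) E (layer h)
  haveI := intRing_isLocalHom (integralClosure O E) E (layer h)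
  haveI : IsGalois E (layer h) := IsUnramExt.isGalois hunr
  exact ⟨hfd, inferInstance, inferInstance, inferInstance, inferInstance, inferInstance,
    inferInstance, inferInstance, inferInstance, inferInstance, hunr, uinvLayer_eq O h⟩

/-- Field `uinv_injective` of `LayerUnramData` for the local tower. -/
theorem uinvLayer_injective {E E' : IntermediateField k Ω} {h : E ≤ E'} (hu : IsUnrLayer O h) :
    Function.Injective (uinvLayer O h) := by
  obtain ⟨_, _, _, _, _, _, _, _, _, _, hunr, heq⟩ := hu.spec
  rw [heq]
  refine unramInv_injective ((isUnramifiedExt_iff_isUnramExt _ _ _).mpr hunr) fun g => ?_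
  obtain ⟨i, -, hi⟩ := exists_frob_pow_eq (integralClosure O E) E (layer h) hunr g
  exact ⟨i, hi⟩

/-- Field `finrank_nsmul_uinv` of `LayerUnramData` for the local tower. -/
theorem finrank_nsmul_uinvLayer {E E' : IntermediateField k Ω} {h : E ≤ E'}
    (hu : IsUnrLayer O h) :
    ∀ x, Module.finrank E (layer h) • uinvLayer O h x = 0 := by
  obtain ⟨_, _, _, _, _, _, _, _, _, _, hunr, heq⟩ := hu.spec
  rw [heq]
  intro x
  refine finrank_nsmul_unramInv (fun g => ?_) x
  obtain ⟨i, -, hi⟩ := exists_frob_pow_eq (integralClosure O E) E (layer h) hunr g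
  exact ⟨i, hi⟩

/-- Field `exists_uinv_eq` of `LayerUnramData` for the local tower. -/
theorem exists_uinvLayer_eq {E E' : IntermediateField k Ω} {h : E ≤ E'} (hu : IsUnrLayer O h) :
    ∃ x, uinvLayer O h x =
      (((1 : ℚ) / (Module.finrank E (layer h) : ℚ) : ℚ) : AddCircle (1 : ℚ)) := by
  obtain ⟨_, _, _, _, _, _, _, _, _, _, hunr, heq⟩ := hu.spec
  rw [heq]
  refine exists_unramInv_eq ((isUnramifiedExt_iff_isUnramExt _ _ _).mpr hunr) fun g => ?_
  obtain ⟨i, -, hi⟩ := exists_frob_pow_eq (integralClosure O E) E (layer h) hunr g
  exact ⟨i, hi⟩

omit [IsDomain O] [IsDiscreteValuationRing O] [IsAdicComplete (maximalIdeal O) O]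
  [Finite (ResidueField O)] [IsFractionRing O k] [CharZero k] [Algebra O Ω] [IsScalarTower O k Ω]
  [CommRing O] [Algebra O k] in
/-- `F` as an `E`-vector space via the inclusion is the layer `F/E`. -/
noncomputable def algBaseLayerEquiv {E F : IntermediateField k Ω} (hEF : E ≤ F) :
    letI := algBase hEF
    F ≃ₗ[E] layer hEF :=
  letI := algBase hEF
  { toFun := fun x => (⟨(x : Ω), x.2⟩ : layer hEF)
    invFun := fun y => (⟨(y : Ω), y.2⟩ : F)
    left_inv := fun _ => rfl
    right_inv := fun _ => rfl
    map_add' := fun _ _ => rfl
    map_smul' := fun _ _ => rfl }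

omit [IsDomain O] [IsDiscreteValuationRing O] [IsAdicComplete (maximalIdeal O) O]
  [Finite (ResidueField O)] [IsFractionRing O k] [CharZero k] [Algebra O Ω] [IsScalarTower O k Ω]
  [CommRing O] [Algebra O k] in
theorem finrank_algBase {E F : IntermediateField k Ω} (hEF : E ≤ F) :
    letI := algBase hEF
    Module.finrank E F = Module.finrank E (layer hEF) := by
  letI := algBase hEF
  exact LinearEquiv.finrank_eq (algBaseLayerEquiv hEF)

omit [IsDomain O] [IsDiscreteValuationRing O] [IsAdicComplete (maximalIdeal O) O]
  [Finite (ResidueField O)] [IsFractionRing O k] [CharZero k] [Algebra O Ω] [IsScalarTower O k Ω]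
  [CommRing O] [Algebra O k] in
theorem finiteDimensional_algBase {E F : IntermediateField k Ω} (hEF : E ≤ F)
    [FiniteDimensional k F] :
    letI := algBase hEF
    FiniteDimensional E F := by
  letI := algBase hEF
  haveI := finiteDimensional_layer' hEF
  exact Module.Finite.equiv (algBaseLayerEquiv hEF).symm

/-- Field `uinv_layerMap` of `LayerUnramData` for the local tower. -/
theorem uinvLayer_layerMap {E E' F F' : IntermediateField k Ω} {hEE' : E ≤ E'} {hFF' : F ≤ F'}
    (hEF : E ≤ F) (hE'F' : E' ≤ F') (hu : IsUnrLayer O hEE') (hu' : IsUnrLayer O hFF')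
    [Normal E (layer hEE')]
    (x : groupCohomology (Rep.ofAlgebraAutOnUnits E (layer hEE')) 2) :
    uinvLayer O hFF' ((layerMap hEE' hFF' hEF hE'F' 2).hom x) =
      Module.finrank E (layer hEF) • uinvLayer O hEE' x := by
  obtain ⟨_, _, _, _, _, _, _, _, _, _, hunr, heq⟩ := hu.spec
  obtain ⟨_, _, _, _, _, _, _, _, _, _, hunr', heq'⟩ := hu'.spec
  letI := algBase hEF
  letI := algTop hEE' hFF' hE'F'
  letI := algDiag hEF hFF'
  haveI := tower_base hEF hFF'
  haveI := tower_top hEE' hFF' hEF hE'F'
  haveI : FiniteDimensional E F := finiteDimensional_algBase hEF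
  rw [heq, heq', ← finrank_algBase hEF]
  -- instances for the model `integralClosure (integralClosure O E) F`
  haveI : CharZero F := tower_charZero E F
  haveI := intRing_isDiscreteValuationRing (integralClosure O E) E F
  haveI := intRing_isFractionRing (integralClosure O E) E F
  haveI := intRing_isLocalRing (integralClosure O E) E F
  haveI := intRing_isAdicComplete (integralClosure O E) E F
  haveI := intRing_finite_residueField (integralClosure O E) E F
  haveI := intRing_isLocalRing (integralClosure (integralClosure O E) F) F (layer hFF')
  haveI := intRing_isLocalHom (integralClosure (integralClosure O E) F) F (layer hFF')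
  have he := intBaseEquiv_compat O hEF
  rw [← unramInv_eq_of_ringEquiv (integralClosure (integralClosure O E) F) (integralClosure O F)
    F (layer hFF') (intBaseEquiv O hEF) he]
  have hM : IsUnramExt (integralClosure (integralClosure O E) F) (layer hFF') :=
    (isUnramExt_iff_of_ringEquiv _ _ F (layer hFF') (intBaseEquiv O hEF) he).mpr hunr'
  have hφ : IsFrob (integralClosure (integralClosure O E) F) F (layer hFF')
      (frob (integralClosure O F) F (layer hFF')) :=
    isFrob_frob_of_ringEquiv _ _ F (layer hFF') (intBaseEquiv O hEF) he
  exact unramInv_galMap (integralClosure O E) E (layer hEE') F (layer hFF') hunr hM hφ x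

end Main

end Fermat.Agent.CFT
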