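import Mathlib
import Fermat.Agent.CFT.Local.LayerUnramConcrete
import Fermat.Agent.CFT.Local.UnramBaseChange

/-!
# CFT, Layer B: unramified layers of a local tower — structural fields of `LayerUnramData`

`(O, k)` in the local SETTING, `k ⊆ Ω`.  For `IsUnrLayer O` (`LayerUnramDefs.lean`) we prove the
fields `unr_fd`, `unr_normal`, `unr_sup`, `unr_baseChange`, `exists_unr` of `LayerUnramData`
(verbatim): `isUnrLayer_fd`, `isUnrLayer_normal`, `isUnrLayer_sup`, `isUnrLayer_baseChange`,
`exists_isUnrLayer` (the last one for `Ω` algebraically closed).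

Tools: `IsUnramExt.of_ringEquiv` (transport of structure along isomorphisms of the base ring and
of the top field), `adjoin_range_layer_sup`, `layerTopEquiv`.
-/

set_option autoImplicit false
set_option linter.style.haveILetI false
set_option linter.unusedSectionVars false

open IsLocalRing IntermediateField groupCohomology

namespace Fermat.Agent.CFT

open GaloisTower Tower LayerMaps

/-- **Transport of structure** for `IsUnramExt` along compatible isomorphisms of the base ring
and of the top field. -/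
theorem IsUnramExt.of_ringEquiv {O₁ O₂ L₁ L₂ : Type} [CommRing O₁] [IsLocalRing O₁]
    [CommRing O₂] [IsLocalRing O₂] [Field L₁] [Field L₂] [Algebra O₁ L₁] [Algebra O₂ L₂]
    (e : O₁ ≃+* O₂) (g : L₁ ≃+* L₂)
    (h : ∀ a, g (algebraMap O₁ L₁ a) = algebraMap O₂ L₂ (e a)) (hu : IsUnramExt O₁ L₁) :
    IsUnramExt O₂ L₂ := by
  have hint : ∀ x : L₁, IsIntegral O₁ x → IsIntegral O₂ (g x) := by
    rintro x ⟨p, hp, hpx⟩
    refine ⟨p.map (e : O₁ →+* O₂), hp.map _, ?_⟩
    rw [Polynomial.eval₂_map]
    have hc : (algebraMap O₂ L₂).comp (e : O₁ →+* O₂) = (g : L₁ →+* L₂).comp (algebraMap O₁ L₁) :=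
      RingHom.ext fun a => (h a).symm
    rw [hc]
    have h2 := Polynomial.hom_eval₂ p (algebraMap O₁ L₁) (g : L₁ →+* L₂) x
    rw [hpx, map_zero] at h2
    exact h2.symm
  have hint' : ∀ y : L₂, IsIntegral O₂ y → IsIntegral O₁ (g.symm y) := by
    rintro y ⟨p, hp, hpy⟩
    refine ⟨p.map (e.symm : O₂ →+* O₁), hp.map _, ?_⟩
    rw [Polynomial.eval₂_map]
    have hc : (algebraMap O₁ L₁).comp (e.symm : O₂ →+* O₁) =
        (g.symm : L₂ →+* L₁).comp (algebraMap O₂ L₂) :=
      RingHom.ext fun a => by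
        apply g.injective
        simp only [RingHom.coe_comp, RingHom.coe_coe, Function.comp_apply,
          RingEquiv.apply_symm_apply]
        rw [h, RingEquiv.apply_symm_apply]
    rw [hc]
    have h2 := Polynomial.hom_eval₂ p (algebraMap O₂ L₂) (g.symm : L₂ →+* L₁) y
    rw [hpy, map_zero] at h2
    exact h2.symm
  let G : integralClosure O₁ L₁ ≃+* integralClosure O₂ L₂ :=
    { toFun := fun x => ⟨g x, hint x x.2⟩
      invFun := fun y => ⟨g.symm y, hint' y y.2⟩
      left_inv := fun x => Subtype.ext (g.symm_apply_apply x)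
      right_inv := fun y => Subtype.ext (g.apply_symm_apply y)
      map_mul' := fun x y => Subtype.ext (map_mul g (x : L₁) (y : L₁))
      map_add' := fun x y => Subtype.ext (map_add g (x : L₁) (y : L₁)) }
  have hG : (G : integralClosure O₁ L₁ →+* integralClosure O₂ L₂).comp
      (algebraMap O₁ (integralClosure O₁ L₁)) =
      (algebraMap O₂ (integralClosure O₂ L₂)).comp (e : O₁ →+* O₂) :=
    RingHom.ext fun a => Subtype.ext (h a)
  unfold IsUnramExt at hu ⊢
  have hmap : (maximalIdeal O₂).map (algebraMap O₂ (integralClosure O₂ L₂)) =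
      ((maximalIdeal O₁).map (algebraMap O₁ (integralClosure O₁ L₁))).map
        (G : integralClosure O₁ L₁ →+* integralClosure O₂ L₂) := by
    have hm : maximalIdeal O₂ = (maximalIdeal O₁).map (e : O₁ →+* O₂) :=
      (map_maximalIdeal_of_surjective (e : O₁ →+* O₂) e.surjective).symm
    rw [hm, Ideal.map_map, Ideal.map_map, hG]
  rw [hmap]
  exact (Ideal.isMaximal_map_iff_of_bijective _ G.bijective).mpr hu

section FieldGen

variable {k Ω : Type} [Field k] [Field Ω] [Algebra k Ω]

/-- The layer `(F ⊔ E')/F` is generated over `F` by `E'`. -/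
theorem adjoin_range_layer_sup {E E' F : IntermediateField k Ω} (h : E ≤ E') :
    letI := algTop h (le_sup_left : F ≤ F ⊔ E') (le_sup_right : E' ≤ F ⊔ E')
    IntermediateField.adjoin F
      (Set.range (algebraMap (layer h) (layer (le_sup_left : F ≤ F ⊔ E')))) = ⊤ := by
  letI := algTop h (le_sup_left : F ≤ F ⊔ E') (le_sup_right : E' ≤ F ⊔ E')
  rw [eq_top_iff]
  intro z _
  set A := IntermediateField.adjoin F
    (Set.range (algebraMap (layer h) (layer (le_sup_left : F ≤ F ⊔ E')))) with hA
  have hle : F ⊔ E' ≤ (IntermediateField.lift A).restrictScalars k := by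
    refine sup_le ?_ ?_
    · intro x hx
      exact ⟨algebraMap F (layer (le_sup_left : F ≤ F ⊔ E')) ⟨x, hx⟩, A.algebraMap_mem _, rfl⟩
    · intro x hx
      exact ⟨algebraMap (layer h) (layer (le_sup_left : F ≤ F ⊔ E')) ⟨x, hx⟩,
        IntermediateField.subset_adjoin _ _ ⟨_, rfl⟩, rfl⟩
  obtain ⟨a, ha, haz⟩ := hle z.2
  have : a = z := Subtype.ext haz
  exact this ▸ ha

/-- Two layers with the same top field have the same underlying ring. -/
def layerTopEquiv {E F E' : IntermediateField k Ω} (h : E ≤ E') (h' : F ≤ E') :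
    layer h ≃+* layer h' where
  toFun x := ⟨(x : Ω), x.2⟩
  invFun y := ⟨(y : Ω), y.2⟩
  left_inv _ := rfl
  right_inv _ := rfl
  map_mul' _ _ := rfl
  map_add' _ _ := rfl

end FieldGen

section Fields

variable (O : Type) {k Ω : Type} [CommRing O] [IsDomain O] [IsDiscreteValuationRing O]
  [IsAdicComplete (maximalIdeal O) O] [Finite (ResidueField O)]
  [Field k] [Algebra O k] [IsFractionRing O k] [CharZero k]
  [Field Ω] [Algebra k Ω] [Algebra O Ω] [IsScalarTower O k Ω]

/-- Field `unr_fd` of `LayerUnramData` for the local tower. -/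
theorem isUnrLayer_fd {E E' : IntermediateField k Ω} {h : E ≤ E'} (hu : IsUnrLayer O h) :
    FiniteDimensional k E' := hu.1

/-- Field `unr_normal` of `LayerUnramData` for the local tower. -/
theorem isUnrLayer_normal {E E' : IntermediateField k Ω} {h : E ≤ E'} (hu : IsUnrLayer O h) :
    Normal E (layer h) := by
  obtain ⟨_, _, _, _, _, _, _, hgal, _, _, -, -⟩ := hu.spec
  exact hgal.to_normal

/-- Field `unr_baseChange` of `LayerUnramData` for the local tower. -/
theorem isUnrLayer_baseChange {E E' F : IntermediateField k Ω} {h : E ≤ E'} (hEF : E ≤ F)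
    [FiniteDimensional k F] (hu : IsUnrLayer O h) :
    IsUnrLayer O (le_sup_left : F ≤ F ⊔ E') := by
  obtain ⟨_, _, _, _, _, _, _, _, _, _, hunr, -⟩ := hu.spec
  haveI : FiniteDimensional k ↥(F ⊔ E') := inferInstance
  refine ⟨inferInstance, base_isLocalRing O k F, ?_⟩
  letI := algBase hEF
  letI := algTop h (le_sup_left : F ≤ F ⊔ E') (le_sup_right : E' ≤ F ⊔ E')
  letI := algDiag hEF (le_sup_left : F ≤ F ⊔ E')
  haveI := tower_base hEF (le_sup_left : F ≤ F ⊔ E')
  haveI := tower_top h (le_sup_left : F ≤ F ⊔ E') hEF (le_sup_right : E' ≤ F ⊔ E')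
  haveI : FiniteDimensional E F := finiteDimensional_algBase hEF
  haveI := finiteDimensional_layer' (le_sup_left : F ≤ F ⊔ E')
  haveI := intRing_isLocalRing (integralClosure O E) E F
  haveI := base_isLocalRing O k F
  have hM : IsUnramExt (integralClosure (integralClosure O E) F)
      (layer (le_sup_left : F ≤ F ⊔ E')) :=
    isUnramExt_baseChange (integralClosure O E) E (layer h) F (layer (le_sup_left : F ≤ F ⊔ E'))
      hunr (adjoin_range_layer_sup h)
  exact IsUnramExt.of_ringEquiv (intBaseEquiv O hEF) (RingEquiv.refl _) (fun a => rfl) hM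

set_option synthInstance.maxHeartbeats 400000 in
set_option maxHeartbeats 1600000 in
/-- Field `unr_sup` of `LayerUnramData` for the local tower. -/
theorem isUnrLayer_sup {E E₁ E₂ : IntermediateField k Ω} {h₁ : E ≤ E₁} {h₂ : E ≤ E₂}
    (hu₁ : IsUnrLayer O h₁) (hu₂ : IsUnrLayer O h₂) :
    IsUnrLayer O (h₁.trans le_sup_left : E ≤ E₁ ⊔ E₂) := by
  obtain ⟨_, _, _, _, _, _, _, _, _, _, hunr₁, -⟩ := hu₁.spec
  haveI := hu₂.1
  have hb : IsUnrLayer O (le_sup_left : E₁ ≤ E₁ ⊔ E₂) := isUnrLayer_baseChange O h₁ hu₂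
  obtain ⟨_, _, hunr₁₂⟩ := hb
  haveI : FiniteDimensional k ↥(E₁ ⊔ E₂) := inferInstance
  refine ⟨inferInstance, base_isLocalRing O k E, ?_⟩
  letI := algTop h₁ (h₁.trans le_sup_left : E ≤ E₁ ⊔ E₂) (le_sup_left : E₁ ≤ E₁ ⊔ E₂)
  haveI : IsScalarTower E (layer h₁) (layer (h₁.trans le_sup_left : E ≤ E₁ ⊔ E₂)) :=
    IsScalarTower.of_algebraMap_eq fun _ => rfl
  haveI : FiniteDimensional E (layer (h₁.trans le_sup_left : E ≤ E₁ ⊔ E₂)) :=
    finiteDimensional_layer' (h₁.trans le_sup_left : E ≤ E₁ ⊔ E₂)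
  haveI : FiniteDimensional (layer h₁) (layer (h₁.trans le_sup_left : E ≤ E₁ ⊔ E₂)) :=
    FiniteDimensional.right E (layer h₁) (layer (h₁.trans le_sup_left : E ≤ E₁ ⊔ E₂))
  haveI := base_isLocalRing O k E₁
  have hM : IsUnramExt (integralClosure (integralClosure O E) (layer h₁))
      (layer (h₁.trans le_sup_left : E ≤ E₁ ⊔ E₂)) :=
    IsUnramExt.of_ringEquiv (intLayerEquiv O h₁).symm
      (layerTopEquiv (le_sup_left : E₁ ≤ E₁ ⊔ E₂) (h₁.trans le_sup_left : E ≤ E₁ ⊔ E₂))
      (fun a => rfl) hunr₁₂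
  exact isUnramExt_of_tower (integralClosure O E) E (layer h₁)
    (layer (h₁.trans le_sup_left : E ≤ E₁ ⊔ E₂)) hunr₁ hM

/-- Field `exists_unr` of `LayerUnramData` for the local tower (`Ω` algebraically closed). -/
theorem exists_isUnrLayer [IsAlgClosed Ω] (E : IntermediateField k Ω) [FiniteDimensional k E]
    (n : ℕ) (hn : 0 < n) :
    ∃ (E' : IntermediateField k Ω) (h : E ≤ E'),
      IsUnrLayer O h ∧ Module.finrank E (layer h) = n := by
  haveI := base_isDiscreteValuationRing O k E
  haveI := base_isLocalRing O k E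
  haveI := base_isAdicComplete O k E
  haveI := base_finite_residueField O k E
  haveI := base_isFractionRing O k E
  haveI : CharZero E := tower_charZero k E
  obtain ⟨K', hfd, hdeg, -, hunr⟩ :=
    exists_unramified_intermediateField (integralClosure O E) E Ω n hn
  have h : E ≤ K'.restrictScalars k := fun x hx => K'.algebraMap_mem ⟨x, hx⟩
  have hlayer : layer h = K' := IntermediateField.ext fun x => Iff.rfl
  refine ⟨K'.restrictScalars k, h, ⟨?_, inferInstance, ?_⟩, ?_⟩
  · exact (FiniteDimensional.trans k E K' : FiniteDimensional k K')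
  · rw [hlayer]
    exact hunr
  · rw [hlayer]
    exact hdeg

end Fields

end Fermat.Agent.CFT
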