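import Mathlib
import Fermat.Agent.CFT.Local.LayerUnram

/-!
# CFT, Layer B: extensions generated by roots of polynomials with separable reduction are unramified

`(O, k)` in the local SETTING, `k ⊆ Ω`, `E` a finite subextension of `Ω/k` with ring of integers
`integralClosure O E`.

* `IsUnrLayer.congr_top`: `IsUnrLayer O (h : E ≤ E')` only depends on `E` and `E'`;
* `isUnrLayer_sup_adjoin_simple`: if `x : Ω` is a root of a monic polynomial over
  `integralClosure O E` with separable reduction then `E(x)/E` is unramified
  (`IsUnrLayer O (E ≤ E ⊔ k⟮x⟯)`);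
* `isUnrLayer_refl`: the trivial layer is unramified;
* `isUnrLayer_sup_adjoin_finset`: the same for finitely many generators `s : Finset Ω`
  (`IsUnrLayer O (E ≤ E ⊔ adjoin k s)`), by `isUnrLayer_sup`.
-/

set_option autoImplicit false
set_option linter.style.haveILetI false
set_option linter.unusedSectionVars false

open IsLocalRing IntermediateField Polynomial

namespace Fermat.Agent.CFT

open GaloisTower Tower

section Adjoin

variable (O : Type) {k Ω : Type} [CommRing O] [IsDomain O] [IsDiscreteValuationRing O]
  [IsAdicComplete (maximalIdeal O) O] [Finite (ResidueField O)]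
  [Field k] [Algebra O k] [IsFractionRing O k] [CharZero k]
  [Field Ω] [Algebra k Ω] [Algebra O Ω] [IsScalarTower O k Ω]

/-- `IsUnrLayer` only depends on the two fields. -/
theorem IsUnrLayer.congr_top {E E' E'' : IntermediateField k Ω} {h : E ≤ E'} (e : E' = E'')
    (h' : E ≤ E'') (hu : IsUnrLayer O h) : IsUnrLayer O h' := by
  subst e
  exact hu

/-- **Single generator.**  If `x` is a root of a monic polynomial over the ring of integers of `E`
with separable reduction, then `E(x)/E` is unramified. -/
theorem isUnrLayer_sup_adjoin_simple (E : IntermediateField k Ω) [FiniteDimensional k E]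
    (x : Ω) (g : (integralClosure O E)[X]) (hg : g.Monic)
    (hsep : haveI := base_isLocalRing O k E
      (g.map (residue (integralClosure O E))).Separable)
    (hx : Polynomial.eval₂ ((algebraMap E Ω).comp (algebraMap (integralClosure O E) E)) x g = 0) :
    IsUnrLayer O (le_sup_left : E ≤ E ⊔ k⟮x⟯) := by
  haveI := base_isDiscreteValuationRing O k E
  haveI := base_isLocalRing O k E
  haveI := base_isAdicComplete O k E
  haveI := base_finite_residueField O k E
  haveI := base_isFractionRing O k E
  haveI : CharZero E := tower_charZero k E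
  -- `x` is algebraic over `k`
  have hxE : IsIntegral E x := by
    refine ⟨g.map (algebraMap (integralClosure O E) E), hg.map _, ?_⟩
    rw [Polynomial.eval₂_map]
    exact hx
  have hxk : IsIntegral k x := isIntegral_trans (R := k) (A := E) x hxE
  haveI : FiniteDimensional k ↥(k⟮x⟯) := IntermediateField.adjoin.finiteDimensional hxk
  haveI : FiniteDimensional k ↥(E ⊔ k⟮x⟯) := IntermediateField.finiteDimensional_sup E k⟮x⟯
  refine ⟨inferInstance, base_isLocalRing O k E, ?_⟩
  haveI := finiteDimensional_layer' (le_sup_left : E ≤ E ⊔ k⟮x⟯)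
  set η : layer (le_sup_left : E ≤ E ⊔ k⟮x⟯) :=
    ⟨x, (le_sup_right : k⟮x⟯ ≤ E ⊔ k⟮x⟯) (mem_adjoin_simple_self k x)⟩ with hη
  have hroot : aeval η g = 0 := by
    apply Subtype.val_injective
    show ((aeval η g : layer (le_sup_left : E ≤ E ⊔ k⟮x⟯)) : Ω) = 0
    rw [Polynomial.aeval_def]
    have h1 := Polynomial.hom_eval₂ g
      (algebraMap (integralClosure O E) (layer (le_sup_left : E ≤ E ⊔ k⟮x⟯)))
      (algebraMap (layer (le_sup_left : E ≤ E ⊔ k⟮x⟯)) Ω) η
    exact h1.trans hx
  have hgen : IntermediateField.adjoin E {η} = ⊤ := by
    rw [eq_top_iff]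
    intro y _
    rw [← IntermediateField.mem_lift, IntermediateField.lift_adjoin_simple]
    have hle : E ⊔ k⟮x⟯ ≤ (IntermediateField.adjoin E {x}).restrictScalars k := by
      refine sup_le ?_ ?_
      · intro z hz
        exact (IntermediateField.adjoin E {x}).algebraMap_mem ⟨z, hz⟩
      · rw [IntermediateField.adjoin_simple_le_iff]
        exact IntermediateField.mem_adjoin_simple_self E x
    exact hle y.2
  exact isUnramExt_of_separable_root' (K := E) hg hsep η hroot hgen

/-- The trivial layer is unramified. -/
theorem isUnrLayer_refl (E : IntermediateField k Ω) [FiniteDimensional k E] :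
    IsUnrLayer O (le_refl E) := by
  haveI := base_isLocalRing O k E
  have h := isUnrLayer_sup_adjoin_simple O E (0 : Ω) (X : (integralClosure O E)[X]) monic_X
    (by rw [Polynomial.map_X]; exact separable_X) (by rw [eval₂_X])
  have e : E ⊔ k⟮(0 : Ω)⟯ = E := by
    rw [sup_eq_left, IntermediateField.adjoin_simple_le_iff]
    exact zero_mem E
  exact IsUnrLayer.congr_top O e _ h

/-- **Finitely many generators.**  If every element of the finite set `s` is a root of a monic
polynomial over the ring of integers of `E` with separable reduction, then `E(s)/E` is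
unramified. -/
theorem isUnrLayer_sup_adjoin_finset (E : IntermediateField k Ω) [FiniteDimensional k E]
    (s : Finset Ω)
    (hs : ∀ x ∈ s, ∃ g : (integralClosure O E)[X], g.Monic ∧
      (haveI := base_isLocalRing O k E;
        (g.map (residue (integralClosure O E))).Separable) ∧
      Polynomial.eval₂ ((algebraMap E Ω).comp (algebraMap (integralClosure O E) E)) x g = 0) :
    IsUnrLayer O (le_sup_left : E ≤ E ⊔ IntermediateField.adjoin k (s : Set Ω)) := by
  classical
  induction s using Finset.induction_on with
  | empty =>
    have e : E = E ⊔ IntermediateField.adjoin k ((∅ : Finset Ω) : Set Ω) := by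
      rw [Finset.coe_empty, IntermediateField.adjoin_empty, sup_bot_eq]
    exact IsUnrLayer.congr_top O e _ (isUnrLayer_refl O E)
  | insert x s hxs ih =>
    obtain ⟨g, hg, hsep, hx⟩ := hs x (Finset.mem_insert_self x s)
    have h1 := isUnrLayer_sup_adjoin_simple O E x g hg hsep hx
    have h2 := ih fun y hy => hs y (Finset.mem_insert_of_mem hy)
    have h12 := isUnrLayer_sup O h1 h2
    have e : (E ⊔ k⟮x⟯) ⊔ (E ⊔ IntermediateField.adjoin k (s : Set Ω)) =
        E ⊔ IntermediateField.adjoin k ((insert x s : Finset Ω) : Set Ω) := by
      rw [Finset.coe_insert, Set.insert_eq, IntermediateField.adjoin_union, ← sup_sup_distrib_left]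
    exact IsUnrLayer.congr_top O e _ h12

end Adjoin

end Fermat.Agent.CFT
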