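import Mathlib
import Fermat.Agent.CFT.FieldSquare
import Fermat.Agent.CFT.Local.LayerInv
import Fermat.Agent.CFT.Local.GalSymbol

/-!
# From invariants on the layers of a tower to invariants of abstract Galois extensions

`k ⊆ Ω` fields with `Ω` algebraically closed, `S : LayerInvSystem k Ω` a system of invariant maps
on the layers of `Ω/k` (helper25's interface, produced by Layer B).  For an abstract finite Galois
extension `L/k` we choose a `k`-embedding `j : L → Ω`, transport `H²(Gal(L/k), Lˣ)` to the layer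
`j(L)/⊥` and apply `S.inv`.  The result does not depend on `j` (inner automorphisms act trivially
on `H²`), is injective and compatible with inflation: it is an `InvFamily k` (helper1's interface,
consumed by the tame symbol computations).

* `invOfEmb S h j hj`, `invOfEmb_indep`, `invOfEmb_mono`;
* `LayerInvSystem.toInvFamily`;
* `toInvFamily_inv_eq` : for an intermediate field `E'` the invariant is computed by the canonical
  embedding, over any base `E₀ = ⊥`.
-/

set_option autoImplicit false
set_option linter.unusedSectionVars false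
set_option linter.style.haveILetI false

open CategoryTheory groupCohomology IntermediateField

namespace Fermat.Agent.CFT

open GaloisTower LayerMaps

namespace LayerBridge

variable {k Ω : Type} [Field k] [Field Ω] [Algebra k Ω]
variable {L : Type} [Field L] [Algebra k L]
variable {E₀ E' F' : IntermediateField k Ω}

/-- The corestriction of an embedding `j : L → Ω` with image in `E'` to the layer `E'/E₀`. -/
def embTop (h : E₀ ≤ E') (j : L →ₐ[k] Ω) (hj : ∀ x, j x ∈ E') : L →+* layer h where
  toFun x := ⟨j x, hj x⟩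
  map_one' := Subtype.ext (map_one j)
  map_mul' x y := Subtype.ext (map_mul j x y)
  map_zero' := Subtype.ext (map_zero j)
  map_add' x y := Subtype.ext (map_add j x y)

@[simp] theorem embTop_coe (h : E₀ ≤ E') (j : L →ₐ[k] Ω) (hj : ∀ x, j x ∈ E') (x : L) :
    ((embTop h j hj x : layer h) : Ω) = j x := rfl

/-- The square `(k, L) → (E₀, E')` attached to an embedding `j : L → Ω` with image in `E'`. -/
def embSquare (h : E₀ ≤ E') (j : L →ₐ[k] Ω) (hj : ∀ x, j x ∈ E') :
    FieldSquare k L E₀ (layer h) where
  base := algebraMap k E₀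
  top := embTop h j hj
  comm x := Subtype.ext (by
    show j (algebraMap k L x) = algebraMap k Ω x
    exact j.commutes x)

section Inv

variable (S : LayerInvSystem k Ω) [Normal k L]

/-- The invariant of `L/k` computed through the embedding `j` (with image in `E'`, base `E₀`). -/
noncomputable def invOfEmb (h : E₀ ≤ E') (j : L →ₐ[k] Ω) (hj : ∀ x, j x ∈ E') :
    H2 (Rep.ofAlgebraAutOnUnits k L : Rep.{0} ℤ (L ≃ₐ[k] L)) →+ AddCircle (1 : ℚ) :=
  (S.inv h).comp ((embSquare h j hj).map 2).hom.toAddMonoidHom

theorem invOfEmb_apply (h : E₀ ≤ E') (j : L →ₐ[k] Ω) (hj : ∀ x, j x ∈ E')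
    (x : H2 (Rep.ofAlgebraAutOnUnits k L : Rep.{0} ℤ (L ≃ₐ[k] L))) :
    invOfEmb S h j hj x = S.inv h (((embSquare h j hj).map 2).hom x) := rfl

theorem embSquare_comp_algEquiv (h : E₀ ≤ E') (j : L →ₐ[k] Ω) (hj : ∀ x, j x ∈ E')
    (σ : L ≃ₐ[k] L) :
    embSquare h (j.comp (σ : L →ₐ[k] L)) (fun x => hj (σ x)) = (embSquare h j hj).twist σ := by
  apply FieldSquare.ext' rfl
  ext x
  rfl

/-- Two embeddings of a normal extension differ by an automorphism. -/
theorem exists_algEquiv_comp_eq (j₁ j₂ : L →ₐ[k] Ω) :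
    ∃ σ : L ≃ₐ[k] L, j₂ = j₁.comp (σ : L →ₐ[k] L) := by
  letI : Algebra L Ω := j₁.toRingHom.toAlgebra
  haveI : IsScalarTower k L Ω := IsScalarTower.of_algebraMap_eq fun x => (j₁.commutes x).symm
  refine ⟨(Normal.algHomEquivAut k Ω L) j₂, ?_⟩
  have h := (Normal.algHomEquivAut k Ω L).left_inv j₂
  refine h.symm.trans ?_
  ext x
  rfl

/-- The invariant does not depend on the embedding. -/
theorem invOfEmb_indep (h : E₀ ≤ E') (j₁ j₂ : L →ₐ[k] Ω) (hj₁ : ∀ x, j₁ x ∈ E')
    (hj₂ : ∀ x, j₂ x ∈ E') : invOfEmb S h j₁ hj₁ = invOfEmb S h j₂ hj₂ := by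
  obtain ⟨σ, rfl⟩ := exists_algEquiv_comp_eq j₁ j₂
  have hsq := embSquare_comp_algEquiv h j₁ hj₁ σ
  ext x
  rw [invOfEmb_apply, invOfEmb_apply]
  have : embSquare h (j₁.comp (σ : L →ₐ[k] L)) hj₂ = (embSquare h j₁ hj₁).twist σ := hsq
  rw [this, FieldSquare.map_twist]

/-- The inflation square between layers over the same base. -/
noncomputable def inflSq (h : E₀ ≤ E') (h' : E' ≤ F') : FieldSquare E₀ (layer h) E₀ (layer (h.trans h')) where
  base := RingHom.id _
  top := layerIncl h (h.trans h') h'
  comm _ := rfl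

theorem inflSq_map (h : E₀ ≤ E') (h' : E' ≤ F') [Normal E₀ (layer h)] (n : ℕ) :
    (inflSq h h').map n = layerInfl h h' n := by
  letI := algBase (le_refl E₀)
  letI := algTop h (h.trans h') h'
  letI := algDiag (le_refl E₀) (h.trans h')
  haveI := tower_base (le_refl E₀) (h.trans h')
  haveI := tower_top h (h.trans h') (le_refl E₀) h'
  exact FieldSquare.map_eq_galMap (inflSq h h') rfl n

theorem embSquare_trans (h : E₀ ≤ E') (h' : E' ≤ F') (j : L →ₐ[k] Ω) (hj : ∀ x, j x ∈ E') :
    embSquare (h.trans h') j (fun x => h' (hj x)) = (embSquare h j hj).comp (inflSq h h') := by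
  apply FieldSquare.ext'
  · rfl
  · ext x
    rfl

/-- Enlarging the target field does not change the invariant. -/
theorem invOfEmb_mono (h : E₀ ≤ E') (h' : E' ≤ F') [FiniteDimensional k F']
    [Normal E₀ (layer h)] [Normal E₀ (layer (h.trans h'))]
    (j : L →ₐ[k] Ω) (hj : ∀ x, j x ∈ E') :
    invOfEmb S (h.trans h') j (fun x => h' (hj x)) = invOfEmb S h j hj := by
  ext x
  rw [invOfEmb_apply, invOfEmb_apply, embSquare_trans h h' j hj, ← FieldSquare.map_comp_apply,
    inflSq_map]
  exact S.inv_layerInfl h h' _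

/-- General form of the independence: equal target fields, arbitrary embeddings. -/
theorem invOfEmb_eq {E₁ E₂ : IntermediateField k Ω} (h₁ : E₀ ≤ E₁) (h₂ : E₀ ≤ E₂)
    (hE : E₁ = E₂) (j₁ j₂ : L →ₐ[k] Ω) (hj₁ : ∀ x, j₁ x ∈ E₁) (hj₂ : ∀ x, j₂ x ∈ E₂) :
    invOfEmb S h₁ j₁ hj₁ = invOfEmb S h₂ j₂ hj₂ := by
  subst hE
  exact invOfEmb_indep S h₁ j₁ j₂ hj₁ hj₂

/-- All embeddings of a normal extension have the same image. -/
theorem fieldRange_eq (j₁ j₂ : L →ₐ[k] Ω) : j₁.fieldRange = j₂.fieldRange := by
  obtain ⟨σ, rfl⟩ := exists_algEquiv_comp_eq j₁ j₂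
  ext y
  constructor
  · rintro ⟨x, rfl⟩
    exact ⟨σ.symm x, by simp⟩
  · rintro ⟨x, rfl⟩
    exact ⟨σ x, rfl⟩

end Inv

section Family

theorem finiteDimensional_fieldRange [FiniteDimensional k L] (j : L →ₐ[k] Ω) :
    FiniteDimensional k j.fieldRange :=
  LinearEquiv.finiteDimensional (AlgEquiv.ofInjectiveField j).toLinearEquiv

theorem normal_fieldRange [Normal k L] (j : L →ₐ[k] Ω) : Normal k j.fieldRange :=
  Normal.of_algEquiv (AlgEquiv.ofInjectiveField j)

theorem normal_layer_of_normal (h : E₀ ≤ E') [Normal k E'] : Normal E₀ (layer h) := by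
  haveI : Normal k (layer h) := ‹Normal k E'›
  exact Normal.tower_top_of_normal k E₀ (layer h)

theorem mem_fieldRange_self (j : L →ₐ[k] Ω) (x : L) : j x ∈ j.fieldRange := ⟨x, rfl⟩

theorem embTop_bijective (h : E₀ ≤ E') (j : L →ₐ[k] Ω) (hj : ∀ x, j x ∈ E')
    (hE : E' = j.fieldRange) : Function.Bijective (embTop h j hj) := by
  refine ⟨(embTop h j hj).injective, fun y => ?_⟩
  have hy : (y : Ω) ∈ j.fieldRange := hE ▸ y.2
  obtain ⟨x, hx⟩ := hy
  exact ⟨x, Subtype.ext hx⟩

theorem algebraMap_bot_bijective :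
    Function.Bijective (algebraMap k (⊥ : IntermediateField k Ω)) :=
  (IntermediateField.botEquiv k Ω).symm.bijective

variable [IsAlgClosed Ω] (S : LayerInvSystem k Ω)

/-- A chosen embedding of an algebraic extension into `Ω`. -/
noncomputable def chosenEmb (L : Type) [Field L] [Algebra k L] [Algebra.IsAlgebraic k L] :
    L →ₐ[k] Ω := IsAlgClosed.lift

/-- The invariant map of an abstract finite Galois extension `L/k`. -/
noncomputable def invOfField (L : Type) [Field L] [Algebra k L] [FiniteDimensional k L]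
    [IsGalois k L] :
    H2 (Rep.ofAlgebraAutOnUnits k L : Rep.{0} ℤ (L ≃ₐ[k] L)) →+ AddCircle (1 : ℚ) :=
  invOfEmb S (bot_le : (⊥ : IntermediateField k Ω) ≤ (chosenEmb (Ω := Ω) L).fieldRange)
    (chosenEmb L) (mem_fieldRange_self _)

/-- The invariant of `L/k` is computed by any embedding into any `E'` equal to the image. -/
theorem invOfField_eq (L : Type) [Field L] [Algebra k L] [FiniteDimensional k L] [IsGalois k L]
    (h : (⊥ : IntermediateField k Ω) ≤ E') (j : L →ₐ[k] Ω) (hj : ∀ x, j x ∈ E')
    (hE : E' = j.fieldRange) : invOfField S L = invOfEmb S h j hj :=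
  invOfEmb_eq S _ h ((fieldRange_eq _ j).trans hE.symm) _ j _ hj

theorem invOfField_injective (L : Type) [Field L] [Algebra k L] [FiniteDimensional k L]
    [IsGalois k L] : Function.Injective (invOfField S L) := by
  set j : L →ₐ[k] Ω := chosenEmb L
  haveI := finiteDimensional_fieldRange j
  haveI := normal_fieldRange j
  haveI : Normal (⊥ : IntermediateField k Ω) (layer (bot_le : ⊥ ≤ j.fieldRange)) :=
    normal_layer_of_normal _
  have h1 := S.inv_injective (bot_le : (⊥ : IntermediateField k Ω) ≤ j.fieldRange)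
  have h2 := (embSquare (bot_le : (⊥ : IntermediateField k Ω) ≤ j.fieldRange) j
    (mem_fieldRange_self j)).map_bijective algebraMap_bot_bijective
    (embTop_bijective _ j _ rfl) 2
  exact h1.comp h2.1

/-- Compatibility with inflation. -/
theorem invOfField_infl (L L' : Type) [Field L] [Algebra k L] [FiniteDimensional k L]
    [IsGalois k L] [Field L'] [Algebra k L'] [FiniteDimensional k L'] [IsGalois k L']
    [Algebra L L'] [IsScalarTower k L L']
    (x : H2 (Rep.ofAlgebraAutOnUnits k L : Rep.{0} ℤ (L ≃ₐ[k] L))) :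
    invOfField S L' ((galInfl k L L' 2).hom x) = invOfField S L x := by
  set j' : L' →ₐ[k] Ω := chosenEmb L' with hj'
  set j'' : L →ₐ[k] Ω := j'.comp (IsScalarTower.toAlgHom k L L') with hj''
  have hle : j''.fieldRange ≤ j'.fieldRange := by
    rintro _ ⟨x, rfl⟩
    exact ⟨algebraMap L L' x, rfl⟩
  haveI := finiteDimensional_fieldRange j'
  haveI := normal_fieldRange j'
  haveI := finiteDimensional_fieldRange j''
  haveI := normal_fieldRange j''
  haveI : Normal (⊥ : IntermediateField k Ω) (layer (bot_le : ⊥ ≤ j''.fieldRange)) :=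
    normal_layer_of_normal _
  haveI : Normal (⊥ : IntermediateField k Ω)
      (layer ((bot_le : ⊥ ≤ j''.fieldRange).trans hle)) := normal_layer_of_normal _
  -- the left hand side, through the composite square
  have h1 : invOfField S L' ((galInfl k L L' 2).hom x) =
      invOfEmb S ((bot_le : (⊥ : IntermediateField k Ω) ≤ j''.fieldRange).trans hle) j''
        (fun x => hle (mem_fieldRange_self j'' x)) x := by
    show invOfEmb S _ j' _ ((galInfl k L L' 2).hom x) = _
    rw [invOfEmb_apply, invOfEmb_apply]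
    have hsq : (FieldSquare.ofAlgebra k L k L').comp
        (embSquare (bot_le : (⊥ : IntermediateField k Ω) ≤ j'.fieldRange) j'
          (mem_fieldRange_self j')) =
        embSquare ((bot_le : (⊥ : IntermediateField k Ω) ≤ j''.fieldRange).trans hle) j''
          (fun x => hle (mem_fieldRange_self j'' x)) := by
      apply FieldSquare.ext'
      · rfl
      · ext x
        rfl
    rw [← hsq, ← FieldSquare.map_comp_apply, FieldSquare.ofAlgebra_map]
  rw [h1, invOfEmb_mono S (bot_le : (⊥ : IntermediateField k Ω) ≤ j''.fieldRange) hle j''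
    (mem_fieldRange_self j'')]
  exact congrFun (congrArg DFunLike.coe
    (invOfField_eq S L (bot_le : (⊥ : IntermediateField k Ω) ≤ j''.fieldRange) j''
      (mem_fieldRange_self j'') rfl).symm) x

end Family

end LayerBridge

/-- **The family of invariant maps on abstract finite Galois extensions** attached to a system of
invariant maps on the layers of `Ω/k`. -/
noncomputable def LayerInvSystem.toInvFamily {k Ω : Type} [Field k] [Field Ω] [Algebra k Ω]
    [IsAlgClosed Ω] (S : LayerInvSystem k Ω) : InvFamily k where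
  inv L _ _ _ _ := LayerBridge.invOfField S L
  inv_injective L _ _ _ _ := LayerBridge.invOfField_injective S L
  inv_infl L L' _ _ _ _ _ _ _ _ _ _ x := LayerBridge.invOfField_infl S L L' x

namespace LayerBridge

variable {k Ω : Type} [Field k] [Field Ω] [Algebra k Ω] [IsAlgClosed Ω] (S : LayerInvSystem k Ω)

theorem toInvFamily_inv (L : Type) [Field L] [Algebra k L] [FiniteDimensional k L]
    [IsGalois k L] : S.toInvFamily.inv L = invOfField S L := rfl

/-- For an intermediate field `E'` (finite Galois over `k`) and a base `E₀ = ⊥`, the invariant of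
`E'/k` is the invariant of the layer `E'/E₀` through the canonical square. -/
theorem toInvFamily_inv_eq {E₀ E' : IntermediateField k Ω} (h : E₀ ≤ E') (h₀ : E₀ = ⊥)
    [FiniteDimensional k E'] [IsGalois k E']
    (x : H2 (Rep.ofAlgebraAutOnUnits k E' : Rep.{0} ℤ (E' ≃ₐ[k] E'))) :
    S.toInvFamily.inv E' x =
      S.inv h (((embSquare h E'.val (fun y => y.2)).map 2).hom x) := by
  subst h₀
  rw [toInvFamily_inv, invOfField_eq S E' h E'.val (fun y => y.2)
    (IntermediateField.fieldRange_val E').symm]
  rfl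

end LayerBridge

end Fermat.Agent.CFT
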