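import Mathlib
import Fermat.Agent.CFT.Local.InvFamilyOfLayers
import Fermat.Agent.CFT.Local.LayerUnramDefs
import Fermat.Agent.CFT.Local.UnramInvBaseChange
import Fermat.Agent.CFT.Local.TameGlue

/-!
# The unramified normalisation passes from layers to abstract Galois extensions

`(O, k)` in the local SETTING, `k ⊆ Ω` algebraically closed, `S : LayerInvSystem k Ω`.
If `S` is *normalised* (on unramified layers it is the unramified invariant `uinvLayer O`, i.e. the
Frobenius normalisation; this is `LayerUnramData.toLayerInvSystem_inv_eq_uinv` for the system
constructed by Layer B), then the family `S.toInvFamily` of invariants of abstract finite Galois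
extensions of `k` is compatible with the unramified invariants (`TameSym.IsUnramCompat`), hence its
symbols satisfy the unramified formula and the tame formulas.
-/

set_option autoImplicit false
set_option linter.unusedSectionVars false
set_option linter.style.haveILetI false

open IsLocalRing IntermediateField groupCohomology

namespace Fermat.Agent.CFT

open GaloisTower Tower LayerBridge

section

variable (O : Type) {k Ω : Type} [CommRing O] [IsDomain O] [IsDiscreteValuationRing O]
  [IsAdicComplete (maximalIdeal O) O] [Finite (ResidueField O)]
  [Field k] [Algebra O k] [IsFractionRing O k] [CharZero k]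
  [Field Ω] [Algebra k Ω] [Algebra O Ω] [IsScalarTower O k Ω]

/-- A system of invariant maps is normalised if it agrees with the unramified invariant on the
unramified layers. -/
def LayerInvSystem.IsUnramNormalized (S : LayerInvSystem k Ω) : Prop :=
  ∀ {E E' : IntermediateField k Ω} (h : E ≤ E') [FiniteDimensional k E], IsUnrLayer O h →
    ∀ x, S.inv h x = uinvLayer O h x

variable [IsAlgClosed Ω]

theorem isUnramCompat_toInvFamily (S : LayerInvSystem k Ω) (hS : S.IsUnramNormalized O) :
    TameSym.IsUnramCompat O S.toInvFamily := by
  intro L _ _ _ _ _ _ _ _ hunr φ hφ x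
  -- the chosen embedding and its layer
  set j : L →ₐ[k] Ω := chosenEmb L with hj
  set E' : IntermediateField k Ω := j.fieldRange with hE'
  have hb : (⊥ : IntermediateField k Ω) ≤ E' := bot_le
  haveI hfdE' : FiniteDimensional k E' := finiteDimensional_fieldRange j
  haveI hnE' : Normal k E' := normal_fieldRange j
  -- instances on the base `⊥`
  haveI hfdB : FiniteDimensional k (⊥ : IntermediateField k Ω) := inferInstance
  haveI := base_isLocalRing O k (⊥ : IntermediateField k Ω)
  haveI := base_isDiscreteValuationRing O k (⊥ : IntermediateField k Ω)
  haveI := base_isAdicComplete O k (⊥ : IntermediateField k Ω)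
  haveI := base_finite_residueField O k (⊥ : IntermediateField k Ω)
  haveI := base_isFractionRing O k (⊥ : IntermediateField k Ω)
  haveI : CharZero (⊥ : IntermediateField k Ω) :=
    charZero_of_injective_algebraMap (algebraMap k (⊥ : IntermediateField k Ω)).injective
  -- instances on the layer
  haveI hfdM : FiniteDimensional (⊥ : IntermediateField k Ω) (layer hb) := finiteDimensional_layer' hb
  haveI hgalM : IsGalois (⊥ : IntermediateField k Ω) (layer hb) := isGalois_layer_of_normal hb
  letI algOM : Algebra O (layer hb) := (inferInstance : Algebra O E')
  haveI : IsScalarTower O k (layer hb) := IsScalarTower.of_algebraMap_eq fun a =>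
    Subtype.ext (IsScalarTower.algebraMap_apply O k Ω a)
  haveI := intRing_isLocalRing (integralClosure O (⊥ : IntermediateField k Ω))
    (⊥ : IntermediateField k Ω) (layer hb)
  haveI := intRing_isLocalHom (integralClosure O (⊥ : IntermediateField k Ω))
    (⊥ : IntermediateField k Ω) (layer hb)
  letI algLM : Algebra L (layer hb) := (embTop hb j (mem_fieldRange_self j)).toAlgebra
  haveI : IsScalarTower k L (layer hb) := IsScalarTower.of_algebraMap_eq fun a =>
    ((embSquare hb j (mem_fieldRange_self j)).comm a).symm
  -- the layer is unramified
  have hgen : IntermediateField.adjoin (⊥ : IntermediateField k Ω)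
      (Set.range (algebraMap L (layer hb))) = ⊤ := by
    rw [eq_top_iff]
    intro y _
    obtain ⟨x, hx⟩ := (y.2 : (y : Ω) ∈ j.fieldRange)
    exact IntermediateField.subset_adjoin _ _ ⟨x, Subtype.ext hx⟩
  have hM : IsUnramExt (integralClosure O (⊥ : IntermediateField k Ω)) (layer hb) :=
    isUnramExt_baseChange O k L (⊥ : IntermediateField k Ω) (layer hb) hunr hgen
  have hUL : IsUnrLayer O hb := ⟨hfdE', inferInstance, hM⟩
  have h1 : S.toInvFamily.inv L x =
      S.inv hb ((galMap k L (⊥ : IntermediateField k Ω) (layer hb) 2).hom x) := by
    rw [← FieldSquare.map_eq_galMap (embSquare hb j (mem_fieldRange_self j)) rfl 2]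
    rfl
  rw [h1, hS hb hUL, uinvLayer_eq O hb,
    unramInv_galMap O k L (⊥ : IntermediateField k Ω) (layer hb) hunr hM
      (isFrob_frob (integralClosure O (⊥ : IntermediateField k Ω)) (⊥ : IntermediateField k Ω)
        (layer hb)),
    IntermediateField.finrank_bot, one_smul]
  rw [IsFrob.unique hunr (isFrob_frob O k L) hφ]

end

end Fermat.Agent.CFT
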