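import Mathlib
import Fermat.Agent.CFT.Local.Frobenius

/-!
# CFT, local layer (for node C5q): roots of unity of order prime to the residue characteristic

Setting B of `Frobenius.lean` (`O` a complete DVR with finite residue field `k`, `K = Frac O`,
`L/K` finite, `B = integralClosure O L`).  Let `ζ ∈ L` with `ζ ^ m = 1` where `m` is a unit of `O`.

* `rootOfUnity_eq_of_sub_mem` : in a domain, two `m`-th roots of unity which are congruent modulo
  a proper ideal not containing `m` are equal.
* `inertia_apply_rootOfUnity` : the inertia group fixes `ζ`.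
* `IsFrob.apply_rootOfUnity` : a Frobenius element maps `ζ` to `ζ ^ #k`.
* `isUnramExt_of_adjoin_rootOfUnity` : if `L = K(ζ)` is Galois over `K` then `L/K` is unramified.
-/

set_option autoImplicit false
set_option linter.unusedSectionVars false
set_option linter.style.haveILetI false

namespace Fermat.Agent.CFT

open IsLocalRing Polynomial

/-- In a domain, two `m`-th roots of unity which are congruent modulo a proper ideal not containing
`m` are equal. -/
theorem rootOfUnity_eq_of_sub_mem {S : Type*} [CommRing S] [IsDomain S] (Q : Ideal S) {m : ℕ}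
    (hm : (m : S) ∉ Q) {ξ ξ' : S} (hξ : ξ ^ m = 1) (hξ' : ξ' ^ m = 1) (h : ξ' - ξ ∈ Q) :
    ξ' = ξ := by
  have hm0 : m ≠ 0 := by
    rintro rfl
    exact hm (by simp)
  obtain ⟨k, rfl⟩ : ∃ k, m = k + 1 := ⟨m - 1, by omega⟩
  set η := ξ' * ξ ^ k with hη
  have hηm : η ^ (k + 1) = 1 := by
    rw [hη, mul_pow, hξ', one_mul, ← pow_mul, mul_comm, pow_mul, hξ, one_pow]
  have hη1 : η - 1 ∈ Q := by
    have : η - 1 = (ξ' - ξ) * ξ ^ k := by
      rw [hη, sub_mul, ← pow_succ', hξ]
    rw [this]
    exact Q.mul_mem_right _ h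
  have hpow : ∀ j : ℕ, η ^ j - 1 ∈ Q := by
    intro j
    induction j with
    | zero => simp
    | succ j ih =>
      have : η ^ (j + 1) - 1 = (η ^ j - 1) * η + (η - 1) := by ring
      rw [this]
      exact Q.add_mem (Q.mul_mem_right _ ih) hη1
  have hgeom : (∑ j ∈ Finset.range (k + 1), η ^ j) * (η - 1) = 0 := by
    rw [geom_sum_mul, hηm, sub_self]
  rcases mul_eq_zero.mp hgeom with h0 | h1
  · exfalso
    apply hm
    have hsum : (∑ j ∈ Finset.range (k + 1), η ^ j) - ((k + 1 : ℕ) : S) ∈ Q := by
      have : (∑ j ∈ Finset.range (k + 1), η ^ j) - ((k + 1 : ℕ) : S) =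
          ∑ j ∈ Finset.range (k + 1), (η ^ j - 1) := by
        rw [Finset.sum_sub_distrib]
        simp
      rw [this]
      exact Q.sum_mem fun j _ => hpow j
    rw [h0, zero_sub, neg_mem_iff] at hsum
    exact hsum
  · have hη1' : η = 1 := sub_eq_zero.mp h1
    have hξu : ξ * ξ ^ k = 1 := by rw [← pow_succ', hξ]
    have hξ0 : ξ ^ k ≠ 0 := by
      intro h0
      rw [h0, mul_zero] at hξu
      exact zero_ne_one hξu
    exact mul_right_cancel₀ hξ0 (by rw [← hη, hη1', hξu])

section Setting

variable (O K : Type) [CommRing O] [IsDomain O] [IsDiscreteValuationRing O]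
  [IsAdicComplete (maximalIdeal O) O] [Finite (ResidueField O)]
  [Field K] [Algebra O K] [IsFractionRing O K] [CharZero K]
  (L : Type) [Field L] [Algebra K L] [FiniteDimensional K L] [Algebra O L] [IsScalarTower O K L]
  [IsLocalRing (integralClosure O L)] [IsLocalHom (algebraMap O (integralClosure O L))]

variable {L} in
/-- A root of unity is integral. -/
theorem rootOfUnity_mem_integralClosure {ζ : L} {m : ℕ} (hm : m ≠ 0) (hζ : ζ ^ m = 1) :
    ζ ∈ integralClosure O L := by
  have h1 : IsIntegral O (ζ ^ m) := hζ ▸ isIntegral_one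
  exact IsIntegral.of_pow (Nat.pos_of_ne_zero hm) h1

variable {L}

/-- `m` is not in the maximal ideal of `O_L` when `m` is a unit of `O`. -/
theorem natCast_notMem_maximalIdeal_intRing {m : ℕ} (hm : IsUnit (m : O)) :
    ((m : ℕ) : integralClosure O L) ∉ maximalIdeal (integralClosure O L) := by
  have h : IsUnit (algebraMap O (integralClosure O L) (m : O)) := hm.map _
  rw [map_natCast] at h
  exact fun hmem => (mem_maximalIdeal _).mp hmem h

/-- The inertia group fixes the roots of unity of order prime to the residue characteristic. -/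
theorem inertia_apply_rootOfUnity {ζ : L} {m : ℕ} (hm : IsUnit (m : O)) (hζ : ζ ^ m = 1)
    {σ : L ≃ₐ[K] L} (hσ : σ ∈ inertiaGal O K L) : σ ζ = ζ := by
  have hm0 : m ≠ 0 := by
    rintro rfl
    simp at hm
  set x : integralClosure O L := ⟨ζ, rootOfUnity_mem_integralClosure O hm0 hζ⟩ with hx
  have hxm : x ^ m = 1 := Subtype.ext (by simpa using hζ)
  have h1 := (mem_inertiaGal_iff O K L σ).mp hσ x
  have h2 : (galRestrict O K L (integralClosure O L) σ x) ^ m = 1 := by
    rw [← map_pow, hxm, map_one]
  have h3 := rootOfUnity_eq_of_sub_mem (maximalIdeal (integralClosure O L))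
    (natCast_notMem_maximalIdeal_intRing O hm) hxm h2 h1
  have h4 := congrArg (algebraMap (integralClosure O L) L) h3
  rw [algebraMap_galRestrict_apply] at h4
  exact h4

variable {O K} in
/-- A Frobenius element raises the roots of unity of order prime to the residue characteristic to
the power `#k`. -/
theorem IsFrob.apply_rootOfUnity {ζ : L} {m : ℕ} (hm : IsUnit (m : O)) (hζ : ζ ^ m = 1)
    {φ : L ≃ₐ[K] L} (hφ : IsFrob O K L φ) : φ ζ = ζ ^ Nat.card (ResidueField O) := by
  have hm0 : m ≠ 0 := by
    rintro rfl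
    simp at hm
  set x : integralClosure O L := ⟨ζ, rootOfUnity_mem_integralClosure O hm0 hζ⟩ with hx
  have hxm : x ^ m = 1 := Subtype.ext (by simpa using hζ)
  have h1 := hφ x
  have h2 : (galRestrict O K L (integralClosure O L) φ x) ^ m = 1 := by
    rw [← map_pow, hxm, map_one]
  have h2' : (x ^ Nat.card (ResidueField O)) ^ m = 1 := by
    rw [← pow_mul, mul_comm, pow_mul, hxm, one_pow]
  have h3 := rootOfUnity_eq_of_sub_mem (maximalIdeal (integralClosure O L))
    (natCast_notMem_maximalIdeal_intRing O hm) h2' h2 h1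
  have h4 := congrArg (algebraMap (integralClosure O L) L) h3
  rw [algebraMap_galRestrict_apply, map_pow] at h4
  exact h4

/-- If `L = K(ζ)` with `ζ` a root of unity of order prime to the residue characteristic, then the
inertia group is trivial. -/
theorem inertiaGal_eq_bot_of_adjoin_rootOfUnity {ζ : L} {m : ℕ} (hm : IsUnit (m : O))
    (hζ : ζ ^ m = 1) (htop : IntermediateField.adjoin K {ζ} = ⊤) : inertiaGal O K L = ⊥ := by
  rw [eq_bot_iff]
  intro σ hσ
  rw [Subgroup.mem_bot]
  have hfix := inertia_apply_rootOfUnity O K hm hζ hσ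
  ext y
  have hy : y ∈ IntermediateField.adjoin K {ζ} := htop ▸ IntermediateField.mem_top
  rw [AlgEquiv.one_apply]
  induction hy using IntermediateField.adjoin_induction with
  | mem y hy =>
    rw [Set.mem_singleton_iff] at hy
    rw [hy, hfix]
  | algebraMap r => exact σ.commutes r
  | add y z _ _ hy hz => rw [map_add, hy, hz]
  | inv y _ hy => rw [map_inv₀, hy]
  | mul y z _ _ hy hz => rw [map_mul, hy, hz]

/-- `K(ζ)/K` is unramified for `ζ` a root of unity of order prime to the residue characteristic. -/
theorem isUnramExt_of_adjoin_rootOfUnity [IsGalois K L] {ζ : L} {m : ℕ} (hm : IsUnit (m : O))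
    (hζ : ζ ^ m = 1) (htop : IntermediateField.adjoin K {ζ} = ⊤) : IsUnramExt O L := by
  rw [isUnramExt_iff_ramIdx O K L, ← card_inertiaGal O K L,
    inertiaGal_eq_bot_of_adjoin_rootOfUnity O K hm hζ htop]
  exact Subgroup.card_bot

end Setting

end Fermat.Agent.CFT
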