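import Mathlib
import Fermat.Agent.CFT.Local.TameGlue
import Fermat.Agent.CFT.Local.CycloFrob

/-!
# CFT, node C5q/C5t (glue): the unramified formula for `ℚ_q(ζ_ℓ)/ℚ_q`, `q ≠ ℓ`

* `dvrOrd_padic` : `dvrOrd ℤ_[q] ℚ_[q] x = x.valuation`.
* `sym_cyclo_unram` : for a symbol system over `ℚ_q` satisfying the unramified formula,
  `M = ℚ_q(z)` with `z` a primitive `ℓ`-th root of unity, `ℓ ≠ q`: there is `σ` with `σ z = z ^ q`,
  and for every such `σ`, `(b, χ) = ι (v_q(b) • χ σ)`.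
-/

set_option autoImplicit false
set_option linter.unusedSectionVars false
set_option linter.style.haveILetI false

namespace Fermat.Agent.CFT.TameSym

open IsLocalRing Fermat.Agent.CFT

section

variable {q : ℕ} [hq : Fact q.Prime]

/-- The normalised valuation of `ℤ_q` on `ℚ_q` is the `q`-adic valuation. -/
theorem dvrOrd_padic {x : ℚ_[q]} (hx : x ≠ 0) : dvrOrd ℤ_[q] ℚ_[q] x = x.valuation := by
  set k := x.valuation with hk
  have hq0 : ((q : ℕ) : ℚ_[q]) ≠ 0 := Nat.cast_ne_zero.mpr hq.out.ne_zero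
  have hqR : ((q : ℕ) : ℝ) ≠ 0 := Nat.cast_ne_zero.mpr hq.out.ne_zero
  have hnorm : ‖x * ((q : ℕ) : ℚ_[q]) ^ (-k)‖ = 1 := by
    rw [norm_mul, Padic.norm_eq_zpow_neg_valuation hx, Padic.norm_p_zpow, neg_neg, ← hk,
      ← zpow_add₀ hqR, neg_add_cancel, zpow_zero]
  have hx' : x = algebraMap ℤ_[q] ℚ_[q] ((PadicInt.mkUnits hnorm : ℤ_[q]ˣ) : ℤ_[q]) *
      (algebraMap ℤ_[q] ℚ_[q] ((q : ℕ) : ℤ_[q])) ^ k := by
    rw [PadicInt.algebraMap_apply, PadicInt.mkUnits_eq, PadicInt.algebraMap_apply,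
      PadicInt.coe_natCast, mul_assoc, ← zpow_add₀ hq0, neg_add_cancel, zpow_zero, mul_one]
  conv_lhs => rw [hx']
  exact dvrOrd_unit_mul_zpow ℤ_[q] ℚ_[q] PadicInt.irreducible_p _ k

variable {ℓ : ℕ} [hℓ : Fact ℓ.Prime]

/-- The unramified formula for `ℚ_q(ζ_ℓ)/ℚ_q`, `q ≠ ℓ`. -/
theorem sym_cyclo_unram (hqℓ : q ≠ ℓ) {n : ℕ} [NeZero n] {A : Type} [AddCommGroup A]
    (S : SymbolSystem ℚ_[q] n A) {ι : ZMod n →+ A} (hS : UnramFormula ℤ_[q] S ι)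
    (M : Type) [Field M] [Algebra ℚ_[q] M] [FiniteDimensional ℚ_[q] M] [IsGalois ℚ_[q] M]
    {z : M} (hz : IsPrimitiveRoot z ℓ) (htop : IntermediateField.adjoin ℚ_[q] {z} = ⊤)
    (χ : (M ≃ₐ[ℚ_[q]] M) →* Multiplicative (ZMod n)) :
    (∃ σ : M ≃ₐ[ℚ_[q]] M, σ z = z ^ q) ∧
    ∀ σ : M ≃ₐ[ℚ_[q]] M, σ z = z ^ q → ∀ b : ℚ_[q]ˣ,
      S.sym M χ b = ι ((b : ℚ_[q]).valuation • (χ σ).toAdd) := by
  letI : Algebra ℤ_[q] M := ((algebraMap ℚ_[q] M).comp (algebraMap ℤ_[q] ℚ_[q])).toAlgebra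
  haveI : IsScalarTower ℤ_[q] ℚ_[q] M := IsScalarTower.of_algebraMap_eq fun _ => rfl
  haveI := intRing_isLocalRing ℤ_[q] ℚ_[q] M
  haveI := intRing_isLocalHom ℤ_[q] ℚ_[q] M
  have hunit : IsUnit ((ℓ : ℕ) : ℤ_[q]) := by
    rw [PadicInt.isUnit_iff, PadicInt.norm_natCast_eq_one_iff]
    exact (Nat.coprime_primes hq.out hℓ.out).mpr hqℓ
  have hunr : IsUnramExt ℤ_[q] M :=
    isUnramExt_of_adjoin_rootOfUnity ℤ_[q] ℚ_[q] hunit hz.pow_eq_one htop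
  have hφ := isFrob_frob ℤ_[q] ℚ_[q] M
  have hφz : frob ℤ_[q] ℚ_[q] M z = z ^ q := by
    have := hφ.apply_rootOfUnity hunit hz.pow_eq_one
    rwa [card_residueField_padicInt] at this
  refine ⟨⟨_, hφz⟩, ?_⟩
  intro σ hσ b
  have hσφ : σ = frob ℤ_[q] ℚ_[q] M := by
    have halg : IsAlgebraic ℚ_[q] z := Algebra.IsAlgebraic.isAlgebraic z
    have hadj : Algebra.adjoin ℚ_[q] {z} = ⊤ := by
      have := IntermediateField.adjoin_simple_toSubalgebra_of_isAlgebraic halg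
      rw [← this, htop, IntermediateField.top_toSubalgebra]
    have : (σ : M →ₐ[ℚ_[q]] M) = (frob ℤ_[q] ℚ_[q] M : M →ₐ[ℚ_[q]] M) := by
      refine AlgHom.ext_of_adjoin_eq_top hadj ?_
      intro x hx
      rw [Set.mem_singleton_iff] at hx
      subst hx
      simpa [hφz] using hσ
    ext x
    have := congrArg (fun f : M →ₐ[ℚ_[q]] M => f x) this
    simpa using this
  rw [hσφ, hS M hunr _ hφ χ b, dvrOrd_padic b.ne_zero]

end

end Fermat.Agent.CFT.TameSym
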