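import Mathlib
import Fermat.Agent.CFT.Local.TameCycloUnram

/-!
# CFT, node C5q/C5t (glue): the unramified formula for the concrete symbols of `ℚ_q(ζ_ℓ)/ℚ_q`

`symbol_cyclo_unram` : for `I : InvFamily ℚ_[q]` compatible with the unramified invariants,
`M = ℚ_q(z)`, `z` a primitive `ℓ`-th root of unity, `ℓ ≠ q`, `σ z = z ^ q`:
`I.symbol n M χ a = zmodCircle n (v_q(a) • χ σ)`.
-/

set_option autoImplicit false

namespace Fermat.Agent.CFT.TameSym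

open Fermat.Agent.CFT

/-- The unramified formula for the concrete symbols of `ℚ_q(ζ_ℓ)/ℚ_q`, `q ≠ ℓ`. -/
theorem symbol_cyclo_unram {q ℓ : ℕ} [Fact q.Prime] [Fact ℓ.Prime] (hqℓ : q ≠ ℓ)
    (I : InvFamily ℚ_[q]) (hI : IsUnramCompat ℤ_[q] I) {n : ℕ} [NeZero n] (M : Type) [Field M]
    [Algebra ℚ_[q] M] [FiniteDimensional ℚ_[q] M] [IsGalois ℚ_[q] M] {z : M}
    (hz : IsPrimitiveRoot z ℓ) (htop : IntermediateField.adjoin ℚ_[q] {z} = ⊤)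
    (χ : (M ≃ₐ[ℚ_[q]] M) →* Multiplicative (ZMod n)) (σ : M ≃ₐ[ℚ_[q]] M) (hσ : σ z = z ^ q)
    (a : ℚ_[q]ˣ) :
    I.symbol n M χ a = zmodCircle n ((a : ℚ_[q]).valuation • (χ σ).toAdd) :=
  (sym_cyclo_unram hqℓ (symbolSystemOfInv I n) (unramFormula_symbolSystemOfInv I hI n) M hz htop
    χ).2 σ hσ a

/-- There is an automorphism of `ℚ_q(ζ_ℓ)` raising `ζ_ℓ` to the `q`-th power (`q ≠ ℓ`). -/
theorem exists_aut_pow_prime {q ℓ : ℕ} [Fact q.Prime] [Fact ℓ.Prime] (hqℓ : q ≠ ℓ)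
    (M : Type) [Field M] [Algebra ℚ_[q] M] [FiniteDimensional ℚ_[q] M] [IsGalois ℚ_[q] M] {z : M}
    (hz : IsPrimitiveRoot z ℓ) (htop : IntermediateField.adjoin ℚ_[q] {z} = ⊤) :
    ∃ σ : M ≃ₐ[ℚ_[q]] M, σ z = z ^ q := by
  obtain ⟨h, -⟩ := sym_cyclo_unram (n := 1) (A := Unit) hqℓ
    { sym := fun _ _ _ _ _ _ _ => ()
      sym_mul := fun _ _ _ _ _ _ _ _ => rfl
      sym_char_mul := fun _ _ _ _ _ _ _ _ => rfl
      sym_inflation := fun _ _ _ _ _ _ _ _ _ _ _ _ _ _ => rfl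
      sym_norm := fun _ _ _ _ _ _ _ _ _ _ _ => rfl } (ι := 0)
    (fun _ _ _ _ _ _ _ _ _ _ _ _ _ _ => rfl) M hz htop 1
  exact h

end Fermat.Agent.CFT.TameSym
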