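import Mathlib
import Fermat.Agent.CFT.Local.TameGlue

/-!
# CFT, node C5t/C5q (glue): change of modulus for symbols; (T4) for arbitrary `n`

For `d ∣ n` let `scaleHom : ZMod d →+ ZMod n`, `x ↦ (n / d) x`.  The Bockstein cocycle of
`scaleHom ∘ χ₀` equals that of `χ₀`, hence the symbol classes `a ∪ δχ` agree
(`galSymClass_scale`), and `zmodCircle n ∘ scaleHom = zmodCircle d`.  A character killed by `d`
factors through `scaleHom` (`exists_comp_scale`).

Consequence: `symbol_cyclo_char_all`, the tame formula (T4) for the concrete symbols of an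
`InvFamily ℚ_[ℓ]` and characters of `Gal(ℚ_ℓ(ζ_ℓ)/ℚ_ℓ)` with values in `ℤ/n`, `n` arbitrary.
-/

set_option autoImplicit false
set_option linter.unusedSectionVars false
set_option linter.style.haveILetI false

namespace Fermat.Agent.CFT.TameSym

open IsLocalRing Fermat.Agent.CFT groupCohomology

section Scale

variable {d n : ℕ} [NeZero d] [NeZero n]

/-- `ZMod d →+ ZMod n`, `x ↦ (n / d) x`, for `d ∣ n`. -/
noncomputable def scaleHom (h : d ∣ n) : ZMod d →+ ZMod n :=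
  ZMod.lift d ⟨(AddMonoidHom.mulLeft (((n / d : ℕ) : ℤ) : ZMod n)).comp (Int.castAddHom (ZMod n)),
    by
      simp only [AddMonoidHom.coe_comp, Function.comp_apply, Int.coe_castAddHom,
        AddMonoidHom.coe_mulLeft, Int.cast_natCast]
      rw [← Nat.cast_mul, Nat.div_mul_cancel h, ZMod.natCast_self]⟩

theorem scaleHom_natCast (h : d ∣ n) (j : ℕ) :
    scaleHom h (j : ZMod d) = (((n / d) * j : ℕ) : ZMod n) := by
  have h1 : ((j : ℕ) : ZMod d) = ((j : ℤ) : ZMod d) := by push_cast; rfl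
  unfold scaleHom
  rw [h1, ZMod.lift_coe]
  simp only [AddMonoidHom.coe_comp, Function.comp_apply, Int.coe_castAddHom,
    AddMonoidHom.coe_mulLeft, Int.cast_natCast, Nat.cast_mul]

theorem scaleHom_val (h : d ∣ n) (x : ZMod d) : (scaleHom h x).val = (n / d) * x.val := by
  have h1 : scaleHom h x = (((n / d) * x.val : ℕ) : ZMod n) := by
    rw [← scaleHom_natCast, ZMod.natCast_zmod_val]
  have hlt : (n / d) * x.val < n := by
    have hd : 0 < n / d := Nat.div_pos (Nat.le_of_dvd (NeZero.pos n) h) (NeZero.pos d)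
    calc (n / d) * x.val < (n / d) * d := Nat.mul_lt_mul_of_pos_left (ZMod.val_lt x) hd
      _ = n := Nat.div_mul_cancel h
  rw [h1, ZMod.val_natCast_of_lt hlt]

theorem zmodCircle_scaleHom (h : d ∣ n) (x : ZMod d) :
    zmodCircle n (scaleHom h x) = zmodCircle d x := by
  rw [zmodCircle_apply, zmodCircle_apply, scaleHom_val]
  congr 1
  have hd : ((d : ℕ) : ℚ) ≠ 0 := Nat.cast_ne_zero.mpr (NeZero.ne d)
  have hn : ((n : ℕ) : ℚ) ≠ 0 := Nat.cast_ne_zero.mpr (NeZero.ne n)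
  rw [Nat.cast_mul, Nat.cast_div h hd]
  field_simp

/-- Elements killed by `d` are in the range of `scaleHom`. -/
theorem exists_scaleHom_eq (h : d ∣ n) {y : ZMod n} (hy : d • y = 0) :
    ∃ x : ZMod d, scaleHom h x = y := by
  have hd : 0 < n / d := Nat.div_pos (Nat.le_of_dvd (NeZero.pos n) h) (NeZero.pos d)
  have h1 : ((d * y.val : ℕ) : ZMod n) = 0 := by
    rw [Nat.cast_mul, ZMod.natCast_zmod_val, ← nsmul_eq_mul]; exact hy
  rw [ZMod.natCast_eq_zero_iff] at h1
  have h2 : n / d ∣ y.val := by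
    have : n / d * d ∣ y.val * d := by rw [Nat.div_mul_cancel h, mul_comm]; exact h1
    exact Nat.dvd_of_mul_dvd_mul_right (NeZero.pos d) this
  obtain ⟨c, hc⟩ := h2
  refine ⟨(c : ZMod d), ?_⟩
  rw [scaleHom_natCast, ← hc, ZMod.natCast_zmod_val]

end Scale

section Bock

variable {G : Type} [Group G] {d n : ℕ} [NeZero d] [NeZero n]

/-- The character `scaleHom ∘ χ₀`. -/
noncomputable def scaleChar (h : d ∣ n) (χ₀ : G →* Multiplicative (ZMod d)) :
    G →* Multiplicative (ZMod n) :=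
  (AddMonoidHom.toMultiplicative (scaleHom h)).comp χ₀

theorem scaleChar_apply (h : d ∣ n) (χ₀ : G →* Multiplicative (ZMod d)) (g : G) :
    (scaleChar h χ₀ g).toAdd = scaleHom h (χ₀ g).toAdd := rfl

theorem chLift_scaleChar (h : d ∣ n) (χ₀ : G →* Multiplicative (ZMod d)) (g : G) :
    chLift (scaleChar h χ₀) g = ((n / d : ℕ) : ℤ) * chLift χ₀ g := by
  unfold chLift
  rw [scaleChar_apply, scaleHom_val]
  push_cast
  rfl

theorem bock_scaleChar (h : d ∣ n) (χ₀ : G →* Multiplicative (ZMod d)) (p : G × G) :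
    bock (scaleChar h χ₀) p = bock χ₀ p := by
  unfold bock
  rw [chLift_scaleChar, chLift_scaleChar, chLift_scaleChar, ← mul_add, ← mul_sub]
  have hd : 0 < n / d := Nat.div_pos (Nat.le_of_dvd (NeZero.pos n) h) (NeZero.pos d)
  have hn : ((n : ℕ) : ℤ) = ((n / d : ℕ) : ℤ) * ((d : ℕ) : ℤ) := by
    rw [← Nat.cast_mul, Nat.div_mul_cancel h]
  rw [hn]
  exact Int.mul_ediv_mul_of_pos _ _ (by exact_mod_cast hd)

theorem symClass_scaleChar (A : Rep.{0} ℤ G) (h : d ∣ n) (χ₀ : G →* Multiplicative (ZMod d))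
    (a : A) (ha : IsInv A a) :
    symClass A (scaleChar h χ₀) a ha = symClass A χ₀ a ha := by
  unfold symClass
  congr 1
  apply Subtype.ext
  funext p
  show bock (scaleChar h χ₀) p • a = bock χ₀ p • a
  rw [bock_scaleChar]

/-- A character killed by `d` factors through `scaleHom`. -/
theorem exists_scaleChar_eq (h : d ∣ n) (χ : G →* Multiplicative (ZMod n))
    (hχ : ∀ g, χ g ^ d = 1) : ∃ χ₀ : G →* Multiplicative (ZMod d), scaleChar h χ₀ = χ := by
  set E : Multiplicative (ZMod d) →* Multiplicative (ZMod n) :=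
    AddMonoidHom.toMultiplicative (scaleHom h) with hE
  have hinj : Function.Injective E := by
    intro x y hxy
    have h1 : (scaleHom h x.toAdd).val = (scaleHom h y.toAdd).val := by
      have : scaleHom h x.toAdd = scaleHom h y.toAdd := hxy
      rw [this]
    rw [scaleHom_val, scaleHom_val] at h1
    have hd : 0 < n / d := Nat.div_pos (Nat.le_of_dvd (NeZero.pos n) h) (NeZero.pos d)
    have h2 := Nat.eq_of_mul_eq_mul_left hd h1
    exact Multiplicative.toAdd.injective (ZMod.val_injective d h2)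
  have hrange : ∀ g, χ g ∈ E.range := by
    intro g
    obtain ⟨x, hx⟩ := exists_scaleHom_eq h (y := (χ g).toAdd) (by
      have := hχ g
      rw [← toAdd_pow, this]; rfl)
    exact ⟨Multiplicative.ofAdd x, by rw [hE]; exact congrArg Multiplicative.ofAdd hx⟩
  refine ⟨(MonoidHom.ofInjective hinj).symm.toMonoidHom.comp (χ.codRestrict E.range hrange), ?_⟩
  refine MonoidHom.ext fun g => ?_
  show E ((MonoidHom.ofInjective hinj).symm ⟨χ g, hrange g⟩) = χ g
  have := (MonoidHom.ofInjective hinj).apply_symm_apply ⟨χ g, hrange g⟩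
  exact congrArg Subtype.val this

end Bock

section Gal

variable (K L : Type) [Field K] [Field L] [Algebra K L] {d n : ℕ} [NeZero d] [NeZero n]

theorem galSymClass_scaleChar (h : d ∣ n) (χ₀ : (L ≃ₐ[K] L) →* Multiplicative (ZMod d))
    (a : Kˣ) : galSymClass K L (scaleChar h χ₀) a = galSymClass K L χ₀ a :=
  symClass_scaleChar _ h χ₀ _ _

end Gal

section Cyclo

variable {ℓ : ℕ} [hℓ : Fact ℓ.Prime]

/-- **(T4)** for the concrete symbols over `ℚ_ℓ`, any `n`: for a character `χ` of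
`Gal(ℚ_ℓ(ζ_ℓ)/ℚ_ℓ)` with values in `ℤ/n`: `(u, χ) = - χ(σ_u) / n` and `(ℓ, χ) = 0`. -/
theorem symbol_cyclo_char_all (I : InvFamily ℚ_[ℓ]) (hI : IsUnramCompat ℤ_[ℓ] I) {n : ℕ}
    [NeZero n] (M : Type) [Field M] [Algebra ℚ_[ℓ] M] [FiniteDimensional ℚ_[ℓ] M]
    [IsGalois ℚ_[ℓ] M] {z : M} (hz : IsPrimitiveRoot z ℓ)
    (htop : IntermediateField.adjoin ℚ_[ℓ] {z} = ⊤)
    (χ : (M ≃ₐ[ℚ_[ℓ]] M) →* Multiplicative (ZMod n)) :
    (∀ (u : ℤ_[ℓ]ˣ) (σ : M ≃ₐ[ℚ_[ℓ]] M), σ z = z ^ (PadicInt.toZMod (u : ℤ_[ℓ])).val →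
      I.symbol n M χ (Units.map ((PadicInt.Coe.ringHom : ℤ_[ℓ] →+* ℚ_[ℓ]) : ℤ_[ℓ] →* ℚ_[ℓ]) u) =
        - zmodCircle n (χ σ).toAdd) ∧
    (∀ a : ℚ_[ℓ]ˣ, (a : ℚ_[ℓ]) = (ℓ : ℚ_[ℓ]) → I.symbol n M χ a = 0) := by
  set d := Nat.gcd n (ℓ - 1) with hd
  have hdn : d ∣ n := Nat.gcd_dvd_left _ _
  have hdℓ : d ∣ ℓ - 1 := Nat.gcd_dvd_right _ _
  haveI : NeZero d := ⟨Nat.gcd_ne_zero_left (NeZero.ne n)⟩
  have hcard : Nat.card (M ≃ₐ[ℚ_[ℓ]] M) = ℓ - 1 := by
    rw [IsGalois.card_aut_eq_finrank, finrank_cyclo_padic M hz htop]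
  have hχ : ∀ g, χ g ^ d = 1 := by
    intro g
    have h1 : χ g ^ (ℓ - 1) = 1 := by
      rw [← map_pow, ← hcard, pow_card_eq_one', map_one]
    have h2 : χ g ^ n = 1 := by
      apply Multiplicative.toAdd.injective
      rw [toAdd_pow, toAdd_one, nsmul_eq_mul, ZMod.natCast_self, zero_mul]
    rw [hd]
    exact pow_gcd_eq_one.mpr ⟨h2, h1⟩
  obtain ⟨χ₀, rfl⟩ := exists_scaleChar_eq hdn χ hχ
  obtain ⟨h1, h2⟩ := symbol_cyclo_char I hI hdℓ M hz htop χ₀
  constructor
  · intro u σ hσ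
    have := h1 u σ hσ
    unfold InvFamily.symbol at this ⊢
    rw [galSymClass_scaleChar, this, scaleChar_apply, zmodCircle_scaleHom]
  · intro a ha
    have := h2 a ha
    unfold InvFamily.symbol at this ⊢
    rw [galSymClass_scaleChar, this]

end Cyclo

end Fermat.Agent.CFT.TameSym
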