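import Mathlib
import Fermat.Agent.CFT.LayerMaps
import Fermat.Agent.CFT.GalMapInfRes

/-!
# CFT, Layer B: inflation-restriction in degree two for the layers of a tower

`galMap` only depends on the map `L₁ → L₂` (`galMap_congr_inst`); hence `layerInfl`/`layerRest`
(defined with the inclusion algebra structures of `LayerMaps`) agree with `galInfl`/`galRest`
for the canonical algebra structures, and helper5's GM3 (`GalMapInfRes`) gives:
`layerInfl` is injective on `H²` and `ker layerRest = im layerInfl` on `H²`.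
-/

set_option autoImplicit false
set_option linter.style.haveILetI false
set_option linter.unusedSectionVars false

open CategoryTheory groupCohomology IntermediateField

namespace Fermat.Agent.CFT

open GaloisTower LayerMaps

section Congr

variable (K₁ L₁ K₂ L₂ : Type) [Field K₁] [Field L₁] [Field K₂] [Field L₂]
  [Algebra K₁ L₁] [Algebra K₂ L₂] [Algebra L₁ L₂] [Normal K₁ L₁]

/-- `galRes` does not depend on the auxiliary algebra structures `K₁ → K₂`, `K₁ → L₂`. -/
theorem galRes_congr_inst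
    (a : Algebra K₁ K₂) (d : Algebra K₁ L₂)
    (t₁ : @IsScalarTower K₁ K₂ L₂ a.toSMul _ d.toSMul)
    (t₂ : @IsScalarTower K₁ L₁ L₂ _ _ d.toSMul)
    (a' : Algebra K₁ K₂) (d' : Algebra K₁ L₂)
    (t₁' : @IsScalarTower K₁ K₂ L₂ a'.toSMul _ d'.toSMul)
    (t₂' : @IsScalarTower K₁ L₁ L₂ _ _ d'.toSMul) :
    @galRes K₁ L₁ K₂ L₂ _ _ _ _ _ _ a _ d t₁ t₂ _ =
      @galRes K₁ L₁ K₂ L₂ _ _ _ _ _ _ a' _ d' t₁' t₂' _ := by
  ext σ : 1
  rw [@galRes_eq_iff K₁ L₁ K₂ L₂ _ _ _ _ _ _ a _ d t₁ t₂ _]
  intro x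
  exact @galRes_commutes K₁ L₁ K₂ L₂ _ _ _ _ _ _ a' _ d' t₁' t₂' _ σ x

/-- `galMap` does not depend on the auxiliary algebra structures `K₁ → K₂`, `K₁ → L₂`. -/
theorem galMap_congr_inst
    (a : Algebra K₁ K₂) (d : Algebra K₁ L₂)
    (t₁ : @IsScalarTower K₁ K₂ L₂ a.toSMul _ d.toSMul)
    (t₂ : @IsScalarTower K₁ L₁ L₂ _ _ d.toSMul)
    (a' : Algebra K₁ K₂) (d' : Algebra K₁ L₂)
    (t₁' : @IsScalarTower K₁ K₂ L₂ a'.toSMul _ d'.toSMul)
    (t₂' : @IsScalarTower K₁ L₁ L₂ _ _ d'.toSMul) (n : ℕ) :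
    @galMap K₁ L₁ K₂ L₂ _ _ _ _ _ _ a _ d t₁ t₂ _ n =
      @galMap K₁ L₁ K₂ L₂ _ _ _ _ _ _ a' _ d' t₁' t₂' _ n := by
  unfold galMap
  exact groupCohomology.map_congr
    (galRes_congr_inst K₁ L₁ K₂ L₂ a d t₁ t₂ a' d' t₁' t₂') rfl n

end Congr

section Layers

variable {k Ω : Type} [Field k] [Field Ω] [Algebra k Ω]

/-- The canonical scalar tower `E → E' → F'` of layers over the same base. -/
lemma tower_layer_infl {E E' F' : IntermediateField k Ω} (hEE' : E ≤ E') (hE'F' : E' ≤ F') :
    letI := algTop hEE' (hEE'.trans hE'F') hE'F'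
    IsScalarTower E (layer hEE') (layer (hEE'.trans hE'F')) := by
  letI := algTop hEE' (hEE'.trans hE'F') hE'F'
  exact IsScalarTower.of_algebraMap_eq fun _ => rfl

/-- `layerInfl` is `galInfl` for the canonical algebra structures. -/
theorem layerInfl_eq_galInfl {E E' F' : IntermediateField k Ω} (hEE' : E ≤ E') (hE'F' : E' ≤ F')
    [Normal E (layer hEE')] (n : ℕ) :
    letI := algTop hEE' (hEE'.trans hE'F') hE'F'
    haveI := tower_layer_infl hEE' hE'F'
    layerInfl hEE' hE'F' n = galInfl E (layer hEE') (layer (hEE'.trans hE'F')) n := by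
  letI := algTop hEE' (hEE'.trans hE'F') hE'F'
  haveI := tower_layer_infl hEE' hE'F'
  exact galMap_congr_inst E (layer hEE') E (layer (hEE'.trans hE'F'))
    (algBase (le_refl E)) (algDiag (le_refl E) (hEE'.trans hE'F'))
    (tower_base (le_refl E) (hEE'.trans hE'F'))
    (tower_top hEE' (hEE'.trans hE'F') (le_refl E) hE'F')
    (Algebra.id E) inferInstance inferInstance inferInstance n

end Layers

section Congr'

variable (K₁ L₁ K₂ L₂ : Type) [Field K₁] [Field L₁] [Field K₂] [Field L₂]
  [Algebra K₁ L₁] [Algebra K₂ L₂] [Normal K₁ L₁]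

/-- `galMap` only depends on the ring homomorphism `L₁ → L₂`. -/
theorem galMap_congr_inst'
    (a : Algebra K₁ K₂) (b : Algebra L₁ L₂) (d : Algebra K₁ L₂)
    (t₁ : @IsScalarTower K₁ K₂ L₂ a.toSMul _ d.toSMul)
    (t₂ : @IsScalarTower K₁ L₁ L₂ _ b.toSMul d.toSMul)
    (a' : Algebra K₁ K₂) (b' : Algebra L₁ L₂) (d' : Algebra K₁ L₂)
    (t₁' : @IsScalarTower K₁ K₂ L₂ a'.toSMul _ d'.toSMul)
    (t₂' : @IsScalarTower K₁ L₁ L₂ _ b'.toSMul d'.toSMul)
    (hb : ∀ x : L₁, @algebraMap L₁ L₂ _ _ b x = @algebraMap L₁ L₂ _ _ b' x) (n : ℕ) :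
    @galMap K₁ L₁ K₂ L₂ _ _ _ _ _ _ a b d t₁ t₂ _ n =
      @galMap K₁ L₁ K₂ L₂ _ _ _ _ _ _ a' b' d' t₁' t₂' _ n := by
  have hbb : b = b' := Algebra.algebra_ext b b' hb
  subst hbb
  exact galMap_congr_inst K₁ L₁ K₂ L₂ a d t₁ t₂ a' d' t₁' t₂' n

end Congr'

variable {k Ω : Type} [Field k] [Field Ω] [Algebra k Ω]

theorem layerRest_eq_galRest {E F F' : IntermediateField k Ω} (hEF : E ≤ F) (hFF' : F ≤ F')
    [Normal E (layer (hEF.trans hFF'))] (n : ℕ) :
    letI _a : Algebra (layer hEF) (layer (hEF.trans hFF')) :=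
      (inferInstance : Algebra F (layer hFF'))
    haveI : IsScalarTower E (layer hEF) (layer (hEF.trans hFF')) :=
      IsScalarTower.of_algebraMap_eq fun _ => rfl
    layerRest hEF hFF' n = galRest E (layer hEF) (layer (hEF.trans hFF')) n := by
  letI _a : Algebra (layer hEF) (layer (hEF.trans hFF')) :=
      (inferInstance : Algebra F (layer hFF'))
  haveI : IsScalarTower E (layer hEF) (layer (hEF.trans hFF')) :=
      IsScalarTower.of_algebraMap_eq fun _ => rfl
  exact galMap_congr_inst' E (layer (hEF.trans hFF')) F (layer hFF')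
    (algBase hEF) (algTop (hEF.trans hFF') hFF' le_rfl) (algDiag hEF hFF')
    (tower_base hEF hFF')
    (tower_top (hEF.trans hFF') hFF' hEF le_rfl)
    (inferInstance : Algebra E (layer hEF))
    (Algebra.id (layer (hEF.trans hFF')))
    (inferInstance : Algebra E (layer (hEF.trans hFF'))) this
    (IsScalarTower.right (R := E) (A := layer (hEF.trans hFF')))
    (fun _ => rfl) n


variable [CharZero k]

lemma charZero_intermediateField_aux (E : IntermediateField k Ω) : CharZero E :=
  charZero_of_injective_algebraMap (algebraMap k E).injective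

omit [CharZero k] in
lemma finiteDimensional_layer_of_fd' {E E' : IntermediateField k Ω} (h : E ≤ E')
    [FiniteDimensional k E'] : FiniteDimensional E (layer h) := by
  haveI : FiniteDimensional k (layer h) := ‹FiniteDimensional k E'›
  exact FiniteDimensional.right k E (layer h)

lemma isGalois_layer_of_normal_of_fd {E E' : IntermediateField k Ω} (h : E ≤ E')
    [FiniteDimensional k E'] [Normal E (layer h)] : IsGalois E (layer h) := by
  haveI := finiteDimensional_layer_of_fd' h
  haveI := charZero_intermediateField_aux E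
  haveI : Algebra.IsSeparable E (layer h) := Algebra.IsAlgebraic.isSeparable_of_perfectField
  exact ⟨⟩

/-- **GM3 (a) for layers**: inflation is injective on `H²`. -/
theorem layerInfl_injective {E E' F' : IntermediateField k Ω} (hEE' : E ≤ E') (hE'F' : E' ≤ F')
    [FiniteDimensional k F'] [Normal E (layer hEE')] [Normal E (layer (hEE'.trans hE'F'))] :
    Function.Injective (layerInfl hEE' hE'F' 2).hom := by
  letI := algTop hEE' (hEE'.trans hE'F') hE'F'
  haveI := tower_layer_infl hEE' hE'F'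
  haveI := finiteDimensional_layer_of_fd' (hEE'.trans hE'F')
  haveI := isGalois_layer_of_normal_of_fd (hEE'.trans hE'F')
  rw [layerInfl_eq_galInfl hEE' hE'F' 2]
  exact galInfl_injective E (layer hEE') (layer (hEE'.trans hE'F'))

/-- **GM3 (b) for layers**: `ker res = im inf` on `H²`. -/
theorem exists_layerInfl_eq_of_layerRest_eq_zero {E F F' : IntermediateField k Ω} (hEF : E ≤ F)
    (hFF' : F ≤ F') [FiniteDimensional k F'] [Normal E (layer (hEF.trans hFF'))]
    [Normal E (layer hEF)]
    (x : groupCohomology (Rep.ofAlgebraAutOnUnits E (layer (hEF.trans hFF'))) 2)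
    (hx : (layerRest hEF hFF' 2).hom x = 0) : ∃ y, (layerInfl hEF hFF' 2).hom y = x := by
  letI a : Algebra (layer hEF) (layer (hEF.trans hFF')) :=
      (inferInstance : Algebra F (layer hFF'))
  haveI hst : IsScalarTower E (layer hEF) (layer (hEF.trans hFF')) :=
      IsScalarTower.of_algebraMap_eq fun _ => rfl
  haveI := finiteDimensional_layer_of_fd' (hEF.trans hFF')
  haveI := isGalois_layer_of_normal_of_fd (hEF.trans hFF')
  rw [layerRest_eq_galRest hEF hFF' 2] at hx
  obtain ⟨y, hy⟩ := exists_galInfl_eq_of_galRest_eq_zero E (layer hEF)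
    (layer (hEF.trans hFF')) x hx
  refine ⟨y, ?_⟩
  rw [← hy]
  have e : layerInfl hEF hFF' 2 = galInfl E (layer hEF) (layer (hEF.trans hFF')) 2 :=
    galMap_congr_inst' E (layer hEF) E (layer (hEF.trans hFF'))
      (algBase (le_refl E)) (algTop hEF (hEF.trans hFF') hFF')
      (algDiag (le_refl E) (hEF.trans hFF'))
      (tower_base (le_refl E) (hEF.trans hFF'))
      (tower_top hEF (hEF.trans hFF') (le_refl E) hFF')
      (Algebra.id E) a (inferInstance : Algebra E (layer (hEF.trans hFF')))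
      (IsScalarTower.left E) hst (fun _ => rfl) 2
  rw [e]

end Fermat.Agent.CFT
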