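import Mathlib
import Fermat.Agent.CFT.Local.LayerInv
import Fermat.Agent.CFT.Local.LayerInfRes
import Fermat.Agent.CFT.Local.LayerAssembly

/-!
# CFT, Layer B: the range of the invariant maps of a `LayerInvSystem`

For every `LayerInvSystem k Ω` (`k` of characteristic zero) and every finite normal layer `E'/E`:
* there is a class with invariant `1/[E':E]` (`exists_inv_eq_one_div`);
* the range of `inv` is the `[E':E]`-torsion of `ℚ/ℤ`, i.e. the multiples of `1/[E':E]`
  (`mem_range_inv_iff`, `exists_zsmul_eq_inv`);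
* restriction `H²(F'/E) → H²(F'/F)` is surjective (`layerRest_surjective`).
-/

set_option autoImplicit false
set_option linter.style.haveILetI false
set_option linter.unusedSectionVars false

open CategoryTheory groupCohomology IntermediateField

namespace Fermat.Agent.CFT

open GaloisTower LayerMaps

/-- `n`-torsion elements of `ℚ/ℤ` are multiples of `1/n`. -/
lemma addCircle_exists_zsmul_of_nsmul_eq_zero {n : ℕ} (hn : 0 < n) (t : AddCircle (1 : ℚ))
    (h : n • t = 0) : ∃ a : ℤ, t = a • (((1 : ℚ) / (n : ℚ) : ℚ) : AddCircle (1 : ℚ)) := by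
  obtain ⟨q, rfl⟩ := QuotientAddGroup.mk_surjective t
  change n • ((q : ℚ) : AddCircle (1 : ℚ)) = 0 at h
  rw [← AddCircle.coe_nsmul, AddCircle.coe_eq_zero_iff (1 : ℚ)] at h
  obtain ⟨m, hm⟩ := h
  refine ⟨m, ?_⟩
  change ((q : ℚ) : AddCircle (1 : ℚ)) = _
  rw [← AddCircle.coe_zsmul]
  congr 1
  have hn' : (n : ℚ) ≠ 0 := Nat.cast_ne_zero.2 hn.ne'
  rw [nsmul_eq_mul, zsmul_eq_mul, mul_one] at hm
  rw [zsmul_eq_mul, hm]
  field_simp

namespace LayerInvSystem

variable {k Ω : Type} [Field k] [Field Ω] [Algebra k Ω]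

/-- If `F'/E` is normal then so is `F'/F` for `E ≤ F ≤ F'`. -/
lemma normal_layer_of_normal_trans {E F F' : IntermediateField k Ω} (hEF : E ≤ F) (hFF' : F ≤ F')
    [Normal E (layer (hEF.trans hFF'))] : Normal F (layer hFF') := by
  letI := algBase hEF
  letI : Algebra E (layer hFF') := (inferInstance : Algebra E (layer (hEF.trans hFF')))
  haveI : IsScalarTower E F (layer hFF') := IsScalarTower.of_algebraMap_eq fun _ => rfl
  haveI : Normal E (layer hFF') := ‹Normal E (layer (hEF.trans hFF'))›
  exact Normal.tower_top_of_normal E F (layer hFF')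

/-- the tower law for layers -/
lemma finrank_layer_mul {E F F' : IntermediateField k Ω} (hEF : E ≤ F) (hFF' : F ≤ F') :
    Module.finrank E (layer hEF) * Module.finrank F (layer hFF') =
      Module.finrank E (layer (hEF.trans hFF')) := by
  letI : Algebra (layer hEF) (layer (hEF.trans hFF')) :=
    (inferInstance : Algebra F (layer hFF'))
  haveI : IsScalarTower E (layer hEF) (layer (hEF.trans hFF')) :=
    IsScalarTower.of_algebraMap_eq fun _ => rfl
  exact Module.finrank_mul_finrank E (layer hEF) (layer (hEF.trans hFF'))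

variable [CharZero k] (S : LayerInvSystem k Ω)

/-- **Every finite normal layer carries a class of invariant `1/[E':E]`.** -/
theorem exists_inv_eq_one_div {E E' : IntermediateField k Ω} (h : E ≤ E')
    [FiniteDimensional k E'] [Normal E (layer h)] :
    ∃ x : groupCohomology (Rep.ofAlgebraAutOnUnits E (layer h)) 2,
      S.inv h x = (((1 : ℚ) / (Module.finrank E (layer h) : ℚ) : ℚ) : AddCircle (1 : ℚ)) := by
  haveI := LayerUnramData.fd_of_le h
  haveI := finiteDimensional_layer_of_fd' h
  have hn : 0 < Module.finrank E (layer h) := Module.finrank_pos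
  obtain ⟨E₁, h₁, hfd₁, hnor₁, x₁, hx₁⟩ := S.exists_inv_eq E _ hn
  have hE'M : E' ≤ E' ⊔ E₁ := le_sup_left
  have hE₁M : E₁ ≤ E' ⊔ E₁ := le_sup_right
  haveI : Normal E (layer (h.trans hE'M)) := LayerUnramData.normal_layer_sup h h₁
  haveI : Normal E (layer (h₁.trans hE₁M)) := ‹Normal E (layer (h.trans hE'M))›
  haveI : Normal E' (layer hE'M) := normal_layer_of_normal_trans h hE'M
  -- inflate `x₁` to the compositum
  set y₁ := (layerInfl h₁ hE₁M 2).hom x₁ with hy₁
  have hinv₁ : S.inv (h.trans hE'M) y₁ =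
      (((1 : ℚ) / (Module.finrank E (layer h) : ℚ) : ℚ) : AddCircle (1 : ℚ)) := by
    rw [← hx₁]
    exact S.inv_layerInfl h₁ hE₁M x₁
  -- its restriction to `M/E'` vanishes
  have hrest : (layerRest h hE'M 2).hom y₁ = 0 := by
    apply S.inv_injective hE'M
    rw [S.inv_layerRest h hE'M y₁, hinv₁, map_zero, ← AddCircle.coe_nsmul,
      AddCircle.coe_eq_zero_iff (1 : ℚ)]
    refine ⟨1, ?_⟩
    have hn' : (Module.finrank E (layer h) : ℚ) ≠ 0 := Nat.cast_ne_zero.2 hn.ne'
    rw [nsmul_eq_mul, one_smul]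
    field_simp
  obtain ⟨y, hy⟩ := exists_layerInfl_eq_of_layerRest_eq_zero h hE'M y₁ hrest
  refine ⟨y, ?_⟩
  rw [← hinv₁, ← hy]
  exact (S.inv_layerInfl h hE'M y).symm

/-- The values of the invariant map are multiples of `1/[E':E]`. -/
theorem exists_zsmul_eq_inv {E E' : IntermediateField k Ω} (h : E ≤ E')
    [FiniteDimensional k E'] [Normal E (layer h)]
    (x : groupCohomology (Rep.ofAlgebraAutOnUnits E (layer h)) 2) :
    ∃ a : ℤ, S.inv h x =
      a • (((1 : ℚ) / (Module.finrank E (layer h) : ℚ) : ℚ) : AddCircle (1 : ℚ)) := by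
  haveI := finiteDimensional_layer_of_fd' h
  exact addCircle_exists_zsmul_of_nsmul_eq_zero Module.finrank_pos _ (S.finrank_nsmul_inv h x)

/-- **The range of the invariant map is the `[E':E]`-torsion of `ℚ/ℤ`.** -/
theorem mem_range_inv_iff {E E' : IntermediateField k Ω} (h : E ≤ E')
    [FiniteDimensional k E'] [Normal E (layer h)] (t : AddCircle (1 : ℚ)) :
    t ∈ Set.range (S.inv h) ↔ Module.finrank E (layer h) • t = 0 := by
  haveI := finiteDimensional_layer_of_fd' h
  constructor
  · rintro ⟨x, rfl⟩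
    exact S.finrank_nsmul_inv h x
  · intro ht
    obtain ⟨a, ha⟩ := addCircle_exists_zsmul_of_nsmul_eq_zero Module.finrank_pos t ht
    obtain ⟨x, hx⟩ := S.exists_inv_eq_one_div h
    exact ⟨a • x, by rw [map_zsmul, hx, ha]⟩

/-- The range of the invariant map is generated by `1/[E':E]`. -/
theorem range_inv_eq_zmultiples {E E' : IntermediateField k Ω} (h : E ≤ E')
    [FiniteDimensional k E'] [Normal E (layer h)] :
    (S.inv h).range = AddSubgroup.zmultiples
      ((((1 : ℚ) / (Module.finrank E (layer h) : ℚ) : ℚ) : AddCircle (1 : ℚ))) := by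
  ext t
  rw [AddMonoidHom.mem_range, AddSubgroup.mem_zmultiples_iff]
  constructor
  · rintro ⟨x, rfl⟩
    obtain ⟨a, ha⟩ := S.exists_zsmul_eq_inv h x
    exact ⟨a, ha.symm⟩
  · rintro ⟨a, rfl⟩
    obtain ⟨x, hx⟩ := S.exists_inv_eq_one_div h
    exact ⟨a • x, by rw [map_zsmul, hx]⟩

include S in
/-- **Restriction `H²(F'/E) → H²(F'/F)` is surjective** (as soon as there is a system of invariant
maps). -/
theorem layerRest_surjective {E F F' : IntermediateField k Ω} (hEF : E ≤ F) (hFF' : F ≤ F')
    [FiniteDimensional k F'] [Normal E (layer (hEF.trans hFF'))] :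
    haveI := normal_layer_of_normal_trans hEF hFF'
    Function.Surjective (layerRest hEF hFF' 2).hom := by
  haveI := normal_layer_of_normal_trans hEF hFF'
  intro y
  haveI := finiteDimensional_layer_of_fd' hFF'
  haveI := finiteDimensional_layer_of_fd' (hEF.trans hFF')
  obtain ⟨a, ha⟩ := S.exists_zsmul_eq_inv hFF' y
  obtain ⟨x₀, hx₀⟩ := S.exists_inv_eq_one_div (hEF.trans hFF')
  refine ⟨a • x₀, ?_⟩
  apply S.inv_injective hFF'
  rw [map_zsmul, map_zsmul, S.inv_layerRest hEF hFF' x₀, hx₀, ha]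
  congr 1
  rw [← AddCircle.coe_nsmul]
  congr 1
  have h1 : (Module.finrank F (layer hFF') : ℚ) ≠ 0 :=
    Nat.cast_ne_zero.2 (Module.finrank_pos).ne'
  have h2 : (Module.finrank E (layer hEF) : ℚ) ≠ 0 := by
    haveI : FiniteDimensional k F := LayerUnramData.fd_of_le hFF'
    haveI := finiteDimensional_layer_of_fd' hEF
    exact Nat.cast_ne_zero.2 (Module.finrank_pos).ne'
  rw [← finrank_layer_mul hEF hFF', nsmul_eq_mul, Nat.cast_mul]
  field_simp

end LayerInvSystem

end Fermat.Agent.CFT
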