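import Mathlib
import Fermat.Agent.CFT.Local.LayerUnramDefs
import Fermat.Agent.CFT.Local.LayerUnramConcrete
import Fermat.Agent.CFT.Local.LayerUnram
import Fermat.Agent.CFT.Local.LayerInfRes
import Fermat.Agent.CFT.Local.SecondIneq
import Fermat.Agent.CFT.LayerConjInv

/-!
# CFT, Layer B (B4): the system of invariant maps of a local field

`(O, k)` in the local SETTING (`O` a complete DVR with finite residue field, `k = Frac O` of
characteristic zero), `Ω ⊇ k` algebraically closed.  We assemble the unramified data of the tower
`Ω/k` (`localLayerUnramData`) and obtain the **system of invariant maps**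
`localLayerInvSystem O : LayerInvSystem k Ω` (finite-level local class formation):
injective invariant maps `H²(Gal(E'/E), E'ˣ) → ℚ/ℤ` killed by the degree, multiplied by `[F:E]`
under base change, taking the value `1/n` in every degree `n`; normalised on unramified layers by
the Frobenius (`localLayerInvSystem_inv_eq_unramInv`); conjugation invariant
(`localLayerInvSystem_isConjInvariant`).
-/

set_option autoImplicit false
set_option linter.style.haveILetI false
set_option linter.unusedSectionVars false

open IsLocalRing IntermediateField groupCohomology

namespace Fermat.Agent.CFT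

open GaloisTower Tower LayerMaps

section

variable (O : Type) {k Ω : Type} [CommRing O] [IsDomain O] [IsDiscreteValuationRing O]
  [IsAdicComplete (maximalIdeal O) O] [Finite (ResidueField O)]
  [Field k] [Algebra O k] [IsFractionRing O k] [CharZero k]
  [Field Ω] [Algebra k Ω] [Algebra O Ω] [IsScalarTower O k Ω]

include O in
/-- **Second inequality for layers** (field `card_le` of `LayerUnramData`). -/
theorem card_H2_layer_le {E E' : IntermediateField k Ω} (h : E ≤ E') [FiniteDimensional k E']
    [Normal E (layer h)] :
    Finite (groupCohomology (Rep.ofAlgebraAutOnUnits E (layer h)) 2) ∧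
      Nat.card (groupCohomology (Rep.ofAlgebraAutOnUnits E (layer h)) 2) ≤
        Module.finrank E (layer h) := by
  haveI : FiniteDimensional k E := LayerUnramData.fd_of_le h
  haveI := base_isDiscreteValuationRing O k E
  haveI := base_isAdicComplete O k E
  haveI := base_finite_residueField O k E
  haveI := base_isFractionRing O k E
  haveI : CharZero E := tower_charZero k E
  haveI := finiteDimensional_layer' h
  haveI : IsGalois E (layer h) := isGalois_layer_of_normal_of_fd h
  exact card_H2_le_finrank (integralClosure O E) E (layer h)

variable [IsAlgClosed Ω]

/-- **The unramified data of the local tower `Ω/k`.** -/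
noncomputable def localLayerUnramData : LayerUnramData k Ω where
  IsUnr h := IsUnrLayer O h
  uinv h := uinvLayer O h
  unr_fd hu := isUnrLayer_fd O hu
  unr_normal hu := isUnrLayer_normal O hu
  unr_sup hu₁ hu₂ := isUnrLayer_sup O hu₁ hu₂
  unr_baseChange hEF _ hu := isUnrLayer_baseChange O hEF hu
  exists_unr E _ n hn := exists_isUnrLayer O E n hn
  uinv_injective hu := uinvLayer_injective O hu
  finrank_nsmul_uinv hu := finrank_nsmul_uinvLayer O hu
  exists_uinv_eq hu := exists_uinvLayer_eq O hu
  uinv_layerMap hEF hE'F' hu hu' _ x := uinvLayer_layerMap O hEF hE'F' hu hu' x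
  infl_injective hEE' hE'F' _ _ _ := layerInfl_injective hEE' hE'F'
  exists_infl_of_rest_eq_zero hEF hFF' _ _ _ x hx :=
    exists_layerInfl_eq_of_layerRest_eq_zero hEF hFF' x hx
  card_le h _ _ := card_H2_layer_le O h

/-- **The system of invariant maps of the local field `k`** (finite-level local class
formation). -/
noncomputable def localLayerInvSystem : LayerInvSystem k Ω :=
  (localLayerUnramData (Ω := Ω) O).toLayerInvSystem

/-- On unramified layers the invariant is the unramified invariant. -/
theorem localLayerInvSystem_inv_eq_uinvLayer {E E' : IntermediateField k Ω} {h : E ≤ E'}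
    [FiniteDimensional k E] (hunr : IsUnrLayer O h)
    (x : groupCohomology (Rep.ofAlgebraAutOnUnits E (layer h)) 2) :
    (localLayerInvSystem (Ω := Ω) O).inv h x = uinvLayer O h x :=
  LayerUnramData.toLayerInvSystem_inv_eq_uinv (localLayerUnramData (Ω := Ω) O) hunr x

/-- **Normalisation**: on an unramified layer `E'/E` the invariant is the unramified invariant
with respect to the Frobenius of `E'/E`. -/
theorem localLayerInvSystem_inv_eq_unramInv {E E' : IntermediateField k Ω} {h : E ≤ E'}
    [hfd : FiniteDimensional k E'] [hgal : IsGalois E (layer h)]
    [IsDiscreteValuationRing (integralClosure O E)]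
    [IsAdicComplete (maximalIdeal (integralClosure O E)) (integralClosure O E)]
    [Finite (ResidueField (integralClosure O E))] [IsFractionRing (integralClosure O E) E]
    [FiniteDimensional E (layer h)]
    [IsLocalRing (integralClosure (integralClosure O E) (layer h))]
    [IsLocalHom (algebraMap (integralClosure O E)
      (integralClosure (integralClosure O E) (layer h)))]
    (hunr : IsUnramExt (integralClosure O E) (layer h))
    (x : groupCohomology (Rep.ofAlgebraAutOnUnits E (layer h)) 2) :
    (localLayerInvSystem (Ω := Ω) O).inv h x =
      unramInv (integralClosure O E) E (layer h) (frob (integralClosure O E) E (layer h)) x := by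
  haveI : FiniteDimensional k E := LayerUnramData.fd_of_le h
  have hu : IsUnrLayer O h := ⟨hfd, inferInstance, hunr⟩
  rw [localLayerInvSystem_inv_eq_uinvLayer O hu x, uinvLayer_eq O h]

/-- **LCF-T** for the local system of invariant maps. -/
theorem localLayerInvSystem_isConjInvariant [Normal k Ω] :
    (localLayerInvSystem (k := k) (Ω := Ω) O).IsConjInvariant :=
  LayerInvSystem.isConjInvariant (localLayerInvSystem (k := k) (Ω := Ω) O)

end

end Fermat.Agent.CFT
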