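import Mathlib
import Fermat.Agent.CFT.Local.LocalLayerInv
import Fermat.Agent.CFT.Global.GlobalInvDef

/-!
# CFT, Layer B: the local invariant systems of the fields `ℚ_[q]`

`padicLayerInvSystem q : LayerInvSystem ℚ_[q] (PadicAlgCl q)` is `localLayerInvSystem ℤ_[q]`;
`padicLocalInvFamily : LocalInvFamily` is the family of all of them (the input `I` of the global
invariant map `invJ` of `Global/GlobalInvDef.lean`), and it is conjugation invariant.
-/

set_option autoImplicit false
set_option linter.style.haveILetI false

open IsLocalRing IntermediateField groupCohomology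

namespace Fermat.Agent.CFT

open GaloisTower

/-- The system of invariant maps of `ℚ_[q]` on the layers of `PadicAlgCl q / ℚ_[q]`. -/
noncomputable def padicLayerInvSystem (q : ℕ) [Fact q.Prime] :
    LayerInvSystem ℚ_[q] (PadicAlgCl q) :=
  localLayerInvSystem ℤ_[q]

/-- `padicLayerInvSystem q` is conjugation invariant. -/
theorem padicLayerInvSystem_isConjInvariant (q : ℕ) [Fact q.Prime] :
    (padicLayerInvSystem q).IsConjInvariant :=
  localLayerInvSystem_isConjInvariant ℤ_[q]

/-- **The family of local invariant systems**, one for every prime. -/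
noncomputable def padicLocalInvFamily : LocalInvFamily := fun q =>
  haveI : Fact ((q : ℕ)).Prime := ⟨q.2⟩
  padicLayerInvSystem (q : ℕ)

theorem padicLocalInvFamily_isConjInvariant (q : Nat.Primes) :
    (padicLocalInvFamily q).IsConjInvariant :=
  haveI : Fact ((q : ℕ)).Prime := ⟨q.2⟩
  padicLayerInvSystem_isConjInvariant (q : ℕ)

end Fermat.Agent.CFT
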