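import Mathlib
import Fermat.Agent.CFT.Herbrand

/-!
# CFT, Layer B, node B5 (part 1a): the invariant `(A : nA) / |A[n]|`

For an abelian group `A` and `n : ℕ`, the pair `DNPair.ofTrivial A n` (`D = 0`, `N = n`) has
`Ĥ⁰ = A / nA` and `Ĥ¹ = A[n]`, so its Herbrand quotient is `(A : nA) / |A[n]|`.  We record the
dictionary (additive and multiplicative) and the consequences of the multiplicativity of Herbrand
quotients: short exact sequences, finite-index subgroups, products, isomorphisms.
-/

set_option autoImplicit false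

namespace Fermat.Agent.CFT

namespace PowIndex

open DNPair

variable {A B C : Type*} [AddCommGroup A] [AddCommGroup B] [AddCommGroup C]

/-- Every additive map is compatible with the pairs `ofTrivial _ n`. -/
def ofTrivialHom (φ : A →+ B) (n : ℕ) : Hom (ofTrivial A n) (ofTrivial B n) where
  toFun := φ
  map_D _ := by simp [ofTrivial]
  map_N a := by simp [ofTrivial]

@[simp] theorem ofTrivialHom_toFun (φ : A →+ B) (n : ℕ) : (ofTrivialHom φ n).toFun = φ := rfl

theorem shortExact_ofTrivialHom (φ : A →+ B) (ψ : B →+ C) (n : ℕ)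
    (hinj : Function.Injective φ) (hsurj : Function.Surjective ψ)
    (hex : ∀ b, ψ b = 0 ↔ ∃ a, φ a = b) :
    ShortExact (ofTrivialHom φ n) (ofTrivialHom ψ n) :=
  ⟨hinj, hsurj, hex⟩

/-- `Ĥ⁰` of `ofTrivial A n` is `A / nA`. -/
theorem card_H0_ofTrivial (n : ℕ) :
    Nat.card (ofTrivial A n).H0 = (nsmulAddMonoidHom n : A →+ A).range.index := by
  have hker : (ofTrivial A n).D.ker = ⊤ := by
    ext a
    simp [ofTrivial]
  change Nat.card ((ofTrivial A n).D.ker ⧸ ((ofTrivial A n).N.range.addSubgroupOf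
    (ofTrivial A n).D.ker)) = _
  rw [← AddSubgroup.index_eq_card, ← AddSubgroup.relIndex, hker, AddSubgroup.relIndex_top_right]
  rfl

/-- `Ĥ¹` of `ofTrivial A n` is `A[n]`. -/
theorem card_H1_ofTrivial (n : ℕ) :
    Nat.card (ofTrivial A n).H1 = Nat.card (nsmulAddMonoidHom n : A →+ A).ker := by
  have hrange : (ofTrivial A n).D.range = ⊥ := by
    ext a
    simp [ofTrivial]
  change Nat.card ((ofTrivial A n).N.ker ⧸ ((ofTrivial A n).D.range.addSubgroupOf
    (ofTrivial A n).N.ker)) = _
  rw [← AddSubgroup.index_eq_card, ← AddSubgroup.relIndex, hrange, AddSubgroup.relIndex_bot_left]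
  rfl

/-- If `n` is injective on `A` with image of finite index, then `ofTrivial A n` is `H`-finite with
Herbrand quotient `(A : nA)`. -/
theorem ofTrivial_of_injective (n : ℕ) (hinj : Function.Injective (nsmulAddMonoidHom n : A →+ A))
    (hfin : (nsmulAddMonoidHom n : A →+ A).range.index ≠ 0) :
    (ofTrivial A n).IsHFinite ∧
      (ofTrivial A n).herbrand = ((nsmulAddMonoidHom n : A →+ A).range.index : ℚ) := by
  have h1 : Nat.card (ofTrivial A n).H1 = 1 := by
    rw [card_H1_ofTrivial, (AddMonoidHom.ker_eq_bot_iff _).mpr hinj]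
    simp
  have h0 := card_H0_ofTrivial (A := A) n
  refine ⟨⟨?_, ?_⟩, ?_⟩
  · apply Nat.finite_of_card_ne_zero
    rw [h0]
    exact hfin
  · apply Nat.finite_of_card_ne_zero
    rw [h1]
    exact one_ne_zero
  · unfold herbrand
    rw [h0, h1]
    simp

/-- A subgroup of finite index has the same invariant `(A : nA)/|A[n]|`. -/
theorem ofTrivial_of_finite_quotient (S : AddSubgroup A) [Finite (A ⧸ S)] (n : ℕ)
    (hS : (ofTrivial S n).IsHFinite) :
    (ofTrivial A n).IsHFinite ∧ (ofTrivial A n).herbrand = (ofTrivial S n).herbrand := by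
  have hex : ShortExact (ofTrivialHom S.subtype n) (ofTrivialHom (QuotientAddGroup.mk' S) n) := by
    refine shortExact_ofTrivialHom _ _ n Subtype.val_injective
      (QuotientAddGroup.mk'_surjective S) ?_
    intro b
    rw [QuotientAddGroup.mk'_apply, QuotientAddGroup.eq_zero_iff]
    exact ⟨fun hb => ⟨⟨b, hb⟩, rfl⟩, fun ⟨a, ha⟩ => ha ▸ a.2⟩
  have hQ := (ofTrivial (A ⧸ S) n).isHFinite_of_finite
  refine ⟨hex.isHFinite_mid hS hQ, ?_⟩
  rw [hex.herbrand_mul hS hQ, (ofTrivial (A ⧸ S) n).herbrand_of_finite, mul_one]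

/-- An injective map with finite cokernel preserves the invariant `(A : nA)/|A[n]|`. -/
theorem ofTrivial_of_injective_of_finite_coker (φ : A →+ B) (hφ : Function.Injective φ)
    [Finite (B ⧸ φ.range)] (n : ℕ) (hA : (ofTrivial A n).IsHFinite) :
    (ofTrivial B n).IsHFinite ∧ (ofTrivial B n).herbrand = (ofTrivial A n).herbrand := by
  have hex : ShortExact (ofTrivialHom φ n) (ofTrivialHom (QuotientAddGroup.mk' φ.range) n) := by
    refine shortExact_ofTrivialHom _ _ n hφ (QuotientAddGroup.mk'_surjective φ.range) ?_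
    intro b
    rw [QuotientAddGroup.mk'_apply, QuotientAddGroup.eq_zero_iff]
    exact Iff.rfl
  have hQ := (ofTrivial (B ⧸ φ.range) n).isHFinite_of_finite
  refine ⟨hex.isHFinite_mid hA hQ, ?_⟩
  rw [hex.herbrand_mul hA hQ, (ofTrivial (B ⧸ φ.range) n).herbrand_of_finite, mul_one]

/-- The invariant of `ℤ × A` is `n` times that of `A`. -/
theorem ofTrivial_int_prod (n : ℕ) (hn : n ≠ 0) (hA : (ofTrivial A n).IsHFinite) :
    (ofTrivial (ℤ × A) n).IsHFinite ∧
      (ofTrivial (ℤ × A) n).herbrand = n * (ofTrivial A n).herbrand := by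
  have hex : ShortExact (ofTrivialHom (AddMonoidHom.inl ℤ A) n)
      (ofTrivialHom (AddMonoidHom.snd ℤ A) n) := by
    refine shortExact_ofTrivialHom _ _ n (fun a a' h => congrArg Prod.fst h)
      (fun b => ⟨(0, b), rfl⟩) ?_
    intro x
    constructor
    · intro hx
      exact ⟨x.1, Prod.ext rfl (Eq.symm hx)⟩
    · rintro ⟨a, rfl⟩
      rfl
  have hZ := isHFinite_ofTrivial_int n hn
  refine ⟨hex.isHFinite_mid hZ hA, ?_⟩
  rw [hex.herbrand_mul hZ hA, herbrand_int n hn]

/-- Transport of the invariant along a bijective additive map. -/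
theorem ofTrivial_of_bijective (φ : A →+ B) (hφ : Function.Bijective φ) (n : ℕ)
    (hA : (ofTrivial A n).IsHFinite) :
    (ofTrivial B n).IsHFinite ∧ (ofTrivial B n).herbrand = (ofTrivial A n).herbrand := by
  have h := herbrand_eq_of_bijective (ofTrivialHom φ n) hφ
  exact ⟨h.1.mp hA, (h.2 hA).symm⟩

/-- The defining relation of the Herbrand quotient of `ofTrivial A n`, in `ℕ`:
`(A : nA) = h · |A[n]|` whenever `h` is a natural number. -/
theorem index_eq_of_herbrand_ofTrivial (n : ℕ) (hA : (ofTrivial A n).IsHFinite) (h : ℕ)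
    (hh : (ofTrivial A n).herbrand = h) :
    (nsmulAddMonoidHom n : A →+ A).range.index =
      h * Nat.card (nsmulAddMonoidHom n : A →+ A).ker := by
  rw [← card_H0_ofTrivial, ← card_H1_ofTrivial]
  have h1 : (Nat.card (ofTrivial A n).H1 : ℚ) ≠ 0 := by exact_mod_cast hA.card_H1_pos.ne'
  unfold herbrand at hh
  rw [div_eq_iff h1] at hh
  exact_mod_cast hh

end PowIndex

end Fermat.Agent.CFT
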