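import Mathlib
import Fermat.Agent.CFT.Local.PowIndexAbstract
import Fermat.Agent.CFT.Local.HenselGeneral

/-!
# CFT, Layer B, node B5 (part 1): the index of `n`-th powers in a local field

Setting: `O` a complete discrete valuation ring with finite residue field, `K` its fraction field,
`n : ℕ` with `(n : O) ≠ 0` (automatic for `n ≠ 0` if `K` has characteristic zero:
`PowIndex.natCast_ne_zero_of_charZero`).  Everything lives in the namespace
`Fermat.Agent.CFT.PowIndex`.

Main results: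

* `PowIndex.exists_pow_eq` / `PowIndex.unitsOne_le_range_pow` : every unit `≡ 1 mod n² ϖ` is the
  `n`-th power of a unit `≡ 1 mod n ϖ` (Hensel for the non-monic polynomial
  `((1 + n T)ⁿ - z)/n²`); so the `n`-th powers are open.
* `PowIndex.eq_one_of_pow_eq_one` : no `n`-torsion in the units `≡ 1 mod n ϖ`.
* `PowIndex.index_range_pow_units` : `(Oˣ : Oˣⁿ) = |O/nO| · |μ_n(O)|`.
* `PowIndex.index_range_pow_unitsField`, `PowIndex.card_quotient_range_pow_unitsField` :
  `|Kˣ/Kˣⁿ| = n · |μ_n(K)| · |O/nO|`, and `PowIndex.finiteIndex_range_pow_unitsField`.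
* `PowIndex.herbrand_ofTrivial_units`, `PowIndex.herbrand_ofTrivial_unitsField` : the same in the
  language of `DNPair.ofTrivial` (`(A : nA)/|A[n]|`).
-/

set_option autoImplicit false
set_option linter.unusedSectionVars false

open IsLocalRing Polynomial

namespace Fermat.Agent.CFT

namespace PowIndex

/-! ### Multiplicative dictionary -/

section Mult

variable {G : Type*} [CommGroup G]

theorem index_range_nsmul_additive (n : ℕ) :
    (nsmulAddMonoidHom n : Additive G →+ Additive G).range.index =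
      (powMonoidHom n : G →* G).range.index := by
  rw [← Subgroup.index_toAddSubgroup]
  congr 1

theorem card_ker_nsmul_additive (n : ℕ) :
    Nat.card (nsmulAddMonoidHom n : Additive G →+ Additive G).ker =
      Nat.card (powMonoidHom n : G →* G).ker := by
  rfl

end Mult

/-! ### A binomial congruence -/

theorem one_add_pow_eq {R : Type*} [CommRing R] (a : R) (n : ℕ) :
    ∃ k : R, (1 + a) ^ n = 1 + n * a + a ^ 2 * k := by
  induction n with
  | zero => exact ⟨0, by simp⟩
  | succ n ih =>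
    obtain ⟨k, hk⟩ := ih
    refine ⟨n + k + a * k, ?_⟩
    rw [pow_succ, hk]
    push_cast
    ring

/-! ### Units congruent to `1` modulo an ideal -/

section UnitsOne

variable {R : Type*} [CommRing R]

/-- The units of `R` congruent to `1` modulo `I`. -/
def unitsOne (I : Ideal R) : Subgroup Rˣ :=
  (Units.map (Ideal.Quotient.mk I : R →* R ⧸ I)).ker

theorem mem_unitsOne {I : Ideal R} {u : Rˣ} : u ∈ unitsOne I ↔ (u : R) - 1 ∈ I := by
  rw [unitsOne, MonoidHom.mem_ker, Units.ext_iff, Units.coe_map, Units.val_one,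
    ← Ideal.Quotient.eq, map_one]
  rfl

instance finiteIndex_unitsOne (I : Ideal R) [Finite (R ⧸ I)] : (unitsOne I).FiniteIndex := by
  unfold unitsOne
  infer_instance

end UnitsOne

section DVR

variable {O : Type*} [CommRing O]

theorem mem_unitsOne_span {a : O} {u : Oˣ} :
    u ∈ unitsOne (Ideal.span {a}) ↔ ∃ c, (u : O) = 1 + a * c := by
  rw [mem_unitsOne, Ideal.mem_span_singleton']
  constructor
  · rintro ⟨c, hc⟩
    exact ⟨c, by linear_combination -hc⟩
  · rintro ⟨c, hc⟩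
    exact ⟨c, by rw [hc]; ring⟩

theorem pow_expansion (n : ℕ) (ϖ c : O) :
    ∃ k : O, (1 + (n : O) * ϖ * c) ^ n =
      1 + (n : O) * ((n : O) * ϖ) * (c + ϖ * c ^ 2 * k) := by
  obtain ⟨k, hk⟩ := one_add_pow_eq ((n : O) * ϖ * c) n
  exact ⟨k, by rw [hk]; ring⟩

theorem pow_mem_unitsOne (n : ℕ) (ϖ : O) {u : Oˣ}
    (hu : u ∈ unitsOne (Ideal.span {(n : O) * ϖ})) :
    u ^ n ∈ unitsOne (Ideal.span {(n : O) * ((n : O) * ϖ)}) := by
  obtain ⟨c, hc⟩ := mem_unitsOne_span.mp hu
  obtain ⟨k, hk⟩ := pow_expansion n ϖ c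
  rw [mem_unitsOne_span]
  refine ⟨c + ϖ * c ^ 2 * k, ?_⟩
  rw [Units.val_pow_eq_pow_val, hc, hk]

theorem isUnit_one_add_of_mem [IsLocalRing O] {x : O} (hx : x ∈ maximalIdeal O) :
    IsUnit (1 + x) := by
  apply IsLocalRing.isUnit_of_mem_nonunits_one_sub_self
  have : 1 - (1 + x) = -x := by ring
  rw [this, ← IsLocalRing.mem_maximalIdeal]
  exact neg_mem hx

variable [IsDomain O] [IsDiscreteValuationRing O]

theorem eq_one_of_pow_eq_one (n : ℕ) (hn : (n : O) ≠ 0) {ϖ : O} (hϖ : Irreducible ϖ) {u : Oˣ}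
    (hu : u ∈ unitsOne (Ideal.span {(n : O) * ϖ})) (h : u ^ n = 1) : u = 1 := by
  obtain ⟨c, hc⟩ := mem_unitsOne_span.mp hu
  obtain ⟨k, hk⟩ := pow_expansion n ϖ c
  have h1 : ((u ^ n : Oˣ) : O) = 1 := by rw [h]; rfl
  rw [Units.val_pow_eq_pow_val, hc, hk] at h1
  have h2 : (n : O) * ((n : O) * ϖ) * (c * (1 + ϖ * c * k)) = 0 := by linear_combination h1
  have h3 : c * (1 + ϖ * c * k) = 0 := by
    rcases mul_eq_zero.mp h2 with h | h
    · exfalso
      rcases mul_eq_zero.mp h with h | h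
      · exact hn h
      · rcases mul_eq_zero.mp h with h | h
        · exact hn h
        · exact hϖ.ne_zero h
    · exact h
  rcases mul_eq_zero.mp h3 with h | h
  · ext
    rw [hc, h]
    simp
  · exfalso
    have : ϖ ∣ 1 := ⟨-(c * k), by linear_combination h⟩
    exact hϖ.not_isUnit (isUnit_of_dvd_one this)

theorem exists_pow_eq (n : ℕ) [IsAdicComplete (maximalIdeal O) O] {ϖ : O} (hϖ : Irreducible ϖ)
    {z : Oˣ} (hz : z ∈ unitsOne (Ideal.span {(n : O) * ((n : O) * ϖ)})) :
    ∃ w ∈ unitsOne (Ideal.span {(n : O) * ϖ}), w ^ n = z := by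
  obtain ⟨y, hy⟩ := mem_unitsOne_span.mp hz
  obtain ⟨k, hk⟩ := one_add_pow_eq (C (n : O) * X : O[X]) n
  let G : O[X] := X + X ^ 2 * k - C (ϖ * y)
  have hG0 : G.eval 0 ∈ maximalIdeal O := by
    have : G.eval 0 = -(ϖ * y) := by simp [G]
    rw [this, hϖ.maximalIdeal_eq]
    exact neg_mem (Ideal.mul_mem_right _ _ (Ideal.mem_span_singleton_self ϖ))
  have hG' : IsUnit (Ideal.Quotient.mk (maximalIdeal O) (G.derivative.eval 0)) := by
    have : G.derivative.eval 0 = 1 := by simp [G, derivative_mul]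
    rw [this, map_one]
    exact isUnit_one
  obtain ⟨t, ht, htm⟩ := exists_isRoot_sub_mem_of_isAdicComplete (maximalIdeal O) G 0 hG0 hG'
  rw [sub_zero, hϖ.maximalIdeal_eq, Ideal.mem_span_singleton'] at htm
  obtain ⟨t', rfl⟩ := htm
  have hev := congrArg (Polynomial.eval (t' * ϖ)) hk
  simp only [eval_pow, eval_add, eval_one, eval_mul, eval_C, eval_X, eval_natCast] at hev
  have hroot : (t' * ϖ) + (t' * ϖ) ^ 2 * k.eval (t' * ϖ) - ϖ * y = 0 := by
    simpa [G, IsRoot] using ht
  have hwu : IsUnit (1 + (n : O) * ϖ * t') := by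
    apply isUnit_one_add_of_mem
    rw [hϖ.maximalIdeal_eq]
    exact Ideal.mul_mem_right _ _ (Ideal.mul_mem_left _ _ (Ideal.mem_span_singleton_self ϖ))
  refine ⟨hwu.unit, mem_unitsOne_span.mpr ⟨t', rfl⟩, ?_⟩
  ext
  rw [Units.val_pow_eq_pow_val, IsUnit.unit_spec, hy]
  have : (1 + (n : O) * ϖ * t') ^ n = (1 + n * (t' * ϖ)) ^ n := by ring
  rw [this, hev]
  linear_combination (n : O) ^ 2 * hroot

end DVR

section Psi

variable {O : Type*} [CommRing O] [IsDomain O]

/-- The "first coordinate" homomorphism `1 + a c ↦ c mod ν` on units `≡ 1 mod a`, `a = ν ϖ`. -/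
noncomputable def psi (ν ϖ : O) (hν : ν ≠ 0) (hϖ : ϖ ≠ 0) :
    unitsOne (Ideal.span {ν * ϖ}) →* Multiplicative (O ⧸ Ideal.span {ν}) :=
  MonoidHom.mk' (fun u => Multiplicative.ofAdd
      (Ideal.Quotient.mk _ (Classical.choose (mem_unitsOne_span.mp u.2)))) (by
    intro u v
    have hu := Classical.choose_spec (mem_unitsOne_span.mp u.2)
    have hv := Classical.choose_spec (mem_unitsOne_span.mp v.2)
    have huv := Classical.choose_spec (mem_unitsOne_span.mp (u * v).2)
    set cu := Classical.choose (mem_unitsOne_span.mp u.2)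
    set cv := Classical.choose (mem_unitsOne_span.mp v.2)
    set cuv := Classical.choose (mem_unitsOne_span.mp (u * v).2)
    have ha : ν * ϖ ≠ 0 := mul_ne_zero hν hϖ
    have h1 : ((u * v : unitsOne (Ideal.span {ν * ϖ})) : Oˣ) = (u : Oˣ) * (v : Oˣ) := rfl
    rw [h1, Units.val_mul, hu, hv] at huv
    have h2 : cuv = cu + cv + ν * (ϖ * cu * cv) := by
      apply mul_left_cancel₀ ha
      linear_combination -huv
    have h3 : Ideal.Quotient.mk (Ideal.span {ν}) (ν * (ϖ * cu * cv)) = 0 :=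
      Ideal.Quotient.eq_zero_iff_mem.mpr
        (Ideal.mul_mem_right _ _ (Ideal.mem_span_singleton_self ν))
    rw [← ofAdd_add, h2]
    congr 1
    rw [map_add, map_add, h3, add_zero])

theorem psi_eq (ν ϖ : O) (hν : ν ≠ 0) (hϖ : ϖ ≠ 0) (u : unitsOne (Ideal.span {ν * ϖ})) {c : O}
    (hc : ((u : Oˣ) : O) = 1 + ν * ϖ * c) :
    psi ν ϖ hν hϖ u = Multiplicative.ofAdd (Ideal.Quotient.mk _ c) := by
  have hu := Classical.choose_spec (mem_unitsOne_span.mp u.2)
  have ha : ν * ϖ ≠ 0 := mul_ne_zero hν hϖ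
  have : Classical.choose (mem_unitsOne_span.mp u.2) = c := by
    apply mul_left_cancel₀ ha
    linear_combination hc - hu
  change Multiplicative.ofAdd (Ideal.Quotient.mk _ (Classical.choose _)) = _
  rw [this]

theorem mem_ker_psi (ν ϖ : O) (hν : ν ≠ 0) (hϖ : ϖ ≠ 0) (u : unitsOne (Ideal.span {ν * ϖ})) :
    u ∈ (psi ν ϖ hν hϖ).ker ↔ (u : Oˣ) ∈ unitsOne (Ideal.span {ν * (ν * ϖ)}) := by
  obtain ⟨c, hc⟩ := mem_unitsOne_span.mp u.2
  rw [MonoidHom.mem_ker, psi_eq ν ϖ hν hϖ u hc, mem_unitsOne_span]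
  have h1 : Multiplicative.ofAdd (Ideal.Quotient.mk (Ideal.span {ν}) c) = 1 ↔
      c ∈ Ideal.span {ν} := by
    rw [← Ideal.Quotient.eq_zero_iff_mem]
    exact Iff.rfl
  rw [h1, Ideal.mem_span_singleton']
  have ha : ν * ϖ ≠ 0 := mul_ne_zero hν hϖ
  constructor
  · rintro ⟨c', rfl⟩
    exact ⟨c', by rw [hc]; ring⟩
  · rintro ⟨c', hc'⟩
    refine ⟨c', ?_⟩
    apply mul_left_cancel₀ ha
    linear_combination hc - hc'

theorem psi_surjective [IsLocalRing O] (ν ϖ : O) (hν : ν ≠ 0) (hϖ : ϖ ≠ 0)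
    (hϖm : ϖ ∈ maximalIdeal O) : Function.Surjective (psi ν ϖ hν hϖ) := by
  intro x
  obtain ⟨c, rfl⟩ := Ideal.Quotient.mk_surjective (Multiplicative.toAdd x)
  have hu : IsUnit (1 + ν * ϖ * c) :=
    isUnit_one_add_of_mem (Ideal.mul_mem_right _ _ (Ideal.mul_mem_left _ _ hϖm))
  refine ⟨⟨hu.unit, mem_unitsOne_span.mpr ⟨c, rfl⟩⟩, ?_⟩
  rw [psi_eq ν ϖ hν hϖ _ (c := c) rfl]
  rfl

end Psi

section Main

variable {O : Type*} [CommRing O] [IsDomain O] [IsDiscreteValuationRing O]

theorem finite_quotient_span_singleton [Finite (ResidueField O)] {x : O} (hx : x ≠ 0) :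
    Finite (O ⧸ Ideal.span {x}) := by
  obtain ⟨ϖ, hϖ⟩ := IsDiscreteValuationRing.exists_irreducible O
  obtain ⟨m, hm⟩ := IsDiscreteValuationRing.ideal_eq_span_pow_irreducible
    (s := Ideal.span {x}) (by simpa [Ideal.span_singleton_eq_bot] using hx) hϖ
  rw [hm, ← Ideal.span_singleton_pow, ← hϖ.maximalIdeal_eq]
  have : Finite (O ⧸ maximalIdeal O) := ‹Finite (ResidueField O)›
  exact Ideal.finite_quotient_pow (IsNoetherian.noetherian _) m

variable [IsAdicComplete (maximalIdeal O) O]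

theorem range_pow_eq_ker_psi (n : ℕ) (hn : (n : O) ≠ 0) {ϖ : O} (hϖ : Irreducible ϖ) :
    (powMonoidHom n : unitsOne (Ideal.span {(n : O) * ϖ}) →* _).range =
      (psi (n : O) ϖ hn hϖ.ne_zero).ker := by
  ext u
  rw [mem_ker_psi, MonoidHom.mem_range]
  constructor
  · rintro ⟨w, rfl⟩
    exact pow_mem_unitsOne n ϖ w.2
  · intro hu
    obtain ⟨w, hw, hwn⟩ := exists_pow_eq n hϖ hu
    exact ⟨⟨w, hw⟩, Subtype.ext hwn⟩

theorem index_range_pow_unitsOne (n : ℕ) (hn : (n : O) ≠ 0) {ϖ : O} (hϖ : Irreducible ϖ) :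
    (powMonoidHom n : unitsOne (Ideal.span {(n : O) * ϖ}) →* _).range.index =
      Nat.card (O ⧸ Ideal.span {(n : O)}) := by
  have hϖm : ϖ ∈ maximalIdeal O := by
    rw [hϖ.maximalIdeal_eq]
    exact Ideal.mem_span_singleton_self ϖ
  rw [range_pow_eq_ker_psi n hn hϖ, Subgroup.index_ker,
    MonoidHom.range_eq_top.mpr (psi_surjective (n : O) ϖ hn hϖ.ne_zero hϖm), Subgroup.card_top]
  rfl

theorem herbrand_unitsOne [Finite (ResidueField O)] (n : ℕ) (hn : (n : O) ≠ 0) {ϖ : O}
    (hϖ : Irreducible ϖ) :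
    (DNPair.ofTrivial (Additive (unitsOne (Ideal.span {(n : O) * ϖ}))) n).IsHFinite ∧
    (DNPair.ofTrivial (Additive (unitsOne (Ideal.span {(n : O) * ϖ}))) n).herbrand =
      Nat.card (O ⧸ Ideal.span {(n : O)}) := by
  have hinj : Function.Injective
      (nsmulAddMonoidHom n : Additive (unitsOne (Ideal.span {(n : O) * ϖ})) →+ _) := by
    rw [injective_iff_map_eq_zero]
    intro x hx
    have h0 : (Additive.toMul x) ^ n = 1 := hx
    have h1 : ((Additive.toMul x : unitsOne (Ideal.span {(n : O) * ϖ})) : Oˣ) ^ n = 1 := by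
      have := congrArg Subtype.val h0
      simpa using this
    have h2 := eq_one_of_pow_eq_one n hn hϖ (Additive.toMul x).2 h1
    have h3 : Additive.toMul x = 1 := Subtype.ext h2
    exact h3
  have hidx : (nsmulAddMonoidHom n :
      Additive (unitsOne (Ideal.span {(n : O) * ϖ})) →+ _).range.index =
      Nat.card (O ⧸ Ideal.span {(n : O)}) := by
    rw [index_range_nsmul_additive, index_range_pow_unitsOne n hn hϖ]
  have := finite_quotient_span_singleton hn
  have h := ofTrivial_of_injective n hinj (by rw [hidx]; exact Nat.card_pos.ne')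
  rw [hidx] at h
  exact h

end Main

section Units

variable {O : Type*} [CommRing O] [IsDomain O] [IsDiscreteValuationRing O]
  [IsAdicComplete (maximalIdeal O) O] [Finite (ResidueField O)]

theorem herbrand_units (n : ℕ) (hn : (n : O) ≠ 0) :
    (DNPair.ofTrivial (Additive Oˣ) n).IsHFinite ∧
    (DNPair.ofTrivial (Additive Oˣ) n).herbrand = Nat.card (O ⧸ Ideal.span {(n : O)}) := by
  obtain ⟨ϖ, hϖ⟩ := IsDiscreteValuationRing.exists_irreducible O
  obtain ⟨h1, h2⟩ := herbrand_unitsOne n hn hϖ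
  have hfin : Finite (O ⧸ Ideal.span {(n : O) * ϖ}) :=
    finite_quotient_span_singleton (mul_ne_zero hn hϖ.ne_zero)
  set Ua := unitsOne (Ideal.span {(n : O) * ϖ}) with hUa
  let φ : Additive Ua →+ Additive Oˣ := MonoidHom.toAdditive Ua.subtype
  have hφ : Function.Injective φ := fun x y h => Subtype.val_injective h
  have hrange : φ.range = Subgroup.toAddSubgroup Ua := by
    ext x
    constructor
    · rintro ⟨y, rfl⟩
      exact (Additive.toMul y).2
    · intro hx
      exact ⟨Additive.ofMul ⟨Additive.toMul x, hx⟩, rfl⟩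
  have hfi : φ.range.FiniteIndex := by
    rw [hrange, Subgroup.finiteIndex_toAddSubgroup_iff]
    infer_instance
  have hq : Finite (Additive Oˣ ⧸ φ.range) := AddSubgroup.finite_quotient_of_finiteIndex
  obtain ⟨h3, h4⟩ := ofTrivial_of_injective_of_finite_coker φ hφ n h1
  exact ⟨h3, h4.trans h2⟩

end Units

section Field

variable {O : Type*} [CommRing O] [IsDomain O] [IsDiscreteValuationRing O]
variable {K : Type*} [Field K] [Algebra O K] [IsFractionRing O K]

/-- The uniformizer as a unit of `K`. -/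
noncomputable def unifUnit (ϖ : O) (hϖ : ϖ ≠ 0) : Kˣ :=
  Units.mk0 (algebraMap O K ϖ) ((map_ne_zero_iff _ (IsFractionRing.injective O K)).mpr hϖ)

/-- `(k, u) ↦ ϖ ^ k * u`. -/
noncomputable def unitsProdHom (ϖ : O) (hϖ : ϖ ≠ 0) : ℤ × Additive Oˣ →+ Additive Kˣ :=
  AddMonoidHom.coprod (zmultiplesHom (Additive Kˣ) (Additive.ofMul (unifUnit (K := K) ϖ hϖ)))
    (MonoidHom.toAdditive (Units.map (algebraMap O K : O →* K)))

theorem unitsProdHom_apply (ϖ : O) (hϖ : ϖ ≠ 0) (k : ℤ) (u : Additive Oˣ) :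
    ((Additive.toMul (unitsProdHom (K := K) ϖ hϖ (k, u)) : Kˣ) : K) =
      (algebraMap O K ϖ) ^ k * algebraMap O K ((Additive.toMul u : Oˣ) : O) := by
  simp [unitsProdHom, unifUnit]

theorem unitsProdHom_bijective {ϖ : O} (hϖ : Irreducible ϖ) :
    Function.Bijective (unitsProdHom (K := K) ϖ hϖ.ne_zero) := by
  have hinjK := IsFractionRing.injective O K
  have hϖK : algebraMap O K ϖ ≠ 0 := (map_ne_zero_iff _ hinjK).mpr hϖ.ne_zero
  constructor
  · rw [injective_iff_map_eq_zero]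
    rintro ⟨k, u⟩ h
    have h1 : (algebraMap O K ϖ) ^ k * algebraMap O K ((Additive.toMul u : Oˣ) : O) = 1 := by
      rw [← unitsProdHom_apply ϖ hϖ.ne_zero k u, h]
      rfl
    have hk : k = 0 := by
      obtain ⟨j, rfl | rfl⟩ := Int.eq_nat_or_neg k
      · rcases Nat.eq_zero_or_pos j with rfl | hj
        · rfl
        · exfalso
          rw [zpow_natCast, ← map_pow, ← map_mul, ← map_one (algebraMap O K)] at h1
          have h2 := hinjK h1
          have : ϖ ∣ 1 := by
            obtain ⟨i, rfl⟩ := Nat.exists_eq_add_one_of_ne_zero hj.ne'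
            exact ⟨ϖ ^ i * ((Additive.toMul u : Oˣ) : O), by rw [← h2]; ring⟩
          exact hϖ.not_isUnit (isUnit_of_dvd_one this)
      · rcases Nat.eq_zero_or_pos j with rfl | hj
        · simp
        · exfalso
          rw [zpow_neg, zpow_natCast, inv_mul_eq_one₀ (pow_ne_zero _ hϖK), ← map_pow] at h1
          have h2 := hinjK h1
          have : ϖ ∣ ((Additive.toMul u : Oˣ) : O) := by
            obtain ⟨i, rfl⟩ := Nat.exists_eq_add_one_of_ne_zero hj.ne'
            exact ⟨ϖ ^ i, by rw [← h2]; ring⟩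
          exact hϖ.not_isUnit (isUnit_of_dvd_unit this (Additive.toMul u : Oˣ).isUnit)
    subst hk
    rw [zpow_zero, one_mul, ← map_one (algebraMap O K)] at h1
    have h2 := hinjK h1
    have h3 : (Additive.toMul u : Oˣ) = 1 := Units.ext h2
    exact Prod.ext rfl h3
  · intro x
    obtain ⟨m, u, hx⟩ := IsDiscreteValuationRing.exists_units_eq_smul_zpow_of_irreducible
      (K := K) hϖ (x := ((Additive.toMul x : Kˣ) : K)) (Additive.toMul x : Kˣ).ne_zero
    refine ⟨(m, Additive.ofMul u), ?_⟩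
    have : (Additive.toMul (unitsProdHom (K := K) ϖ hϖ.ne_zero (m, Additive.ofMul u)) : Kˣ) =
        Additive.toMul x := by
      ext
      rw [unitsProdHom_apply, hx, Units.smul_def, Algebra.smul_def]
      simp [mul_comm]
    exact this

end Field

section Final

variable (O : Type*) [CommRing O] [IsDomain O] [IsDiscreteValuationRing O]
  [IsAdicComplete (maximalIdeal O) O] [Finite (ResidueField O)]
variable (K : Type*) [Field K] [Algebra O K] [IsFractionRing O K]

omit [Finite (ResidueField O)] in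
/-- The units `≡ 1 mod n²ϖ` of a complete discrete valuation ring are `n`-th powers
(`n ≠ 0` in `O`): the `n`-th powers form an open subgroup. -/
theorem unitsOne_le_range_pow (n : ℕ) {ϖ : O} (hϖ : Irreducible ϖ) :
    unitsOne (Ideal.span {(n : O) * ((n : O) * ϖ)}) ≤ (powMonoidHom n : Oˣ →* Oˣ).range := by
  intro z hz
  obtain ⟨w, -, hw⟩ := exists_pow_eq n hϖ hz
  exact ⟨w, hw⟩

/-- The invariant `(A : nA)/|A[n]|` of the unit group of a complete discrete valuation ring with
finite residue field is `|O/nO|`. -/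
theorem herbrand_ofTrivial_units (n : ℕ) (hn : (n : O) ≠ 0) :
    (DNPair.ofTrivial (Additive Oˣ) n).IsHFinite ∧
    (DNPair.ofTrivial (Additive Oˣ) n).herbrand = Nat.card (O ⧸ Ideal.span {(n : O)}) :=
  herbrand_units n hn

/-- The invariant `(A : nA)/|A[n]|` of `Kˣ` is `n |O/nO|`. -/
theorem herbrand_ofTrivial_unitsField (n : ℕ) (hn : (n : O) ≠ 0) :
    (DNPair.ofTrivial (Additive Kˣ) n).IsHFinite ∧
    (DNPair.ofTrivial (Additive Kˣ) n).herbrand =
      (n * Nat.card (O ⧸ Ideal.span {(n : O)}) : ℕ) := by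
  have hn0 : n ≠ 0 := by
    rintro rfl
    exact hn Nat.cast_zero
  obtain ⟨ϖ, hϖ⟩ := IsDiscreteValuationRing.exists_irreducible O
  obtain ⟨h1, h2⟩ := herbrand_units n hn
  obtain ⟨h3, h4⟩ := ofTrivial_int_prod n hn0 h1
  obtain ⟨h5, h6⟩ := ofTrivial_of_bijective _ (unitsProdHom_bijective (K := K) hϖ) n h3
  refine ⟨h5, ?_⟩
  rw [h6, h4, h2]
  push_cast
  ring

/-- **Index of `n`-th powers in the units of a complete DVR**: `(Oˣ : Oˣⁿ) = |O/nO| · |μ_n(O)|`. -/
theorem index_range_pow_units (n : ℕ) (hn : (n : O) ≠ 0) :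
    (powMonoidHom n : Oˣ →* Oˣ).range.index =
      Nat.card (O ⧸ Ideal.span {(n : O)}) * Nat.card (powMonoidHom n : Oˣ →* Oˣ).ker := by
  obtain ⟨h1, h2⟩ := herbrand_units n hn
  rw [← index_range_nsmul_additive, ← card_ker_nsmul_additive]
  exact index_eq_of_herbrand_ofTrivial n h1 _ h2

/-- **Index of `n`-th powers in a local field**: `(Kˣ : Kˣⁿ) = n · |O/nO| · |μ_n(K)|`. -/
theorem index_range_pow_unitsField (n : ℕ) (hn : (n : O) ≠ 0) :
    (powMonoidHom n : Kˣ →* Kˣ).range.index =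
      n * Nat.card (O ⧸ Ideal.span {(n : O)}) * Nat.card (powMonoidHom n : Kˣ →* Kˣ).ker := by
  obtain ⟨h1, h2⟩ := herbrand_ofTrivial_unitsField O K n hn
  rw [← index_range_nsmul_additive, ← card_ker_nsmul_additive]
  exact index_eq_of_herbrand_ofTrivial n h1 _ h2

theorem ker_powMonoidHom_eq_rootsOfUnity (n : ℕ) :
    (powMonoidHom n : Kˣ →* Kˣ).ker = rootsOfUnity n K := by
  ext ζ
  rw [MonoidHom.mem_ker, powMonoidHom_apply, mem_rootsOfUnity]

/-- `Kˣ/Kˣⁿ` is finite. -/
theorem finiteIndex_range_pow_unitsField (n : ℕ) (hn : (n : O) ≠ 0) :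
    (powMonoidHom n : Kˣ →* Kˣ).range.FiniteIndex := by
  have hn0 : n ≠ 0 := by
    rintro rfl
    exact hn Nat.cast_zero
  obtain ⟨h1, -⟩ := herbrand_ofTrivial_unitsField O K n hn
  have hker : Nat.card (powMonoidHom n : Kˣ →* Kˣ).ker ≠ 0 := by
    rw [← card_ker_nsmul_additive, ← card_H1_ofTrivial]
    exact h1.card_H1_pos.ne'
  have := finite_quotient_span_singleton hn
  refine ⟨?_⟩
  rw [index_range_pow_unitsField O K n hn]
  exact mul_ne_zero (mul_ne_zero hn0 Nat.card_pos.ne') hker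

/-- **The index formula**, final form:
`|Kˣ/Kˣⁿ| = n · |μ_n(K)| · |O/nO|` for a complete discretely valued field `K` with finite residue
field and `n ≠ 0` in `K`. -/
theorem card_quotient_range_pow_unitsField (n : ℕ) (hn : (n : O) ≠ 0) :
    Nat.card (Kˣ ⧸ (powMonoidHom n : Kˣ →* Kˣ).range) =
      n * Nat.card (rootsOfUnity n K) * Nat.card (O ⧸ Ideal.span {(n : O)}) := by
  rw [← Subgroup.index_eq_card, index_range_pow_unitsField O K n hn,
    ker_powMonoidHom_eq_rootsOfUnity]
  ring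

theorem natCast_ne_zero_of_charZero [CharZero K] (n : ℕ) (hn : n ≠ 0) : (n : O) ≠ 0 := by
  intro h
  have := congrArg (algebraMap O K) h
  rw [map_natCast, map_zero] at this
  exact hn (by exact_mod_cast this)

end Final

end PowIndex

end Fermat.Agent.CFT
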