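import Mathlib
import Fermat.Agent.CFT.Local.PowIndex

/-!
# CFT, Layer B, node B5 (part 1, corollaries): explicit values of the local indices

Setting of `PowIndex.lean`.  Consumers: Layer C (Chevalley–Tate index computation).

* `PowIndex.card_quotient_span_natCast_of_isUnit` : `|O/nO| = 1` if `n` is a unit (tame case).
* `PowIndex.index_range_pow_units_of_isUnit` : tame case, `(Oˣ : Oˣⁿ) = |μ_n(O)|`;
  `PowIndex.index_range_pow_units_of_isUnit_of_isPrimitiveRoot` : `= n` if `O ∋ ζ_n`.
* `PowIndex.card_quotient_range_pow_unitsField_of_isPrimitiveRoot` :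
  `|Kˣ/Kˣⁿ| = n² |O/nO|` if `K ∋ ζ_n`; `..._of_isUnit` : `= n²` in the tame case.
* `PowIndex.card_quotient_span_algebraMap` : `|O/aO| = |A/aA| ^ rank_A O` for `O` finite free
  over `A`; `PowIndex.card_quotient_span_prime_padicInt` : `|O/pO| = p ^ rank` over `ℤ_[p]`.
-/

set_option autoImplicit false
set_option linter.unusedSectionVars false
set_option linter.style.haveILetI false

open IsLocalRing

namespace Fermat.Agent.CFT

namespace PowIndex

section Tame

variable (O : Type*) [CommRing O] [IsDomain O] [IsDiscreteValuationRing O]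
  [IsAdicComplete (maximalIdeal O) O] [Finite (ResidueField O)]
variable (K : Type*) [Field K] [Algebra O K] [IsFractionRing O K]

omit [IsDomain O] [IsDiscreteValuationRing O] [IsAdicComplete (maximalIdeal O) O]
  [Finite (ResidueField O)] in
theorem card_quotient_span_natCast_of_isUnit (n : ℕ) (hu : IsUnit (n : O)) :
    Nat.card (O ⧸ Ideal.span {(n : O)}) = 1 := by
  have : Ideal.span {(n : O)} = ⊤ := Ideal.span_singleton_eq_top.mpr hu
  rw [this]
  exact Nat.card_eq_one_iff_unique.mpr ⟨inferInstance, ⟨0⟩⟩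

theorem ker_powMonoidHom_units_eq_rootsOfUnity (n : ℕ) :
    (powMonoidHom n : Oˣ →* Oˣ).ker = rootsOfUnity n O := by
  ext ζ
  rw [MonoidHom.mem_ker, powMonoidHom_apply, mem_rootsOfUnity]

/-- Tame case: `(Oˣ : Oˣⁿ) = |μ_n(O)|`. -/
theorem index_range_pow_units_of_isUnit (n : ℕ) (hu : IsUnit (n : O)) :
    (powMonoidHom n : Oˣ →* Oˣ).range.index = Nat.card (rootsOfUnity n O) := by
  rw [index_range_pow_units O n hu.ne_zero, card_quotient_span_natCast_of_isUnit O n hu, one_mul,
    ker_powMonoidHom_units_eq_rootsOfUnity]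

/-- Tame case with enough roots of unity: `(Oˣ : Oˣⁿ) = n`. -/
theorem index_range_pow_units_of_isUnit_of_isPrimitiveRoot (n : ℕ) (hu : IsUnit (n : O))
    {ζ : O} (hζ : IsPrimitiveRoot ζ n) :
    (powMonoidHom n : Oˣ →* Oˣ).range.index = n := by
  have hn0 : n ≠ 0 := by
    rintro rfl
    exact hu.ne_zero Nat.cast_zero
  haveI : NeZero n := ⟨hn0⟩
  rw [index_range_pow_units_of_isUnit O n hu, hζ.card_rootsOfUnity]

/-- `|Kˣ/Kˣⁿ| = n² |O/nO|` if `K` contains a primitive `n`-th root of unity. -/
theorem card_quotient_range_pow_unitsField_of_isPrimitiveRoot (n : ℕ) (hn : (n : O) ≠ 0)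
    {ζ : K} (hζ : IsPrimitiveRoot ζ n) :
    Nat.card (Kˣ ⧸ (powMonoidHom n : Kˣ →* Kˣ).range) =
      n * n * Nat.card (O ⧸ Ideal.span {(n : O)}) := by
  have hn0 : n ≠ 0 := by
    rintro rfl
    exact hn Nat.cast_zero
  haveI : NeZero n := ⟨hn0⟩
  rw [card_quotient_range_pow_unitsField O K n hn, hζ.card_rootsOfUnity]

/-- Tame case: `|Kˣ/Kˣⁿ| = n²` if `n` is a unit of `O` and `K ∋ ζ_n`. -/
theorem card_quotient_range_pow_unitsField_of_isUnit (n : ℕ) (hu : IsUnit (n : O))
    {ζ : K} (hζ : IsPrimitiveRoot ζ n) :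
    Nat.card (Kˣ ⧸ (powMonoidHom n : Kˣ →* Kˣ).range) = n * n := by
  rw [card_quotient_range_pow_unitsField_of_isPrimitiveRoot O K n hu.ne_zero hζ,
    card_quotient_span_natCast_of_isUnit O n hu, mul_one]

end Tame

section Free

variable {A O : Type*} [CommRing A] [CommRing O] [Algebra A O]

/-- `|O/aO| = |A/aA| ^ |ι|` for an `A`-algebra `O` with a finite basis indexed by `ι`. -/
theorem card_quotient_span_algebraMap_of_basis {ι : Type*} [Fintype ι] (b : Module.Basis ι A O)
    (a : A) :
    Nat.card (O ⧸ Ideal.span {algebraMap A O a}) =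
      Nat.card (A ⧸ Ideal.span {a}) ^ Fintype.card ι := by
  classical
  -- the coordinatewise reduction map
  let f : O →+ (ι → A ⧸ Ideal.span {a}) :=
    { toFun := fun x i => Ideal.Quotient.mk (Ideal.span {a}) (b.repr x i)
      map_zero' := by ext i; simp
      map_add' := fun x y => by ext i; simp }
  have hsurj : Function.Surjective f := by
    intro y
    choose c hc using fun i => Ideal.Quotient.mk_surjective (y i)
    refine ⟨∑ i, c i • b i, ?_⟩
    ext i
    change Ideal.Quotient.mk (Ideal.span {a}) (b.repr (∑ j, c j • b j) i) = y i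
    rw [b.repr_sum_self, hc]
  have hker : f.ker = (Ideal.span {algebraMap A O a}).toAddSubgroup := by
    ext x
    rw [AddMonoidHom.mem_ker, Submodule.mem_toAddSubgroup, Ideal.mem_span_singleton']
    constructor
    · intro hx
      have hx' : ∀ i, b.repr x i ∈ Ideal.span {a} := fun i =>
        Ideal.Quotient.eq_zero_iff_mem.mp (congrFun hx i)
      choose c hc using fun i => Ideal.mem_span_singleton'.mp (hx' i)
      refine ⟨∑ i, c i • b i, ?_⟩
      calc (∑ i, c i • b i) * algebraMap A O a = ∑ i, (c i * a) • b i := by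
            rw [Finset.sum_mul]
            apply Finset.sum_congr rfl
            intro i _
            rw [mul_comm, ← Algebra.smul_def, smul_smul, mul_comm]
        _ = ∑ i, b.repr x i • b i := by simp_rw [hc]
        _ = x := b.sum_repr x
    · rintro ⟨y, rfl⟩
      ext i
      change Ideal.Quotient.mk (Ideal.span {a}) (b.repr (y * algebraMap A O a) i) = 0
      rw [mul_comm, ← Algebra.smul_def, map_smul, Finsupp.smul_apply, smul_eq_mul]
      exact Ideal.Quotient.eq_zero_iff_mem.mpr
        (Ideal.mul_mem_right _ _ (Ideal.mem_span_singleton_self a))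
  have h1 : Nat.card (O ⧸ Ideal.span {algebraMap A O a}) =
      (Ideal.span {algebraMap A O a}).toAddSubgroup.index := rfl
  rw [h1, ← hker, AddSubgroup.index_ker, AddMonoidHom.range_eq_top.mpr hsurj,
    AddSubgroup.card_top, Nat.card_fun, Nat.card_eq_fintype_card (α := ι)]

/-- `|O/aO| = |A/aA| ^ rank_A O` for `O` finite free over `A`. -/
theorem card_quotient_span_algebraMap [Module.Free A O] [Module.Finite A O] [Nontrivial A]
    (a : A) :
    Nat.card (O ⧸ Ideal.span {algebraMap A O a}) =
      Nat.card (A ⧸ Ideal.span {a}) ^ Module.finrank A O := by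
  rw [card_quotient_span_algebraMap_of_basis (Module.Free.chooseBasis A O) a,
    Module.finrank_eq_card_chooseBasisIndex]

/-- `|ℤ_p / p| = p`. -/
theorem card_padicInt_quotient_span_prime (p : ℕ) [Fact p.Prime] :
    Nat.card (ℤ_[p] ⧸ Ideal.span {(p : ℤ_[p])}) = p := by
  have hker : RingHom.ker (PadicInt.toZMod (p := p)) = Ideal.span {(p : ℤ_[p])} := by
    rw [PadicInt.ker_toZMod, PadicInt.maximalIdeal_eq_span_p]
  have hsurj : Function.Surjective (PadicInt.toZMod (p := p)) := ZMod.ringHom_surjective _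
  rw [← hker, Nat.card_congr (RingHom.quotientKerEquivOfSurjective hsurj).toEquiv, Nat.card_zmod]

/-- `|O/pO| = p ^ rank` for `O` finite free over `ℤ_p`. -/
theorem card_quotient_span_prime_padicInt (p : ℕ) [Fact p.Prime] (O : Type*) [CommRing O]
    [Algebra ℤ_[p] O] [Module.Free ℤ_[p] O] [Module.Finite ℤ_[p] O] :
    Nat.card (O ⧸ Ideal.span {(p : O)}) = p ^ Module.finrank ℤ_[p] O := by
  have := card_quotient_span_algebraMap (A := ℤ_[p]) (O := O) (p : ℤ_[p])
  rwa [map_natCast, card_padicInt_quotient_span_prime] at this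

end Free

end PowIndex

end Fermat.Agent.CFT
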