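import Fermat.Agent.CFT.Local.LCDict

/-!
# CFT, Layer B (B7b, concrete): the restriction square and `inv_F ∘ res = [F : E] • inv_E`

For finite subextensions `E ≤ F` of a Galois extension `Ω/k` the inclusion
`Gal(Ω/F) → Gal(Ω/E)` is compatible with the induced level structures; under the dictionaries of
`Local/LCDict.lean` restriction between finite levels corresponds to `layerMap` (base change from
`E` to `F`), hence for every `LayerInvSystem`: `inv_F (res c) = [F : E] • inv_E c` on `LC.H2`.
-/

set_option autoImplicit false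
set_option linter.style.haveILetI false
set_option linter.unusedSectionVars false

open CategoryTheory groupCohomology IntermediateField

namespace Fermat.Agent.CFT

open GaloisTower LayerMaps

variable {k Ω : Type} [Field k] [Field Ω] [Algebra k Ω] [IsGalois k Ω]
variable {E F : IntermediateField k Ω}

/-- The inclusion `Gal(Ω/F) → Gal(Ω/E)` for `E ≤ F`. -/
def fixIncl (hEF : E ≤ F) : F.fixingSubgroup →* E.fixingSubgroup :=
  Subgroup.inclusion (IntermediateField.fixingSubgroup_antitone hEF)

@[simp] lemma coe_fixIncl (hEF : E ≤ F) (σ : F.fixingSubgroup) :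
    ((fixIncl hEF σ : E.fixingSubgroup) : Ω ≃ₐ[k] Ω) = (σ : Ω ≃ₐ[k] Ω) := rfl

lemma res_fixIncl_unitsRep (hEF : E ≤ F) :
    Rep.res (fixIncl hEF) (unitsRep E) = unitsRep F := rfl

/-- The inclusion is compatible with the induced level structures. -/
lemma compat_fixIncl (L : LevelStructure (Ω ≃ₐ[k] Ω)) (hEF : E ≤ F) :
    (L.comap F.fixingSubgroup.subtype).Compat (L.comap E.fixingSubgroup.subtype)
      (fixIncl hEF) := by
  rintro _ ⟨N, hN, rfl⟩
  exact ⟨N.comap F.fixingSubgroup.subtype, ⟨N, hN, rfl⟩, fun σ hσ => hσ⟩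

section Square

variable {E₁ F₁ : IntermediateField k Ω} (h₁ : E ≤ E₁) (h₂ : F ≤ F₁) (hEF : E ≤ F)
  (h12 : E₁ ≤ F₁) [Normal E (layer h₁)] [Normal F (layer h₂)]
  (N : Subgroup E.fixingSubgroup) [N.Normal] (M : Subgroup F.fixingSubgroup) [M.Normal]
  (hN : N = (layerRes h₁).ker) (hM : M = (layerRes h₂).ker)
  (hle : M ≤ N.comap (fixIncl hEF))

/-- **Restriction square**: under the dictionaries, restriction between the finite levels of
`Gal(Ω/E)` and `Gal(Ω/F)` corresponds to `layerMap` (base change of layers). -/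
theorem dict_coh_res (y : groupCohomology ((unitsRep E).quotientToInvariants N) 2) :
    cohLinearEquivOfRepIso _ _ (dictEquiv h₂ M hM) (dictRepIso h₂ M hM) 2
        ((LC.resFin (unitsRep E) hle 2).hom y) =
      (layerMap h₁ h₂ hEF h12 2).hom
        (cohLinearEquivOfRepIso _ _ (dictEquiv h₁ N hN) (dictRepIso h₁ N hN) 2 y) := by
  obtain ⟨g, ψ, hg, hψ, hmap⟩ := exists_layerMap_eq_map h₁ h₂ hEF h12 2
  obtain ⟨φ₁, hφ₁, hc₁⟩ := exists_cohLinearEquivOfRepIso_eq_map _ _ (dictEquiv h₁ N hN)
    (dictRepIso h₁ N hN) 2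
  obtain ⟨φ₂, hφ₂, hc₂⟩ := exists_cohLinearEquivOfRepIso_eq_map
    (Rep.ofAlgebraAutOnUnits F (layer h₂))
    ((Rep.res (fixIncl hEF) (unitsRep E)).quotientToInvariants M) (dictEquiv h₂ M hM)
    (dictRepIso h₂ M hM) 2
  rw [hmap, hc₁]
  erw [hc₂]
  have hgrp : (LC.quotRes hle).comp (dictEquiv h₂ M hM).symm.toMonoidHom =
      (dictEquiv h₁ N hN).symm.toMonoidHom.comp g := by
    refine MonoidHom.ext fun τ => ?_
    obtain ⟨σ, rfl⟩ := layerRes_surjective h₂ τ
    have hgσ : g (layerRes h₂ σ) = layerRes h₁ (fixIncl hEF σ) := by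
      ext x
      rw [hg, layerRes_apply, layerRes_apply]
      rfl
    simp only [MonoidHom.comp_apply, MulEquiv.toMonoidHom_eq_coe, MonoidHom.coe_coe]
    rw [dictEquiv_symm_layerRes, hgσ, dictEquiv_symm_layerRes]
    rfl
  have key : LC.resFin (unitsRep E) hle 2 ≫
        groupCohomology.map (dictEquiv h₂ M hM).symm.toMonoidHom φ₂ 2 =
      groupCohomology.map (dictEquiv h₁ N hN).symm.toMonoidHom φ₁ 2 ≫
        groupCohomology.map g ψ 2 := by
    unfold LC.resFin
    rw [← groupCohomology.map_comp, ← groupCohomology.map_comp]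
    refine groupCohomology.map_congr hgrp ?_ 2
    refine LinearMap.ext fun x => ?_
    apply Additive.toMul.injective
    apply Units.ext
    apply Subtype.ext
    change (((Additive.toMul (φ₂.hom ((LC.invRes (unitsRep E) hle).hom x) :
        Additive (layer h₂)ˣ) : (layer h₂)ˣ) : layer h₂) : Ω) =
      (((Additive.toMul (ψ.hom (φ₁.hom x) : Additive (layer h₂)ˣ) : (layer h₂)ˣ) : layer h₂) : Ω)
    rw [hψ, hφ₁, hφ₂, dictRepIso_hom_coe]
    exact (dictRepIso_hom_coe h₂ M hM ((LC.invRes (unitsRep E) hle).hom x)).trans rfl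
  exact congrArg (fun F => F.hom y) key

end Square


/-! ### The restriction compatibility for the dictionaries of a level structure of Galois type -/

section Dict

variable (L : LevelStructure (Ω ≃ₐ[k] Ω))
  (hGal : ∀ N, L.IsLevel N → ∃ F : IntermediateField k Ω,
    FiniteDimensional k F ∧ Normal k F ∧ N = F.fixingSubgroup)
  (hcof : ∀ E' : IntermediateField k Ω, FiniteDimensional k E' →
    ∃ N, L.IsLevel N ∧ N ≤ E'.fixingSubgroup)
  (hEF : E ≤ F)

/-- If the level `l'` of `Gal(Ω/F)` lies over the level `l` of `Gal(Ω/E)`, the layer top of `l`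
is contained in the layer top of `l'`. -/
theorem levelTop_le_of_le_comap (l : (L.comap E.fixingSubgroup.subtype).Level)
    (l' : (L.comap F.fixingSubgroup.subtype).Level) (hle : l'.N ≤ l.N.comap (fixIncl hEF)) :
    levelTop L hGal E l ≤ levelTop L hGal F l' := by
  intro x hx
  rw [← forall_fixingSubgroup_apply_eq_iff (levelTop L hGal F l') x]
  intro σ hσ
  have hσF : σ ∈ F.fixingSubgroup :=
    IntermediateField.fixingSubgroup_antitone (le_levelTop L hGal F l') hσ
  have h1 : (⟨σ, hσF⟩ : F.fixingSubgroup) ∈ l'.N := (mem_level_iff L hGal F l' _).2 hσ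
  have h2 := (mem_level_iff L hGal E l _).1 (hle h1)
  exact (forall_fixingSubgroup_apply_eq_iff (levelTop L hGal E l) x).2 hx σ h2

/-- The dictionary of `Gal(Ω/F)`, with the coefficients written as the restriction of those of
`Gal(Ω/E)`. -/
noncomputable def galLayerDictRes [FiniteDimensional k F] :
    LayerDict F (L.comap F.fixingSubgroup.subtype) (Rep.res (fixIncl hEF) (unitsRep E)) :=
  galLayerDict L hGal hcof F

/-- **Restriction multiplies the local invariant by the degree**: for finite subextensions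
`E ≤ F` of `Ω/k`, `inv_F (res c) = [F : E] • inv_E c` on `LC.H2 (Gal(Ω/E), Ωˣ)`. -/
theorem galLayerDict_invLC_resLC2 [FiniteDimensional k E] [FiniteDimensional k F]
    (S : LayerInvSystem k Ω)
    (c : LC.H2 (L.comap E.fixingSubgroup.subtype) (unitsRep E)) :
    (galLayerDictRes L hGal hcof hEF).invLC S
        ((isSmooth_unitsRep L hcof E).res (compat_fixIncl L hEF))
        (LC.resLC2 (compat_fixIncl L hEF) (isSmooth_unitsRep L hcof E) c) =
      Module.finrank E (layer hEF) •
        (galLayerDict L hGal hcof E).invLC S (isSmooth_unitsRep L hcof E) c := by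
  refine LayerDict.invLC_resLC2 (galLayerDict L hGal hcof E) S (galLayerDictRes L hGal hcof hEF)
    (compat_fixIncl L hEF) (isSmooth_unitsRep L hcof E) hEF
    (fun l l' hle => levelTop_le_of_le_comap L hGal hEF l l' hle) ?_ c
  intro l l' hle y
  haveI := normal_levelTop L hGal E l
  haveI := normal_levelTop L hGal F l'
  exact dict_coh_res (le_levelTop L hGal E l) (le_levelTop L hGal F l') hEF
    (levelTop_le_of_le_comap L hGal hEF l l' hle) l.N l'.N (level_eq_ker L hGal E l)
    (level_eq_ker L hGal F l') hle y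

end Dict

end Fermat.Agent.CFT
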