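import Fermat.Agent.CFT.Local.GalSymbol

/-!
# CFT (C5d-B): the symbol class depends only on the `ℚ/ℤ`-valued character (helper16)

* `bock_eq_of_chLift`, `symClass_eq_of_chLift`, `galSymClass_eq_of_chLift`: if `n = d m` and the
  standard lifts satisfy `chLift χ = d * chLift χ'` (`χ` mod `n`, `χ'` mod `m`), the Bockstein
  cocycles, hence the symbol classes `a ∪ δχ`, coincide;
* `exists_char_of_card`: an injective character of a finite group `H` of order `m` with values in
  `ℤ/n` is `d` times an injective character with values in `ℤ/m`, `n = d m`;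
* `exists_galChar_exact`: for `F/K` finite Galois and `χ : Gal(F/K) →* ℤ/n` injective there is an
  injective `χ' : Gal(F/K) →* ℤ/[F:K]` with `galSymClass K F χ' a = galSymClass K F χ a` for all `a`
  (the shape required by `exists_galSymClass` / `RecipAssembly`).
-/

set_option autoImplicit false
set_option linter.unusedSectionVars false
set_option linter.style.haveILetI false

open groupCohomology

namespace Fermat.Agent.CFT

namespace SymModulus

section Bock

variable {G : Type*} [Group G] {m n : ℕ} [NeZero m] [NeZero n]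

/-- If the standard lifts of `χ` (mod `n = d m`) are `d` times those of `χ'` (mod `m`) — i.e. both
define the same character with values in `ℚ/ℤ` — the Bockstein cocycles agree. -/
theorem bock_eq_of_chLift {d : ℕ} (hn : n = d * m) (χ : G →* Multiplicative (ZMod n))
    (χ' : G →* Multiplicative (ZMod m)) (h : ∀ g, chLift χ g = d * chLift χ' g) (q : G × G) :
    bock χ q = bock χ' q := by
  have hd : 0 < d := by
    rcases Nat.eq_zero_or_pos d with h0 | h0
    · exfalso
      rw [h0, zero_mul] at hn
      exact NeZero.ne n hn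
    · exact h0
  unfold bock
  rw [h, h, h, ← mul_add, ← mul_sub, hn]
  push_cast
  exact Int.mul_ediv_mul_of_pos _ _ (by exact_mod_cast hd)

end Bock

section Exact

variable {H : Type*} [Group H] [Finite H] {n m : ℕ} [NeZero n] [NeZero m]

theorem card_dvd_of_injective (hm : Nat.card H = m) (χ : H →* Multiplicative (ZMod n))
    (hχ : Function.Injective χ) : m ∣ n := by
  have h1 : Nat.card H = Nat.card χ.range :=
    Nat.card_congr (MonoidHom.ofInjective hχ).toEquiv
  have h2 : Nat.card χ.range ∣ Nat.card (Multiplicative (ZMod n)) :=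
    Subgroup.card_subgroup_dvd_card _
  have h3 : Nat.card (Multiplicative (ZMod n)) = n := by
    rw [Nat.card_congr Multiplicative.toAdd, Nat.card_zmod]
  rw [← hm, h1]
  rwa [h3] at h2

theorem dvd_chLift_of_card {d : ℕ} (hm : Nat.card H = m) (hn : n = d * m)
    (χ : H →* Multiplicative (ZMod n)) (h : H) : (d : ℤ) ∣ chLift χ h := by
  have hm0 : 0 < m := Nat.pos_of_ne_zero (NeZero.ne m)
  have h1 : χ h ^ m = 1 := by
    rw [← map_pow, ← hm, pow_card_eq_one', map_one]
  have h2 : m • Multiplicative.toAdd (χ h) = 0 := by
    have := congrArg Multiplicative.toAdd h1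
    rwa [toAdd_pow, toAdd_one] at this
  have h3 : ((m * (Multiplicative.toAdd (χ h)).val : ℕ) : ZMod n) = 0 := by
    rw [Nat.cast_mul, ZMod.natCast_zmod_val, ← nsmul_eq_mul]
    exact h2
  rw [ZMod.natCast_eq_zero_iff] at h3
  have h3' : m * d ∣ m * (Multiplicative.toAdd (χ h)).val := by
    rw [mul_comm m d, ← hn]
    exact h3
  have h4 : d ∣ (Multiplicative.toAdd (χ h)).val := (Nat.mul_dvd_mul_iff_left hm0).1 h3'
  unfold chLift
  exact_mod_cast h4

/-- **Exact modulus.**  An injective character `χ` of a finite group `H` of order `m` with values in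
`ℤ/n` comes from an injective character `χ'` with values in `ℤ/m`: `n = d m` and the standard
lifts satisfy `chLift χ = d * chLift χ'` (same character with values in `ℚ/ℤ`). -/
theorem exists_char_of_card (hm : Nat.card H = m) (χ : H →* Multiplicative (ZMod n))
    (hχ : Function.Injective χ) :
    ∃ (d : ℕ) (χ' : H →* Multiplicative (ZMod m)), n = d * m ∧ Function.Injective χ' ∧
      ∀ h, chLift χ h = d * chLift χ' h := by
  obtain ⟨d, hd⟩ := card_dvd_of_injective hm χ hχ
  have hn : n = d * m := by rw [hd, mul_comm]
  have hd0 : 0 < d := by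
    rcases Nat.eq_zero_or_pos d with h0 | h0
    · exfalso
      rw [h0, zero_mul] at hn
      exact NeZero.ne n hn
    · exact h0
  have hdz : (d : ℤ) ≠ 0 := by exact_mod_cast hd0.ne'
  have hdiv : ∀ h, (d : ℤ) ∣ chLift χ h := dvd_chLift_of_card hm hn χ
  have hmul : ∀ h, (d : ℤ) * (chLift χ h / d) = chLift χ h := fun h =>
    Int.mul_ediv_cancel' (hdiv h)
  let χ' : H →* Multiplicative (ZMod m) :=
    { toFun := fun h => Multiplicative.ofAdd (((chLift χ h / d : ℤ)) : ZMod m)
      map_one' := by
        rw [chLift_one, Int.zero_ediv, Int.cast_zero]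
        rfl
      map_mul' := fun h h' => by
        rw [← ofAdd_add, ← Int.cast_add]
        congr 1
        rw [eq_comm, ← sub_eq_zero, ← Int.cast_sub, ZMod.intCast_zmod_eq_zero_iff_dvd]
        have h1 := dvd_chLift_add_sub χ h h'
        have h1' : ((d * m : ℕ) : ℤ) ∣ chLift χ h + chLift χ h' - chLift χ (h * h') := by
          rw [← hn]
          exact h1
        rw [← hmul h, ← hmul h', ← hmul (h * h'), ← mul_add, ← mul_sub] at h1'
        push_cast at h1'
        exact (mul_dvd_mul_iff_left hdz).1 h1' }
  have hlift : ∀ h, chLift χ' h = chLift χ h / d := by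
    intro h
    show (((Multiplicative.toAdd (Multiplicative.ofAdd (((chLift χ h / d : ℤ)) : ZMod m))).val : ℕ)
      : ℤ) = chLift χ h / d
    rw [toAdd_ofAdd, ZMod.val_intCast]
    apply Int.emod_eq_of_lt
    · exact Int.ediv_nonneg (chLift_nonneg χ h) (by exact_mod_cast hd0.le)
    · have h2 := chLift_lt χ h
      have h2' : chLift χ h < ((d * m : ℕ) : ℤ) := by
        rw [← hn]
        exact h2
      push_cast at h2'
      rw [← hmul h] at h2'
      exact lt_of_mul_lt_mul_left h2' (by exact_mod_cast hd0.le)
  refine ⟨d, χ', hn, ?_, fun h => by rw [hlift, hmul]⟩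
  intro h h' hh
  apply hχ
  have h1 : chLift χ h = chLift χ h' := by
    have h0 : chLift χ' h = chLift χ' h' := by
      unfold chLift
      rw [hh]
    rw [← hmul h, ← hmul h', ← hlift, ← hlift, h0]
  unfold chLift at h1
  have h2 : (Multiplicative.toAdd (χ h)).val = (Multiplicative.toAdd (χ h')).val := by
    exact_mod_cast h1
  exact Multiplicative.toAdd.injective (ZMod.val_injective n h2)

end Exact


section SymClass

variable {G : Type} [Group G] (A : Rep.{0} ℤ G) {m n : ℕ} [NeZero m] [NeZero n]

/-- The symbol class only depends on the character with values in `ℚ/ℤ`. -/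
theorem symClass_eq_of_chLift {d : ℕ} (hn : n = d * m) (χ : G →* Multiplicative (ZMod n))
    (χ' : G →* Multiplicative (ZMod m)) (h : ∀ g, chLift χ g = d * chLift χ' g) {a : A}
    (ha : IsInv A a) : symClass A χ a ha = symClass A χ' a ha := by
  unfold symClass
  congr 1
  apply Subtype.ext
  funext q
  show bock χ q • a = bock χ' q • a
  rw [bock_eq_of_chLift hn χ χ' h q]

end SymClass

section Gal

variable (K F : Type) [Field K] [Field F] [Algebra K F] {m n : ℕ} [NeZero m] [NeZero n]

theorem galSymClass_eq_of_chLift {d : ℕ} (hn : n = d * m)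
    (χ : (F ≃ₐ[K] F) →* Multiplicative (ZMod n)) (χ' : (F ≃ₐ[K] F) →* Multiplicative (ZMod m))
    (h : ∀ g, chLift χ g = d * chLift χ' g) (a : Kˣ) :
    galSymClass K F χ a = galSymClass K F χ' a :=
  symClass_eq_of_chLift _ hn χ χ' h _

/-- **Exact modulus for Galois characters**: an injective character `χ` of `Gal(F/K)` with values
in `ℤ/n` can be replaced by an injective character `χ'` with values in `ℤ/[F:K]` with the same
symbol classes (the shape needed by `exists_galSymClass`). -/
theorem exists_galChar_exact [FiniteDimensional K F] [IsGalois K F]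
    (χ : (F ≃ₐ[K] F) →* Multiplicative (ZMod n)) (hχ : Function.Injective χ) :
    ∃ (m : ℕ) (_ : NeZero m) (χ' : (F ≃ₐ[K] F) →* Multiplicative (ZMod m)),
      Module.finrank K F = m ∧ Function.Injective χ' ∧
        ∀ a : Kˣ, galSymClass K F χ' a = galSymClass K F χ a := by
  have hm : Nat.card (F ≃ₐ[K] F) = Module.finrank K F := IsGalois.card_aut_eq_finrank K F
  haveI : NeZero (Module.finrank K F) := ⟨Module.finrank_pos.ne'⟩
  obtain ⟨d, χ', hn, hinj, hlift⟩ := exists_char_of_card hm χ hχ
  exact ⟨Module.finrank K F, inferInstance, χ', rfl, hinj,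
    fun a => (galSymClass_eq_of_chLift K F hn χ χ' hlift a).symm⟩

end Gal

end SymModulus

end Fermat.Agent.CFT
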