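import Fermat.Agent.CFT.Local.LCLocalBase
import Fermat.Agent.CFT.Local.PadicLayerInv

/-!
# CFT, Layer B: local Tate duality for `ℚ_[q]` in level cohomology

`padic_local_duality`: `LocalBase.local_duality` for `k = ℚ_[q]`, `Ω = PadicAlgCl q`,
`T = padicLayerInvSystem q` and any level structure of Galois type on `Gal(ℚ̄_q/ℚ_q)`;
`padic_hbase`: the base case for the open subgroups fixing a primitive `p`-th root of unity.
-/

set_option autoImplicit false
set_option linter.style.haveILetI false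
set_option linter.unusedSectionVars false

open IsLocalRing IntermediateField groupCohomology

namespace Fermat.Agent.CFT

open GaloisTower

variable (q : ℕ) [Fact q.Prime]
  (L : LevelStructure (PadicAlgCl q ≃ₐ[ℚ_[q]] PadicAlgCl q))
  (hGal : ∀ N, L.IsLevel N → ∃ F : IntermediateField ℚ_[q] (PadicAlgCl q),
    FiniteDimensional ℚ_[q] F ∧ Normal ℚ_[q] F ∧ N = F.fixingSubgroup)
  (hcof : ∀ E' : IntermediateField ℚ_[q] (PadicAlgCl q), FiniteDimensional ℚ_[q] E' →
    ∃ N, L.IsLevel N ∧ N ≤ E'.fixingSubgroup)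
  (p : ℕ) [Fact p.Prime]

/-- The base case of local duality over `ℚ_[q]` for the open subgroups fixing `ζ_p`. -/
theorem padic_hbase {ζ : PadicAlgCl q} (hζ : IsPrimitiveRoot ζ p)
    (S : Subgroup (PadicAlgCl q ≃ₐ[ℚ_[q]] PadicAlgCl q)) (hS : L.IsOpen S)
    (hle : S ≤ (IntermediateField.adjoin ℚ_[q] {ζ}).fixingSubgroup) :
    (stdRes (L.comap S.subtype) p).IsPerfect p
      (LC.isSmooth_res (S := S) (isSmooth_galUnits L hcof)) zmod_nsmul_self
      (galInvHpS L hGal hcof (padicLayerInvSystem q) p S hS) :=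
  LocalBase.hbase ℤ_[q] L hGal hcof (padicLayerInvSystem q) p hζ S hS hle

/-- **Local Tate duality over `ℚ_[q]`** in level cohomology: for every finite smooth `p`-torsion
module `M` of `Gal(ℚ̄_q/ℚ_q)` the pairings `Ext^r(M, ℚ̄_qˣ) × H^{2-r}(M) → H²(ℚ̄_qˣ)[p] ≅ 𝔽_p` are
perfect (`r = 1, 2`). -/
theorem padic_local_duality (M : PMod L p) :
    M.res.IsPerfect p (isSmooth_galUnits L hcof) M.tors
      (galInvHp L hGal hcof (padicLayerInvSystem q) p) :=
  LocalBase.local_duality ℤ_[q] L hGal hcof (padicLayerInvSystem q) p M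

end Fermat.Agent.CFT
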