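import Mathlib
import Fermat.Agent.CFT.Local.GalSymbol
import Fermat.Agent.CFT.GalMapTransport

/-!
# CFT (C5s, part 5): the norm formula for the Galois symbol class in a tower

For a tower `K ⊆ E ⊆ L` with `L/K` finite Galois, `χ` a character of `Gal(L/K)` and `a ∈ Eˣ`:

  `inv_E (a ∪ δ(χ|_{Gal(L/E)})) = inv_K (N_{E/K}(a) ∪ δχ)`

(`galSymClass_norm_formula`), for any pair of additive maps `inv_K`, `inv_E` on
`H²(Gal(L/K), Lˣ)`, `H²(Gal(L/E), Lˣ)` with `inv_E ∘ res = [E : K] • inv_K` and `res` surjective.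
This is the Type-level Galois wrapper of the abstract projection formula `cores_symClass`
(`LocalSymbolCor.lean`):

* `index_galSub` : `[Gal(L/K) : Gal(L/E)] = [E : K]`;
* `galSubIso_symClass` : the transport `H²(galSub, Lˣ) ≅ H²(Gal(L/E), Lˣ)` maps symbol classes to
  symbol classes;
* `prod_out_eq_norm`, `invRelNorm_unitsInclSub` : `N_{G/S}(a) = N_{E/K}(a)`;
* `inv_cores_eq` : `inv_K ∘ cores = inv_E ∘ iso`.
-/

set_option autoImplicit false
set_option linter.unusedSectionVars false
set_option linter.style.haveILetI false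

open groupCohomology CategoryTheory

namespace Fermat.Agent.CFT

noncomputable section

section Tower

variable (K E L : Type) [Field K] [Field E] [Field L] [Algebra K E] [Algebra K L] [Algebra E L]
  [IsScalarTower K E L] [FiniteDimensional K L] [IsGalois K L]

/-- `[Gal(L/K) : Gal(L/E)] = [E : K]`. -/
theorem index_galSub : (galSub K E L).index = Module.finrank K E := by
  haveI : IsGalois E L := IsGalois.tower_top_of_isGalois K E L
  haveI : FiniteDimensional E L := FiniteDimensional.right K E L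
  haveI : FiniteDimensional K E := FiniteDimensional.left K E L
  have h1 := (galSub K E L).card_mul_index
  rw [IsGalois.card_aut_eq_finrank K L,
    ← Nat.card_congr (galSubEquiv K E L).toEquiv, IsGalois.card_aut_eq_finrank E L,
    ← Module.finrank_mul_finrank K E L, mul_comm] at h1
  exact Nat.eq_of_mul_eq_mul_right Module.finrank_pos h1

/-- The image of `a ∈ Eˣ` in the `Gal(L/K)`-module `Lˣ`. -/
def unitsInclSub (a : Eˣ) : (Rep.ofAlgebraAutOnUnits K L : Rep.{0} ℤ (L ≃ₐ[K] L)) :=
  (Additive.ofMul (Units.map (algebraMap E L : E →* L) a) : Additive Lˣ)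

theorem isInv_unitsInclSub (a : Eˣ) :
    IsInv (Rep.res (galSub K E L).subtype
      (Rep.ofAlgebraAutOnUnits K L : Rep.{0} ℤ (L ≃ₐ[K] L))) (unitsInclSub K E L a) := by
  rintro ⟨σ, hσ⟩
  have h : ∀ x y : Additive Lˣ, ((Additive.toMul x : Lˣ) : L) = ((Additive.toMul y : Lˣ) : L) →
      x = y := fun x y hxy => Additive.toMul.injective (Units.ext hxy)
  apply h
  exact (mem_galSub_iff K E L σ).1 hσ (a : E)

/-- **The norm as a product over cosets**: `∏_{q ∈ Gal(L/K)/Gal(L/E)} q(a) = N_{E/K}(a)` for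
`a ∈ E`. -/
theorem prod_out_eq_norm (a : E) :
    ∏ᶠ q : (L ≃ₐ[K] L) ⧸ galSub K E L, (q.out : L ≃ₐ[K] L) (algebraMap E L a) =
      algebraMap K L (Algebra.norm K a) := by
  classical
  haveI : FiniteDimensional K E := FiniteDimensional.left K E L
  haveI : Algebra.IsSeparable K E := Algebra.isSeparable_tower_bot_of_isSeparable K E L
  haveI : Finite ((L ≃ₐ[K] L) ⧸ galSub K E L) := inferInstance
  letI : Fintype ((L ≃ₐ[K] L) ⧸ galSub K E L) := Fintype.ofFinite _
  have h := Algebra.norm_eq_prod_embeddings K (AlgebraicClosure L) a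
  -- the map from cosets to embeddings
  let f : (L ≃ₐ[K] L) ⧸ galSub K E L → (E →ₐ[K] AlgebraicClosure L) := fun q =>
    ((IsScalarTower.toAlgHom K L (AlgebraicClosure L)).comp
      ((q.out : L ≃ₐ[K] L) : L →ₐ[K] L)).comp (IsScalarTower.toAlgHom K E L)
  have hf : ∀ q x, f q x = algebraMap L (AlgebraicClosure L)
      ((q.out : L ≃ₐ[K] L) (algebraMap E L x)) := fun q x => rfl
  have hinj : Function.Injective f := by
    intro q q' hqq'
    have h1 : ∀ x : E, (q.out : L ≃ₐ[K] L) (algebraMap E L x) =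
        (q'.out : L ≃ₐ[K] L) (algebraMap E L x) := fun x =>
      (algebraMap L (AlgebraicClosure L)).injective
        ((hf q x).symm.trans ((AlgHom.congr_fun hqq' x).trans (hf q' x)))
    have h2 : (q.out)⁻¹ * q'.out ∈ galSub K E L := by
      rw [mem_galSub_iff]
      intro x
      rw [AlgEquiv.mul_apply, ← h1 x]
      exact (q.out : L ≃ₐ[K] L).symm_apply_apply _
    have h3 : (QuotientGroup.mk q.out : (L ≃ₐ[K] L) ⧸ galSub K E L) = QuotientGroup.mk q'.out :=
      QuotientGroup.eq.2 h2
    rwa [QuotientGroup.out_eq', QuotientGroup.out_eq'] at h3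
  have hcard : Nat.card (E →ₐ[K] AlgebraicClosure L) ≤
      Nat.card ((L ≃ₐ[K] L) ⧸ galSub K E L) := by
    rw [Nat.card_eq_fintype_card, AlgHom.card K E (AlgebraicClosure L),
      ← Subgroup.index_eq_card, index_galSub]
  have hbij : Function.Bijective f := hinj.bijective_of_nat_card_le hcard
  rw [finprod_eq_prod_of_fintype]
  apply (algebraMap L (AlgebraicClosure L)).injective
  rw [← IsScalarTower.algebraMap_apply, h, map_prod]
  exact (Fintype.prod_equiv (Equiv.ofBijective f hbij)
    (fun q => algebraMap L (AlgebraicClosure L) ((q.out : L ≃ₐ[K] L) (algebraMap E L a)))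
    (fun σ => σ a) fun q => (hf q a).symm)

/-- `N_{G/S}(a) = N_{E/K}(a)` for `G = Gal(L/K)`, `S = Gal(L/E)`, `a ∈ Eˣ`. -/
theorem invRelNorm_unitsInclSub (a : Eˣ) :
    invRelNorm (galSub K E L) (Rep.ofAlgebraAutOnUnits K L) (unitsInclSub K E L a)
        (isInv_unitsInclSub K E L a) =
      unitsIncl K L (Units.map (Algebra.norm K : E →* K) a) := by
  classical
  haveI : Finite ((L ≃ₐ[K] L) ⧸ galSub K E L) := inferInstance
  letI : Fintype ((L ≃ₐ[K] L) ⧸ galSub K E L) := Fintype.ofFinite _
  rw [invRelNorm_eq_finsum, finsum_eq_sum_of_fintype]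
  apply unitsVal_injective K L
  rw [unitsVal_sum]
  have h := prod_out_eq_norm K E L (a : E)
  rw [finprod_eq_prod_of_fintype] at h
  exact h

variable {n : ℕ} [NeZero n]

/-- The subgroup transport maps the symbol class of `a ∈ Eˣ` for `χ|_{galSub}` to the Galois
symbol class over `E`. -/
theorem galSubIso_symClass (χ : (L ≃ₐ[K] L) →* Multiplicative (ZMod n)) (a : Eˣ) :
    (galSubIso K E L 2).hom
        (symClass (Rep.res (galSub K E L).subtype (Rep.ofAlgebraAutOnUnits K L))
          (χ.comp (galSub K E L).subtype) (unitsInclSub K E L a) (isInv_unitsInclSub K E L a)) =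
      galSymClass E L (χ.comp (galRes K L E L)) a := by
  rw [galSubIso, groupCohomology.mapIso_hom]
  refine (map_symClass _ _ _ _).trans ?_
  unfold galSymClass
  refine symClass_congr' _ _ _ ?_ rfl
  ext σ
  rfl

end Tower

section Main

variable (K E L : Type) [Field K] [Field E] [Field L] [Algebra K E] [Algebra K L] [Algebra E L]
  [IsScalarTower K E L] [FiniteDimensional K L] [IsGalois K L] {T : Type*} [AddCommGroup T]
  (invK : H2 (Rep.ofAlgebraAutOnUnits K L : Rep.{0} ℤ (L ≃ₐ[K] L)) →+ T)
  (invE : H2 (Rep.ofAlgebraAutOnUnits E L : Rep.{0} ℤ (L ≃ₐ[E] L)) →+ T)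
  (hres : ∀ x, invE ((galRest K E L 2).hom x) = Module.finrank K E • invK x)
  (hsurj : Function.Surjective (galRest K E L 2).hom)

include hres hsurj

/-- `inv_K ∘ cores = inv_E ∘ (subgroup transport)`, from `inv_E ∘ res = [E : K] • inv_K` and the
surjectivity of restriction. -/
theorem inv_cores_eq
    (y : groupCohomology (Rep.res (galSub K E L).subtype
      (Rep.ofAlgebraAutOnUnits K L : Rep.{0} ℤ (L ≃ₐ[K] L))) 2) :
    invK ((cores (galSub K E L) (Rep.ofAlgebraAutOnUnits K L) 2).hom y) =
      invE ((galSubIso K E L 2).hom y) := by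
  obtain ⟨x, hx⟩ := hsurj ((galSubIso K E L 2).hom y)
  have h1 : (galSubIso K E L 2).hom
      ((resCoh (galSub K E L) (Rep.ofAlgebraAutOnUnits K L) 2).hom x) =
      (galRest K E L 2).hom x :=
    ConcreteCategory.congr_hom (res_comp_galSubIso_hom K E L 2) x
  have hinj : Function.Injective (galSubIso K E L 2).hom :=
    (ConcreteCategory.bijective_of_isIso (galSubIso K E L 2).hom).1
  have h2 : (resCoh (galSub K E L) (Rep.ofAlgebraAutOnUnits K L) 2).hom x = y :=
    hinj (h1.trans hx)
  rw [← h2, h1, hres]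
  have h3 := cores_resCoh_apply (galSub K E L) (Rep.ofAlgebraAutOnUnits K L) 2 x
  rw [index_galSub] at h3
  have h4 : (cores (galSub K E L) (Rep.ofAlgebraAutOnUnits K L) 2).hom
      ((resCoh (galSub K E L) (Rep.ofAlgebraAutOnUnits K L) 2).hom x) =
      Module.finrank K E • x := h3
  rw [h4, map_nsmul]

variable {n : ℕ} [NeZero n]

/-- **Norm formula for the Galois symbol class** (S4, Type-level Galois form):
`inv_E (a ∪ δ(χ|_{Gal(L/E)})) = inv_K (N_{E/K}(a) ∪ δχ)` for `a ∈ Eˣ`. -/
theorem galSymClass_norm_formula (χ : (L ≃ₐ[K] L) →* Multiplicative (ZMod n)) (a : Eˣ) :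
    invE (galSymClass E L (χ.comp (galRes K L E L)) a) =
      invK (galSymClass K L χ (Units.map (Algebra.norm K : E →* K) a)) := by
  rw [← galSubIso_symClass K E L χ a, ← inv_cores_eq K E L invK invE hres hsurj, cores_symClass]
  unfold galSymClass
  congr 1
  exact symClass_congr' _ _ _ rfl (invRelNorm_unitsInclSub K E L a)

end Main

end

end Fermat.Agent.CFT
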