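import Mathlib

/-!
# CFT, node C5t (part A): Kummer characters, pure field theory

`F` a field containing a primitive `n`-th root of unity `ζ`, `L / F` a field extension and
`β : L` nonzero with `β ^ n ∈ F`.

* `kummerChar hζ hβ0 hβ : (L ≃ₐ[F] L) →* Multiplicative (ZMod n)`, `σ ↦ k` where `σ β = ζ ^ k * β`;
* `kummerChar_mul_root` : `χ_{β β'} = χ_β * χ_{β'}`;
* `kummerChar_restrict` : compatibility with restriction to a normal subextension;
* `kummerChar_injective` : injective if `L = F(β)`;
* `norm_neg_root` : if `X ^ n - c` is irreducible and `L = F(β)`, `β ^ n = c`, then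
  `N_{L/F} (-β) = -c`; in particular `-c` is a norm from `F(c^{1/n})`.
-/

set_option autoImplicit false

namespace Fermat.Agent.CFT.TameSym

open Polynomial

variable {F : Type*} [Field F] {n : ℕ} [NeZero n] {ζ : F}
variable {L : Type*} [Field L] [Algebra F L]

omit [NeZero n] in
theorem pow_val_add (hζ : IsPrimitiveRoot ζ n) [NeZero n] (k k' : ZMod n) :
    ζ ^ (k + k').val = ζ ^ k.val * ζ ^ k'.val := by
  rw [ZMod.val_add, ← pow_add, ← pow_eq_pow_mod _ hζ.pow_eq_one]

/-- `σ β = ζ ^ k * β` for a unique `k : ZMod n`. -/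
theorem existsUnique_kummer (hζ : IsPrimitiveRoot ζ n) {β : L} (hβ0 : β ≠ 0)
    (hβ : β ^ n ∈ (algebraMap F L).range) (σ : L ≃ₐ[F] L) :
    ∃! k : ZMod n, σ β = algebraMap F L (ζ ^ k.val) * β := by
  have hn : 0 < n := Nat.pos_of_ne_zero (NeZero.ne n)
  have hζ' : IsPrimitiveRoot (algebraMap F L ζ) n :=
    hζ.map_of_injective (algebraMap F L).injective
  obtain ⟨c, hc⟩ := hβ
  have hx : (σ β / β) ^ n = 1 := by
    rw [div_pow, ← map_pow, ← hc, AlgEquiv.commutes, div_self]
    rw [hc]; exact pow_ne_zero _ hβ0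
  obtain ⟨i, hi, hix⟩ := hζ'.eq_pow_of_pow_eq_one hx
  refine ⟨(i : ZMod n), ?_, ?_⟩
  · show σ β = algebraMap F L (ζ ^ (i : ZMod n).val) * β
    rw [ZMod.val_natCast_of_lt hi, map_pow, hix, div_mul_cancel₀ _ hβ0]
  · intro k hk
    have h1 : algebraMap F L ζ ^ k.val = algebraMap F L ζ ^ i := by
      rw [hix, ← map_pow, eq_div_iff hβ0, ← hk]
    have h2 : k.val = i := hζ'.pow_inj (ZMod.val_lt k) hi h1
    rw [← h2, ZMod.natCast_zmod_val]

/-- The Kummer character attached to an `n`-th root `β` of an element of `F`, with respect to the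
primitive `n`-th root of unity `ζ`. -/
noncomputable def kummerChar (hζ : IsPrimitiveRoot ζ n) {β : L} (hβ0 : β ≠ 0)
    (hβ : β ^ n ∈ (algebraMap F L).range) : (L ≃ₐ[F] L) →* Multiplicative (ZMod n) where
  toFun σ := Multiplicative.ofAdd (existsUnique_kummer hζ hβ0 hβ σ).choose
  map_one' := by
    have h := (existsUnique_kummer hζ hβ0 hβ (1 : L ≃ₐ[F] L)).choose_spec.2 0 (by simp)
    rw [← h]; rfl
  map_mul' σ τ := by
    have hσ := (existsUnique_kummer hζ hβ0 hβ σ).choose_spec.1
    have hτ := (existsUnique_kummer hζ hβ0 hβ τ).choose_spec.1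
    set k := (existsUnique_kummer hζ hβ0 hβ σ).choose
    set j := (existsUnique_kummer hζ hβ0 hβ τ).choose
    have hkj : (σ * τ) β = algebraMap F L (ζ ^ (k + j).val) * β := by
      rw [AlgEquiv.mul_apply, hτ, map_mul, AlgEquiv.commutes, hσ, pow_val_add hζ, map_mul]
      ring
    have h := (existsUnique_kummer hζ hβ0 hβ (σ * τ)).choose_spec.2 (k + j) hkj
    rw [← h]; rfl

theorem kummerChar_spec (hζ : IsPrimitiveRoot ζ n) {β : L} (hβ0 : β ≠ 0)
    (hβ : β ^ n ∈ (algebraMap F L).range) (σ : L ≃ₐ[F] L) :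
    σ β = algebraMap F L (ζ ^ (kummerChar hζ hβ0 hβ σ).toAdd.val) * β :=
  (existsUnique_kummer hζ hβ0 hβ σ).choose_spec.1

theorem kummerChar_eq_of (hζ : IsPrimitiveRoot ζ n) {β : L} (hβ0 : β ≠ 0)
    (hβ : β ^ n ∈ (algebraMap F L).range) (σ : L ≃ₐ[F] L) {k : ZMod n}
    (hk : σ β = algebraMap F L (ζ ^ k.val) * β) :
    kummerChar hζ hβ0 hβ σ = Multiplicative.ofAdd k := by
  have h := (existsUnique_kummer hζ hβ0 hβ σ).choose_spec.2 k hk
  show Multiplicative.ofAdd _ = _
  rw [h]

/-- `χ_{β β'} = χ_β χ_{β'}`. -/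
theorem kummerChar_mul_root (hζ : IsPrimitiveRoot ζ n) {β β' : L} (hβ0 : β ≠ 0) (hβ'0 : β' ≠ 0)
    (hβ : β ^ n ∈ (algebraMap F L).range) (hβ' : β' ^ n ∈ (algebraMap F L).range)
    (h0 : β * β' ≠ 0) (hmul : (β * β') ^ n ∈ (algebraMap F L).range) :
    kummerChar hζ h0 hmul = kummerChar hζ hβ0 hβ * kummerChar hζ hβ'0 hβ' := by
  refine MonoidHom.ext fun σ => ?_
  have h1 := kummerChar_spec hζ hβ0 hβ σ
  have h2 := kummerChar_spec hζ hβ'0 hβ' σ
  refine kummerChar_eq_of hζ h0 hmul σ (k := (kummerChar hζ hβ0 hβ σ).toAdd +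
    (kummerChar hζ hβ'0 hβ' σ).toAdd) ?_
  rw [map_mul, h1, h2, pow_val_add hζ, map_mul]
  ring

/-- The Kummer character of an element of `F` is trivial. -/
theorem kummerChar_algebraMap (hζ : IsPrimitiveRoot ζ n) {c : F}
    (h0 : algebraMap F L c ≠ 0) (hmem : (algebraMap F L c) ^ n ∈ (algebraMap F L).range) :
    kummerChar hζ h0 hmem = 1 := by
  refine MonoidHom.ext fun σ => ?_
  refine kummerChar_eq_of hζ h0 hmem σ (k := 0) ?_
  simp

/-- If `L = F(β)` the Kummer character is injective. -/
theorem kummerChar_injective (hζ : IsPrimitiveRoot ζ n) {β : L} (hβ0 : β ≠ 0)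
    (hβ : β ^ n ∈ (algebraMap F L).range) (htop : IntermediateField.adjoin F {β} = ⊤) :
    Function.Injective (kummerChar hζ hβ0 hβ) := by
  have hn : 0 < n := Nat.pos_of_ne_zero (NeZero.ne n)
  rw [injective_iff_map_eq_one]
  intro σ hσ
  have h := kummerChar_spec hζ hβ0 hβ σ
  rw [hσ] at h
  have hfix : σ β = β := by simpa using h
  have halg : IsAlgebraic F β := by
    obtain ⟨c, hc⟩ := hβ
    exact IsAlgebraic.of_pow hn (hc ▸ isAlgebraic_algebraMap c)
  have hadj : Algebra.adjoin F {β} = ⊤ := by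
    have := IntermediateField.adjoin_simple_toSubalgebra_of_isAlgebraic halg
    rw [← this, htop, IntermediateField.top_toSubalgebra]
  have : (σ : L →ₐ[F] L) = AlgHom.id F L := by
    refine AlgHom.ext_of_adjoin_eq_top hadj ?_
    intro x hx
    rw [Set.mem_singleton_iff] at hx
    subst hx
    simpa using hfix
  ext x
  have := congrArg (fun f : L →ₐ[F] L => f x) this
  simpa using this

section Restrict

variable {L' : Type*} [Field L'] [Algebra F L'] [Algebra L L'] [IsScalarTower F L L'] [Normal F L]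

/-- Compatibility of Kummer characters with restriction to a normal subextension. -/
theorem kummerChar_restrict (hζ : IsPrimitiveRoot ζ n) {β : L} (hβ0 : β ≠ 0)
    (hβ : β ^ n ∈ (algebraMap F L).range)
    (h0 : algebraMap L L' β ≠ 0) (hmem : (algebraMap L L' β) ^ n ∈ (algebraMap F L').range)
    (σ : L' ≃ₐ[F] L') :
    kummerChar hζ h0 hmem σ = kummerChar hζ hβ0 hβ (AlgEquiv.restrictNormalHom L σ) := by
  have h := kummerChar_spec hζ hβ0 hβ (AlgEquiv.restrictNormalHom L σ)
  have h2 : σ (algebraMap L L' β) = algebraMap L L' ((AlgEquiv.restrictNormalHom L σ) β) :=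
    (AlgEquiv.restrictNormal_commutes σ L β).symm
  have key := kummerChar_eq_of hζ h0 hmem σ
    (k := (kummerChar hζ hβ0 hβ (AlgEquiv.restrictNormalHom L σ)).toAdd)
    (calc σ (algebraMap L L' β) = algebraMap L L' ((AlgEquiv.restrictNormalHom L σ) β) := h2
      _ = algebraMap L L' (algebraMap F L
            (ζ ^ (kummerChar hζ hβ0 hβ (AlgEquiv.restrictNormalHom L σ)).toAdd.val) * β) :=
          congrArg _ h
      _ = _ := by rw [map_mul, ← IsScalarTower.algebraMap_apply])
  exact key

end Restrict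

section Norm

variable [FiniteDimensional F L]

/-- If `X ^ n - c` is irreducible over `F` and `L = F(β)` with `β ^ n = c` then
`N_{L/F} (-β) = -c`. -/
theorem norm_neg_root {c : F} (hirr : Irreducible (X ^ n - C c : F[X])) {β : L}
    (hβ : β ^ n = algebraMap F L c) (htop : IntermediateField.adjoin F {β} = ⊤) :
    Algebra.norm F (-β) = -c := by
  have hn : 0 < n := Nat.pos_of_ne_zero (NeZero.ne n)
  have hint : IsIntegral F β := Algebra.IsIntegral.isIntegral β
  have hmonic : (X ^ n - C c : F[X]).Monic := monic_X_pow_sub_C c (NeZero.ne n)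
  have hmin : minpoly F β = X ^ n - C c := by
    symm
    apply minpoly.eq_of_irreducible_of_monic hirr _ hmonic
    simp [hβ]
  have hadj : Algebra.adjoin F {β} = ⊤ := by
    have := IntermediateField.adjoin_simple_toSubalgebra_of_isAlgebraic (hint.isAlgebraic)
    rw [← this, htop, IntermediateField.top_toSubalgebra]
  let pb := PowerBasis.ofAdjoinEqTop hint hadj
  have hgen : pb.gen = β := PowerBasis.ofAdjoinEqTop_gen hint hadj
  have hnorm : Algebra.norm F β = (-1) ^ n * (-c) := by
    have h := Algebra.PowerBasis.norm_gen_eq_coeff_zero_minpoly pb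
    rw [hgen, hmin] at h
    have hdim : pb.dim = n := by
      have := pb.natDegree_minpoly
      rw [hgen, hmin, natDegree_X_pow_sub_C] at this
      exact this.symm
    rw [h, hdim, coeff_sub, coeff_X_pow, coeff_C_zero, if_neg hn.ne, zero_sub]
  have hfr : Module.finrank F L = n := by
    rw [pb.finrank]
    have := pb.natDegree_minpoly
    rw [hgen, hmin, natDegree_X_pow_sub_C] at this
    exact this.symm
  have hneg : Algebra.norm F (-β) = (-1) ^ n * Algebra.norm F β := by
    have : (-β) = algebraMap F L (-1) * β := by simp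
    rw [this, map_mul, Algebra.norm_algebraMap, hfr]
  rw [hneg, hnorm, ← mul_assoc, ← mul_pow]
  simp

/-- The degree of `F(c^{1/n})` in the irreducible case. -/
theorem finrank_eq_of_irreducible {c : F} (hirr : Irreducible (X ^ n - C c : F[X])) {β : L}
    (hβ : β ^ n = algebraMap F L c) (htop : IntermediateField.adjoin F {β} = ⊤) :
    Module.finrank F L = n := by
  have hint : IsIntegral F β := Algebra.IsIntegral.isIntegral β
  have hmonic : (X ^ n - C c : F[X]).Monic := monic_X_pow_sub_C c (NeZero.ne n)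
  have hmin : minpoly F β = X ^ n - C c := by
    symm
    apply minpoly.eq_of_irreducible_of_monic hirr _ hmonic
    simp [hβ]
  have h := IntermediateField.adjoin.finrank hint
  rw [hmin, natDegree_X_pow_sub_C] at h
  rw [← h, htop]
  exact (IntermediateField.finrank_top').symm

end Norm

end Fermat.Agent.CFT.TameSym
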