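import Fermat.Agent.CFT.Local.LCLocalFamily

/-!
# CFT, Layer B: effaceability of the torsion of `H²(Gal(Ω/F), Ωˣ)` (node (B2), E4 local part)

Let `L` be a level structure of Galois type on `Gal(Ω/k)` and `T` a layer invariant system
(local class field theory).  For open subgroups `V' ≤ V₀` and an LC `2`-cocycle `w` of `V₀` with
values in `Ωˣ` whose class is killed by `n`: if `n * [G : V₀]` divides `[G : V']`, then the
restriction of `w` to `V'` is the coboundary of an LC `1`-cochain of `V'`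
(`exists_primitive_on_of_index_dvd`).  (Restriction multiplies invariants by the index and the
invariant maps are injective.)
-/

set_option autoImplicit false
set_option linter.style.haveILetI false
set_option linter.unusedSectionVars false

open CategoryTheory groupCohomology IntermediateField

namespace Fermat.Agent.CFT

section Gal

variable {k Ω : Type} [Field k] [Field Ω] [Algebra k Ω] [IsGalois k Ω]
variable (L : LevelStructure (Ω ≃ₐ[k] Ω))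
  (hGal : ∀ N, L.IsLevel N → ∃ F : IntermediateField k Ω,
    FiniteDimensional k F ∧ Normal k F ∧ N = F.fixingSubgroup)
  (hcof : ∀ E' : IntermediateField k Ω, FiniteDimensional k E' →
    ∃ N, L.IsLevel N ∧ N ≤ E'.fixingSubgroup)
  (T : LayerInvSystem k Ω)

/-- Every class of `H²(V₀, Ωˣ)` is the restriction of a class of `H²(G, Ωˣ)` whose invariant is
any prescribed `[G : V₀]`-th part of its invariant. -/
theorem exists_resLC2_eq (V₀ : Subgroup (Ω ≃ₐ[k] Ω)) (hV₀ : L.IsOpen V₀)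
    (c : LC.H2 (L.comap V₀.subtype) (Rep.res V₀.subtype (Rep.ofAlgebraAutOnUnits k Ω))) :
    ∃ ζ : LC.H2 L (Rep.ofAlgebraAutOnUnits k Ω),
      LC.resLC2 (LevelStructure.compat_comap L V₀.subtype) (isSmooth_galUnits L hcof) ζ = c ∧
      V₀.index • galInv L hGal hcof T ζ = galInvS L hGal hcof T V₀ hV₀ c := by
  have hidx : V₀.index ≠ 0 := (LevelStructure.IsOpen.finiteIndex L hV₀).index_ne_zero
  have hidx' : ((V₀.index : ℕ) : ℤ) ≠ 0 := by exact_mod_cast hidx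
  set a := galInvS L hGal hcof T V₀ hV₀ c with ha
  obtain ⟨ζ, hζ⟩ := galInv_surjective L hGal hcof T (DivisibleBy.div a ((V₀.index : ℕ) : ℤ))
  have h1 : V₀.index • galInv L hGal hcof T ζ = a := by
    rw [hζ, ← natCast_zsmul]
    exact DivisibleBy.div_cancel a hidx'
  refine ⟨ζ, galInvS_injective L hGal hcof T V₀ hV₀ ?_, h1⟩
  rw [galInvS_resLC2, h1]

include hGal hcof T in
/-- **Effaceability of torsion classes** (cochain form).  Let `V' ≤ V₀` be open subgroups and `w`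
an LC `2`-cocycle of `V₀` with values in `Ωˣ` whose class is killed by `n`.  If `n * [G : V₀]`
divides `[G : V']`, the restriction of `w` to `V'` is an LC coboundary. -/
theorem exists_primitive_on_of_index_dvd (V₀ V' : Subgroup (Ω ≃ₐ[k] Ω)) (hV₀ : L.IsOpen V₀)
    (hV' : L.IsOpen V') (hle : V' ≤ V₀)
    (w : ↥(LC.Z₂ (L.comap V₀.subtype) (Rep.res V₀.subtype (Rep.ofAlgebraAutOnUnits k Ω))))
    (n : ℕ) (hn : n • LC.H2π (L.comap V₀.subtype)
      (Rep.res V₀.subtype (Rep.ofAlgebraAutOnUnits k Ω)) w = 0)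
    (hdvd : n * V₀.index ∣ V'.index) :
    ∃ β : V' → Rep.ofAlgebraAutOnUnits k Ω, (L.comap V'.subtype).IsLC₁ β ∧ ∀ m m' : V',
      w.1 ((⟨m.1, hle m.2⟩ : V₀), (⟨m'.1, hle m'.2⟩ : V₀)) =
        (Rep.ofAlgebraAutOnUnits k Ω).ρ m.1 (β m') - β (m * m') + β m := by
  obtain ⟨ζ, hζ, hinv⟩ := exists_resLC2_eq L hGal hcof T V₀ hV₀
    (LC.H2π (L.comap V₀.subtype) (Rep.res V₀.subtype (Rep.ofAlgebraAutOnUnits k Ω)) w)
  -- the restriction of `ζ` to `V'` vanishes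
  have hζ' : LC.resLC2 (LevelStructure.compat_comap L V'.subtype) (isSmooth_galUnits L hcof) ζ =
      0 := by
    apply galInvS_injective L hGal hcof T V' hV'
    rw [galInvS_resLC2, map_zero]
    obtain ⟨d, hd⟩ := hdvd
    rw [hd, mul_comm (n * V₀.index) d, mul_smul, mul_smul, hinv, ← map_nsmul, hn, map_zero,
      smul_zero]
  -- to cochains
  obtain ⟨u, rfl⟩ := LC.H2π_surjective' L (Rep.ofAlgebraAutOnUnits k Ω) ζ
  rw [LC.resLC2_H2π] at hζ hζ'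
  -- `u|V₀ - w` is a coboundary on `V₀`
  have h1 : LC.H2π (L.comap V₀.subtype) (Rep.res V₀.subtype (Rep.ofAlgebraAutOnUnits k Ω))
      (LC.resZ₂ (LevelStructure.compat_comap L V₀.subtype) u - w) = 0 := by
    rw [map_sub, hζ, sub_self]
  rw [LC.H2π_eq_zero_iff, LC.mem_B₂_iff] at h1
  obtain ⟨γ, hγLC, hγ⟩ := h1
  rw [LC.H2π_eq_zero_iff, LC.mem_B₂_iff] at hζ'
  obtain ⟨γ', hγ'LC, hγ'⟩ := hζ'
  refine ⟨fun m => γ' m - γ ⟨m.1, hle m.2⟩, ?_, fun m m' => ?_⟩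
  · obtain ⟨_, ⟨N₁, hN₁, rfl⟩, h₁⟩ := hγLC
    obtain ⟨_, ⟨N₂, hN₂, rfl⟩, h₂⟩ := hγ'LC
    obtain ⟨N₃, hN₃, hle₃⟩ := L.directed hN₁ hN₂
    refine ⟨_, ⟨N₃, hN₃, rfl⟩, fun g s hs => ?_⟩
    have hs₁ : s.1 ∈ N₁ := (hle₃.trans inf_le_left) hs
    have hs₂ : s.1 ∈ N₂ := (hle₃.trans inf_le_right) hs
    have e1 := h₂ g s hs₂
    have e2 := h₁ ⟨g.1, hle g.2⟩ ⟨s.1, hle s.2⟩ hs₁
    simp only
    rw [e1]
    congr 1
  · have e1 := congrFun hγ ((⟨m.1, hle m.2⟩ : V₀), (⟨m'.1, hle m'.2⟩ : V₀))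
    have e2 := congrFun hγ' (m, m')
    rw [d₁₂_hom_apply] at e1 e2
    simp only [Submodule.coe_sub, Pi.sub_apply, LC.resZ₂_coe, Subgroup.coe_subtype] at e1 e2
    simp only [map_sub]
    have e3 : w.1 ((⟨m.1, hle m.2⟩ : V₀), (⟨m'.1, hle m'.2⟩ : V₀)) =
        u.1 (m.1, m'.1) - ((Rep.res V₀.subtype (Rep.ofAlgebraAutOnUnits k Ω)).ρ ⟨m.1, hle m.2⟩
          (γ ⟨m'.1, hle m'.2⟩) - γ (⟨m.1, hle m.2⟩ * ⟨m'.1, hle m'.2⟩) + γ ⟨m.1, hle m.2⟩) := by
      rw [e1]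
      abel
    rw [e3, ← e2]
    change _ = (Rep.ofAlgebraAutOnUnits k Ω).ρ m.1 (γ' m') -
      (Rep.ofAlgebraAutOnUnits k Ω).ρ m.1 (γ ⟨m'.1, hle m'.2⟩) -
        (γ' (m * m') - γ ⟨(m * m').1, hle (m * m').2⟩) + (γ' m - γ ⟨m.1, hle m.2⟩)
    have e4 : (Rep.res V₀.subtype (Rep.ofAlgebraAutOnUnits k Ω)).ρ ⟨m.1, hle m.2⟩
        (γ ⟨m'.1, hle m'.2⟩) = (Rep.ofAlgebraAutOnUnits k Ω).ρ m.1 (γ ⟨m'.1, hle m'.2⟩) := rfl
    have e5 : (Rep.res V'.subtype (Rep.ofAlgebraAutOnUnits k Ω)).ρ m (γ' m') =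
        (Rep.ofAlgebraAutOnUnits k Ω).ρ m.1 (γ' m') := rfl
    have e6 : (⟨m.1, hle m.2⟩ : V₀) * ⟨m'.1, hle m'.2⟩ = ⟨(m * m').1, hle (m * m').2⟩ := rfl
    rw [e4, e5, e6]
    abel

end Gal

end Fermat.Agent.CFT
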