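import Fermat.Agent.CFT.Local.LCGalEfface
import Fermat.Agent.CFT.LC.ClosedShapiro
import Fermat.Agent.S55.LCHom

/-!
# CFT, Layer B: effaceability of the torsion of `H²(Gal(Ω/k), Hom(P, Ωˣ))` (node (B2), E4)

`P` a finite free `ℤ`-module with an action of `G = Gal(Ω/k)`, `Y = Hom(P, Ωˣ)`.  If the open
subgroup `V₀` acts trivially on `P`, `V' ≤ V₀` is open and `n * [G : V₀]` divides `[G : V']`, then
every class of `H²(G, Y)` killed by `n` dies on restriction to `V'`
(`resH_ihom_units_eq_zero`).  Proof: evaluate at the vectors of a basis of `P` (these are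
`V₀`-equivariant maps `Y → Ωˣ`, `ihomEval`), apply `exists_primitive_on_of_index_dvd` to the
components and assemble the primitives (`resH_ihom_eq_zero_of_components`, generic).
-/

set_option autoImplicit false
set_option linter.style.haveILetI false
set_option linter.unusedSectionVars false

universe u

open CategoryTheory groupCohomology

namespace Fermat.Agent.CFT

open HExt LevelStructure

section Generic

variable {k Γ : Type u} [CommRing k] [Group Γ] {LΓ : LevelStructure Γ} {P X : Rep.{u} k Γ}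

/-- Evaluation at a vector `x` of `P`, as a morphism of representations of a subgroup `V` acting
trivially on `P`. -/
noncomputable def ihomEval (V : Subgroup Γ) (hP : ∀ g ∈ V, P.ρ g = 1) (x : P) :
    Rep.res V.subtype ((Rep.ihom P).obj X) ⟶ Rep.res V.subtype X :=
  Rep.ofHom ⟨(LinearMap.applyₗ x : (P →ₗ[k] X) →ₗ[k] X), fun g => by
    ext f
    show (X.ρ g.1 ∘ₗ (show P →ₗ[k] X from f) ∘ₗ P.ρ g.1⁻¹) x = X.ρ g.1 ((show P →ₗ[k] X from f) x)
    rw [hP _ (V.inv_mem g.2)]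
    rfl⟩

lemma ihomEval_hom_apply (V : Subgroup Γ) (hP : ∀ g ∈ V, P.ρ g = 1) (x : P)
    (f : Rep.res V.subtype ((Rep.ihom P).obj X)) :
    (ihomEval (X := X) V hP x).hom f = (show P →ₗ[k] X from f) x := rfl

/-- **Assembly of component primitives.**  Let `V' ≤ V₀` be subgroups, `V₀` acting trivially on
`P`, and `b` a finite basis of `P`.  If for every `j` the `j`-th component (evaluation at `b j`) of
the restriction to `V₀` of the LC `2`-cocycle `w` with values in `Hom(P, X)` becomes an LC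
coboundary on `V'`, then the class of `w` dies on restriction to `V'`. -/
theorem resH_ihom_eq_zero_of_components {ι' : Type*} [Fintype ι'] (b : Module.Basis ι' k P)
    (hY : IsSmooth LΓ ((Rep.ihom P).obj X)) (hX : IsSmooth LΓ X)
    (V₀ V' : Subgroup Γ) (hle : V' ≤ V₀) (hP : ∀ g ∈ V₀, P.ρ g = 1)
    (w : (LC.cx hY).X 2) (hw : (LC.cx hY).d 2 w = 0)
    (hcomp : ∀ j, ∃ β : V' → X, (LΓ.comap V'.subtype).IsLC₁ β ∧ ∀ m m' : V',
      LC.cxFun₂ (hX.res (compat_comap LΓ V₀.subtype))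
        ((LC.cxMap (hY.res (compat_comap LΓ V₀.subtype)) (hX.res (compat_comap LΓ V₀.subtype))
          (ihomEval V₀ hP (b j))).f 2 ((LC.cxRes (compat_comap LΓ V₀.subtype) hY).f 2 w))
        ((⟨m.1, hle m.2⟩ : V₀), (⟨m'.1, hle m'.2⟩ : V₀)) =
          X.ρ m.1 (β m') - β (m * m') + β m) :
    LC.resH (compat_comap LΓ V'.subtype) hY 2 (Cx.H.mk w hw) = 0 := by
  classical
  choose β hβLC hβ using hcomp
  rw [LC.resH, Cx.Hom.mapH_mk, Cx.H.mk_eq_zero_iff_succ]
  have hYV : IsSmooth (LΓ.comap V'.subtype) (Rep.res V'.subtype ((Rep.ihom P).obj X)) :=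
    hY.res (compat_comap LΓ V'.subtype)
  obtain ⟨B, hB⟩ : ∃ B : V' → (P →ₗ[k] X), ∀ m j, B m (b j) = β j m :=
    ⟨fun m => b.constr k (fun j => β j m), fun m j => b.constr_basis k _ j⟩
  have hBLC : (LΓ.comap V'.subtype).IsLC₁
      (fun m => (show Rep.res V'.subtype ((Rep.ihom P).obj X) from B m)) := by
    choose N hN hinv using hβLC
    obtain ⟨N₀, hN₀, hle₀⟩ := (LΓ.comap V'.subtype).exists_level_le_of_finite Finset.univ N
      (fun j _ => hN j)
    refine ⟨N₀, hN₀, fun g s hs => ?_⟩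
    refine b.ext fun j => ?_
    show B (g * s) (b j) = B g (b j)
    rw [hB, hB]
    exact hinv j g s (hle₀ j (Finset.mem_univ j) hs)
  refine ⟨LC.cxMk₁ hYV _ hBLC, LC.cxFun₂_injective hYV ?_⟩
  rw [LC.cxFun₂_d]
  funext ⟨m, m'⟩
  rw [d₁₂_hom_apply]
  refine b.ext fun j => ?_
  have hP' : P.ρ m.1⁻¹ = 1 := hP _ (V₀.inv_mem (hle m.2))
  have e1 : (show P →ₗ[k] X from (Rep.res V'.subtype ((Rep.ihom P).obj X)).ρ m
      (show Rep.res V'.subtype ((Rep.ihom P).obj X) from B m')) (b j) =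
      X.ρ m.1 (B m' (b j)) := by
    show (X.ρ m.1 ∘ₗ B m' ∘ₗ P.ρ m.1⁻¹) (b j) = _
    rw [hP']
    rfl
  show (show P →ₗ[k] X from (Rep.res V'.subtype ((Rep.ihom P).obj X)).ρ m
      (show Rep.res V'.subtype ((Rep.ihom P).obj X) from B m')) (b j) - B (m * m') (b j) +
        B m (b j) = (show P →ₗ[k] X from LC.cxFun₂ hY w (m.1, m'.1)) (b j)
  rw [e1, hB, hB, hB, ← hβ j m m']
  rfl

end Generic

attribute [local instance 2000] Rep.hV2

section Gal

variable {k Ω : Type} [Field k] [Field Ω] [Algebra k Ω] [IsGalois k Ω]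
variable (L : LevelStructure (Ω ≃ₐ[k] Ω))
  (hGal : ∀ N, L.IsLevel N → ∃ F : IntermediateField k Ω,
    FiniteDimensional k F ∧ Normal k F ∧ N = F.fixingSubgroup)
  (hcof : ∀ E' : IntermediateField k Ω, FiniteDimensional k E' →
    ∃ N, L.IsLevel N ∧ N ≤ E'.fixingSubgroup)
  (T : LayerInvSystem k Ω)

include hGal hcof T in
/-- **Effaceability of the torsion of `H²(G, Hom(P, Ωˣ))`.** -/
theorem resH_ihom_units_eq_zero (P : Rep.{0} ℤ (Ω ≃ₐ[k] Ω)) [Module.Free ℤ P] [Module.Finite ℤ P]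
    (hY : IsSmooth L ((Rep.ihom P).obj (Rep.ofAlgebraAutOnUnits k Ω)))
    (V₀ V' : Subgroup (Ω ≃ₐ[k] Ω)) (hV₀ : L.IsOpen V₀) (hV' : L.IsOpen V') (hle : V' ≤ V₀)
    (hP : ∀ g ∈ V₀, P.ρ g = 1) (z : (LC.cx hY).H 2) (n : ℕ) (hn : n • z = 0)
    (hdvd : n * V₀.index ∣ V'.index) :
    LC.resH (compat_comap L V'.subtype) hY 2 z = 0 := by
  classical
  have hUs : IsSmooth L (Rep.ofAlgebraAutOnUnits k Ω) := isSmooth_galUnits L hcof
  induction z using Cx.H.induction_on with | _ w hw =>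
  refine resH_ihom_eq_zero_of_components (Module.Free.chooseBasis ℤ P) hY hUs V₀ V' hle hP w hw
    fun j => ?_
  -- the class of the `j`-th component
  set ζ : (LC.cx (hUs.res (compat_comap L V₀.subtype))).X 2 :=
    (LC.cxMap (hY.res (compat_comap L V₀.subtype)) (hUs.res (compat_comap L V₀.subtype))
      (ihomEval V₀ hP (Module.Free.chooseBasis ℤ P j))).f 2
      ((LC.cxRes (compat_comap L V₀.subtype) hY).f 2 w) with hζ
  have hζd : (LC.cx (hUs.res (compat_comap L V₀.subtype))).d 2 ζ = 0 := by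
    rw [hζ, ← Cx.Hom.comm, ← Cx.Hom.comm, hw, map_zero, map_zero]
  have hclass : Cx.H.mk ζ hζd =
      (LC.cxMap (hY.res (compat_comap L V₀.subtype)) (hUs.res (compat_comap L V₀.subtype))
        (ihomEval V₀ hP (Module.Free.chooseBasis ℤ P j))).mapH 2
        (LC.resH (compat_comap L V₀.subtype) hY 2 (Cx.H.mk w hw)) := rfl
  have hn' : n • Cx.H.mk ζ hζd = 0 := by
    rw [hclass, ← map_nsmul, ← map_nsmul, hn, map_zero, map_zero]
  let wj : ↥(LC.Z₂ (L.comap V₀.subtype)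
      (Rep.res V₀.subtype (Rep.ofAlgebraAutOnUnits k Ω))) :=
    ⟨LC.cxFun₂ (hUs.res (compat_comap L V₀.subtype)) ζ,
      LC.cxFun₂_mem_cocycles₂ (hUs.res (compat_comap L V₀.subtype)) hζd,
      LC.cxFun₂_isLC (hUs.res (compat_comap L V₀.subtype)) ζ⟩
  have hwj : LC.H2π (L.comap V₀.subtype) (Rep.res V₀.subtype (Rep.ofAlgebraAutOnUnits k Ω)) wj =
      LC.h2Equiv (hUs.res (compat_comap L V₀.subtype)) (Cx.H.mk ζ hζd) := rfl
  have hn'' : n • LC.H2π (L.comap V₀.subtype)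
      (Rep.res V₀.subtype (Rep.ofAlgebraAutOnUnits k Ω)) wj = 0 := by
    rw [hwj, ← map_nsmul, hn', map_zero]
  obtain ⟨β, hβLC, hβ⟩ := exists_primitive_on_of_index_dvd L hGal hcof T V₀ V' hV₀ hV' hle wj n
    hn'' hdvd
  exact ⟨β, hβLC, fun m m' => hβ m m'⟩

end Gal

end Fermat.Agent.CFT
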