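import Fermat.Agent.CFT.Local.LCDictRes
import Fermat.Agent.CFT.Global.LCInvCoeff

/-!
# CFT, Layer B (B7, (T2)): corestriction and the local invariant on level cohomology
-/

set_option autoImplicit false
set_option linter.style.haveILetI false
set_option linter.unusedSectionVars false

open CategoryTheory groupCohomology IntermediateField

namespace Fermat.Agent.CFT

namespace LC

section resIso

universe u

variable {R G H K : Type u} [CommRing R] [Group G] [Group H] [Group K]
  {L : LevelStructure G} {LH : LevelStructure H} {LK : LevelStructure K}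
  {f : H →* G} {A : Rep.{u} R G}

lemma H2π_surjective' (L : LevelStructure G) (A : Rep.{u} R G) :
    Function.Surjective (H2π L A) := Submodule.mkQ_surjective _

/-- Functoriality of restriction on `LC.H2`. -/
theorem resLC2_resLC2 {g : K →* H} (hf : LH.Compat L f) (hg : LK.Compat LH g)
    (hfg : LK.Compat L (f.comp g)) (hA : IsSmooth L A) (c : H2 L A) :
    (resLC2 hg (hA.res hf) (resLC2 hf hA c) : H2 LK (Rep.res g (Rep.res f A))) =
      (resLC2 hfg hA c : H2 LK (Rep.res (f.comp g) A)) := by
  obtain ⟨z, rfl⟩ := H2π_surjective' L A c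
  rw [resLC2_H2π, resLC2_H2π, resLC2_H2π]
  rfl

/-- Restriction along a homomorphism with a compatible right inverse is injective on `LC.H2`. -/
theorem resLC2_injective_of_rightInverse (g : G →* H) (hfg : ∀ x, f (g x) = x)
    (hf : LH.Compat L f) (hg : L.Compat LH g) (hA : IsSmooth L A) :
    Function.Injective (resLC2 hf hA) := by
  rw [injective_iff_map_eq_zero]
  intro c hc
  obtain ⟨z, rfl⟩ := H2π_surjective' L A c
  rw [resLC2_H2π, H2π_eq_zero_iff, mem_B₂_iff] at hc
  obtain ⟨w, hw, hdw⟩ := hc
  rw [H2π_eq_zero_iff, mem_B₂_iff]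
  refine ⟨fun σ => w (g σ), hg.isLC₁ hw, ?_⟩
  funext ⟨σ, τ⟩
  have h1 := congrFun hdw (g σ, g τ)
  rw [d₁₂_hom_apply] at h1 ⊢
  rw [resZ₂_coe] at h1
  simp only [hfg] at h1
  rw [← h1, map_mul]
  show A.ρ σ (w (g τ)) - w (g σ * g τ) + w (g σ) = A.ρ (f (g σ)) (w (g τ)) - _ + _
  rw [hfg]

/-- Restriction along a homomorphism with a compatible left inverse whose composite acts as the
identity is surjective on `LC.H2`. -/
theorem resLC2_surjective_of_leftInverse (g : G →* H) (hfg : ∀ x, f (g x) = x)
    (hgf : ∀ y, g (f y) = y) (hf : LH.Compat L f) (hg : L.Compat LH g) (hA : IsSmooth L A) :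
    Function.Surjective (resLC2 hf hA) := by
  intro c
  obtain ⟨z, rfl⟩ := H2π_surjective' LH (Rep.res f A) c
  have hz0 : ∀ a b c' : H, A.ρ (f a) (z.1 (b, c')) - z.1 (a * b, c') + z.1 (a, b * c') -
      z.1 (a, b) = 0 := (mem_cocycles₂_def z.1).1 z.2.1
  have hmem : (fun p : G × G => z.1 (g p.1, g p.2)) ∈ Z₂ L A := by
    refine ⟨(mem_cocycles₂_def _).2 fun a b c' => ?_, hg.isLC₂ z.2.2⟩
    have := hz0 (g a) (g b) (g c')
    rw [hfg] at this
    simp only [map_mul]
    exact this
  refine ⟨H2π L A ⟨_, hmem⟩, ?_⟩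
  rw [resLC2_H2π]
  congr 1
  refine Subtype.ext (funext fun p => ?_)
  rw [resZ₂_coe]
  show z.1 (g (f p.1), g (f p.2)) = z.1 p
  rw [hgf, hgf]

end resIso

end LC

open GaloisTower LayerMaps

section generic

variable {k Ω : Type} [Field k] [Field Ω] [Algebra k Ω]

namespace LayerDict

variable {E F : IntermediateField k Ω} {G : Type} [Group G] {L : LevelStructure G}
  {A : Rep.{0} ℤ G} (d : LayerDict E L A) (T : LayerInvSystem k Ω)
  {S : Subgroup G} [S.FiniteIndex]
  (dS : LayerDict F (L.comap S.subtype) (Rep.res S.subtype A))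

/-- **(T2)** at LC level for a full class formation: `inv_E (cor y) = inv_F y`, for an open
subgroup `S` (corresponding to `F`) of `G` (corresponding to `E`) with `[G : S] = [F : E]`. -/
theorem invLC_corLC2 [FiniteDimensional k E] (hS : L.IsOpen S) (hA : IsSmooth L A)
    (hEF : E ≤ F) (hidx : Module.finrank E (layer hEF) = S.index)
    (top_le : ∀ (l : L.Level) (l' : (L.comap S.subtype).Level),
      l'.N ≤ l.N.comap S.subtype → d.top l ≤ dS.top l')
    (coh_res : ∀ (l : L.Level) (l' : (L.comap S.subtype).Level)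
      (hle : l'.N ≤ l.N.comap S.subtype)
      (y : groupCohomology (A.quotientToInvariants l.N) 2),
      haveI := d.normal l
      dS.coh l' 2 ((LC.resFin A hle 2).hom y) =
        (layerMap (d.le_top l) (dS.le_top l') hEF (top_le l l' hle) 2).hom (d.coh l 2 y))
    (y : LC.H2 (L.comap S.subtype) (Rep.res S.subtype A)) :
    d.invLC T hA (LC.corLC2 hS hA y) =
      dS.invLC T (hA.res (LevelStructure.compat_comap L S.subtype)) y := by
  refine inv_cor_of_inv_res_of_injective
    (LC.resLC2 (LevelStructure.compat_comap L S.subtype) hA).toAddMonoidHom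
    (LC.corLC2 hS hA).toAddMonoidHom S.index (Nat.pos_of_ne_zero Subgroup.FiniteIndex.index_ne_zero)
    (fun x => LC.corLC2_resLC2 hS hA x) (d.invLC T hA)
    (dS.invLC T (hA.res (LevelStructure.compat_comap L S.subtype))) ?_
    (dS.invLC_injective T _) (d.invLC_surjective T hA) y
  intro x
  rw [← hidx]
  exact d.invLC_resLC2 T dS (LevelStructure.compat_comap L S.subtype) hA hEF top_le coh_res x

end LayerDict

end generic


/-! ### The full Galois group -/

section Gal

variable {k Ω : Type} [Field k] [Field Ω] [Algebra k Ω] [IsGalois k Ω]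
variable (L : LevelStructure (Ω ≃ₐ[k] Ω))
  (hGal : ∀ N, L.IsLevel N → ∃ F : IntermediateField k Ω,
    FiniteDimensional k F ∧ Normal k F ∧ N = F.fixingSubgroup)
  (hcof : ∀ E' : IntermediateField k Ω, FiniteDimensional k E' →
    ∃ N, L.IsLevel N ∧ N ≤ E'.fixingSubgroup)

include hcof in
/-- `Ωˣ` is a smooth module for the full Galois group. -/
theorem isSmooth_galUnits : IsSmooth L (Rep.ofAlgebraAutOnUnits k Ω) := by
  intro a
  obtain ⟨E', hfd, hE'⟩ :=
    exists_finiteDimensional_forall_apply_eq (k := k) (((Additive.toMul a : Ωˣ) : Ω))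
  obtain ⟨N, hN, hle⟩ := hcof E' hfd
  refine ⟨N, hN, fun g hg => ?_⟩
  apply Additive.toMul.injective
  apply Units.ext
  exact hE' g (hle hg)

variable (k Ω) in
/-- The isomorphism `Gal(Ω/k) → Gal(Ω/⊥)` (as a homomorphism). -/
def botProj : (Ω ≃ₐ[k] Ω) →* (⊥ : IntermediateField k Ω).fixingSubgroup where
  toFun σ := ⟨σ, by rw [IntermediateField.fixingSubgroup_bot]; exact Subgroup.mem_top σ⟩
  map_one' := rfl
  map_mul' _ _ := rfl

@[simp] lemma coe_botProj (σ : Ω ≃ₐ[k] Ω) : ((botProj k Ω σ : _) : Ω ≃ₐ[k] Ω) = σ := rfl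

lemma compat_botProj :
    L.Compat (L.comap (⊥ : IntermediateField k Ω).fixingSubgroup.subtype) (botProj k Ω) := by
  rintro _ ⟨N, hN, rfl⟩
  exact ⟨N, hN, fun σ hσ => hσ⟩

include hcof in
/-- The fixing subgroup of a finite subextension is open. -/
lemma isOpen_fixingSubgroup (F : IntermediateField k Ω) [hF : FiniteDimensional k F] :
    L.IsOpen F.fixingSubgroup := hcof F hF

variable (T : LayerInvSystem k Ω)

/-- **The invariant map of the full Galois group** `H²(Gal(Ω/k), Ωˣ) →+ ℚ/ℤ` (on level
cohomology), defined through the identification `Gal(Ω/k) = Gal(Ω/⊥)`. -/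
noncomputable def galInv : LC.H2 L (Rep.ofAlgebraAutOnUnits k Ω) →+ AddCircle (1 : ℚ) :=
  ((galLayerDict L hGal hcof ⊥).invLC T (isSmooth_unitsRep L hcof ⊥)).comp
    (LC.resLC2
      (LevelStructure.compat_comap L (⊥ : IntermediateField k Ω).fixingSubgroup.subtype)
      (isSmooth_galUnits L hcof)).toAddMonoidHom

lemma galInv_apply (x : LC.H2 L (Rep.ofAlgebraAutOnUnits k Ω)) :
    galInv L hGal hcof T x =
      (galLayerDict L hGal hcof ⊥).invLC T (isSmooth_unitsRep L hcof ⊥)
        (LC.resLC2
          (LevelStructure.compat_comap L (⊥ : IntermediateField k Ω).fixingSubgroup.subtype)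
          (isSmooth_galUnits L hcof) x) := rfl

theorem galInv_injective : Function.Injective (galInv L hGal hcof T) := by
  intro x x' h
  rw [galInv_apply, galInv_apply] at h
  have h1 := (galLayerDict L hGal hcof ⊥).invLC_injective T (isSmooth_unitsRep L hcof ⊥) h
  exact LC.resLC2_injective_of_rightInverse (botProj k Ω) (fun _ => rfl)
    (LevelStructure.compat_comap L _) (compat_botProj L) (isSmooth_galUnits L hcof) h1

theorem galInv_surjective : Function.Surjective (galInv L hGal hcof T) := by
  intro t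
  obtain ⟨c, hc⟩ :=
    (galLayerDict L hGal hcof ⊥).invLC_surjective T (isSmooth_unitsRep L hcof ⊥) t
  obtain ⟨x, hx⟩ := LC.resLC2_surjective_of_leftInverse (botProj k Ω) (fun _ => rfl)
    (fun _ => rfl) (LevelStructure.compat_comap L _) (compat_botProj L)
    (isSmooth_galUnits L hcof) c
  exact ⟨x, by rw [galInv_apply, hx, hc]⟩

lemma finrank_bot_layer (F : IntermediateField k Ω) :
    Module.finrank (⊥ : IntermediateField k Ω) (layer (bot_le : ⊥ ≤ F)) = Module.finrank k F := by
  have h1 : Module.finrank k (⊥ : IntermediateField k Ω) = 1 := IntermediateField.finrank_bot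
  have h2 := Module.finrank_mul_finrank k (⊥ : IntermediateField k Ω) (layer (bot_le : ⊥ ≤ F))
  rw [h1, one_mul] at h2
  rw [h2]
  rfl

/-- **Restriction multiplies the invariant by the degree** (full group to `Gal(Ω/F)`). -/
theorem galInv_resLC2 (F : IntermediateField k Ω) [FiniteDimensional k F]
    (x : LC.H2 L (Rep.ofAlgebraAutOnUnits k Ω)) :
    (galLayerDict L hGal hcof F).invLC T (isSmooth_unitsRep L hcof F)
        (LC.resLC2 (LevelStructure.compat_comap L F.fixingSubgroup.subtype)
          (isSmooth_galUnits L hcof) x) =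
      Module.finrank k F • galInv L hGal hcof T x := by
  have h := galLayerDict_invLC_resLC2 L hGal hcof (bot_le : ⊥ ≤ F) T
    (LC.resLC2
      (LevelStructure.compat_comap L (⊥ : IntermediateField k Ω).fixingSubgroup.subtype)
      (isSmooth_galUnits L hcof) x)
  rw [finrank_bot_layer] at h
  rw [galInv_apply, ← h]
  congr 1
  exact (LC.resLC2_resLC2
    (LevelStructure.compat_comap L (⊥ : IntermediateField k Ω).fixingSubgroup.subtype)
    (compat_fixIncl L (bot_le : ⊥ ≤ F)) (LevelStructure.compat_comap L F.fixingSubgroup.subtype)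
    (isSmooth_galUnits L hcof) x).symm

/-- **(T2)** for the full Galois group: `inv_k (cor y) = inv_F y`. -/
theorem galInv_corLC2 (F : IntermediateField k Ω) [FiniteDimensional k F]
    [F.fixingSubgroup.FiniteIndex] (hS : L.IsOpen F.fixingSubgroup)
    (y : LC.H2 (L.comap F.fixingSubgroup.subtype) (unitsRep F)) :
    galInv L hGal hcof T (LC.corLC2 hS (isSmooth_galUnits L hcof) y) =
      (galLayerDict L hGal hcof F).invLC T (isSmooth_unitsRep L hcof F) y := by
  refine inv_cor_of_inv_res_of_injective
    (LC.resLC2 (LevelStructure.compat_comap L F.fixingSubgroup.subtype)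
      (isSmooth_galUnits L hcof)).toAddMonoidHom
    (LC.corLC2 hS (isSmooth_galUnits L hcof)).toAddMonoidHom F.fixingSubgroup.index
    (Nat.pos_of_ne_zero Subgroup.FiniteIndex.index_ne_zero)
    (fun x => LC.corLC2_resLC2 hS (isSmooth_galUnits L hcof) x) (galInv L hGal hcof T)
    ((galLayerDict L hGal hcof F).invLC T (isSmooth_unitsRep L hcof F)) ?_
    ((galLayerDict L hGal hcof F).invLC_injective T _) (galInv_surjective L hGal hcof T) y
  intro x
  rw [← IntermediateField.finrank_eq_fixingSubgroup_index]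
  exact galInv_resLC2 L hGal hcof T F x

end Gal

end Fermat.Agent.CFT
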