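import Fermat.Agent.CFT.Local.LCDict
import Fermat.Agent.CFT.LC.KummerPairing

/-!
# CFT, Layer B (B7): Galois-correspondence glue between LC level structures and layers

`Ω/k` Galois, `E` a finite subextension, `G_E = Gal(Ω/E) = E.fixingSubgroup` with the level
structure induced by a level structure `L` of Galois type on `Gal(Ω/k)`, `C = Ωˣ = unitsRep E`.

* **(G2)** `mem_invSub_unitsRep_iff`, `invSubUnitsEquiv : C^{G_E} ≃+ Additive Eˣ`,
  `finite_vQuot_unitsRep` (`C^G/p` finite from `Eˣ/(Eˣ)^p` finite);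
* **(G1)** `exists_layer_of_isOpen_normal`: an open normal subgroup `N ≤ G_E` is
  `(layerRes h).ker` for a finite normal layer `h : E ≤ F`.
-/

set_option autoImplicit false
set_option linter.style.haveILetI false
set_option linter.unusedSectionVars false

open CategoryTheory groupCohomology IntermediateField

namespace Fermat.Agent.CFT

open GaloisTower LayerMaps

variable {k Ω : Type} [Field k] [Field Ω] [Algebra k Ω] [IsGalois k Ω]

section G2

variable (E : IntermediateField k Ω)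

/-- **(G2)** The `Gal(Ω/E)`-invariants of `Ωˣ` are the units of `E`. -/
theorem mem_invSub_unitsRep_iff (a : Additive Ωˣ) :
    a ∈ LCSym.invSub (unitsRep E) ↔ ((Additive.toMul a : Ωˣ) : Ω) ∈ E := by
  rw [← forall_fixingSubgroup_apply_eq_iff E]
  constructor
  · intro ha σ hσ
    have := ha ⟨σ, hσ⟩
    exact congrArg (fun y : Additive Ωˣ => ((Additive.toMul y : Ωˣ) : Ω)) this
  · intro ha σ
    apply Additive.toMul.injective
    apply Units.ext
    exact ha σ.1 σ.2

/-- **(G2)** `(Ωˣ)^{Gal(Ω/E)} = Eˣ`. -/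
noncomputable def invSubUnitsEquiv : ↥(LCSym.invSub (unitsRep E)) ≃+ Additive Eˣ where
  toFun x := Additive.ofMul (Units.mk0
    (⟨((Additive.toMul (x.1 : Additive Ωˣ) : Ωˣ) : Ω), (mem_invSub_unitsRep_iff E _).1 x.2⟩ : E)
    (fun h0 => (Additive.toMul (x.1 : Additive Ωˣ) : Ωˣ).ne_zero (congrArg Subtype.val h0)))
  invFun y := ⟨Additive.ofMul (Units.map (algebraMap E Ω : E →* Ω) (Additive.toMul y)),
    (mem_invSub_unitsRep_iff E _).2 ((Additive.toMul y : Eˣ) : E).2⟩
  left_inv x := by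
    apply Subtype.ext
    apply Additive.toMul.injective
    apply Units.ext
    rfl
  right_inv y := by
    apply Additive.toMul.injective
    apply Units.ext
    apply Subtype.ext
    rfl
  map_add' x y := by
    apply Additive.toMul.injective
    apply Units.ext
    apply Subtype.ext
    rfl

theorem invSubUnitsEquiv_coe (x : ↥(LCSym.invSub (unitsRep E))) :
    (((Additive.toMul (invSubUnitsEquiv E x) : Eˣ) : E) : Ω) =
      ((Additive.toMul (x.1 : Additive Ωˣ) : Ωˣ) : Ω) := rfl

theorem invSubUnitsEquiv_symm_coe (y : Additive Eˣ) :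
    ((Additive.toMul (((invSubUnitsEquiv E).symm y).1 : Additive Ωˣ) : Ωˣ) : Ω) =
      (((Additive.toMul y : Eˣ) : E) : Ω) := rfl

/-- `C^G / p` is finite as soon as `Eˣ / (Eˣ)^p` is. -/
theorem finite_vQuot_unitsRep (p : ℕ)
    (hfin : (powMonoidHom p : Eˣ →* Eˣ).range.FiniteIndex) :
    Finite (LCSym.VQuot (unitsRep E) p) := by
  have hQ : Finite (Eˣ ⧸ (powMonoidHom p : Eˣ →* Eˣ).range) :=
    Subgroup.finite_quotient_of_finiteIndex
  -- a surjection `Eˣ ⧸ range → VQuot`
  let φ : Eˣ → LCSym.VQuot (unitsRep E) p := fun u =>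
    QuotientAddGroup.mk ((invSubUnitsEquiv E).symm (Additive.ofMul u))
  have hφ : ∀ u v : Eˣ, (QuotientGroup.mk u : Eˣ ⧸ (powMonoidHom p : Eˣ →* Eˣ).range) =
      QuotientGroup.mk v → φ u = φ v := by
    intro u v huv
    rw [QuotientGroup.eq] at huv
    obtain ⟨w, hw⟩ := huv
    rw [powMonoidHom_apply] at hw
    apply (QuotientAddGroup.eq).2
    refine ⟨(invSubUnitsEquiv E).symm (Additive.ofMul w), ?_⟩
    rw [nsmulAddMonoidHom_apply, ← map_nsmul, ← map_neg, ← map_add]
    congr 1
  let ψ : (Eˣ ⧸ (powMonoidHom p : Eˣ →* Eˣ).range) → LCSym.VQuot (unitsRep E) p :=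
    Quotient.lift φ (fun u v huv => hφ u v (Quotient.sound huv))
  refine Finite.of_surjective ψ ?_
  intro x
  induction x using QuotientAddGroup.induction_on with
  | H a =>
    refine ⟨QuotientGroup.mk (Additive.toMul (invSubUnitsEquiv E a)), ?_⟩
    show φ _ = _
    simp only [φ, ofMul_toMul, AddEquiv.symm_apply_apply]

end G2

section G1

variable (L : LevelStructure (Ω ≃ₐ[k] Ω))
  (hGal : ∀ N, L.IsLevel N → ∃ F : IntermediateField k Ω,
    FiniteDimensional k F ∧ Normal k F ∧ N = F.fixingSubgroup)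
  (E : IntermediateField k Ω) [FiniteDimensional k E]

include hGal in
/-- **(G1)** An open normal subgroup of `Gal(Ω/E)` (for the level structure induced by a level
structure of Galois type) is the kernel of the restriction to a finite normal layer `F/E`. -/
theorem exists_layer_of_isOpen_normal (N : Subgroup E.fixingSubgroup) [hNn : N.Normal]
    (hN : (L.comap E.fixingSubgroup.subtype).IsOpen N) :
    ∃ (F : IntermediateField k Ω) (h : E ≤ F) (_ : FiniteDimensional k F)
      (_ : Normal E (layer h)), N = (layerRes h).ker := by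
  obtain ⟨N₀, ⟨N₁, hN₁, rfl⟩, hle⟩ := hN
  obtain ⟨F₁, hfd₁, -, rfl⟩ := hGal N₁ hN₁
  set N' : Subgroup (Ω ≃ₐ[k] Ω) := N.map E.fixingSubgroup.subtype with hN'
  have hmem : ∀ σ : E.fixingSubgroup, (σ : Ω ≃ₐ[k] Ω) ∈ N' ↔ σ ∈ N := fun σ =>
    Subgroup.mem_map_iff_mem (Subgroup.subtype_injective _)
  have hN'E : N' ≤ E.fixingSubgroup := by
    rintro _ ⟨σ, -, rfl⟩
    exact σ.2
  have hsub : (E ⊔ F₁).fixingSubgroup ≤ N' := by
    intro σ hσ
    rw [IntermediateField.fixingSubgroup_sup, Subgroup.mem_inf] at hσ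
    exact (hmem ⟨σ, hσ.1⟩).2 (hle hσ.2)
  haveI : FiniteDimensional k ↥(E ⊔ F₁) := IntermediateField.finiteDimensional_sup E F₁
  obtain ⟨F, hFle, hF⟩ := exists_fixingSubgroup_eq_of_le N' hsub
  have h : E ≤ F := by
    intro x hx
    rw [← forall_fixingSubgroup_apply_eq_iff F x]
    intro σ hσ
    rw [hF] at hσ
    exact (forall_fixingSubgroup_apply_eq_iff E x).2 hx σ (hN'E hσ)
  have hfdF : FiniteDimensional k F :=
    Module.Finite.of_injective (IntermediateField.inclusion hFle).toLinearMap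
      (IntermediateField.inclusion hFle).injective
  have hnorm : Normal E (layer h) := by
    haveI : Normal E Ω := Normal.tower_top_of_normal k E Ω
    rw [IntermediateField.normal_iff_forall_map_le']
    intro σ x hx
    obtain ⟨y, hy, rfl⟩ := hx
    have hy' : y ∈ F := hy
    show σ y ∈ F
    let τ : Ω ≃ₐ[k] Ω := σ.restrictScalars k
    have hτ : ∀ z, τ z = σ z := fun _ => rfl
    have hτE : τ ∈ E.fixingSubgroup := by
      rw [IntermediateField.mem_fixingSubgroup_iff]
      intro z hz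
      rw [hτ]
      exact σ.commutes ⟨z, hz⟩
    rw [← hτ, ← forall_fixingSubgroup_apply_eq_iff F]
    intro ρ hρ
    rw [hF] at hρ
    have hρE : ρ ∈ E.fixingSubgroup := hN'E hρ
    have hρN : (⟨ρ, hρE⟩ : E.fixingSubgroup) ∈ N := (hmem ⟨ρ, hρE⟩).1 hρ
    have hconj : (⟨τ, hτE⟩ : E.fixingSubgroup)⁻¹ * ⟨ρ, hρE⟩ * ⟨τ, hτE⟩ ∈ N := by
      have := hNn.conj_mem _ hρN (⟨τ, hτE⟩ : E.fixingSubgroup)⁻¹
      simpa using this
    have hfix : (τ⁻¹ * ρ * τ) y = y := by
      have h1 : (τ⁻¹ * ρ * τ) ∈ F.fixingSubgroup := by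
        rw [hF]
        exact (hmem _).2 hconj
      exact (forall_fixingSubgroup_apply_eq_iff F y).2 hy' _ h1
    have : ρ (τ y) = τ ((τ⁻¹ * ρ * τ) y) := by
      simp only [AlgEquiv.mul_apply]
      rw [← AlgEquiv.mul_apply τ τ⁻¹, mul_inv_cancel, AlgEquiv.one_apply]
    rw [this, hfix]
  refine ⟨F, h, hfdF, hnorm, ?_⟩
  ext σ
  rw [mem_ker_layerRes_iff, hF, hmem]

end G1

end Fermat.Agent.CFT
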