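import Fermat.Agent.CFT.LC.Lift
import Fermat.Agent.CFT.Local.LayerInv
import Fermat.Agent.CFT.GalMapTransport

/-!
# CFT, Layer B (B7c): the invariant map on level cohomology from a `LayerInvSystem`

Hypothesis form over a *dictionary* `LayerDict E L A` between the finite levels of a level group
`(G, L)` with smooth module `A` and the finite normal layers `E ≤ E'` of a tower `k ⊆ Ω`
(node B7b: `G ⧸ N ≃* Gal(E'/E)`, `A^N ≅ E'ˣ`, inflation between levels = `layerInfl`).

Given `S : LayerInvSystem k Ω` we get `invLC : LC.H2 L A →+ ℚ/ℤ`, injective, taking all values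
`1/n`, hence surjective, with `LC.H2 L A [p] ≃+ ZMod p` (T1); `LC.H1 L A = 0` (CF1, Hilbert 90);
and the compatibility `inv_F ∘ res = [F : E] • inv_E` with restriction (from `inv_layerMap`).
-/

set_option autoImplicit false
set_option linter.style.haveILetI false

open CategoryTheory groupCohomology IntermediateField

namespace Fermat.Agent.CFT

open GaloisTower LayerMaps

variable {k Ω : Type} [Field k] [Field Ω] [Algebra k Ω]

/-- A dictionary between the finite levels of `(G, L, A)` and the finite normal layers over `E`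
of the tower `Ω/k`. -/
structure LayerDict (E : IntermediateField k Ω) {G : Type} [Group G] (L : LevelStructure G)
    (A : Rep.{0} ℤ G) where
  /-- the top field of the layer attached to a level -/
  top : L.Level → IntermediateField k Ω
  le_top : ∀ l, E ≤ top l
  fd : ∀ l, FiniteDimensional k (top l)
  normal : ∀ l, Normal E (layer (le_top l))
  mono : ∀ {l l' : L.Level}, l'.N ≤ l.N → top l ≤ top l'
  /-- `G ⧸ N ≃* Gal(E'/E)` -/
  quotEquiv : ∀ l, (G ⧸ l.N) ≃* (layer (le_top l) ≃ₐ[E] layer (le_top l))
  /-- `A^N ≅ E'ˣ` -/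
  repIso : ∀ l, A.quotientToInvariants l.N ≅
    Rep.res (quotEquiv l).toMonoidHom (Rep.ofAlgebraAutOnUnits E (layer (le_top l)))
  /-- inflation between levels corresponds to `layerInfl` (degree `2`) -/
  coh_infl : ∀ (l l' : L.Level) (h : l'.N ≤ l.N)
    (y : groupCohomology (A.quotientToInvariants l.N) 2),
    haveI := normal l
    cohLinearEquivOfRepIso _ _ (quotEquiv l') (repIso l') 2 ((LC.inflFin A h 2).hom y) =
      (layerInfl (le_top l) (mono h) 2).hom
        (cohLinearEquivOfRepIso _ _ (quotEquiv l) (repIso l) 2 y)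
  /-- every finite layer over `E` is contained in the layer of a level -/
  cofinal : ∀ (E' : IntermediateField k Ω), E ≤ E' → FiniteDimensional k E' →
    ∃ l, E' ≤ top l

namespace LayerDict

variable {E : IntermediateField k Ω} {G : Type} [Group G] {L : LevelStructure G}
  {A : Rep.{0} ℤ G} (d : LayerDict E L A) (S : LayerInvSystem k Ω)

/-- The cohomology isomorphism of a level. -/
noncomputable def coh (l : L.Level) (n : ℕ) :
    groupCohomology (A.quotientToInvariants l.N) n ≃ₗ[ℤ]
      groupCohomology (Rep.ofAlgebraAutOnUnits E (layer (d.le_top l))) n :=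
  cohLinearEquivOfRepIso _ _ (d.quotEquiv l) (d.repIso l) n

/-- The invariant map of a finite level. -/
noncomputable def invLevel (l : L.Level) :
    groupCohomology.H2 (A.quotientToInvariants l.N) →+ AddCircle (1 : ℚ) :=
  (S.inv (d.le_top l)).comp (d.coh l 2).toLinearMap.toAddMonoidHom

lemma invLevel_apply (l : L.Level) (y : groupCohomology.H2 (A.quotientToInvariants l.N)) :
    d.invLevel S l y = S.inv (d.le_top l) (d.coh l 2 y) := rfl

lemma invLevel_inflFin (l l' : L.Level) (h : l'.N ≤ l.N)
    (y : groupCohomology.H2 (A.quotientToInvariants l.N)) :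
    d.invLevel S l' ((LC.inflFin A h 2).hom y) = d.invLevel S l y := by
  haveI := d.normal l
  haveI := d.fd l'
  haveI : Normal E (layer ((d.le_top l).trans (d.mono h))) := d.normal l'
  rw [invLevel_apply, invLevel_apply]
  have h1 : d.coh l' 2 ((LC.inflFin A h 2).hom y) =
      (layerInfl (d.le_top l) (d.mono h) 2).hom (d.coh l 2 y) := d.coh_infl l l' h y
  rw [h1]
  exact S.inv_layerInfl (d.le_top l) (d.mono h) (d.coh l 2 y)

lemma invLevel_injective (l : L.Level) : Function.Injective (d.invLevel S l) := by
  haveI := d.normal l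
  haveI := d.fd l
  intro y y' hyy'
  rw [invLevel_apply, invLevel_apply] at hyy'
  exact (d.coh l 2).injective (S.inv_injective (d.le_top l) hyy')

/-- **The invariant map** `LC.H2 L A →+ ℚ/ℤ`. -/
noncomputable def invLC (hA : IsSmooth L A) : LC.H2 L A →+ AddCircle (1 : ℚ) :=
  LC.descH2Add (d.invLevel S) (d.invLevel_inflFin S) hA

@[simp] lemma invLC_inflH2 (hA : IsSmooth L A) (l : L.Level)
    (y : groupCohomology.H2 (A.quotientToInvariants l.N)) :
    d.invLC S hA (LC.inflH2 A l.N l.isOpen y) = S.inv (d.le_top l) (d.coh l 2 y) :=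
  LC.descH2Add_inflH2 (d.invLevel S) (d.invLevel_inflFin S) hA l y

/-- The invariant map is injective. -/
theorem invLC_injective (hA : IsSmooth L A) : Function.Injective (d.invLC S hA) :=
  LC.descH2Add_injective _ _ hA (d.invLevel_injective S)

/-- The invariant map takes the value `1/n` for every `n ≥ 1`. -/
theorem exists_invLC_eq (hA : IsSmooth L A) [FiniteDimensional k E] (n : ℕ) (hn : 0 < n) :
    ∃ c : LC.H2 L A, d.invLC S hA c = (((1 : ℚ) / (n : ℚ) : ℚ) : AddCircle (1 : ℚ)) := by
  obtain ⟨E', h, hfd, hnorm, x, hx⟩ := S.exists_inv_eq E n hn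
  obtain ⟨l, hl⟩ := d.cofinal E' h hfd
  haveI := d.fd l
  haveI : Normal E (layer (h.trans hl)) := d.normal l
  refine ⟨LC.inflH2 A l.N l.isOpen ((d.coh l 2).symm ((layerInfl h hl 2).hom x)), ?_⟩
  rw [invLC_inflH2, LinearEquiv.apply_symm_apply]
  exact (S.inv_layerInfl h hl x).trans hx


/-- The invariant map is surjective. -/
theorem invLC_surjective (hA : IsSmooth L A) [FiniteDimensional k E] :
    Function.Surjective (d.invLC S hA) := by
  intro t
  induction t using QuotientAddGroup.induction_on with
  | H q =>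
    obtain ⟨c, hc⟩ := d.exists_invLC_eq S hA q.den q.den_pos
    refine ⟨q.num • c, ?_⟩
    rw [map_zsmul, hc, ← AddCircle.coe_zsmul]
    congr 1
    rw [zsmul_eq_mul, mul_one_div]
    exact Rat.num_div_den q

/-- **(T1)**: the `p`-torsion of `LC.H2 L A` is `ZMod p`, via the invariant map. -/
theorem exists_torsionBy_addEquiv_zmod (hA : IsSmooth L A) [FiniteDimensional k E]
    (p : ℕ) [Fact p.Prime] :
    ∃ e : ↥(AddSubgroup.torsionBy (LC.H2 L A) (p : ℤ)) ≃+ ZMod p,
      ∀ c : ↥(AddSubgroup.torsionBy (LC.H2 L A) (p : ℤ)),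
        d.invLC S hA (c : LC.H2 L A) =
          ((((e c).val : ℚ) / (p : ℚ) : ℚ) : AddCircle (1 : ℚ)) := by
  obtain ⟨c₀, hc₀⟩ := d.exists_invLC_eq S hA p (Fact.out : p.Prime).pos
  exact LC.exists_torsionBy_addEquiv_zmod (d.invLC S hA) (d.invLC_injective S hA) p c₀ hc₀

include d in
/-- **(CF1)**: `LC.H1 L A = 0` (Hilbert 90 at every finite level). -/
theorem subsingleton_H1 (hA : IsSmooth L A) : Subsingleton (LC.H1 L A) := by
  refine LC.subsingleton_H1_of_levels hA fun l => ?_
  haveI := d.fd l
  haveI : FiniteDimensional E (layer (d.le_top l)) := by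
    haveI : FiniteDimensional k (layer (d.le_top l)) := d.fd l
    exact FiniteDimensional.right k E (layer (d.le_top l))
  have : Subsingleton (groupCohomology (Rep.ofAlgebraAutOnUnits E (layer (d.le_top l))) 1) :=
    (inferInstance :
      Subsingleton (groupCohomology.H1 (Rep.ofAlgebraAutOnUnits E (layer (d.le_top l)))))
  exact (d.coh l 1).injective.subsingleton

include d in
theorem H1_eq_zero (hA : IsSmooth L A) (c : LC.H1 L A) : c = 0 :=
  (d.subsingleton_H1 hA).elim c 0


/-! ### Compatibility with restriction -/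

section res

variable {H : Type} [Group H] {LH : LevelStructure H} {f : H →* G} {F : IntermediateField k Ω}
  (dF : LayerDict F LH (Rep.res f A))

/-- **Restriction multiplies the invariant by the degree**: if, at the finite levels, restriction
corresponds to `layerMap` (base change from `E` to `F`) under the two dictionaries, then
`inv_F (res c) = [F : E] • inv_E c`. -/
theorem invLC_resLC2 (hf : LH.Compat L f) (hA : IsSmooth L A) (hEF : E ≤ F)
    (top_le : ∀ (l : L.Level) (l' : LH.Level), l'.N ≤ l.N.comap f → d.top l ≤ dF.top l')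
    (coh_res : ∀ (l : L.Level) (l' : LH.Level) (hle : l'.N ≤ l.N.comap f)
      (y : groupCohomology (A.quotientToInvariants l.N) 2),
      haveI := d.normal l
      dF.coh l' 2 ((LC.resFin A hle 2).hom y) =
        (layerMap (d.le_top l) (dF.le_top l') hEF (top_le l l' hle) 2).hom (d.coh l 2 y))
    (c : LC.H2 L A) :
    dF.invLC S (hA.res hf) (LC.resLC2 hf hA c) =
      Module.finrank E (layer hEF) • d.invLC S hA c := by
  refine LC.descH2Add_resLC2 hf hA (d.invLevel S) (d.invLevel_inflFin S) (dF.invLevel S)
    (dF.invLevel_inflFin S) (Module.finrank E (layer hEF)) ?_ c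
  intro l l' hle y
  haveI := d.normal l
  haveI := dF.normal l'
  haveI := dF.fd l'
  rw [invLevel_apply, invLevel_apply, coh_res l l' hle y]
  exact S.inv_layerMap (d.le_top l) (dF.le_top l') hEF (top_le l l' hle) (d.coh l 2 y)

end res

end LayerDict

end Fermat.Agent.CFT
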