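import Fermat.Agent.CFT.LC.KummerDescentHom
import Fermat.Agent.CFT.Local.LCDictRes
import Fermat.Agent.CFT.Local.LCGaloisGlue

/-!
# CFT, Layer B (B7d-inst, descent case): the existence theorem mod `p` for a general finite `E/k`
by descent from `E(ζ_p)` (helper16)

`Ω/k` Galois, `L` a level structure of Galois type on `Gal(Ω/k)`, `S : LayerInvSystem k Ω`,
`E/k` finite, `ζ ∈ Ω` a primitive `p`-th root of unity, `F = E(ζ) = kummerField E ζ`.
Instantiation of `LCSym.perfect_of_hom` (`LC/KummerDescentHom.lean`) for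
`ι = fixIncl : Gal(Ω/F) → Gal(Ω/E)`:

* `zmod_eq_nsmul_of_addCircle`: `x/p = n • (y/p)` in `ℚ/ℤ` gives `x = n • y` in `ZMod p`;
* `kummerField`, `cycloChar`, `range_fixIncl_kummerField` (`Gal(Ω/F)` is the kernel of the mod-`p`
  cyclotomic character of `Gal(Ω/E)`), hence normal of index dividing `p - 1`
  (`coprime_index_range_fixIncl_kummerField`);
* `finrank_layer_eq_index_range_fixIncl`: `[F : E] = (G_E : G_F)`;
* `isOpen_range_fixIncl`, `isLevel_comap_fixIncl`;
* `torsion_res_eq`: `e_F (res c) = (G_E : G_F) • e_E c` for the (T1)-normalised maps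
  (from helper22's `galLayerDict_invLC_resLC2`);
* `perfect_of_kummerField` (coefficients of `G_F` written `Rep.res (fixIncl _) (unitsRep E)`),
  `perfect_of_kummerField'`, `exists_perfect_of_kummerField` (coefficients `unitsRep F`):
  the existence theorem mod `p` for `E` from the Kummer case for `F`, property (N) for `E` and
  finiteness of `Eˣ/(Eˣ)^p`.
-/

set_option autoImplicit false
set_option linter.style.haveILetI false
set_option linter.unusedSectionVars false

open CategoryTheory groupCohomology IntermediateField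

namespace Fermat.Agent.CFT

open GaloisTower LayerMaps

/-- `x/p = n • (y/p)` in `ℚ/ℤ` forces `x = n • y` in `ZMod p`. -/
theorem zmod_eq_nsmul_of_addCircle {p : ℕ} [NeZero p] (x y : ZMod p) (n : ℕ)
    (h : ((((x.val : ℚ) / (p : ℚ) : ℚ)) : AddCircle (1 : ℚ)) =
      n • ((((y.val : ℚ) / (p : ℚ) : ℚ)) : AddCircle (1 : ℚ))) :
    x = n • y := by
  rw [← AddCircle.coe_nsmul] at h
  obtain ⟨m, hm⟩ := AddSubgroup.mem_zmultiples_iff.1 (QuotientAddGroup.eq.1 h)
  have hp0 : (p : ℚ) ≠ 0 := by exact_mod_cast NeZero.ne p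
  have h1 : (((n * y.val : ℕ) : ℤ) : ℚ) - ((x.val : ℕ) : ℤ) = ((m * p : ℤ) : ℚ) := by
    push_cast
    rw [zsmul_eq_mul, mul_one, nsmul_eq_mul] at hm
    field_simp at hm
    linarith
  have h2 : ((n * y.val : ℕ) : ℤ) - ((x.val : ℕ) : ℤ) = m * p := by exact_mod_cast h1
  have h3 := congrArg (Int.cast : ℤ → ZMod p) h2
  push_cast at h3
  rw [ZMod.natCast_zmod_val, ZMod.natCast_zmod_val, ZMod.natCast_self, mul_zero, sub_eq_zero] at h3
  rw [nsmul_eq_mul, h3]


/-- The (T1) normalisation determines the value in `ZMod p`. -/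
theorem zmod_eq_of_addCircle {p : ℕ} [NeZero p] (x y : ZMod p)
    (h : ((((x.val : ℚ) / (p : ℚ) : ℚ)) : AddCircle (1 : ℚ)) =
      ((((y.val : ℚ) / (p : ℚ) : ℚ)) : AddCircle (1 : ℚ))) :
    x = y := by
  have := zmod_eq_nsmul_of_addCircle x y 1 (by rw [one_smul]; exact h)
  rwa [one_smul] at this

variable {k Ω : Type} [Field k] [Field Ω] [Algebra k Ω] [IsGalois k Ω]

namespace KummerDescentLocal

/-- The subfield of `Ω` fixed by one automorphism. -/
def fixedBy (σ : Ω ≃ₐ[k] Ω) : IntermediateField k Ω where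
  carrier := {x | σ x = x}
  mul_mem' := by
    intro a b ha hb
    show σ (a * b) = a * b
    rw [map_mul, ha.out, hb.out]
  add_mem' := by
    intro a b ha hb
    show σ (a + b) = a + b
    rw [map_add, ha.out, hb.out]
  algebraMap_mem' r := σ.commutes r
  inv_mem' := by
    intro x hx
    show σ x⁻¹ = x⁻¹
    rw [map_inv₀, hx.out]

theorem mem_fixedBy_iff (σ : Ω ≃ₐ[k] Ω) (x : Ω) : x ∈ fixedBy σ ↔ σ x = x := Iff.rfl

variable (E : IntermediateField k Ω) (ζ : Ω)

/-- The field `E(ζ)`. -/
def kummerField : IntermediateField k Ω := E ⊔ IntermediateField.adjoin k {ζ}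

theorem le_kummerField : E ≤ kummerField E ζ := le_sup_left

theorem mem_kummerField : ζ ∈ kummerField E ζ :=
  (le_sup_right : IntermediateField.adjoin k {ζ} ≤ kummerField E ζ)
    (IntermediateField.mem_adjoin_simple_self k ζ)

theorem finiteDimensional_kummerField [FiniteDimensional k E] :
    FiniteDimensional k (kummerField E ζ) := by
  haveI : FiniteDimensional k (IntermediateField.adjoin k {ζ}) :=
    IntermediateField.adjoin.finiteDimensional (Algebra.IsIntegral.isIntegral ζ)
  exact IntermediateField.finiteDimensional_sup E _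

theorem mem_fixingSubgroup_kummerField_iff (σ : Ω ≃ₐ[k] Ω) :
    σ ∈ (kummerField E ζ).fixingSubgroup ↔ σ ∈ E.fixingSubgroup ∧ σ ζ = ζ := by
  rw [kummerField, IntermediateField.fixingSubgroup_sup, Subgroup.mem_inf]
  refine and_congr Iff.rfl ?_
  rw [IntermediateField.mem_fixingSubgroup_iff]
  constructor
  · intro h
    exact h ζ (IntermediateField.mem_adjoin_simple_self k ζ)
  · intro h x hx
    have hle : IntermediateField.adjoin k {ζ} ≤ fixedBy σ := by
      rw [IntermediateField.adjoin_simple_le_iff]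
      exact h
    exact hle hx

variable {ζ} {p : ℕ} [Fact p.Prime]

/-- The mod-`p` cyclotomic character of `Gal(Ω/E)`. -/
noncomputable def cycloChar (hζ : IsPrimitiveRoot ζ p) : E.fixingSubgroup →* (ZMod p)ˣ :=
  haveI : NeZero p := ⟨(Fact.out : p.Prime).ne_zero⟩
  (hζ.autToPow k).comp E.fixingSubgroup.subtype

theorem mem_ker_cycloChar_iff (hζ : IsPrimitiveRoot ζ p) (σ : E.fixingSubgroup) :
    σ ∈ (cycloChar E hζ).ker ↔ (σ : Ω ≃ₐ[k] Ω) ζ = ζ := by
  haveI : NeZero p := ⟨(Fact.out : p.Prime).ne_zero⟩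
  have hp1 : 1 < p := (Fact.out : p.Prime).one_lt
  haveI : Fact (1 < p) := ⟨hp1⟩
  have hspec : ζ ^ ((cycloChar E hζ σ : (ZMod p)ˣ) : ZMod p).val = (σ : Ω ≃ₐ[k] Ω) ζ :=
    hζ.autToPow_spec k (σ : Ω ≃ₐ[k] Ω)
  rw [MonoidHom.mem_ker]
  constructor
  · intro h1
    rw [h1, Units.val_one, ZMod.val_one, pow_one] at hspec
    exact hspec.symm
  · intro h1
    rw [h1] at hspec
    have h2 : ((cycloChar E hζ σ : (ZMod p)ˣ) : ZMod p).val = 1 := by
      refine hζ.pow_inj (ZMod.val_lt _) hp1 ?_
      rw [hspec, pow_one]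
    apply Units.ext
    rw [Units.val_one, ← ZMod.natCast_zmod_val ((cycloChar E hζ σ : (ZMod p)ˣ) : ZMod p), h2,
      Nat.cast_one]

theorem range_fixIncl_kummerField (hζ : IsPrimitiveRoot ζ p) :
    (fixIncl (le_kummerField E ζ)).range = (cycloChar E hζ).ker := by
  ext σ
  rw [mem_ker_cycloChar_iff]
  constructor
  · rintro ⟨τ, rfl⟩
    exact ((mem_fixingSubgroup_kummerField_iff E ζ (τ : Ω ≃ₐ[k] Ω)).1 τ.2).2
  · intro h
    exact ⟨⟨(σ : Ω ≃ₐ[k] Ω), (mem_fixingSubgroup_kummerField_iff E ζ _).2 ⟨σ.2, h⟩⟩, rfl⟩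

theorem normal_range_fixIncl_kummerField (hζ : IsPrimitiveRoot ζ p) : (fixIncl (le_kummerField E ζ)).range.Normal := by
  rw [range_fixIncl_kummerField E hζ]
  infer_instance

theorem coprime_index_range_fixIncl_kummerField (hζ : IsPrimitiveRoot ζ p) :
    Nat.Coprime (fixIncl (le_kummerField E ζ)).range.index p := by
  have hp : p.Prime := Fact.out
  rw [range_fixIncl_kummerField E hζ, Subgroup.index_ker]
  have h1 : Nat.card (cycloChar E hζ).range ∣ Nat.card (ZMod p)ˣ :=
    Subgroup.card_subgroup_dvd_card _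
  have h2 : Nat.card (ZMod p)ˣ = p - 1 := by
    rw [Nat.card_eq_fintype_card, ZMod.card_units_eq_totient, Nat.totient_prime hp]
  rw [h2] at h1
  refine Nat.Coprime.coprime_dvd_left h1 ?_
  have h3 : Nat.Coprime p (p - 1) := by
    rw [Nat.Prime.coprime_iff_not_dvd hp]
    exact Nat.not_dvd_of_pos_of_lt (by have := hp.one_lt; omega) (by have := hp.one_lt; omega)
  exact h3.symm

/-- `[F : E] = (G_E : G_F)`. -/
theorem finrank_layer_eq_index_range_fixIncl {E F : IntermediateField k Ω} (hEF : E ≤ F) :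
    Module.finrank E (layer hEF) = (fixIncl hEF).range.index := by
  rw [IntermediateField.finrank_eq_fixingSubgroup_index Ω (layer hEF)]
  have hsurj : Function.Surjective (IntermediateField.fixingSubgroupEquiv E).toMonoidHom :=
    (IntermediateField.fixingSubgroupEquiv E).surjective
  rw [← Subgroup.index_comap_of_surjective (layer hEF).fixingSubgroup hsurj]
  congr 1
  ext σ
  rw [Subgroup.mem_comap, IntermediateField.mem_fixingSubgroup_iff]
  constructor
  · intro h
    refine ⟨⟨(σ : Ω ≃ₐ[k] Ω), ?_⟩, rfl⟩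
    rw [IntermediateField.mem_fixingSubgroup_iff]
    intro x hx
    exact h x hx
  · rintro ⟨τ, rfl⟩ x hx
    exact (IntermediateField.mem_fixingSubgroup_iff F _).1 τ.2 x hx

section Main

variable (L : LevelStructure (Ω ≃ₐ[k] Ω))
  (hGal : ∀ N, L.IsLevel N → ∃ F : IntermediateField k Ω,
    FiniteDimensional k F ∧ Normal k F ∧ N = F.fixingSubgroup)
  (hcof : ∀ E' : IntermediateField k Ω, FiniteDimensional k E' →
    ∃ N, L.IsLevel N ∧ N ≤ E'.fixingSubgroup)
  (S : LayerInvSystem k Ω)

include hcof in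
/-- `Gal(Ω/F)` is open in `Gal(Ω/E)` for `F/k` finite. -/
theorem isOpen_range_fixIncl {E F : IntermediateField k Ω} (hEF : E ≤ F)
    [FiniteDimensional k F] :
    (L.comap E.fixingSubgroup.subtype).IsOpen (fixIncl hEF).range := by
  obtain ⟨N, hN, hle⟩ := hcof F inferInstance
  refine ⟨N.comap E.fixingSubgroup.subtype, ⟨N, hN, rfl⟩, fun σ hσ => ?_⟩
  exact ⟨⟨(σ : Ω ≃ₐ[k] Ω), hle hσ⟩, rfl⟩

/-- The levels of `Gal(Ω/F)` are pulled back from `Gal(Ω/E)`. -/
theorem isLevel_comap_fixIncl {E F : IntermediateField k Ω} (hEF : E ≤ F)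
    (N' : Subgroup F.fixingSubgroup) (hN' : (L.comap F.fixingSubgroup.subtype).IsLevel N') :
    ∃ N, (L.comap E.fixingSubgroup.subtype).IsLevel N ∧ N' = N.comap (fixIncl hEF) := by
  obtain ⟨N₀, hN₀, rfl⟩ := hN'
  exact ⟨N₀.comap E.fixingSubgroup.subtype, ⟨N₀, hN₀, rfl⟩, rfl⟩

variable (E : IntermediateField k Ω) [FiniteDimensional k E] {p : ℕ} [Fact p.Prime] {ζ : Ω}

/-- **Restriction on `p`-torsion, `ZMod p` form**: if `e_E`, `e_F` are the (T1)-normalised
identifications of the `p`-torsion of `LC.H2` with `ZMod p`, then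
`e_F (res c) = [F : E] • e_E c`. -/
theorem torsion_res_eq {F : IntermediateField k Ω} [FiniteDimensional k F] (hEF : E ≤ F)
    (eE : ↥(AddSubgroup.torsionBy (LC.H2 (L.comap E.fixingSubgroup.subtype) (unitsRep E))
      (p : ℤ)) →+ ZMod p)
    (heE : ∀ c : ↥(AddSubgroup.torsionBy (LC.H2 (L.comap E.fixingSubgroup.subtype) (unitsRep E))
        (p : ℤ)),
      (galLayerDict L hGal hcof E).invLC S (isSmooth_unitsRep L hcof E) (c : LC.H2 _ _) =
        ((((eE c).val : ℚ) / (p : ℚ) : ℚ) : AddCircle (1 : ℚ)))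
    (eF : ↥(AddSubgroup.torsionBy (LC.H2 (L.comap F.fixingSubgroup.subtype)
      (Rep.res (fixIncl hEF) (unitsRep E))) (p : ℤ)) →+ ZMod p)
    (heF : ∀ c : ↥(AddSubgroup.torsionBy (LC.H2 (L.comap F.fixingSubgroup.subtype)
        (Rep.res (fixIncl hEF) (unitsRep E))) (p : ℤ)),
      (galLayerDictRes L hGal hcof hEF).invLC S
          ((isSmooth_unitsRep L hcof E).res (compat_fixIncl L hEF)) (c : LC.H2 _ _) =
        ((((eF c).val : ℚ) / (p : ℚ) : ℚ) : AddCircle (1 : ℚ)))
    (c : ↥(AddSubgroup.torsionBy (LC.H2 (L.comap E.fixingSubgroup.subtype) (unitsRep E))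
        (p : ℤ))) :
    eF (LCSym.resTors (fixIncl hEF) (compat_fixIncl L hEF) (isSmooth_unitsRep L hcof E) c) =
      (fixIncl hEF).range.index • eE c := by
  haveI : NeZero p := ⟨(Fact.out : p.Prime).ne_zero⟩
  apply zmod_eq_nsmul_of_addCircle
  have h1 := heF (LCSym.resTors (fixIncl hEF) (compat_fixIncl L hEF)
    (isSmooth_unitsRep L hcof E) c)
  have h2 := heE c
  have h3 := galLayerDict_invLC_resLC2 L hGal hcof hEF S c.1
  rw [finrank_layer_eq_index_range_fixIncl hEF] at h3
  exact h1.symm.trans (h3.trans (congrArg (fun t => (fixIncl hEF).range.index • t) h2))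

/-- **Existence theorem mod `p` for a general finite `E/k`, by descent from `E(ζ_p)`** (hypothesis
form).  Inputs: the Kummer case for `F = E(ζ)` (left-injectivity of the pairing), property (N)
for `E` (every nonzero character is detected by some symbol), and finiteness of `Eˣ/(Eˣ)^p`. -/
theorem perfect_of_kummerField (hζ : IsPrimitiveRoot ζ p)
    (eE : ↥(AddSubgroup.torsionBy (LC.H2 (L.comap E.fixingSubgroup.subtype) (unitsRep E))
      (p : ℤ)) ≃+ ZMod p)
    (heE : ∀ c : ↥(AddSubgroup.torsionBy (LC.H2 (L.comap E.fixingSubgroup.subtype) (unitsRep E))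
        (p : ℤ)),
      (galLayerDict L hGal hcof E).invLC S (isSmooth_unitsRep L hcof E) (c : LC.H2 _ _) =
        ((((eE c).val : ℚ) / (p : ℚ) : ℚ) : AddCircle (1 : ℚ)))
    (eF : ↥(AddSubgroup.torsionBy (LC.H2 (L.comap (kummerField E ζ).fixingSubgroup.subtype)
      (Rep.res (fixIncl (le_kummerField E ζ)) (unitsRep E))) (p : ℤ)) ≃+ ZMod p)
    (heF : haveI := finiteDimensional_kummerField E ζ
      ∀ c : ↥(AddSubgroup.torsionBy (LC.H2 (L.comap (kummerField E ζ).fixingSubgroup.subtype)
        (Rep.res (fixIncl (le_kummerField E ζ)) (unitsRep E))) (p : ℤ)),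
      (galLayerDictRes L hGal hcof (le_kummerField E ζ)).invLC S
          ((isSmooth_unitsRep L hcof E).res (compat_fixIncl L (le_kummerField E ζ)))
          (c : LC.H2 _ _) =
        ((((eF c).val : ℚ) / (p : ℚ) : ℚ) : AddCircle (1 : ℚ)))
    (hK : Function.Injective
      (LCSym.pairLin (L.comap (kummerField E ζ).fixingSubgroup.subtype)
        (Rep.res (fixIncl (le_kummerField E ζ)) (unitsRep E)) eF.toAddMonoidHom))
    (hN : ∀ f : LCSym.XChar (L.comap E.fixingSubgroup.subtype) p, f ≠ 0 →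
      ∃ a : ↥(LCSym.invSub (unitsRep E)),
        LCSym.symT (L.comap E.fixingSubgroup.subtype) (unitsRep E) a f ≠ 0)
    (hfin : (powMonoidHom p : Eˣ →* Eˣ).range.FiniteIndex) :
    (Finite (LCSym.XChar (L.comap E.fixingSubgroup.subtype) p) ∧
      Nat.card (LCSym.XChar (L.comap E.fixingSubgroup.subtype) p) =
        Nat.card (LCSym.VQuot (unitsRep E) p)) ∧
    Function.Bijective
      (LCSym.pairLin (L.comap E.fixingSubgroup.subtype) (unitsRep E) eE.toAddMonoidHom) ∧
    Function.Bijective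
      (LCSym.pairLin (L.comap E.fixingSubgroup.subtype) (unitsRep E) eE.toAddMonoidHom).flip := by
  haveI : NeZero p := ⟨(Fact.out : p.Prime).ne_zero⟩
  haveI := finiteDimensional_kummerField E ζ
  have hEF := le_kummerField E ζ
  refine LCSym.perfect_of_hom (fixIncl (le_kummerField E ζ))
    (Subgroup.inclusion_injective _) (normal_range_fixIncl_kummerField E hζ) Fact.out
    (isSmooth_unitsRep L hcof E) (compat_fixIncl L (le_kummerField E ζ))
    (isLevel_comap_fixIncl L (le_kummerField E ζ))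
    (isOpen_range_fixIncl L hcof (le_kummerField E ζ))
    (coprime_index_range_fixIncl_kummerField E hζ)
    eE.toAddMonoidHom eE.bijective eF.toAddMonoidHom eF.injective ?_ ?_ hN
    (finite_vQuot_unitsRep E p hfin)
  · intro c
    exact torsion_res_eq L hGal hcof S E (le_kummerField E ζ) eE.toAddMonoidHom heE
      eF.toAddMonoidHom heF c
  · intro a' ha'
    exact LCSym.exists_nsmul_eq_of_injective_pairLin _ _ eF.toAddMonoidHom hK a' ha'


/-- `perfect_of_kummerField` with the coefficients of `Gal(Ω/F)` written `unitsRep F` and the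
Kummer case for `F` given for every (T1)-normalised `e_F`. -/
theorem perfect_of_kummerField' (hζ : IsPrimitiveRoot ζ p)
    (eE : ↥(AddSubgroup.torsionBy (LC.H2 (L.comap E.fixingSubgroup.subtype) (unitsRep E))
      (p : ℤ)) ≃+ ZMod p)
    (heE : ∀ c : ↥(AddSubgroup.torsionBy (LC.H2 (L.comap E.fixingSubgroup.subtype) (unitsRep E))
        (p : ℤ)),
      (galLayerDict L hGal hcof E).invLC S (isSmooth_unitsRep L hcof E) (c : LC.H2 _ _) =
        ((((eE c).val : ℚ) / (p : ℚ) : ℚ) : AddCircle (1 : ℚ)))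
    (hK : haveI := finiteDimensional_kummerField E ζ
      ∀ eF : ↥(AddSubgroup.torsionBy (LC.H2 (L.comap (kummerField E ζ).fixingSubgroup.subtype)
        (unitsRep (kummerField E ζ))) (p : ℤ)) ≃+ ZMod p,
      (∀ c : ↥(AddSubgroup.torsionBy (LC.H2 (L.comap (kummerField E ζ).fixingSubgroup.subtype)
          (unitsRep (kummerField E ζ))) (p : ℤ)),
        (galLayerDict L hGal hcof (kummerField E ζ)).invLC S
            (isSmooth_unitsRep L hcof (kummerField E ζ)) (c : LC.H2 _ _) =
          ((((eF c).val : ℚ) / (p : ℚ) : ℚ) : AddCircle (1 : ℚ))) →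
      Function.Injective
        (LCSym.pairLin (L.comap (kummerField E ζ).fixingSubgroup.subtype)
          (unitsRep (kummerField E ζ)) eF.toAddMonoidHom))
    (hN : ∀ f : LCSym.XChar (L.comap E.fixingSubgroup.subtype) p, f ≠ 0 →
      ∃ a : ↥(LCSym.invSub (unitsRep E)),
        LCSym.symT (L.comap E.fixingSubgroup.subtype) (unitsRep E) a f ≠ 0)
    (hfin : (powMonoidHom p : Eˣ →* Eˣ).range.FiniteIndex) :
    (Finite (LCSym.XChar (L.comap E.fixingSubgroup.subtype) p) ∧
      Nat.card (LCSym.XChar (L.comap E.fixingSubgroup.subtype) p) =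
        Nat.card (LCSym.VQuot (unitsRep E) p)) ∧
    Function.Bijective
      (LCSym.pairLin (L.comap E.fixingSubgroup.subtype) (unitsRep E) eE.toAddMonoidHom) ∧
    Function.Bijective
      (LCSym.pairLin (L.comap E.fixingSubgroup.subtype) (unitsRep E) eE.toAddMonoidHom).flip := by
  haveI := finiteDimensional_kummerField E ζ
  obtain ⟨eF, heF⟩ := (galLayerDict L hGal hcof (kummerField E ζ)).exists_torsionBy_addEquiv_zmod S
    (isSmooth_unitsRep L hcof (kummerField E ζ)) p
  exact perfect_of_kummerField L hGal hcof S E hζ eE heE eF heF (hK eF heF) hN hfin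

/-- **(E) for a general finite `E/k`**, existential form: the (T1)-normalised identification
`e_E : LC.H2(G_E, Ωˣ)[p] ≃+ ZMod p` exists and the Kummer pairing w.r.t. it is perfect. -/
theorem exists_perfect_of_kummerField (hζ : IsPrimitiveRoot ζ p)
    (hK : haveI := finiteDimensional_kummerField E ζ
      ∀ eF : ↥(AddSubgroup.torsionBy (LC.H2 (L.comap (kummerField E ζ).fixingSubgroup.subtype)
        (unitsRep (kummerField E ζ))) (p : ℤ)) ≃+ ZMod p,
      (∀ c : ↥(AddSubgroup.torsionBy (LC.H2 (L.comap (kummerField E ζ).fixingSubgroup.subtype)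
          (unitsRep (kummerField E ζ))) (p : ℤ)),
        (galLayerDict L hGal hcof (kummerField E ζ)).invLC S
            (isSmooth_unitsRep L hcof (kummerField E ζ)) (c : LC.H2 _ _) =
          ((((eF c).val : ℚ) / (p : ℚ) : ℚ) : AddCircle (1 : ℚ))) →
      Function.Injective
        (LCSym.pairLin (L.comap (kummerField E ζ).fixingSubgroup.subtype)
          (unitsRep (kummerField E ζ)) eF.toAddMonoidHom))
    (hN : ∀ f : LCSym.XChar (L.comap E.fixingSubgroup.subtype) p, f ≠ 0 →
      ∃ a : ↥(LCSym.invSub (unitsRep E)),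
        LCSym.symT (L.comap E.fixingSubgroup.subtype) (unitsRep E) a f ≠ 0)
    (hfin : (powMonoidHom p : Eˣ →* Eˣ).range.FiniteIndex) :
    ∃ eE : ↥(AddSubgroup.torsionBy (LC.H2 (L.comap E.fixingSubgroup.subtype) (unitsRep E))
      (p : ℤ)) ≃+ ZMod p,
      (∀ c : ↥(AddSubgroup.torsionBy (LC.H2 (L.comap E.fixingSubgroup.subtype) (unitsRep E))
          (p : ℤ)),
        (galLayerDict L hGal hcof E).invLC S (isSmooth_unitsRep L hcof E) (c : LC.H2 _ _) =
          ((((eE c).val : ℚ) / (p : ℚ) : ℚ) : AddCircle (1 : ℚ))) ∧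
      (Finite (LCSym.XChar (L.comap E.fixingSubgroup.subtype) p) ∧
        Nat.card (LCSym.XChar (L.comap E.fixingSubgroup.subtype) p) =
          Nat.card (LCSym.VQuot (unitsRep E) p)) ∧
      Function.Bijective
        (LCSym.pairLin (L.comap E.fixingSubgroup.subtype) (unitsRep E) eE.toAddMonoidHom) ∧
      Function.Bijective
        (LCSym.pairLin (L.comap E.fixingSubgroup.subtype) (unitsRep E)
          eE.toAddMonoidHom).flip := by
  obtain ⟨eE, heE⟩ := (galLayerDict L hGal hcof E).exists_torsionBy_addEquiv_zmod S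
    (isSmooth_unitsRep L hcof E) p
  exact ⟨eE, heE, perfect_of_kummerField' L hGal hcof S E hζ eE heE hK hN hfin⟩

end Main

end KummerDescentLocal

end Fermat.Agent.CFT
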