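import Fermat.Agent.CFT.Local.LCGaloisGlue
import Fermat.Agent.CFT.Local.LCDictRes
import Fermat.Agent.CFT.Local.LayerInfRes
import Fermat.Agent.CFT.Local.NormIndexCyclic
import Fermat.Agent.CFT.Local.PowIndex
import Fermat.Agent.CFT.Local.Instantiate

set_option autoImplicit false
set_option linter.style.haveILetI false
set_option linter.unusedSectionVars false

open CategoryTheory groupCohomology IntermediateField

namespace Fermat.Agent.CFT

open GaloisTower LayerMaps

variable {k Ω : Type} [Field k] [Field Ω] [Algebra k Ω] [IsGalois k Ω]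

section Divisible

variable (E : IntermediateField k Ω)

/-- **(hdiv)** `Ωˣ` is `p`-divisible when `Ω` is algebraically closed. -/
theorem unitsRep_divisible [IsAlgClosed Ω] (p : ℕ) (hp : 0 < p) (c : Additive Ωˣ) :
    ∃ c' : Additive Ωˣ, p • c' = c := by
  obtain ⟨z, hz⟩ := IsAlgClosed.exists_pow_nat_eq ((Additive.toMul c : Ωˣ) : Ω) hp
  have hz0 : z ≠ 0 := by
    rintro rfl
    rw [zero_pow hp.ne'] at hz
    exact (Additive.toMul c : Ωˣ).ne_zero hz.symm
  refine ⟨Additive.ofMul (Units.mk0 z hz0), ?_⟩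
  apply Additive.toMul.injective
  apply Units.ext
  exact hz

end Divisible

section RootsOfUnity

variable (E : IntermediateField k Ω) {p : ℕ} [NeZero p] {ζ : Ω} (hζ : IsPrimitiveRoot ζ p)

/-- **(e)** The map `ZMod p →+ Ωˣ`, `z ↦ ζ ^ z`. -/
noncomputable def zetaHom : ZMod p →+ Additive Ωˣ :=
  ZMod.lift p ⟨zmultiplesHom (Additive Ωˣ) (Additive.ofMul (hζ.isUnit (NeZero.ne p)).unit), by
    rw [zmultiplesHom_apply, natCast_zsmul]
    apply Additive.toMul.injective
    apply Units.ext
    exact hζ.pow_eq_one⟩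

theorem zetaHom_natCast (i : ℕ) :
    ((Additive.toMul (zetaHom hζ (i : ZMod p)) : Ωˣ) : Ω) = ζ ^ i := by
  have : ((i : ℤ) : ZMod p) = (i : ZMod p) := by push_cast; rfl
  rw [← this, zetaHom, ZMod.lift_coe]
  simp [zmultiplesHom_apply]

theorem zetaHom_apply (z : ZMod p) :
    ((Additive.toMul (zetaHom hζ z) : Ωˣ) : Ω) = ζ ^ z.val := by
  conv_lhs => rw [← ZMod.natCast_zmod_val z]
  exact zetaHom_natCast hζ z.val

theorem zetaHom_injective : Function.Injective (zetaHom hζ) := by
  rw [injective_iff_map_eq_zero]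
  intro z hz
  have h1 : ζ ^ z.val = 1 := by
    rw [← zetaHom_apply hζ z, hz]
    rfl
  have h2 := (hζ.pow_eq_one_iff_dvd z.val).1 h1
  have h3 : z.val = 0 := Nat.eq_zero_of_dvd_of_lt h2 (ZMod.val_lt z)
  exact (ZMod.val_eq_zero z).1 h3

theorem zetaHom_invariant (hζE : ζ ∈ E) (g : E.fixingSubgroup) (z : ZMod p) :
    (unitsRep E).ρ g (zetaHom hζ z) = zetaHom hζ z := by
  apply Additive.toMul.injective
  apply Units.ext
  refine (unitsRep_ρ_apply g (zetaHom hζ z)).trans ?_
  rw [zetaHom_apply, map_pow, (IntermediateField.mem_fixingSubgroup_iff E g.1).1 g.2 ζ hζE]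
  exact (zetaHom_apply hζ z).symm

theorem zetaHom_surjective_torsion (c : Additive Ωˣ) (hc : p • c = 0) :
    ∃ z, zetaHom hζ z = c := by
  have h1 : ((Additive.toMul c : Ωˣ) : Ω) ^ p = 1 := by
    have := congrArg (fun y : Additive Ωˣ => ((Additive.toMul y : Ωˣ) : Ω)) hc
    exact this
  obtain ⟨i, -, hi⟩ := hζ.eq_pow_of_pow_eq_one h1
  refine ⟨(i : ZMod p), ?_⟩
  apply Additive.toMul.injective
  apply Units.ext
  rw [zetaHom_natCast, hi]

end RootsOfUnity


section Infl

variable (L : LevelStructure (Ω ≃ₐ[k] Ω))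
  (hGal : ∀ N, L.IsLevel N → ∃ F : IntermediateField k Ω,
    FiniteDimensional k F ∧ Normal k F ∧ N = F.fixingSubgroup)
  (hcof : ∀ E' : IntermediateField k Ω, FiniteDimensional k E' →
    ∃ N, L.IsLevel N ∧ N ≤ E'.fixingSubgroup)
  (E : IntermediateField k Ω) [FiniteDimensional k E] (S : LayerInvSystem k Ω)

include hGal in
/-- The field cut out by a subgroup containing a level lies in the layer of that level. -/
theorem le_levelTop_of_le {F : IntermediateField k Ω} (h : E ≤ F) [Normal E (layer h)]
    (N : Subgroup E.fixingSubgroup) (hN : N = (layerRes h).ker)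
    (l : (L.comap E.fixingSubgroup.subtype).Level) (hle : l.N ≤ N) :
    F ≤ levelTop L hGal E l := by
  intro x hx
  rw [← forall_fixingSubgroup_apply_eq_iff (levelTop L hGal E l) x]
  intro σ hσ
  have hσE : σ ∈ E.fixingSubgroup :=
    IntermediateField.fixingSubgroup_antitone (le_levelTop L hGal E l) hσ
  have h1 : (⟨σ, hσE⟩ : E.fixingSubgroup) ∈ l.N := (mem_level_iff L hGal E l _).2 hσ
  have h2 : (⟨σ, hσE⟩ : E.fixingSubgroup) ∈ (layerRes h).ker := hN ▸ hle h1
  have h3 := (mem_ker_layerRes_iff h _).1 h2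
  exact (forall_fixingSubgroup_apply_eq_iff F x).2 hx σ h3

include hGal hcof S in
/-- **(hinfl)** Inflation from an open normal subgroup of `Gal(Ω/E)` to level cohomology is
injective on `H²` (coefficients `Ωˣ`). -/
theorem inflH2_unitsRep_eq_zero_of_invSystem (N : Subgroup E.fixingSubgroup) [N.Normal]
    (hN : (L.comap E.fixingSubgroup.subtype).IsOpen N)
    (y : groupCohomology.H2 ((unitsRep E).quotientToInvariants N))
    (hy : LC.inflH2 (unitsRep E) N hN y = 0) : y = 0 := by
  obtain ⟨F, h, hfd, hnorm, hNeq⟩ := exists_layer_of_isOpen_normal L hGal E N hN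
  obtain ⟨l, hle'⟩ : ∃ l : (L.comap E.fixingSubgroup.subtype).Level, l.N ≤ N := by
    obtain ⟨N₀, hN₀, hle⟩ := hN
    exact ⟨⟨N₀, hN₀⟩, hle⟩
  let d := galLayerDict L hGal hcof E
  have hA := isSmooth_unitsRep L hcof E
  have h12 : F ≤ levelTop L hGal E l := le_levelTop_of_le L hGal E h N hNeq l hle'
  haveI := normal_levelTop L hGal E l
  haveI : FiniteDimensional k (levelTop L hGal E l) := d.fd l
  haveI : Normal E (layer (h.trans h12)) := normal_levelTop L hGal E l
  -- push to the level `l`
  have h1 : LC.inflH2 (unitsRep E) l.N l.isOpen ((LC.inflFin (unitsRep E) hle' 2).hom y) = 0 := by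
    rw [LC.inflH2_inflFin hle' l.isOpen y]
    exact hy
  have h2 := d.invLC_inflH2 S hA l ((LC.inflFin (unitsRep E) hle' 2).hom y)
  rw [h1, map_zero] at h2
  have h3 : d.coh l 2 ((LC.inflFin (unitsRep E) hle' 2).hom y) =
      (layerMap h (le_levelTop L hGal E l) le_rfl h12 2).hom
        (cohLinearEquivOfRepIso _ _ (dictEquiv h N hNeq) (dictRepIso h N hNeq) 2 y) :=
    dict_coh_infl h (le_levelTop L hGal E l) h12 N l.N hNeq (level_eq_ker L hGal E l) hle' y
  rw [h3] at h2
  have h4 := S.inv_layerInfl h h12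
    (cohLinearEquivOfRepIso _ _ (dictEquiv h N hNeq) (dictRepIso h N hNeq) 2 y)
  have h5 : S.inv h (cohLinearEquivOfRepIso _ _ (dictEquiv h N hNeq) (dictRepIso h N hNeq) 2 y) =
      0 := h4.symm.trans h2.symm
  have h6 := S.inv_injective h (h5.trans (map_zero _).symm)
  exact (cohLinearEquivOfRepIso _ _ (dictEquiv h N hNeq) (dictRepIso h N hNeq) 2).injective
    (h6.trans (map_zero _).symm)

include hGal hcof in
/-- **(hinfl), characteristic zero, no invariant maps needed**: inflation from an open normal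
subgroup of `Gal(Ω/E)` to level cohomology is injective on `H²` (coefficients `Ωˣ`); this is
Hilbert 90 in the guise of `layerInfl_injective`. -/
theorem inflH2_unitsRep_eq_zero [CharZero k] (N : Subgroup E.fixingSubgroup) [N.Normal]
    (hN : (L.comap E.fixingSubgroup.subtype).IsOpen N)
    (y : groupCohomology.H2 ((unitsRep E).quotientToInvariants N))
    (hy : LC.inflH2 (unitsRep E) N hN y = 0) : y = 0 := by
  obtain ⟨F, h, hfd, hnorm, hNeq⟩ := exists_layer_of_isOpen_normal L hGal E N hN
  obtain ⟨l, hle'⟩ : ∃ l : (L.comap E.fixingSubgroup.subtype).Level, l.N ≤ N := by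
    obtain ⟨N₀, hN₀, hle⟩ := hN
    exact ⟨⟨N₀, hN₀⟩, hle⟩
  let d := galLayerDict L hGal hcof E
  have hA := isSmooth_unitsRep L hcof E
  have h1 : LC.inflH2 (unitsRep E) l.N l.isOpen ((LC.inflFin (unitsRep E) hle' 2).hom y) = 0 := by
    rw [LC.inflH2_inflFin hle' l.isOpen y]
    exact hy
  obtain ⟨l', hl', h2⟩ := LC.exists_inflFin_eq_zero hA l _ h1
  have h12 : F ≤ levelTop L hGal E l := le_levelTop_of_le L hGal E h N hNeq l hle'
  haveI := normal_levelTop L hGal E l
  haveI := normal_levelTop L hGal E l'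
  have h23 : levelTop L hGal E l ≤ levelTop L hGal E l' :=
    le_levelTop_of_le L hGal E (le_levelTop L hGal E l) l.N (level_eq_ker L hGal E l) l' hl'
  haveI : FiniteDimensional k (levelTop L hGal E l) := d.fd l
  haveI : FiniteDimensional k (levelTop L hGal E l') := d.fd l'
  haveI : Normal E (layer (h.trans h12)) := normal_levelTop L hGal E l
  haveI : Normal E (layer ((le_levelTop L hGal E l).trans h23)) := normal_levelTop L hGal E l'
  -- from `l'` down to `l`
  have h3 := dict_coh_infl (le_levelTop L hGal E l) (le_levelTop L hGal E l') h23 l.N l'.N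
    (level_eq_ker L hGal E l) (level_eq_ker L hGal E l') hl'
    ((LC.inflFin (unitsRep E) hle' 2).hom y)
  rw [h2, map_zero] at h3
  have h4 := layerInfl_injective (le_levelTop L hGal E l) h23 (h3.symm.trans (map_zero _).symm)
  -- from `l` down to `N`
  have h5 := dict_coh_infl h (le_levelTop L hGal E l) h12 N l.N hNeq (level_eq_ker L hGal E l)
    hle' y
  rw [h4] at h5
  have h6 := layerInfl_injective h h12 (h5.symm.trans (map_zero _).symm)
  exact (cohLinearEquivOfRepIso _ _ (dictEquiv h N hNeq) (dictRepIso h N hNeq) 2).injective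
    (h6.trans (map_zero _).symm)

end Infl


section Norm

theorem coe_toMul_sum {S ι : Type} [CommRing S] (s : Finset ι) (f : ι → Additive Sˣ) :
    ((Additive.toMul (∑ i ∈ s, f i) : Sˣ) : S) = ∏ i ∈ s, ((Additive.toMul (f i) : Sˣ) : S) := by
  rw [toMul_sum, Units.coe_prod]

variable {E F : IntermediateField k Ω} (h : E ≤ F) [Normal E (layer h)]
  (N : Subgroup E.fixingSubgroup) [N.Normal] (hN : N = (layerRes h).ker)

include hN in
/-- Equivariance of the dictionary isomorphism `(Ωˣ)^N ≅ Fˣ`. -/
theorem dictRepIso_hom_ρ (q : E.fixingSubgroup ⧸ N) (b : (unitsRep E).quotientToInvariants N) :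
    (dictRepIso h N hN).hom.hom (((unitsRep E).quotientToInvariants N).ρ q b) =
      (Rep.ofAlgebraAutOnUnits E (layer h)).ρ (dictEquiv h N hN q)
        ((dictRepIso h N hN).hom.hom b) :=
  Rep.hom_comm_apply (dictRepIso h N hN).hom q b

include hN in
/-- **Norm transfer**: if the image of `a ∈ Eˣ` in `(Ωˣ)^N` is a norm for the `Gal(Ω/E) ⧸ N`-module
`(Ωˣ)^N`, then `a` is a norm from the layer `F/E`. -/
theorem mem_norm_range_of_toInv_eq_finsum [FiniteDimensional E (layer h)] [IsGalois E (layer h)]
    (a : ↥(LCSym.invSub (unitsRep E))) (b : (unitsRep E).quotientToInvariants N)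
    (hb : LCSym.toInv (unitsRep E) N a.1 a.2 =
      ∑ᶠ q : E.fixingSubgroup ⧸ N, ((unitsRep E).quotientToInvariants N).ρ q b) :
    Additive.toMul (invSubUnitsEquiv E a) ∈
      MonoidHom.range (Units.map (Algebra.norm E : layer h →* E)) := by
  classical
  haveI : Finite (layer h ≃ₐ[E] layer h) := inferInstance
  haveI : Finite (E.fixingSubgroup ⧸ N) := Finite.of_equiv _ (dictEquiv h N hN).symm.toEquiv
  set Φ := (dictRepIso h N hN).hom.hom with hΦ
  set u : Additive (layer h)ˣ := Φ b with hu
  -- apply `Φ` to the hypothesis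
  have h1 : Φ (LCSym.toInv (unitsRep E) N a.1 a.2) =
      ∑ σ : layer h ≃ₐ[E] layer h, (Rep.ofAlgebraAutOnUnits E (layer h)).ρ σ u := by
    rw [hb, map_finsum _ (Set.toFinite _)]
    rw [← finsum_eq_sum_of_fintype,
      ← finsum_comp_equiv (dictEquiv h N hN).toEquiv]
    refine finsum_congr fun q => ?_
    exact dictRepIso_hom_ρ h N hN q b
  refine ⟨Additive.toMul u, ?_⟩
  apply Units.ext
  apply Subtype.ext
  -- compare in `Ω`
  have h2 := congrArg (fun y : Additive (layer h)ˣ =>
    (((Additive.toMul y : (layer h)ˣ) : layer h) : Ω)) h1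
  simp only at h2
  rw [dictRepIso_hom_coe h N hN] at h2
  refine Eq.trans ?_ ((invSubUnitsEquiv_coe E a).trans (Eq.trans ?_ h2)).symm
  · -- the norm is the product of the conjugates
    have h3 := Algebra.norm_eq_prod_automorphisms E ((Additive.toMul u : (layer h)ˣ) : layer h)
    have h4 : ((algebraMap E (layer h)
        (Algebra.norm E ((Additive.toMul u : (layer h)ˣ) : layer h)) : layer h) : Ω) =
        ((∏ σ : layer h ≃ₐ[E] layer h, σ ((Additive.toMul u : (layer h)ˣ) : layer h) :
          layer h) : Ω) := congrArg (fun y : layer h => (y : Ω)) h3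
    refine Eq.trans ?_ (h4.trans ?_)
    · rfl
    · refine congrArg (fun y : layer h => (y : Ω)) ?_
      have h5 : ((Additive.toMul (∑ σ : layer h ≃ₐ[E] layer h,
          ((Rep.ofAlgebraAutOnUnits E (layer h)).ρ σ u : Additive (layer h)ˣ)) : (layer h)ˣ) :
          layer h) = ∏ σ : layer h ≃ₐ[E] layer h,
            ((Additive.toMul ((Rep.ofAlgebraAutOnUnits E (layer h)).ρ σ u : Additive (layer h)ˣ) :
              (layer h)ˣ) : layer h) := by
        exact coe_toMul_sum Finset.univ
          (fun σ => ((Rep.ofAlgebraAutOnUnits E (layer h)).ρ σ u : Additive (layer h)ˣ))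
      refine Eq.trans ?_ h5.symm
      refine Finset.prod_congr rfl fun σ _ => ?_
      exact (ofAlgebraAutOnUnits_ρ_apply σ u).symm
  · rfl

end Norm

section LocalKummer

variable (O : Type) {k Ω : Type} [CommRing O] [IsDomain O] [IsDiscreteValuationRing O]
  [IsAdicComplete (IsLocalRing.maximalIdeal O) O] [Finite (IsLocalRing.ResidueField O)]
  [Field k] [Algebra O k] [IsFractionRing O k] [CharZero k]
  [Field Ω] [Algebra k Ω] [Algebra O Ω] [IsScalarTower O k Ω] [IsGalois k Ω]
  (L : LevelStructure (Ω ≃ₐ[k] Ω))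
  (hGal : ∀ N, L.IsLevel N → ∃ F : IntermediateField k Ω,
    FiniteDimensional k F ∧ Normal k F ∧ N = F.fixingSubgroup)
  (hcof : ∀ E' : IntermediateField k Ω, FiniteDimensional k E' →
    ∃ N, L.IsLevel N ∧ N ≤ E'.fixingSubgroup)
  (E : IntermediateField k Ω) [FiniteDimensional k E] {p : ℕ} [NeZero p]

include O hGal in
/-- **(hnorm)** For a nonzero character `f : Gal(Ω/E) → 𝔽_p` some `a ∈ Eˣ` is not a norm from
`(Ωˣ)^{ker f}`: the layer cut out by `ker f` is cyclic of degree `p` and the norm index of a cyclic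
extension of local fields is its degree.  (No root of unity needed.) -/
theorem exists_not_norm_unitsRep (hp : p.Prime)
    (f : LCSym.XChar (L.comap E.fixingSubgroup.subtype) p) (hf : f ≠ 0) :
    ∃ a : ↥(LCSym.invSub (unitsRep E)),
      ¬ ∃ b : (unitsRep E).quotientToInvariants (LCSym.charOf f).ker,
        LCSym.toInv (unitsRep E) (LCSym.charOf f).ker a.1 a.2 =
          ∑ᶠ q : E.fixingSubgroup ⧸ (LCSym.charOf f).ker,
            ((unitsRep E).quotientToInvariants (LCSym.charOf f).ker).ρ q b := by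
  classical
  haveI : Fact p.Prime := ⟨hp⟩
  obtain ⟨F, h, hfd, hnorm, hNeq⟩ := exists_layer_of_isOpen_normal L hGal E (LCSym.charOf f).ker
    (LCSym.isOpen_ker_charOf f)
  -- the SETTING for `(integralClosure O E, E, layer h)`
  haveI := Tower.base_isDiscreteValuationRing O k E
  haveI := Tower.base_isAdicComplete O k E
  haveI := Tower.base_finite_residueField O k E
  haveI := Tower.base_isFractionRing O k E
  haveI : CharZero E := charZero_of_injective_algebraMap (algebraMap k E).injective
  haveI := Tower.finiteDimensional_layer' h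
  haveI : IsGalois E (layer h) := isGalois_layer_of_normal_of_fd h
  -- the Galois group of the layer is cyclic of order `p`
  let e : (layer h ≃ₐ[E] layer h) ≃* Multiplicative (ZMod p) :=
    (dictEquiv h (LCSym.charOf f).ker hNeq).symm.trans
      (QuotientGroup.quotientKerEquivOfSurjective (LCSym.charOf f)
        (LCSym.charOf_surjective hp hf))
  haveI : IsCyclic (layer h ≃ₐ[E] layer h) := (MulEquiv.isCyclic e).2 inferInstance
  have hcard : Module.finrank E (layer h) = p := by
    rw [← IsGalois.card_aut_eq_finrank, Nat.card_congr e.toEquiv, Nat.card_eq_fintype_card,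
      Fintype.card_multiplicative, ZMod.card]
  have hidx := normIndex_eq_finrank (integralClosure O E) E (layer h)
  rw [hcard] at hidx
  obtain ⟨a, ha⟩ : ∃ a : Eˣ, a ∉ MonoidHom.range (Units.map (Algebra.norm E : layer h →* E)) := by
    by_contra hcon
    push Not at hcon
    have htop : MonoidHom.range (Units.map (Algebra.norm E : layer h →* E)) = ⊤ :=
      (Subgroup.eq_top_iff' _).2 hcon
    rw [htop, Subgroup.index_top] at hidx
    exact hp.one_lt.ne hidx
  refine ⟨(invSubUnitsEquiv E).symm (Additive.ofMul a), ?_⟩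
  rintro ⟨b, hb⟩
  have h1 := mem_norm_range_of_toInv_eq_finsum h (LCSym.charOf f).ker hNeq _ b hb
  rw [AddEquiv.apply_symm_apply] at h1
  exact ha h1

include O hGal hcof in
/-- **(N)_E for a local field `E`** (no root of unity needed): for every nonzero character
`f : Gal(Ω/E) → 𝔽_p` there is `a ∈ Eˣ` with `a ∪ δf ≠ 0`. -/
theorem exists_symT_ne_zero_unitsRep (hp : p.Prime)
    (f : LCSym.XChar (L.comap E.fixingSubgroup.subtype) p) (hf : f ≠ 0) :
    ∃ a : ↥(LCSym.invSub (unitsRep E)),
      LCSym.symT (L.comap E.fixingSubgroup.subtype) (unitsRep E) a f ≠ 0 := by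
  obtain ⟨a, ha⟩ := exists_not_norm_unitsRep O L hGal E hp f hf
  exact ⟨a, LCSym.symT_ne_zero_of_not_norm _ _ hp f hf
    (fun y hy => inflH2_unitsRep_eq_zero L hGal hcof E _ (LCSym.isOpen_ker_charOf f) y hy) a ha⟩

include O in
/-- **(hfin)** `Eˣ / (Eˣ)^p` is finite for a local field `E` of characteristic zero. -/
theorem finite_vQuot_unitsRep_local (hp0 : p ≠ 0) : Finite (LCSym.VQuot (unitsRep E) p) := by
  haveI := Tower.base_isDiscreteValuationRing O k E
  haveI := Tower.base_isAdicComplete O k E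
  haveI := Tower.base_finite_residueField O k E
  haveI := Tower.base_isFractionRing O k E
  haveI : CharZero E := charZero_of_injective_algebraMap (algebraMap k E).injective
  have hn : ((p : ℕ) : integralClosure O E) ≠ 0 := by
    intro h0
    have h1 := congrArg (algebraMap (integralClosure O E) E) h0
    rw [map_natCast, map_zero] at h1
    exact (Nat.cast_ne_zero.2 hp0) h1
  exact finite_vQuot_unitsRep E p (PowIndex.finiteIndex_range_pow_unitsField (integralClosure O E) E p hn)

include O hGal hcof in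
/-- **B7d-inst, Kummer case.**  `E` a finite extension of the local field `k` containing a
primitive `p`-th root of unity, `Ω ⊇ k` algebraically closed, `τ` any injective additive map on
the `p`-torsion of `H²_LC(Gal(Ω/E), Ωˣ)`.  Then the pairing
`Eˣ/(Eˣ)^p × H¹_LC(Gal(Ω/E), 𝔽_p) → 𝔽_p`, `(a, f) ↦ τ(a ∪ δf)`, is perfect. -/
theorem local_kummer_perfect [IsAlgClosed Ω] (hp : p.Prime) {ζ : Ω} (hζ : IsPrimitiveRoot ζ p)
    (hζE : ζ ∈ E)
    (τ : ↥(AddSubgroup.torsionBy
      (LC.H2 (L.comap E.fixingSubgroup.subtype) (unitsRep E)) (p : ℤ)) →+ ZMod p)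
    (hτ : Function.Injective τ) :
    (Finite (LCSym.XChar (L.comap E.fixingSubgroup.subtype) p) ∧
      Nat.card (LCSym.XChar (L.comap E.fixingSubgroup.subtype) p) =
        Nat.card (LCSym.VQuot (unitsRep E) p)) ∧
    Function.Bijective (LCSym.pairLin (L.comap E.fixingSubgroup.subtype) (unitsRep E) τ) ∧
    Function.Bijective (LCSym.pairLin (L.comap E.fixingSubgroup.subtype) (unitsRep E) τ).flip := by
  exact LCSym.perfect_of_kummer (L.comap E.fixingSubgroup.subtype) (unitsRep E) hp
    (isSmooth_unitsRep L hcof E) τ hτ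
    (fun c => unitsRep_divisible p hp.pos c)
    (zetaHom hζ) (zetaHom_injective hζ) (fun g z => zetaHom_invariant E hζ hζE g z)
    (fun c hc => zetaHom_surjective_torsion hζ c hc)
    (finite_vQuot_unitsRep_local O E hp.ne_zero)
    (fun f _ y hy => inflH2_unitsRep_eq_zero L hGal hcof E _ (LCSym.isOpen_ker_charOf f) y hy)
    (fun f hf => exists_not_norm_unitsRep O L hGal E hp f hf)

end LocalKummer

end Fermat.Agent.CFT
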