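import Fermat.Agent.CFT.Local.LCLocalFamily

/-!
# CFT, Layer B (B7 assembly, part 2): the `τ`-form of the local invariants

The `ZMod p`-valued invariants of `Local/LCLocalFamily.lean` as additive maps
`τ : ↥(AddSubgroup.torsionBy (LC.H2 L C) (p : ℤ)) →+ ZMod p` (the form used by the symbol pairing
`LCSym.pairLin` and by `StdBase.stdRes_isPerfect`), with the compatibility
`inv ⟨x, hx⟩ = τ ⟨LC.h2Equiv hC x, hx'⟩`.
-/

set_option autoImplicit false
set_option linter.style.haveILetI false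
set_option linter.unusedSectionVars false

open CategoryTheory groupCohomology IntermediateField

namespace Fermat.Agent.CFT

section zmod

variable (p : ℕ) [NeZero p] {X : Type*} [AddCommGroup X]

/-- The `ZMod p`-valued invariant on `AddSubgroup.torsionBy X (p : ℤ)` attached to a `ℚ/ℤ`-valued
invariant. -/
noncomputable def tauZMod (inv : X →+ AddCircle (1 : ℚ)) :
    ↥(AddSubgroup.torsionBy X (p : ℤ)) →+ ZMod p :=
  (invZMod p inv).comp
    ((AddSubgroup.torsionBy X (p : ℤ)).subtype.codRestrict (nsmulAddMonoidHom p : X →+ X).ker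
      (fun c => AddSubgroup.torsionBy.nsmul_iff.1 c.2))

lemma zmodToCircle_tauZMod (inv : X →+ AddCircle (1 : ℚ))
    (c : ↥(AddSubgroup.torsionBy X (p : ℤ))) :
    zmodToCircle p (tauZMod p inv c) = inv (c : X) :=
  zmodToCircle_invZMod p inv _

lemma tauZMod_eq_invZMod (inv : X →+ AddCircle (1 : ℚ)) (x : X)
    (hx : x ∈ (nsmulAddMonoidHom p : X →+ X).ker) (hx' : x ∈ AddSubgroup.torsionBy X (p : ℤ)) :
    invZMod p inv ⟨x, hx⟩ = tauZMod p inv ⟨x, hx'⟩ := rfl

lemma tauZMod_injective (inv : X →+ AddCircle (1 : ℚ))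
    (hinj : ∀ x : X, p • x = 0 → inv x = 0 → x = 0) : Function.Injective (tauZMod p inv) := by
  rw [injective_iff_map_eq_zero]
  intro c hc
  have h := zmodToCircle_tauZMod p inv c
  rw [hc, map_zero] at h
  exact Subtype.ext (hinj _ (AddSubgroup.torsionBy.nsmul_iff.1 c.2) h.symm)

lemma tauZMod_surjective (inv : X →+ AddCircle (1 : ℚ))
    (hval : ∃ x : X, p • x = 0 ∧ inv x = (((1 : ℚ) / (p : ℚ) : ℚ) : AddCircle (1 : ℚ))) :
    Function.Surjective (tauZMod p inv) := by
  intro m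
  obtain ⟨x, hx⟩ := invZMod_surjective p inv hval m
  exact ⟨⟨x.1, AddSubgroup.torsionBy.nsmul_iff.2 x.2⟩, hx⟩

end zmod

open GaloisTower LayerMaps

section Gal

variable {k Ω : Type} [Field k] [Field Ω] [Algebra k Ω] [IsGalois k Ω]
variable (L : LevelStructure (Ω ≃ₐ[k] Ω))
  (hGal : ∀ N, L.IsLevel N → ∃ F : IntermediateField k Ω,
    FiniteDimensional k F ∧ Normal k F ∧ N = F.fixingSubgroup)
  (hcof : ∀ E' : IntermediateField k Ω, FiniteDimensional k E' →
    ∃ N, L.IsLevel N ∧ N ≤ E'.fixingSubgroup)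
  (T : LayerInvSystem k Ω) (p : ℕ) [Fact p.Prime]

/-- `τ_G : H²(G, Ωˣ)[p] →+ ZMod p` on `LC.H2`. -/
noncomputable def galTau :
    ↥(AddSubgroup.torsionBy (LC.H2 L (Rep.ofAlgebraAutOnUnits k Ω)) (p : ℤ)) →+ ZMod p :=
  tauZMod p (galInv L hGal hcof T)

/-- `τ_S : H²(S, Ωˣ)[p] →+ ZMod p` on `LC.H2`, for an open subgroup `S`. -/
noncomputable def galTauS (S : Subgroup (Ω ≃ₐ[k] Ω)) (hS : L.IsOpen S) :
    ↥(AddSubgroup.torsionBy
      (LC.H2 (L.comap S.subtype) (Rep.res S.subtype (Rep.ofAlgebraAutOnUnits k Ω))) (p : ℤ)) →+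
      ZMod p :=
  tauZMod p (galInvS L hGal hcof T S hS)

lemma zmodToCircle_galTau
    (c : ↥(AddSubgroup.torsionBy (LC.H2 L (Rep.ofAlgebraAutOnUnits k Ω)) (p : ℤ))) :
    zmodToCircle p (galTau L hGal hcof T p c) = galInv L hGal hcof T c.1 :=
  zmodToCircle_tauZMod p _ c

lemma zmodToCircle_galTauS (S : Subgroup (Ω ≃ₐ[k] Ω)) (hS : L.IsOpen S)
    (c : ↥(AddSubgroup.torsionBy
      (LC.H2 (L.comap S.subtype) (Rep.res S.subtype (Rep.ofAlgebraAutOnUnits k Ω))) (p : ℤ))) :
    zmodToCircle p (galTauS L hGal hcof T p S hS c) = galInvS L hGal hcof T S hS c.1 :=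
  zmodToCircle_tauZMod p _ c

theorem galTau_bijective : Function.Bijective (galTau L hGal hcof T p) := by
  constructor
  · exact tauZMod_injective p _ fun x _ h0 =>
      galInv_injective L hGal hcof T (h0.trans (map_zero _).symm)
  · refine tauZMod_surjective p _ ?_
    obtain ⟨c, hc⟩ := galInv_surjective L hGal hcof T
      ((((1 : ℚ) / (p : ℚ) : ℚ)) : AddCircle (1 : ℚ))
    refine ⟨c, galInv_injective L hGal hcof T ?_, hc⟩
    rw [map_nsmul, hc, map_zero]
    exact LC.addCircle_nsmul_one_div p (Fact.out : p.Prime).pos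

theorem galTauS_bijective (S : Subgroup (Ω ≃ₐ[k] Ω)) (hS : L.IsOpen S) :
    Function.Bijective (galTauS L hGal hcof T p S hS) := by
  constructor
  · exact tauZMod_injective p _ fun x _ h0 =>
      galInvS_injective L hGal hcof T S hS (h0.trans (map_zero _).symm)
  · refine tauZMod_surjective p _ ?_
    obtain ⟨c, hc⟩ := galInvS_surjective L hGal hcof T S hS
      ((((1 : ℚ) / (p : ℚ) : ℚ)) : AddCircle (1 : ℚ))
    refine ⟨c, galInvS_injective L hGal hcof T S hS ?_, hc⟩
    rw [map_nsmul, hc, map_zero]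
    exact LC.addCircle_nsmul_one_div p (Fact.out : p.Prime).pos

/-- Compatibility of `galInvHp` with `galTau` through `h2Equiv`. -/
theorem galInvHp_eq_galTau (x : (LC.cx (isSmooth_galUnits L hcof)).H 2)
    (hx : x ∈ LC.Hp p (isSmooth_galUnits L hcof) 2)
    (hx' : LC.h2Equiv (isSmooth_galUnits L hcof) x ∈
      AddSubgroup.torsionBy (LC.H2 L (Rep.ofAlgebraAutOnUnits k Ω)) (p : ℤ)) :
    galInvHp L hGal hcof T p ⟨x, hx⟩ =
      galTau L hGal hcof T p ⟨LC.h2Equiv (isSmooth_galUnits L hcof) x, hx'⟩ := by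
  apply zmodToCircle_injective p
  rw [zmodToCircle_galInvHp, zmodToCircle_galTau]

/-- Compatibility of `galInvHpS` with `galTauS` through `h2Equiv`. -/
theorem galInvHpS_eq_galTauS (S : Subgroup (Ω ≃ₐ[k] Ω)) (hS : L.IsOpen S)
    (x : (LC.cx (LC.isSmooth_res (S := S) (isSmooth_galUnits L hcof))).H 2)
    (hx : x ∈ LC.Hp p (LC.isSmooth_res (S := S) (isSmooth_galUnits L hcof)) 2)
    (hx' : LC.h2Equiv (LC.isSmooth_res (S := S) (isSmooth_galUnits L hcof)) x ∈
      AddSubgroup.torsionBy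
        (LC.H2 (L.comap S.subtype) (Rep.res S.subtype (Rep.ofAlgebraAutOnUnits k Ω))) (p : ℤ)) :
    galInvHpS L hGal hcof T p S hS ⟨x, hx⟩ =
      galTauS L hGal hcof T p S hS
        ⟨LC.h2Equiv (LC.isSmooth_res (S := S) (isSmooth_galUnits L hcof)) x, hx'⟩ := by
  apply zmodToCircle_injective p
  rw [zmodToCircle_galInvHpS, zmodToCircle_galTauS]

/-- For `S = Gal(Ω/F)`: `τ_S` is characterised by the invariant of the dictionary of `F`. -/
theorem zmodToCircle_galTauS_fixingSubgroup (F : IntermediateField k Ω) [FiniteDimensional k F]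
    (hS : L.IsOpen F.fixingSubgroup)
    (c : ↥(AddSubgroup.torsionBy (LC.H2 (L.comap F.fixingSubgroup.subtype) (unitsRep F))
      (p : ℤ))) :
    zmodToCircle p (galTauS L hGal hcof T p F.fixingSubgroup hS c) =
      (galLayerDict L hGal hcof F).invLC T (isSmooth_unitsRep L hcof F) (c : LC.H2 _ _) := by
  rw [zmodToCircle_galTauS, galInvS_fixingSubgroup]

end Gal

end Fermat.Agent.CFT
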