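import Fermat.Agent.CFT.Local.LCKummerLocal
import Fermat.Agent.CFT.Local.LCLocalFamilyTau
import Fermat.Agent.CFT.HyperExt.LCDualityBaseE
import Fermat.Agent.CFT.HyperExt.LCDuality

/-!
# CFT, Layer B (B6/B7 final): the base case and local Tate duality in level cohomology

Setting: `O` a complete DVR with finite residue field, `k = Frac O` of characteristic zero, `Ω` an
algebraically closed Galois extension of `k`, `L` a level structure of Galois type on
`G = Gal(Ω/k)`, `T : LayerInvSystem k Ω`, `p` a prime, `ζ ∈ Ω` a primitive `p`-th root of unity.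

* `LocalBase.G0 k ζ = Gal(Ω/k(ζ))`, `mem_G0_iff`, `G0_eq_ker` (kernel of the mod-`p` cyclotomic
  character), `coprime_index_G0`, `isOpen_G0`, `mem_of_fixingSubgroup_le_G0`;
* `LocalBase.hbase_fixingSubgroup`, `LocalBase.hbase`: for every open `S ≤ G₀` the standard
  resolution `0 → ℤ → ℤ → 𝔽_p → 0` is perfect for `galInvHpS` (helper22), from Hilbert 90 (CF1),
  `galInvHpS_bijective` (T1), the Kummer case of the existence theorem mod `p`
  (`local_kummer_perfect`, helper12/helper16) (E) and `StdBase.stdRes_isPerfect_of_H1_eq_zero`;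
* `LocalBase.local_duality`: for every finite smooth `p`-torsion `G`-module `M`,
  `M.res.IsPerfect p _ M.tors (galInvHp L hGal hcof T p)` (plug into helper24's `lc_duality`).
-/

set_option autoImplicit false
set_option linter.style.haveILetI false
set_option linter.unusedSectionVars false

open CategoryTheory groupCohomology IntermediateField

namespace Fermat.Agent.CFT

open GaloisTower LayerMaps

namespace LocalBase

section Cyclo

variable {k Ω : Type} [Field k] [Field Ω] [Algebra k Ω] {p : ℕ} [Fact p.Prime] {ζ : Ω}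

/-- `σ` fixes `k(ζ)` iff it fixes `ζ`. -/
theorem mem_fixingSubgroup_adjoin_iff (σ : Ω ≃ₐ[k] Ω) :
    σ ∈ (IntermediateField.adjoin k {ζ}).fixingSubgroup ↔ σ ζ = ζ := by
  rw [IntermediateField.mem_fixingSubgroup_iff]
  constructor
  · intro h
    exact h ζ (IntermediateField.mem_adjoin_simple_self k ζ)
  · intro h x hx
    have hle : IntermediateField.adjoin k {ζ} ≤ IntermediateField.fixedField (Subgroup.zpowers σ) := by
      rw [IntermediateField.adjoin_simple_le_iff]
      rintro ⟨τ, hτ⟩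
      have h1 : σ ∈ MulAction.stabilizer (Ω ≃ₐ[k] Ω) ζ := MulAction.mem_stabilizer_iff.2 h
      have h2 := (Subgroup.zpowers_le.2 h1) hτ
      exact MulAction.mem_stabilizer_iff.1 h2
    exact hle hx ⟨σ, Subgroup.mem_zpowers σ⟩

variable (k) in
/-- The subgroup of `Gal(Ω/k)` fixing `ζ`. -/
def G0 (ζ : Ω) : Subgroup (Ω ≃ₐ[k] Ω) := (IntermediateField.adjoin k {ζ}).fixingSubgroup

theorem mem_G0_iff (σ : Ω ≃ₐ[k] Ω) : σ ∈ G0 k ζ ↔ σ ζ = ζ := mem_fixingSubgroup_adjoin_iff σ

theorem G0_eq_ker (hζ : IsPrimitiveRoot ζ p) :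
    haveI : NeZero p := ⟨(Fact.out : p.Prime).ne_zero⟩
    G0 k ζ = (hζ.autToPow k).ker := by
  haveI : NeZero p := ⟨(Fact.out : p.Prime).ne_zero⟩
  have hp1 : 1 < p := (Fact.out : p.Prime).one_lt
  ext σ
  rw [mem_G0_iff, MonoidHom.mem_ker]
  have hspec : ζ ^ ((hζ.autToPow k σ : (ZMod p)ˣ) : ZMod p).val = σ ζ := hζ.autToPow_spec k σ
  constructor
  · intro h1
    rw [h1] at hspec
    haveI : Fact (1 < p) := ⟨hp1⟩
    have h2 : ((hζ.autToPow k σ : (ZMod p)ˣ) : ZMod p).val = 1 := by
      refine hζ.pow_inj (ZMod.val_lt _) hp1 ?_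
      rw [hspec, pow_one]
    apply Units.ext
    rw [Units.val_one, ← ZMod.natCast_zmod_val ((hζ.autToPow k σ : (ZMod p)ˣ) : ZMod p), h2,
      Nat.cast_one]
  · intro h1
    haveI : Fact (1 < p) := ⟨hp1⟩
    rw [h1, Units.val_one, ZMod.val_one, pow_one] at hspec
    exact hspec.symm

/-- `(Gal(Ω/k) : G₀)` divides `p - 1`, hence is prime to `p`. -/
theorem coprime_index_G0 (hζ : IsPrimitiveRoot ζ p) : Nat.Coprime p (G0 k ζ).index := by
  haveI : NeZero p := ⟨(Fact.out : p.Prime).ne_zero⟩
  have hp : p.Prime := Fact.out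
  rw [G0_eq_ker hζ, Subgroup.index_ker]
  have h1 : Nat.card (hζ.autToPow k).range ∣ Nat.card (ZMod p)ˣ :=
    Subgroup.card_subgroup_dvd_card _
  have h2 : Nat.card (ZMod p)ˣ = p - 1 := by
    rw [Nat.card_eq_fintype_card, ZMod.card_units_eq_totient, Nat.totient_prime hp]
  rw [h2] at h1
  refine Nat.Coprime.coprime_dvd_right h1 ?_
  rw [Nat.Prime.coprime_iff_not_dvd hp]
  exact Nat.not_dvd_of_pos_of_lt (by have := hp.one_lt; omega) (by have := hp.one_lt; omega)

/-- A field whose fixing subgroup fixes `ζ` contains `ζ` (Galois correspondence). -/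
theorem mem_of_fixingSubgroup_le_G0 [IsGalois k Ω] (F : IntermediateField k Ω)
    (h : F.fixingSubgroup ≤ G0 k ζ) : ζ ∈ F := by
  rw [← InfiniteGalois.fixedField_fixingSubgroup F, IntermediateField.mem_fixedField_iff]
  intro σ hσ
  exact (mem_G0_iff σ).1 (h hσ)

end Cyclo

section Base

variable (O : Type) {k Ω : Type} [CommRing O] [IsDomain O] [IsDiscreteValuationRing O]
  [IsAdicComplete (IsLocalRing.maximalIdeal O) O] [Finite (IsLocalRing.ResidueField O)]
  [Field k] [Algebra O k] [IsFractionRing O k] [CharZero k]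
  [Field Ω] [Algebra k Ω] [Algebra O Ω] [IsScalarTower O k Ω] [IsGalois k Ω] [IsAlgClosed Ω]
  (L : LevelStructure (Ω ≃ₐ[k] Ω))
  (hGal : ∀ N, L.IsLevel N → ∃ F : IntermediateField k Ω,
    FiniteDimensional k F ∧ Normal k F ∧ N = F.fixingSubgroup)
  (hcof : ∀ E' : IntermediateField k Ω, FiniteDimensional k E' →
    ∃ N, L.IsLevel N ∧ N ≤ E'.fixingSubgroup)
  (T : LayerInvSystem k Ω) (p : ℕ) [Fact p.Prime] {ζ : Ω} (hζ : IsPrimitiveRoot ζ p)

include hcof in
/-- `G₀ = Gal(Ω/k(ζ))` is open. -/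
theorem isOpen_G0 (ζ : Ω) : L.IsOpen (G0 k ζ) := by
  haveI : FiniteDimensional k (IntermediateField.adjoin k {ζ}) :=
    IntermediateField.adjoin.finiteDimensional (Algebra.IsIntegral.isIntegral ζ)
  exact isOpen_fixingSubgroup L hcof (IntermediateField.adjoin k {ζ})

include O hζ in
/-- **The base case of local duality for `S = Gal(Ω/F)`, `ζ_p ∈ F`**: the standard resolution is
perfect for the invariant `galInvHpS`. -/
theorem hbase_fixingSubgroup (F : IntermediateField k Ω) [FiniteDimensional k F] (hζF : ζ ∈ F)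
    (hS : L.IsOpen F.fixingSubgroup) :
    (stdRes (L.comap F.fixingSubgroup.subtype) p).IsPerfect p
      (LC.isSmooth_res (S := F.fixingSubgroup) (isSmooth_galUnits L hcof)) zmod_nsmul_self
      (galInvHpS L hGal hcof T p F.fixingSubgroup hS) := by
  have hp : p.Prime := Fact.out
  haveI : NeZero p := ⟨hp.ne_zero⟩
  have hE := (local_kummer_perfect O L hGal hcof F hp hζ hζF
    (galTauS L hGal hcof T p F.fixingSubgroup hS)
    (galTauS_bijective L hGal hcof T p _ hS).1).2.1
  refine StdBase.stdRes_isPerfect_of_H1_eq_zero _ zmod_nsmul_self _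
    (galTauS L hGal hcof T p F.fixingSubgroup hS) ?_
    (galInvHpS_bijective L hGal hcof T p _ hS)
    (fun x => galInvHpS_eq_galTauS L hGal hcof T p _ hS x.1 x.2 _) hE
  intro x
  haveI := (galLayerDict L hGal hcof F).subsingleton_H1 (isSmooth_unitsRep L hcof F)
  exact (LC.h1Equiv _).injective (Subsingleton.elim _ _)

include O hζ in
/-- **The base case of local duality** for every open subgroup `S ≤ G₀ = Gal(Ω/k(ζ_p))`. -/
theorem hbase (S : Subgroup (Ω ≃ₐ[k] Ω)) (hS : L.IsOpen S) (hle : S ≤ G0 k ζ) :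
    (stdRes (L.comap S.subtype) p).IsPerfect p
      (LC.isSmooth_res (S := S) (isSmooth_galUnits L hcof)) zmod_nsmul_self
      (galInvHpS L hGal hcof T p S hS) := by
  obtain ⟨F, hfd, rfl⟩ := exists_fixingSubgroup_eq_of_isOpen L hGal hS
  haveI := hfd
  exact hbase_fixingSubgroup O L hGal hcof T p hζ F (mem_of_fixingSubgroup_le_G0 F hle) hS

include O in
/-- **Local Tate duality in level cohomology (B6/B7 ⟹ A8)**: for a local field `k` of
characteristic zero with algebraic closure `Ω`, `G = Gal(Ω/k)` with a level structure of Galois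
type, `C = Ωˣ`, and every finite smooth `p`-torsion `G`-module `M`, the pairings
`Ext^r(M, Ωˣ) × H^{2-r}(G, M) → H²(G, Ωˣ)[p] ≅ 𝔽_p` (`r = 1, 2`) are perfect. -/
theorem local_duality (M : PMod L p) :
    M.res.IsPerfect p (isSmooth_galUnits L hcof) M.tors (galInvHp L hGal hcof T p) := by
  have hp : p.Prime := Fact.out
  haveI : CharZero Ω := charZero_of_injective_algebraMap (algebraMap k Ω).injective
  haveI : NeZero (p : Ω) := ⟨Nat.cast_ne_zero.2 hp.ne_zero⟩
  obtain ⟨ζ, hζ⟩ := HasEnoughRootsOfUnity.exists_primitiveRoot Ω p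
  exact lc_duality (isSmooth_galUnits L hcof) (G0 k ζ) (isOpen_G0 L hcof ζ)
    (coprime_index_G0 hζ) (galInvHp L hGal hcof T p) (galInvHpS L hGal hcof T p)
    (fun S hS _ => galInvHp_corH₂ L hGal hcof T p S hS)
    (fun S hS hle => hbase O L hGal hcof T p hζ S hS hle) M

end Base

end LocalBase

end Fermat.Agent.CFT
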