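import Fermat.Agent.CFT.Local.LCGalT2
import Fermat.Agent.CFT.HyperExt.LCDualityDefs

/-!
# CFT, Layer B (B7 assembly): the local invariant family in the shape consumed by `lc_duality`
-/

set_option autoImplicit false
set_option linter.style.haveILetI false
set_option linter.unusedSectionVars false

open CategoryTheory groupCohomology IntermediateField

namespace Fermat.Agent.CFT

/-! ### `ZMod p`-valued invariants on `p`-torsion -/

section zmod

variable (p : ℕ) [NeZero p]

/-- `ZMod p → ℚ/ℤ`, `m ↦ m/p`. -/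
noncomputable def zmodToCircle : ZMod p →+ AddCircle (1 : ℚ) :=
  ZMod.lift p ⟨zmultiplesHom _ (((1 : ℚ) / (p : ℚ) : ℚ) : AddCircle (1 : ℚ)), by
    rw [zmultiplesHom_apply, natCast_zsmul]
    exact LC.addCircle_nsmul_one_div p (NeZero.pos p)⟩

lemma zmodToCircle_apply (m : ZMod p) :
    zmodToCircle p m = ((((m.val : ℚ)) / (p : ℚ) : ℚ) : AddCircle (1 : ℚ)) := by
  have h := ZMod.lift_coe p (⟨zmultiplesHom _ (((1 : ℚ) / (p : ℚ) : ℚ) : AddCircle (1 : ℚ)), by
    rw [zmultiplesHom_apply, natCast_zsmul]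
    exact LC.addCircle_nsmul_one_div p (NeZero.pos p)⟩ :
      {f : ℤ →+ AddCircle (1 : ℚ) // f p = 0}) (m.val : ℤ)
  have h2 : (((m.val : ℤ) : ZMod p)) = m := by
    rw [Int.cast_natCast, ZMod.natCast_zmod_val]
  rw [h2] at h
  rw [zmodToCircle, h]
  simp only [zmultiplesHom_apply, natCast_zsmul]
  rw [← AddCircle.coe_nsmul, nsmul_eq_mul, mul_one_div]

lemma zmodToCircle_injective : Function.Injective (zmodToCircle p) := by
  rw [injective_iff_map_eq_zero]
  intro m hm
  rw [zmodToCircle_apply] at hm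
  have := LC.addCircle_coe_div_eq_zero (NeZero.pos p) (ZMod.val_lt m) hm
  exact (ZMod.val_eq_zero m).1 this

lemma mem_range_zmodToCircle {t : AddCircle (1 : ℚ)} (ht : p • t = 0) :
    t ∈ (zmodToCircle p).range := by
  obtain ⟨m, hm, rfl⟩ := (AddCircle.nsmul_eq_zero_iff (NeZero.pos p)).1 ht
  refine ⟨(m : ZMod p), ?_⟩
  rw [zmodToCircle_apply, ZMod.val_natCast_of_lt hm, mul_one]

variable {X : Type*} [AddCommGroup X]

/-- The `ZMod p`-valued invariant on the `p`-torsion attached to a `ℚ/ℤ`-valued invariant. -/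
noncomputable def invZMod (inv : X →+ AddCircle (1 : ℚ)) :
    (nsmulAddMonoidHom p : X →+ X).ker →+ ZMod p :=
  (AddMonoidHom.ofInjective (zmodToCircle_injective p)).symm.toAddMonoidHom.comp
    ((inv.comp (nsmulAddMonoidHom p : X →+ X).ker.subtype).codRestrict (zmodToCircle p).range
      (fun x => mem_range_zmodToCircle p (by
        have hx : p • (x : X) = 0 := x.2
        show p • inv (x : X) = 0
        rw [← map_nsmul, hx, map_zero])))

lemma zmodToCircle_invZMod (inv : X →+ AddCircle (1 : ℚ))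
    (x : (nsmulAddMonoidHom p : X →+ X).ker) :
    zmodToCircle p (invZMod p inv x) = inv (x : X) := by
  have h := (AddMonoidHom.ofInjective (zmodToCircle_injective p)).apply_symm_apply
    ((inv.comp (nsmulAddMonoidHom p : X →+ X).ker.subtype).codRestrict (zmodToCircle p).range
      (fun x => mem_range_zmodToCircle p (by
        have hx : p • (x : X) = 0 := x.2
        show p • inv (x : X) = 0
        rw [← map_nsmul, hx, map_zero])) x)
  exact congrArg Subtype.val h

lemma invZMod_injective (inv : X →+ AddCircle (1 : ℚ))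
    (hinj : ∀ x : X, p • x = 0 → inv x = 0 → x = 0) : Function.Injective (invZMod p inv) := by
  rw [injective_iff_map_eq_zero]
  intro x hx
  have h := zmodToCircle_invZMod p inv x
  rw [hx, map_zero] at h
  exact Subtype.ext (hinj _ x.2 h.symm)

lemma invZMod_surjective (inv : X →+ AddCircle (1 : ℚ))
    (hval : ∃ x : X, p • x = 0 ∧ inv x = (((1 : ℚ) / (p : ℚ) : ℚ) : AddCircle (1 : ℚ))) :
    Function.Surjective (invZMod p inv) := by
  obtain ⟨x₀, hx₀, hinv⟩ := hval
  intro m
  have hmem : m.val • x₀ ∈ (nsmulAddMonoidHom p : X →+ X).ker := by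
    show p • (m.val • x₀) = 0
    rw [smul_comm, hx₀, smul_zero]
  refine ⟨⟨m.val • x₀, hmem⟩, zmodToCircle_injective p ?_⟩
  rw [zmodToCircle_invZMod, zmodToCircle_apply, map_nsmul, hinv, ← AddCircle.coe_nsmul,
    nsmul_eq_mul, mul_one_div]

end zmod

open GaloisTower LayerMaps

section Gal

variable {k Ω : Type} [Field k] [Field Ω] [Algebra k Ω] [IsGalois k Ω]
variable (L : LevelStructure (Ω ≃ₐ[k] Ω))
  (hGal : ∀ N, L.IsLevel N → ∃ F : IntermediateField k Ω,
    FiniteDimensional k F ∧ Normal k F ∧ N = F.fixingSubgroup)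
  (hcof : ∀ E' : IntermediateField k Ω, FiniteDimensional k E' →
    ∃ N, L.IsLevel N ∧ N ≤ E'.fixingSubgroup)

include hGal in
/-- Open subgroups of a level group of Galois type are the fixing subgroups of the finite
subextensions. -/
theorem exists_fixingSubgroup_eq_of_isOpen {S : Subgroup (Ω ≃ₐ[k] Ω)} (hS : L.IsOpen S) :
    ∃ F : IntermediateField k Ω, FiniteDimensional k F ∧ S = F.fixingSubgroup := by
  obtain ⟨N, hN, hNS⟩ := hS
  obtain ⟨F₀, hfd, hnorm, rfl⟩ := hGal N hN
  obtain ⟨F, hle, hF⟩ := exists_fixingSubgroup_eq_of_le S hNS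
  exact ⟨F, Module.Finite.of_injective (IntermediateField.inclusion hle).toLinearMap
    (IntermediateField.inclusion hle).injective, hF.symm⟩

variable (T : LayerInvSystem k Ω)

/-- The invariant of an open subgroup presented as a fixing subgroup. -/
noncomputable def galInvOfEq (F : IntermediateField k Ω) (hfd : FiniteDimensional k F)
    (S : Subgroup (Ω ≃ₐ[k] Ω)) (hSF : S = F.fixingSubgroup) :
    LC.H2 (L.comap S.subtype) (Rep.res S.subtype (Rep.ofAlgebraAutOnUnits k Ω)) →+
      AddCircle (1 : ℚ) := by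
  subst hSF
  exact (galLayerDict L hGal hcof F).invLC T (isSmooth_unitsRep L hcof F)

lemma galInvOfEq_injective (F : IntermediateField k Ω) (hfd : FiniteDimensional k F)
    (S : Subgroup (Ω ≃ₐ[k] Ω)) (hSF : S = F.fixingSubgroup) :
    Function.Injective (galInvOfEq L hGal hcof T F hfd S hSF) := by
  subst hSF
  exact (galLayerDict L hGal hcof F).invLC_injective T _

lemma galInvOfEq_surjective (F : IntermediateField k Ω) (hfd : FiniteDimensional k F)
    (S : Subgroup (Ω ≃ₐ[k] Ω)) (hSF : S = F.fixingSubgroup) :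
    Function.Surjective (galInvOfEq L hGal hcof T F hfd S hSF) := by
  subst hSF
  exact (galLayerDict L hGal hcof F).invLC_surjective T _

lemma galInv_corLC2_ofEq (F : IntermediateField k Ω) (hfd : FiniteDimensional k F)
    (S : Subgroup (Ω ≃ₐ[k] Ω)) (hSF : S = F.fixingSubgroup) [S.FiniteIndex] (hS : L.IsOpen S)
    (y : LC.H2 (L.comap S.subtype) (Rep.res S.subtype (Rep.ofAlgebraAutOnUnits k Ω))) :
    galInv L hGal hcof T (LC.corLC2 hS (isSmooth_galUnits L hcof) y) =
      galInvOfEq L hGal hcof T F hfd S hSF y := by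
  subst hSF
  exact galInv_corLC2 L hGal hcof T F hS y

lemma galInvOfEq_resLC2 (F : IntermediateField k Ω) (hfd : FiniteDimensional k F)
    (S : Subgroup (Ω ≃ₐ[k] Ω)) (hSF : S = F.fixingSubgroup)
    (x : LC.H2 L (Rep.ofAlgebraAutOnUnits k Ω)) :
    galInvOfEq L hGal hcof T F hfd S hSF
        (LC.resLC2 (LevelStructure.compat_comap L S.subtype) (isSmooth_galUnits L hcof) x) =
      S.index • galInv L hGal hcof T x := by
  subst hSF
  rw [← IntermediateField.finrank_eq_fixingSubgroup_index]
  exact galInv_resLC2 L hGal hcof T F x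

/-- **The invariant map of an open subgroup** `S` of the full Galois group. -/
noncomputable def galInvS (S : Subgroup (Ω ≃ₐ[k] Ω)) (hS : L.IsOpen S) :
    LC.H2 (L.comap S.subtype) (Rep.res S.subtype (Rep.ofAlgebraAutOnUnits k Ω)) →+
      AddCircle (1 : ℚ) :=
  galInvOfEq L hGal hcof T (exists_fixingSubgroup_eq_of_isOpen L hGal hS).choose
    (exists_fixingSubgroup_eq_of_isOpen L hGal hS).choose_spec.1 S
    (exists_fixingSubgroup_eq_of_isOpen L hGal hS).choose_spec.2

theorem galInvS_injective (S : Subgroup (Ω ≃ₐ[k] Ω)) (hS : L.IsOpen S) :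
    Function.Injective (galInvS L hGal hcof T S hS) :=
  galInvOfEq_injective L hGal hcof T _ _ S _

theorem galInvS_surjective (S : Subgroup (Ω ≃ₐ[k] Ω)) (hS : L.IsOpen S) :
    Function.Surjective (galInvS L hGal hcof T S hS) :=
  galInvOfEq_surjective L hGal hcof T _ _ S _

/-- **(T2)**: `inv_G ∘ cor = inv_S` for every open subgroup `S`. -/
theorem galInv_corLC2_eq_galInvS (S : Subgroup (Ω ≃ₐ[k] Ω)) [S.FiniteIndex] (hS : L.IsOpen S)
    (y : LC.H2 (L.comap S.subtype) (Rep.res S.subtype (Rep.ofAlgebraAutOnUnits k Ω))) :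
    galInv L hGal hcof T (LC.corLC2 hS (isSmooth_galUnits L hcof) y) =
      galInvS L hGal hcof T S hS y :=
  galInv_corLC2_ofEq L hGal hcof T _ _ S _ hS y

/-- `inv_S ∘ res = [G : S] • inv_G`. -/
theorem galInvS_resLC2 (S : Subgroup (Ω ≃ₐ[k] Ω)) (hS : L.IsOpen S)
    (x : LC.H2 L (Rep.ofAlgebraAutOnUnits k Ω)) :
    galInvS L hGal hcof T S hS
        (LC.resLC2 (LevelStructure.compat_comap L S.subtype) (isSmooth_galUnits L hcof) x) =
      S.index • galInv L hGal hcof T x :=
  galInvOfEq_resLC2 L hGal hcof T _ _ S _ x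

lemma galInvOfEq_fixingSubgroup (F F' : IntermediateField k Ω) [hfd : FiniteDimensional k F]
    (hfd' : FiniteDimensional k F') (hSF : F.fixingSubgroup = F'.fixingSubgroup) :
    galInvOfEq L hGal hcof T F' hfd' F.fixingSubgroup hSF =
      (galLayerDict L hGal hcof F).invLC T (isSmooth_unitsRep L hcof F) := by
  have hFF : F' = F := by
    have := congrArg IntermediateField.fixedField hSF
    rw [InfiniteGalois.fixedField_fixingSubgroup, InfiniteGalois.fixedField_fixingSubgroup]
      at this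
    exact this.symm
  subst hFF
  rfl

/-- For `S = Gal(Ω/F)` the invariant `galInvS` is the invariant of the dictionary of `F`. -/
theorem galInvS_fixingSubgroup (F : IntermediateField k Ω) [FiniteDimensional k F]
    (hS : L.IsOpen F.fixingSubgroup) :
    galInvS L hGal hcof T F.fixingSubgroup hS =
      (galLayerDict L hGal hcof F).invLC T (isSmooth_unitsRep L hcof F) :=
  galInvOfEq_fixingSubgroup L hGal hcof T F _ _ _

/-! ### The family in the shape of `lc_duality` -/

section family

variable (p : ℕ) [Fact p.Prime]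

/-- The `ZMod p`-valued invariant of the full Galois group on `H²(G, Ωˣ)[p]`. -/
noncomputable def galInvHp : LC.Hp p (isSmooth_galUnits L hcof) 2 →+ ZMod p :=
  invZMod p ((galInv L hGal hcof T).comp
    (LC.h2Equiv (isSmooth_galUnits L hcof)).toLinearMap.toAddMonoidHom)

/-- The `ZMod p`-valued invariant of an open subgroup `S` on `H²(S, Ωˣ)[p]`. -/
noncomputable def galInvHpS (S : Subgroup (Ω ≃ₐ[k] Ω)) (hS : L.IsOpen S) :
    LC.Hp p (LC.isSmooth_res (S := S) (isSmooth_galUnits L hcof)) 2 →+ ZMod p :=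
  invZMod p ((galInvS L hGal hcof T S hS).comp
    (LC.h2Equiv (LC.isSmooth_res (S := S) (isSmooth_galUnits L hcof))).toLinearMap.toAddMonoidHom)

lemma zmodToCircle_galInvHp (x : LC.Hp p (isSmooth_galUnits L hcof) 2) :
    zmodToCircle p (galInvHp L hGal hcof T p x) =
      galInv L hGal hcof T (LC.h2Equiv (isSmooth_galUnits L hcof) x.1) :=
  zmodToCircle_invZMod p _ x

lemma zmodToCircle_galInvHpS (S : Subgroup (Ω ≃ₐ[k] Ω)) (hS : L.IsOpen S)
    (x : LC.Hp p (LC.isSmooth_res (S := S) (isSmooth_galUnits L hcof)) 2) :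
    zmodToCircle p (galInvHpS L hGal hcof T p S hS x) =
      galInvS L hGal hcof T S hS
        (LC.h2Equiv (LC.isSmooth_res (S := S) (isSmooth_galUnits L hcof)) x.1) :=
  zmodToCircle_invZMod p _ x

/-- **(T1)** for every open subgroup: `inv_S : H²(S, Ωˣ)[p] → ZMod p` is bijective. -/
theorem galInvHpS_bijective (S : Subgroup (Ω ≃ₐ[k] Ω)) (hS : L.IsOpen S) :
    Function.Bijective (galInvHpS L hGal hcof T p S hS) := by
  constructor
  · refine invZMod_injective p _ fun x _ h0 => ?_
    have := galInvS_injective L hGal hcof T S hS (h0.trans (map_zero _).symm)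
    exact (LinearEquiv.map_eq_zero_iff _).1 this
  · refine invZMod_surjective p _ ?_
    obtain ⟨c, hc⟩ := galInvS_surjective L hGal hcof T S hS
      ((((1 : ℚ) / (p : ℚ) : ℚ)) : AddCircle (1 : ℚ))
    refine ⟨(LC.h2Equiv (LC.isSmooth_res (S := S) (isSmooth_galUnits L hcof))).symm c, ?_, ?_⟩
    · rw [← map_nsmul]
      refine (LinearEquiv.map_eq_zero_iff _).2 ?_
      refine galInvS_injective L hGal hcof T S hS ?_
      rw [map_nsmul, hc, map_zero]
      exact LC.addCircle_nsmul_one_div p (Fact.out : p.Prime).pos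
    · show galInvS L hGal hcof T S hS (LC.h2Equiv _ ((LC.h2Equiv _).symm c)) = _
      rw [LinearEquiv.apply_symm_apply, hc]

/-- **(T1)** for the full group. -/
theorem galInvHp_bijective : Function.Bijective (galInvHp L hGal hcof T p) := by
  constructor
  · refine invZMod_injective p _ fun x _ h0 => ?_
    have := galInv_injective L hGal hcof T (h0.trans (map_zero _).symm)
    exact (LinearEquiv.map_eq_zero_iff _).1 this
  · refine invZMod_surjective p _ ?_
    obtain ⟨c, hc⟩ := galInv_surjective L hGal hcof T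
      ((((1 : ℚ) / (p : ℚ) : ℚ)) : AddCircle (1 : ℚ))
    refine ⟨(LC.h2Equiv (isSmooth_galUnits L hcof)).symm c, ?_, ?_⟩
    · rw [← map_nsmul]
      refine (LinearEquiv.map_eq_zero_iff _).2 ?_
      refine galInv_injective L hGal hcof T ?_
      rw [map_nsmul, hc, map_zero]
      exact LC.addCircle_nsmul_one_div p (Fact.out : p.Prime).pos
    · show galInv L hGal hcof T (LC.h2Equiv _ ((LC.h2Equiv _).symm c)) = _
      rw [LinearEquiv.apply_symm_apply, hc]

/-- **(T2)** in the shape of `lc_duality`: `inv_G (cor x) = inv_S x` on `p`-torsion. -/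
theorem galInvHp_corH₂ (S : Subgroup (Ω ≃ₐ[k] Ω)) (hS : L.IsOpen S) :
    haveI := hS.finiteIndex
    ∀ (x : (LC.cx (LC.isSmooth_res (S := S) (isSmooth_galUnits L hcof))).H 2)
      (hx : x ∈ LC.Hp p (LC.isSmooth_res (S := S) (isSmooth_galUnits L hcof)) 2)
      (hx' : LC.corH₂ hS (isSmooth_galUnits L hcof) x ∈ LC.Hp p (isSmooth_galUnits L hcof) 2),
      galInvHp L hGal hcof T p ⟨LC.corH₂ hS (isSmooth_galUnits L hcof) x, hx'⟩ =
        galInvHpS L hGal hcof T p S hS ⟨x, hx⟩ := by
  haveI := hS.finiteIndex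
  intro x hx hx'
  apply zmodToCircle_injective p
  rw [zmodToCircle_galInvHp, zmodToCircle_galInvHpS]
  have h1 := galInv_corLC2_eq_galInvS L hGal hcof T S hS
    (LC.h2Equiv (LC.isSmooth_res (S := S) (isSmooth_galUnits L hcof)) x)
  rw [← h1]
  congr 1
  simp only [LC.corLC2, LinearMap.comp_apply, LinearEquiv.coe_coe]
  exact congrArg _ (congrArg _ (LinearEquiv.symm_apply_apply _ x).symm)

/-- Comparison with any `(T1)`-isomorphism `e` of the dictionary of `F` (as produced by
`LayerDict.exists_torsionBy_addEquiv_zmod`): `galInvHpS` is `e` through `h2Equiv`. -/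
theorem galInvHpS_eq_of_spec (F : IntermediateField k Ω) [FiniteDimensional k F]
    (hS : L.IsOpen F.fixingSubgroup)
    (e : ↥(AddSubgroup.torsionBy (LC.H2 (L.comap F.fixingSubgroup.subtype) (unitsRep F))
      (p : ℤ)) ≃+ ZMod p)
    (he : ∀ c : ↥(AddSubgroup.torsionBy (LC.H2 (L.comap F.fixingSubgroup.subtype) (unitsRep F))
        (p : ℤ)),
      (galLayerDict L hGal hcof F).invLC T (isSmooth_unitsRep L hcof F) (c : LC.H2 _ _) =
        ((((e c).val : ℚ) / (p : ℚ) : ℚ) : AddCircle (1 : ℚ)))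
    (x : LC.Hp p (LC.isSmooth_res (S := F.fixingSubgroup) (isSmooth_galUnits L hcof)) 2)
    (hx : LC.h2Equiv (LC.isSmooth_res (S := F.fixingSubgroup) (isSmooth_galUnits L hcof)) x.1 ∈
      AddSubgroup.torsionBy (LC.H2 (L.comap F.fixingSubgroup.subtype) (unitsRep F)) (p : ℤ)) :
    galInvHpS L hGal hcof T p F.fixingSubgroup hS x = e ⟨_, hx⟩ := by
  apply zmodToCircle_injective p
  rw [zmodToCircle_galInvHpS, galInvS_fixingSubgroup, zmodToCircle_apply, ← he]

end family

end Gal

end Fermat.Agent.CFT
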