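import Fermat.Agent.CFT.Local.LayerInv

/-!
# CFT, Layer B: comparing invariants computed on two equal layers

`T : LayerInvSystem k Ω`.  In applications (D3c, local term) the same class is produced on two
layers `E₁ ≤ E₁'` and `E₂ ≤ E₂'` of `Ω/k` whose fields are *propositionally* equal
(`E₁ = E₂`, `E₁' = E₂'`) but not syntactically, as images `(map f₁ φ₁) y`, `(map f₂ φ₂) y` of one
class `y ∈ Hⁿ(G₀, A₀)`.  If the pairs `(f₁, φ₁)`, `(f₂, φ₂)` agree "inside `Ω`" then the invariants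
agree (`inv_map_congr`); no `layerMap`/transport term appears in the statement.

* `inv_congr_of_map`: the general form, for any family `Φ` of maps out of the layer cohomology;
* `inv_map_congr`: the form for `T.inv`;
* `galEquivOfEq`, `unitsEquivOfEq`: the (identity) transports, with their `Ω`-valued
  descriptions, for users who prefer an explicit transport.
-/

set_option autoImplicit false
set_option linter.style.haveILetI false
set_option linter.unusedSectionVars false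

open CategoryTheory groupCohomology IntermediateField

namespace Fermat.Agent.CFT

open GaloisTower

namespace LayerInvCongr

variable {k Ω : Type} [Field k] [Field Ω] [Algebra k Ω]

attribute [local instance 2000] Rep.hV2

/-- Two automorphisms of two layers "agree inside `Ω`". -/
def AgreeInΩ {E₁ E₁' E₂ E₂' : IntermediateField k Ω} (h₁ : E₁ ≤ E₁') (h₂ : E₂ ≤ E₂')
    (σ₁ : layer h₁ ≃ₐ[E₁] layer h₁) (σ₂ : layer h₂ ≃ₐ[E₂] layer h₂) : Prop :=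
  ∀ (x : Ω) (hx₁ : x ∈ layer h₁) (hx₂ : x ∈ layer h₂),
    ((σ₁ ⟨x, hx₁⟩ : layer h₁) : Ω) = ((σ₂ ⟨x, hx₂⟩ : layer h₂) : Ω)

theorem agreeInΩ_self {E E' : IntermediateField k Ω} (h : E ≤ E')
    (σ₁ σ₂ : layer h ≃ₐ[E] layer h) : AgreeInΩ h h σ₁ σ₂ ↔ σ₁ = σ₂ := by
  constructor
  · intro hσ
    ext x
    exact hσ x.1 x.2 x.2
  · rintro rfl x hx₁ hx₂
    rfl

/-- **Comparison of the images of one class on two equal layers** (general target). -/
theorem map_congr_of_eq {T₀ : Type}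
    (Φ : ∀ {E E' : IntermediateField k Ω} (h : E ≤ E'),
      groupCohomology (Rep.ofAlgebraAutOnUnits E (layer h)) 2 → T₀)
    {E₁ E₁' E₂ E₂' : IntermediateField k Ω} (h₁ : E₁ ≤ E₁') (h₂ : E₂ ≤ E₂')
    (hE : E₁ = E₂) (hE' : E₁' = E₂')
    {G₀ : Type} [Group G₀] {A₀ : Rep ℤ G₀}
    (f₁ : (layer h₁ ≃ₐ[E₁] layer h₁) →* G₀)
    (φ₁ : Rep.res f₁ A₀ ⟶ Rep.ofAlgebraAutOnUnits E₁ (layer h₁))
    (f₂ : (layer h₂ ≃ₐ[E₂] layer h₂) →* G₀)
    (φ₂ : Rep.res f₂ A₀ ⟶ Rep.ofAlgebraAutOnUnits E₂ (layer h₂))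
    (hf : ∀ (σ₁ : layer h₁ ≃ₐ[E₁] layer h₁) (σ₂ : layer h₂ ≃ₐ[E₂] layer h₂),
      AgreeInΩ h₁ h₂ σ₁ σ₂ → f₁ σ₁ = f₂ σ₂)
    (hφ : ∀ a : A₀,
      (((Additive.toMul (φ₁.hom a : Additive (layer h₁)ˣ) : (layer h₁)ˣ) : layer h₁) : Ω) =
        (((Additive.toMul (φ₂.hom a : Additive (layer h₂)ˣ) : (layer h₂)ˣ) : layer h₂) : Ω))
    (y : groupCohomology A₀ 2) :
    Φ h₁ ((groupCohomology.map f₁ φ₁ 2).hom y) = Φ h₂ ((groupCohomology.map f₂ φ₂ 2).hom y) := by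
  subst hE
  subst hE'
  have hf' : f₁ = f₂ := MonoidHom.ext fun σ => hf σ σ ((agreeInΩ_self h₁ σ σ).2 rfl)
  have hmap : groupCohomology.map f₁ φ₁ 2 = groupCohomology.map f₂ φ₂ 2 := by
    refine groupCohomology.map_congr hf' ?_ 2
    refine LinearMap.ext fun a => ?_
    apply Additive.toMul.injective
    apply Units.ext
    apply Subtype.ext
    exact hφ a
  rw [hmap]

/-- **Comparison of invariants on two equal layers.** -/
theorem inv_map_congr (T : LayerInvSystem k Ω)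
    {E₁ E₁' E₂ E₂' : IntermediateField k Ω} (h₁ : E₁ ≤ E₁') (h₂ : E₂ ≤ E₂')
    (hE : E₁ = E₂) (hE' : E₁' = E₂')
    {G₀ : Type} [Group G₀] {A₀ : Rep ℤ G₀}
    (f₁ : (layer h₁ ≃ₐ[E₁] layer h₁) →* G₀)
    (φ₁ : Rep.res f₁ A₀ ⟶ Rep.ofAlgebraAutOnUnits E₁ (layer h₁))
    (f₂ : (layer h₂ ≃ₐ[E₂] layer h₂) →* G₀)
    (φ₂ : Rep.res f₂ A₀ ⟶ Rep.ofAlgebraAutOnUnits E₂ (layer h₂))
    (hf : ∀ (σ₁ : layer h₁ ≃ₐ[E₁] layer h₁) (σ₂ : layer h₂ ≃ₐ[E₂] layer h₂),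
      AgreeInΩ h₁ h₂ σ₁ σ₂ → f₁ σ₁ = f₂ σ₂)
    (hφ : ∀ a : A₀,
      (((Additive.toMul (φ₁.hom a : Additive (layer h₁)ˣ) : (layer h₁)ˣ) : layer h₁) : Ω) =
        (((Additive.toMul (φ₂.hom a : Additive (layer h₂)ˣ) : (layer h₂)ˣ) : layer h₂) : Ω))
    (y : groupCohomology A₀ 2) :
    T.inv h₁ ((groupCohomology.map f₁ φ₁ 2).hom y) =
      T.inv h₂ ((groupCohomology.map f₂ φ₂ 2).hom y) :=
  map_congr_of_eq (fun h x => T.inv h x) h₁ h₂ hE hE' f₁ φ₁ f₂ φ₂ hf hφ y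

end LayerInvCongr

end Fermat.Agent.CFT
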