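import Fermat.Agent.CFT.Local.GalSymbolNorm
import Fermat.Agent.CFT.Local.InvFamilyOfLayers
import Fermat.Agent.CFT.Local.LayerInvRange
import Fermat.Agent.CFT.Global.LocSquare

/-!
# The norm formula for the symbols of a system of invariant maps on layers

`S : LayerInvSystem k Ω`, `k ≤ E₁ ≤ M ≤ Ω` with `M/k` finite Galois, `Φ` a character of `Gal(M/k)`,
`a ∈ E₁ˣ`: `LayerNorm.inv_galSymClass_norm`:
`inv_{M/E₁}(a ∪ δ(Φ|_{Gal(M/E₁)})) = (N_{E₁/k} a, Φ)_k` (the symbol of the abstract family
`S.toInvFamily`).  Instantiates `galSymClass_norm_formula` (Local/GalSymbolNorm.lean) with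
`hres` from `inv_layerRest` and `hsurj` from `LayerInvSystem.layerRest_surjective`.
-/

set_option autoImplicit false
set_option linter.unusedSectionVars false
set_option linter.style.haveILetI false

open CategoryTheory groupCohomology IntermediateField

noncomputable section

namespace Fermat.Agent.CFT

open GaloisTower LayerMaps LayerBridge

namespace LayerNorm

variable {k Ω : Type} [Field k] [Field Ω] [Algebra k Ω]
variable {E₁ M : IntermediateField k Ω}

/-- The square `(E₁, M) → (E₁, layer h)` (identity on elements). -/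
def isoSq (h : E₁ ≤ M) :
    letI := algBase h
    FieldSquare E₁ M E₁ (layer h) :=
  letI := algBase h
  { base := RingHom.id _
    top :=
      { toFun := fun x => ⟨(x : Ω), x.2⟩
        map_one' := rfl
        map_mul' := fun _ _ => rfl
        map_zero' := rfl
        map_add' := fun _ _ => rfl }
    comm := fun _ => rfl }

/-- The restriction square `(⊥, layer (⊥ ≤ M)) → (E₁, layer h)`. -/
def restSq (h : E₁ ≤ M) :
    FieldSquare (⊥ : IntermediateField k Ω) (layer (bot_le : (⊥ : IntermediateField k Ω) ≤ M))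
      E₁ (layer h) where
  base := (IntermediateField.inclusion (bot_le : (⊥ : IntermediateField k Ω) ≤ E₁)).toRingHom
  top := layerIncl bot_le h le_rfl
  comm _ := rfl

theorem restSq_map (h : E₁ ≤ M)
    [Normal (⊥ : IntermediateField k Ω) (layer (bot_le : (⊥ : IntermediateField k Ω) ≤ M))]
    (n : ℕ) :
    (restSq h).map n = layerRest (bot_le : (⊥ : IntermediateField k Ω) ≤ E₁) h n := by
  letI := algBase (bot_le : (⊥ : IntermediateField k Ω) ≤ E₁)
  letI := algTop (bot_le : (⊥ : IntermediateField k Ω) ≤ M) h le_rfl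
  letI := algDiag (bot_le : (⊥ : IntermediateField k Ω) ≤ E₁) h
  haveI := tower_base (bot_le : (⊥ : IntermediateField k Ω) ≤ E₁) h
  haveI := tower_top (bot_le : (⊥ : IntermediateField k Ω) ≤ M) h bot_le le_rfl
  exact FieldSquare.map_eq_galMap (restSq h) rfl n

theorem finrank_bot_layer (E : IntermediateField k Ω) :
    Module.finrank (⊥ : IntermediateField k Ω)
      (layer (bot_le : (⊥ : IntermediateField k Ω) ≤ E)) = Module.finrank k E := by
  have h1 := Module.finrank_mul_finrank k (⊥ : IntermediateField k Ω)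
    (layer (bot_le : (⊥ : IntermediateField k Ω) ≤ E))
  rw [IntermediateField.finrank_bot, one_mul] at h1
  exact h1

variable [IsAlgClosed Ω] [CharZero k] (S : LayerInvSystem k Ω)

/-- The invariant map of `M/E₁` on `H²(Gal(M/E₁), Mˣ)` (with `M` as an extension of `E₁` through
the inclusion). -/
def invTop (h : E₁ ≤ M) [Normal k M] :
    letI := algBase h
    H2 (Rep.ofAlgebraAutOnUnits E₁ M : Rep.{0} ℤ (M ≃ₐ[E₁] M)) →+ AddCircle (1 : ℚ) :=
  letI := algBase h
  haveI : IsScalarTower k E₁ M := IsScalarTower.of_algebraMap_eq fun _ => rfl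
  haveI : Normal E₁ M := Normal.tower_top_of_normal k E₁ M
  (S.inv h).comp ((isoSq h).map 2).hom.toAddMonoidHom

theorem key_sq (h : E₁ ≤ M) :
    letI := algBase h
    haveI : IsScalarTower k E₁ M := IsScalarTower.of_algebraMap_eq fun _ => rfl
    (FieldSquare.ofAlgebra k M E₁ M).comp (isoSq h) = embSquare h M.val (fun y => y.2) := by
  letI := algBase h
  haveI : IsScalarTower k E₁ M := IsScalarTower.of_algebraMap_eq fun _ => rfl
  apply FieldSquare.ext'
  · rfl
  · ext x
    rfl

theorem key_sq2 (h : E₁ ≤ M) :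
    embSquare h M.val (fun y => y.2) =
      (embSquare (bot_le : (⊥ : IntermediateField k Ω) ≤ M) M.val (fun y => y.2)).comp
        (restSq h) := by
  apply FieldSquare.ext'
  · rfl
  · ext x
    rfl

theorem isoSq_map_galRest (h : E₁ ≤ M) [Normal k M]
    (x : H2 (Rep.ofAlgebraAutOnUnits k M : Rep.{0} ℤ (M ≃ₐ[k] M))) :
    letI := algBase h
    haveI : IsScalarTower k E₁ M := IsScalarTower.of_algebraMap_eq fun _ => rfl
    haveI : Normal E₁ M := Normal.tower_top_of_normal k E₁ M
    haveI : Normal (⊥ : IntermediateField k Ω)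
      (layer (bot_le : (⊥ : IntermediateField k Ω) ≤ M)) := normal_layer_of_normal bot_le
    ((isoSq h).map 2).hom ((galRest k E₁ M 2).hom x) =
      (layerRest (bot_le : (⊥ : IntermediateField k Ω) ≤ E₁) h 2).hom
        (((embSquare (bot_le : (⊥ : IntermediateField k Ω) ≤ M) M.val
          (fun y => y.2)).map 2).hom x) := by
  letI := algBase h
  haveI : IsScalarTower k E₁ M := IsScalarTower.of_algebraMap_eq fun _ => rfl
  haveI : Normal E₁ M := Normal.tower_top_of_normal k E₁ M
  haveI : Normal (⊥ : IntermediateField k Ω)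
    (layer (bot_le : (⊥ : IntermediateField k Ω) ≤ M)) := normal_layer_of_normal bot_le
  have h1 : (galRest k E₁ M 2) = (FieldSquare.ofAlgebra k M E₁ M).map 2 :=
    (FieldSquare.ofAlgebra_map 2).symm
  rw [h1, FieldSquare.map_comp_apply, key_sq, key_sq2, ← FieldSquare.map_comp_apply, restSq_map]

theorem invTop_galRest (h : E₁ ≤ M) [FiniteDimensional k M] [IsGalois k M]
    (x : H2 (Rep.ofAlgebraAutOnUnits k M : Rep.{0} ℤ (M ≃ₐ[k] M))) :
    letI := algBase h
    haveI : IsScalarTower k E₁ M := IsScalarTower.of_algebraMap_eq fun _ => rfl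
    invTop S h ((galRest k E₁ M 2).hom x) = Module.finrank k E₁ • S.toInvFamily.inv M x := by
  letI := algBase h
  haveI : IsScalarTower k E₁ M := IsScalarTower.of_algebraMap_eq fun _ => rfl
  haveI : Normal E₁ M := Normal.tower_top_of_normal k E₁ M
  haveI : Normal (⊥ : IntermediateField k Ω)
    (layer (bot_le : (⊥ : IntermediateField k Ω) ≤ M)) := normal_layer_of_normal bot_le
  haveI : Normal E₁ (layer h) := normal_layer_of_normal h
  have h1 := toInvFamily_inv_eq S (bot_le : (⊥ : IntermediateField k Ω) ≤ M) rfl x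
  have h2 := isoSq_map_galRest h x
  have h3 := S.inv_layerRest (bot_le : (⊥ : IntermediateField k Ω) ≤ E₁) h
    (((embSquare (bot_le : (⊥ : IntermediateField k Ω) ≤ M) M.val (fun y => y.2)).map 2).hom x)
  rw [finrank_bot_layer] at h3
  rw [h1]
  refine Eq.trans ?_ h3
  exact congrArg (S.inv h) h2

theorem isoSq_map_injective (h : E₁ ≤ M) [Normal k M] :
    letI := algBase h
    haveI : IsScalarTower k E₁ M := IsScalarTower.of_algebraMap_eq fun _ => rfl
    haveI : Normal E₁ M := Normal.tower_top_of_normal k E₁ M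
    Function.Injective ((isoSq h).map 2).hom := by
  letI := algBase h
  haveI : IsScalarTower k E₁ M := IsScalarTower.of_algebraMap_eq fun _ => rfl
  haveI : Normal E₁ M := Normal.tower_top_of_normal k E₁ M
  haveI : Normal E₁ (layer h) := normal_layer_of_normal h
  exact ((isoSq h).map_bijective Function.bijective_id
    ⟨fun x y hxy => Subtype.ext (congrArg (fun w : layer h => (w : Ω)) hxy),
      fun y => ⟨⟨(y : Ω), y.2⟩, rfl⟩⟩ 2).1

include S in
theorem galRest_surjective_of_layerInvSystem (h : E₁ ≤ M) [FiniteDimensional k M]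
    [IsGalois k M] :
    letI := algBase h
    haveI : IsScalarTower k E₁ M := IsScalarTower.of_algebraMap_eq fun _ => rfl
    Function.Surjective (galRest k E₁ M 2).hom := by
  letI := algBase h
  haveI : IsScalarTower k E₁ M := IsScalarTower.of_algebraMap_eq fun _ => rfl
  haveI : Normal E₁ M := Normal.tower_top_of_normal k E₁ M
  haveI : Normal (⊥ : IntermediateField k Ω)
    (layer (bot_le : (⊥ : IntermediateField k Ω) ≤ M)) := normal_layer_of_normal bot_le
  haveI : Normal E₁ (layer h) := normal_layer_of_normal h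
  intro z
  obtain ⟨y₀, hy₀⟩ := S.layerRest_surjective (bot_le : (⊥ : IntermediateField k Ω) ≤ E₁) h
    (((isoSq h).map 2).hom z)
  obtain ⟨x₀, hx₀⟩ := ((embSquare (bot_le : (⊥ : IntermediateField k Ω) ≤ M) M.val
    (fun y => y.2)).map_bijective algebraMap_bot_bijective
    (embTop_bijective _ _ _ (IntermediateField.fieldRange_val M).symm) 2).2 y₀
  refine ⟨x₀, ?_⟩
  apply isoSq_map_injective h
  rw [isoSq_map_galRest h x₀, hx₀, hy₀]

theorem res_char_eq (h : E₁ ≤ M) [Normal k M] {n : ℕ}
    (Φ : (M ≃ₐ[k] M) →* Multiplicative (ZMod n)) :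
    letI := algBase h
    haveI : IsScalarTower k E₁ M := IsScalarTower.of_algebraMap_eq fun _ => rfl
    haveI : Normal E₁ M := Normal.tower_top_of_normal k E₁ M
    (Φ.comp (galRes k M E₁ M)).comp (isoSq h).res =
      Φ.comp (embSquare h M.val (fun y => y.2)).res := by
  letI := algBase h
  haveI : IsScalarTower k E₁ M := IsScalarTower.of_algebraMap_eq fun _ => rfl
  haveI : Normal E₁ M := Normal.tower_top_of_normal k E₁ M
  rw [MonoidHom.comp_assoc, ← FieldSquare.res_eq_galRes (FieldSquare.ofAlgebra k M E₁ M) rfl,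
    FieldSquare.res_comp, key_sq]

/-- **The norm formula for the symbols of a system of invariant maps on layers**: for
`k ≤ E₁ ≤ M` with `M/k` finite Galois, a character `Φ` of `Gal(M/k)` and `a ∈ E₁ˣ`,
`inv_{M/E₁}(a ∪ δ(Φ|_{Gal(M/E₁)})) = (N_{E₁/k} a, Φ)_k`. -/
theorem inv_galSymClass_norm (h : E₁ ≤ M) [FiniteDimensional k M] [IsGalois k M] {n : ℕ}
    [NeZero n] (Φ : (M ≃ₐ[k] M) →* Multiplicative (ZMod n)) (a : E₁ˣ) :
    haveI : Normal E₁ (layer h) := normal_layer_of_normal h
    S.inv h (galSymClass E₁ (layer h) (Φ.comp (embSquare h M.val (fun y => y.2)).res) a) =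
      S.toInvFamily.symbol n M Φ (Units.map (Algebra.norm k : E₁ →* k) a) := by
  letI := algBase h
  haveI : IsScalarTower k E₁ M := IsScalarTower.of_algebraMap_eq fun _ => rfl
  haveI : Normal E₁ M := Normal.tower_top_of_normal k E₁ M
  haveI : Normal E₁ (layer h) := normal_layer_of_normal h
  have h1 := galSymClass_norm_formula k E₁ M (S.toInvFamily.inv M) (invTop S h)
    (invTop_galRest S h) (galRest_surjective_of_layerInvSystem S h) Φ a
  have h2 := FieldSquare.map_galSymClass (isoSq h) (Φ.comp (galRes k M E₁ M)) a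
  rw [res_char_eq h Φ] at h2
  have h3 : Units.map ((isoSq h).base : E₁ →* E₁) a = a := Units.ext rfl
  rw [h3] at h2
  rw [← h2]
  exact h1

end LayerNorm
end Fermat.Agent.CFT

end
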