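import Mathlib
import Fermat.Agent.CFT.Local.GalSymbol

/-!
# CFT (C9, REINDEX): the symbol class only depends on the `ℚ/ℤ`-valued character

A character `χ : G → ZMod n` and a character `χ' : G → ZMod N` which define the same
`ℚ/ℤ`-valued character (`chLift χ g / n = chLift χ' g / N`, i.e. `N · chLift χ g = n · chLift χ' g`)
have the *same* Bockstein cocycle, hence the same symbol classes.

* `bock_eq_of_chLift`, `symCocycle_eq_of_chLift`, `symClass_eq_of_chLift`,
  `galSymClass_eq_of_chLift`: the general statements;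
* `zmodInj h : ZMod n →+ ZMod N` for `h : n ∣ N` (multiplication by `N / n`), injective;
  `charReindex h χ := zmodInj h ∘ χ`;
  `symClass_charReindex`, `galSymClass_charReindex`: `symClass A (ι ∘ χ) a ha = symClass A χ a ha`;
* `exists_charReindex_eq`: a `ZMod N`-valued character whose values are killed by `n` is
  `ι ∘ χ` for a (unique) `ZMod n`-valued `χ`; `charReindex_injective_iff`.
-/

set_option autoImplicit false
set_option linter.unusedSectionVars false

open groupCohomology

namespace Fermat.Agent.CFT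

section General

variable {G : Type*} [Group G] {n N : ℕ} [NeZero n] [NeZero N]

/-- Characters with the same `ℚ/ℤ`-valued character have the same Bockstein cocycle. -/
theorem bock_eq_of_chLift (χ : G →* Multiplicative (ZMod n)) (χ' : G →* Multiplicative (ZMod N))
    (h : ∀ g, (N : ℤ) * chLift χ g = (n : ℤ) * chLift χ' g) : bock χ = bock χ' := by
  funext ⟨g, k⟩
  have hn : (n : ℤ) ≠ 0 := by exact_mod_cast NeZero.ne n
  have hN : (N : ℤ) ≠ 0 := by exact_mod_cast NeZero.ne N
  apply mul_left_cancel₀ hn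
  apply mul_left_cancel₀ hN
  calc (N : ℤ) * ((n : ℤ) * bock χ (g, k))
      = (N : ℤ) * chLift χ g + (N : ℤ) * chLift χ k - (N : ℤ) * chLift χ (g * k) := by
        rw [n_mul_bock]; ring
    _ = (n : ℤ) * chLift χ' g + (n : ℤ) * chLift χ' k - (n : ℤ) * chLift χ' (g * k) := by
        rw [h g, h k, h (g * k)]
    _ = (n : ℤ) * ((N : ℤ) * bock χ' (g, k)) := by rw [n_mul_bock]; ring
    _ = (N : ℤ) * ((n : ℤ) * bock χ' (g, k)) := by ring

end General

section SymClassGeneral

variable {G : Type} [Group G] (A : Rep.{0} ℤ G) {n N : ℕ} [NeZero n] [NeZero N]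

theorem symCocycle_eq_of_chLift (χ : G →* Multiplicative (ZMod n))
    (χ' : G →* Multiplicative (ZMod N))
    (h : ∀ g, (N : ℤ) * chLift χ g = (n : ℤ) * chLift χ' g) (a : A) (ha : IsInv A a) :
    symCocycle A χ a ha = symCocycle A χ' a ha := by
  apply Subtype.ext
  funext p
  show bock χ p • a = bock χ' p • a
  rw [bock_eq_of_chLift χ χ' h]

/-- **Reindexing, general form.** -/
theorem symClass_eq_of_chLift (χ : G →* Multiplicative (ZMod n))
    (χ' : G →* Multiplicative (ZMod N))
    (h : ∀ g, (N : ℤ) * chLift χ g = (n : ℤ) * chLift χ' g) (a : A) (ha : IsInv A a) :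
    symClass A χ a ha = symClass A χ' a ha := by
  unfold symClass
  rw [symCocycle_eq_of_chLift A χ χ' h a ha]

end SymClassGeneral

section Inj

variable {n N : ℕ} [NeZero n] [NeZero N]

/-- The injection `ℤ/n → ℤ/N`, `x ↦ (N / n) · x`, for `n ∣ N`. -/
noncomputable def zmodInj (h : n ∣ N) : ZMod n →+ ZMod N :=
  ZMod.lift n ⟨(AddMonoidHom.mulLeft ((N / n : ℕ) : ZMod N)).comp (Int.castAddHom (ZMod N)), by
    show ((N / n : ℕ) : ZMod N) * ((n : ℤ) : ZMod N) = 0
    rw [Int.cast_natCast, ← Nat.cast_mul, Nat.div_mul_cancel h, ZMod.natCast_self]⟩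

theorem zmodInj_intCast (h : n ∣ N) (k : ℤ) :
    zmodInj h (k : ZMod n) = ((N / n : ℕ) : ZMod N) * (k : ZMod N) := by
  unfold zmodInj
  rw [ZMod.lift_coe]
  rfl

theorem zmodInj_apply (h : n ∣ N) (x : ZMod n) :
    zmodInj h x = (((N / n) * x.val : ℕ) : ZMod N) := by
  conv_lhs => rw [← ZMod.natCast_zmod_val x, ← Int.cast_natCast, zmodInj_intCast]
  push_cast
  rfl

theorem div_mul_val_lt (h : n ∣ N) (x : ZMod n) : (N / n) * x.val < N := by
  have hn : 0 < n := Nat.pos_of_ne_zero (NeZero.ne n)
  have hd : 0 < N / n := Nat.div_pos (Nat.le_of_dvd (Nat.pos_of_ne_zero (NeZero.ne N)) h) hn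
  calc (N / n) * x.val < (N / n) * n := Nat.mul_lt_mul_of_pos_left (ZMod.val_lt x) hd
    _ = N := Nat.div_mul_cancel h

/-- The standard representative of `ι x` is `(N / n) · (standard representative of x)`. -/
theorem val_zmodInj (h : n ∣ N) (x : ZMod n) : (zmodInj h x).val = (N / n) * x.val := by
  rw [zmodInj_apply, ZMod.val_natCast, Nat.mod_eq_of_lt (div_mul_val_lt h x)]

theorem zmodInj_injective (h : n ∣ N) : Function.Injective (zmodInj (n := n) (N := N) h) := by
  intro x y hxy
  have h1 := congrArg ZMod.val hxy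
  rw [val_zmodInj, val_zmodInj] at h1
  have hn : 0 < n := Nat.pos_of_ne_zero (NeZero.ne n)
  have hd : 0 < N / n := Nat.div_pos (Nat.le_of_dvd (Nat.pos_of_ne_zero (NeZero.ne N)) h) hn
  exact ZMod.val_injective n (Nat.eq_of_mul_eq_mul_left hd h1)

/-- The range of `ι` is the `n`-torsion of `ℤ/N`. -/
theorem mem_range_zmodInj_iff (h : n ∣ N) (y : ZMod N) :
    y ∈ Set.range (zmodInj (n := n) (N := N) h) ↔ n • y = 0 := by
  constructor
  · rintro ⟨x, rfl⟩
    rw [zmodInj_apply, nsmul_eq_mul, ← Nat.cast_mul, ← mul_assoc, mul_comm n, Nat.div_mul_cancel h,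
      Nat.cast_mul, ZMod.natCast_self, zero_mul]
  · intro hy
    have hn : 0 < n := Nat.pos_of_ne_zero (NeZero.ne n)
    -- `N ∣ n · val y`, so `(N / n) ∣ val y`
    have h1 : ((n * y.val : ℕ) : ZMod N) = 0 := by
      rw [Nat.cast_mul, ZMod.natCast_zmod_val, ← nsmul_eq_mul]
      exact hy
    rw [ZMod.natCast_eq_zero_iff] at h1
    obtain ⟨d, hd⟩ := h
    have hNn : N / n = d := by rw [hd, Nat.mul_div_cancel_left d hn]
    have h2 : d ∣ y.val := by
      obtain ⟨c, hc⟩ := h1
      have hc' : n * y.val = n * (d * c) := by rw [hc, hd, mul_assoc]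
      exact ⟨c, Nat.eq_of_mul_eq_mul_left hn hc'⟩
    obtain ⟨e, he⟩ := h2
    refine ⟨(e : ZMod n), ?_⟩
    have hlt : e < n := by
      have hy' : d * e < d * n := by
        rw [← he, mul_comm d n, ← hd]
        exact ZMod.val_lt y
      exact Nat.lt_of_mul_lt_mul_left hy'
    rw [zmodInj_apply, ZMod.val_natCast, Nat.mod_eq_of_lt hlt, hNn, ← he, ZMod.natCast_zmod_val]

end Inj

section Reindex

variable {G : Type*} [Group G] {n N : ℕ} [NeZero n] [NeZero N]

/-- The character `ι ∘ χ` with values in `ℤ/N`. -/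
noncomputable def charReindex (h : n ∣ N) (χ : G →* Multiplicative (ZMod n)) :
    G →* Multiplicative (ZMod N) :=
  (zmodInj (n := n) (N := N) h).toMultiplicative.comp χ

theorem charReindex_apply (h : n ∣ N) (χ : G →* Multiplicative (ZMod n)) (g : G) :
    charReindex h χ g = Multiplicative.ofAdd (zmodInj h (Multiplicative.toAdd (χ g))) := rfl

theorem chLift_charReindex (h : n ∣ N) (χ : G →* Multiplicative (ZMod n)) (g : G) :
    chLift (charReindex h χ) g = ((N / n : ℕ) : ℤ) * chLift χ g := by
  unfold chLift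
  rw [charReindex_apply, toAdd_ofAdd, val_zmodInj]
  push_cast
  rfl

theorem mul_chLift_charReindex (h : n ∣ N) (χ : G →* Multiplicative (ZMod n)) (g : G) :
    (N : ℤ) * chLift χ g = (n : ℤ) * chLift (charReindex h χ) g := by
  rw [chLift_charReindex, ← mul_assoc, ← Nat.cast_mul, Nat.mul_div_cancel' h]

theorem bock_charReindex (h : n ∣ N) (χ : G →* Multiplicative (ZMod n)) :
    bock (charReindex h χ) = bock χ :=
  (bock_eq_of_chLift χ (charReindex h χ) (mul_chLift_charReindex h χ)).symm

theorem charReindex_injective_iff (h : n ∣ N) (χ : G →* Multiplicative (ZMod n)) :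
    Function.Injective (charReindex h χ) ↔ Function.Injective χ := by
  constructor
  · intro hinj g k hgk
    exact hinj (by rw [charReindex_apply, charReindex_apply, hgk])
  · intro hinj g k hgk
    rw [charReindex_apply, charReindex_apply] at hgk
    have h1 := zmodInj_injective h (Multiplicative.ofAdd.injective hgk)
    exact hinj (Multiplicative.toAdd.injective h1)

theorem charReindex_comp {G' : Type*} [Group G'] (h : n ∣ N) (χ : G →* Multiplicative (ZMod n))
    (r : G' →* G) : charReindex h (χ.comp r) = (charReindex h χ).comp r := rfl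

/-- A `ℤ/N`-valued character with values killed by `n` comes from a `ℤ/n`-valued one. -/
theorem exists_charReindex_eq (h : n ∣ N) (χ' : G →* Multiplicative (ZMod N))
    (hχ' : ∀ g, n • Multiplicative.toAdd (χ' g) = 0) :
    ∃ χ : G →* Multiplicative (ZMod n), charReindex h χ = χ' := by
  have hr : ∀ g, ∃ x : ZMod n, zmodInj h x = Multiplicative.toAdd (χ' g) := fun g =>
    (mem_range_zmodInj_iff h _).mpr (hχ' g)
  choose f hf using hr
  have hinj := zmodInj_injective (n := n) (N := N) h
  refine ⟨{ toFun := fun g => Multiplicative.ofAdd (f g)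
            map_one' := ?_
            map_mul' := ?_ }, ?_⟩
  · apply Multiplicative.toAdd.injective
    apply hinj
    rw [toAdd_ofAdd, hf, map_one, toAdd_one, toAdd_one, map_zero]
  · intro g k
    apply Multiplicative.toAdd.injective
    apply hinj
    rw [toAdd_ofAdd, hf, map_mul, toAdd_mul, toAdd_mul, toAdd_ofAdd, toAdd_ofAdd, map_add, hf, hf]
  · ext g
    rw [charReindex_apply]
    show Multiplicative.ofAdd (zmodInj h (f g)) = χ' g
    rw [hf]
    rfl

end Reindex

section SymClassReindex

variable {G : Type} [Group G] (A : Rep.{0} ℤ G) {n N : ℕ} [NeZero n] [NeZero N]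

/-- **Reindexing**: `symClass A (ι ∘ χ) a = symClass A χ a` for `ι : ℤ/n ↪ ℤ/N`. -/
theorem symClass_charReindex (h : n ∣ N) (χ : G →* Multiplicative (ZMod n)) (a : A)
    (ha : IsInv A a) : symClass A (charReindex h χ) a ha = symClass A χ a ha :=
  (symClass_eq_of_chLift A χ (charReindex h χ) (mul_chLift_charReindex h χ) a ha).symm

end SymClassReindex

section GalSymReindex

variable (K L : Type) [Field K] [Field L] [Algebra K L] {n N : ℕ} [NeZero n] [NeZero N]

theorem galSymClass_eq_of_chLift (χ : (L ≃ₐ[K] L) →* Multiplicative (ZMod n))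
    (χ' : (L ≃ₐ[K] L) →* Multiplicative (ZMod N))
    (h : ∀ g, (N : ℤ) * chLift χ g = (n : ℤ) * chLift χ' g) (a : Kˣ) :
    galSymClass K L χ a = galSymClass K L χ' a :=
  symClass_eq_of_chLift _ χ χ' h _ _

/-- **Reindexing, Galois form.** -/
theorem galSymClass_charReindex (h : n ∣ N) (χ : (L ≃ₐ[K] L) →* Multiplicative (ZMod n))
    (a : Kˣ) : galSymClass K L (charReindex h χ) a = galSymClass K L χ a :=
  symClass_charReindex _ h χ _ _

end GalSymReindex

end Fermat.Agent.CFT
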