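import Mathlib
import Fermat.Agent.CFT.Local.UnramCompositum

/-!
# CFT, local layer (B1b): uniqueness of unramified extensions

Setting B of `ExtDVR.lean` with finite residue field on `(O, K)`.

* `exists_root_of_irreducible_of_dvd_finrank` : finite fields.
* `nonempty_algEquiv_adjoinRoot` : `L ≃ K[X]/(g)` for `L` generated by a root of an unramified `g`.
* `nonempty_algHom_of_isUnramExt_of_dvd` : unramified `E₁, E₂` with `[E₁:K] ∣ [E₂:K]` ⟹ `E₁ ↪ E₂`.
* `nonempty_algEquiv_of_isUnramExt` : unramified extensions of the same degree are isomorphic;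
  `nonempty_algEquiv_unramExt` : every unramified extension of degree `m` is `≃ UnramExt O K m`.
* `isUnramExt_intermediateField_le_of_dvd`, `isUnramExt_intermediateField_unique` : inside a field
  `Ω`, unramified subextensions are ordered by divisibility of degrees, and unique of each degree.
-/

set_option autoImplicit false
set_option linter.unusedSectionVars false
set_option linter.style.haveILetI false

namespace Fermat.Agent.CFT

open IsLocalRing Polynomial

section FiniteField

/-- An irreducible polynomial of degree `n` over a finite field `k` has a root in every finite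
extension of `k` of degree divisible by `n`. -/
theorem exists_root_of_irreducible_of_dvd_finrank {k l : Type} [Field k] [Finite k] [Field l]
    [Algebra k l] [FiniteDimensional k l] {f : k[X]} (hf : Irreducible f)
    (hdvd : f.natDegree ∣ Module.finrank k l) : ∃ a : l, aeval a f = 0 := by
  haveI : Finite l := Module.finite_of_finite k
  letI := Fintype.ofFinite l
  have h1 : f ∣ X ^ Nat.card k ^ Module.finrank k l - X :=
    hf.natDegree_dvd_iff_dvd_X_pow_card_pow_sub_X.mp hdvd
  have hcard : Nat.card k ^ Module.finrank k l = Fintype.card l := by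
    rw [← Module.natCard_eq_pow_finrank, Nat.card_eq_fintype_card]
  rw [hcard] at h1
  haveI := FiniteField.isSplittingField_sub l k
  have hsplit : ((X ^ Fintype.card l - X : k[X]).map (algebraMap k l)).Splits :=
    IsSplittingField.splits l _
  have hne : (X ^ Fintype.card l - X : k[X]).map (algebraMap k l) ≠ 0 := by
    rw [Polynomial.map_sub, Polynomial.map_pow, map_X]
    exact FiniteField.X_pow_card_sub_X_ne_zero l Fintype.one_lt_card
  have hfs : (f.map (algebraMap k l)).Splits :=
    hsplit.of_dvd hne (Polynomial.map_dvd _ h1)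
  obtain ⟨a, ha⟩ := hfs.exists_eval_eq_zero (by
    rw [degree_map]
    exact (degree_pos_of_irreducible hf).ne')
  exact ⟨a, by rwa [eval_map_algebraMap] at ha⟩

end FiniteField

section Setting

variable {O K : Type} [CommRing O] [IsDomain O] [IsDiscreteValuationRing O]
  [IsAdicComplete (maximalIdeal O) O] [Finite (ResidueField O)]
  [Field K] [Algebra O K] [IsFractionRing O K] [CharZero K]
  {L : Type} [Field L] [Algebra K L] [FiniteDimensional K L] [Algebra O L] [IsScalarTower O K L]

omit [IsAdicComplete (maximalIdeal O) O] [Finite (ResidueField O)] [CharZero K] in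
/-- A field generated by a root of an unramified polynomial `g` of degree `[L:K]` is `K[X]/(g)`. -/
theorem nonempty_algEquiv_adjoinRoot {g : O[X]} (hg : IsUnramPoly g) (θ : L) (hθ : aeval θ g = 0)
    (hdeg : Module.finrank K L = g.natDegree) :
    Nonempty (AdjoinRoot (g.map (algebraMap O K)) ≃ₐ[K] L) := by
  haveI : Fact (Irreducible (g.map (algebraMap O K))) := ⟨hg.irreducible_map_fraction⟩
  have hθ' : aeval θ (g.map (algebraMap O K)) = 0 := by rwa [aeval_map_algebraMap]
  let f : AdjoinRoot (g.map (algebraMap O K)) →ₐ[K] L :=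
    AdjoinRoot.liftAlgHom _ (Algebra.ofId K L) θ hθ'
  have hne : g.map (algebraMap O K) ≠ 0 := (hg.monic.map _).ne_zero
  haveI : FiniteDimensional K (AdjoinRoot (g.map (algebraMap O K))) :=
    (hg.monic.map (algebraMap O K)).finite_adjoinRoot
  have hfin : Module.finrank K (AdjoinRoot (g.map (algebraMap O K))) = Module.finrank K L := by
    have := (AdjoinRoot.powerBasis hne).finrank
    rw [AdjoinRoot.powerBasis_dim, hg.monic.natDegree_map] at this
    rw [this, hdeg]
  have hinj : Function.Injective f := f.toRingHom.injective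
  have hbij : Function.Bijective f :=
    ⟨hinj, (LinearMap.injective_iff_surjective_of_finrank_eq_finrank
      (f := f.toLinearMap) hfin).mp hinj⟩
  exact ⟨AlgEquiv.ofBijective f hbij⟩

end Setting

section Unique

variable (O K : Type) [CommRing O] [IsDomain O] [IsDiscreteValuationRing O]
  [IsAdicComplete (maximalIdeal O) O] [Finite (ResidueField O)]
  [Field K] [Algebra O K] [IsFractionRing O K] [CharZero K]
  (E₁ : Type) [Field E₁] [Algebra K E₁] [FiniteDimensional K E₁] [Algebra O E₁]
  [IsScalarTower O K E₁]
  (E₂ : Type) [Field E₂] [Algebra K E₂] [FiniteDimensional K E₂] [Algebra O E₂]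
  [IsScalarTower O K E₂]

/-- If `E₁/K`, `E₂/K` are unramified and `[E₁:K]` divides `[E₂:K]`, then `E₁` embeds into `E₂`. -/
theorem nonempty_algHom_of_isUnramExt_of_dvd (h₁ : IsUnramExt O E₁) (h₂ : IsUnramExt O E₂)
    (hdvd : Module.finrank K E₁ ∣ Module.finrank K E₂) : Nonempty (E₁ →ₐ[K] E₂) := by
  haveI := intRing_isLocalRing O K E₂
  haveI := intRing_isLocalHom O K E₂
  haveI := intRing_finite O K E₂
  haveI := intRing_henselianLocalRing O K E₂
  haveI := intRing_finite_residueField O K E₂
  obtain ⟨g, θ₁, hg, hgdeg, hθ₁⟩ := exists_isUnramPoly_root_of_isUnramExt (K := K) h₁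
  have hθ₁' : aeval (θ₁ : E₁) g = 0 := by rw [Subalgebra.aeval_coe, hθ₁]; rfl
  -- a root of the reduction of `g` in the residue field of `E₂`
  have hf₂ : (g.map (residue O)).natDegree ∣
      Module.finrank (ResidueField O) (ResidueField (integralClosure O E₂)) := by
    rw [hg.monic.natDegree_map, hgdeg, ← inertDeg_eq_finrank O K E₂,
      (isUnramExt_iff_inertDeg O K E₂).mp h₂]
    exact hdvd
  obtain ⟨a, ha⟩ := exists_root_of_irreducible_of_dvd_finrank hg.irreducible_map hf₂
  have aeval_res : ∀ (p : O[X]) (x : ResidueField (integralClosure O E₂)),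
      aeval x (p.map (residue O)) = aeval x p := by
    intro p x
    rw [← ResidueField.algebraMap_eq, aeval_map_algebraMap]
  have hsep : (g.map (residue O)).Separable :=
    PerfectField.separable_of_irreducible hg.irreducible_map
  have e1 : aeval a g = 0 := by rw [← aeval_res, ha]
  have e2 : aeval a (derivative g) ≠ 0 := by
    have := hsep.aeval_derivative_ne_zero ha
    rwa [derivative_map, aeval_res] at this
  obtain ⟨θ₂, hθ₂, -⟩ := exists_root_lift hg.monic a e1 e2
  have hθ₂' : aeval (θ₂ : E₂) (g.map (algebraMap O K)) = 0 := by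
    rw [aeval_map_algebraMap, Subalgebra.aeval_coe, hθ₂]; rfl
  obtain ⟨ι₁⟩ := nonempty_algEquiv_adjoinRoot (K := K) hg (θ₁ : E₁) hθ₁' hgdeg.symm
  exact ⟨(AdjoinRoot.liftAlgHom _ (Algebra.ofId K E₂) (θ₂ : E₂) hθ₂').comp ι₁.symm.toAlgHom⟩

/-- Two unramified extensions of the same degree are isomorphic. -/
theorem nonempty_algEquiv_of_isUnramExt (h₁ : IsUnramExt O E₁) (h₂ : IsUnramExt O E₂)
    (hdeg : Module.finrank K E₁ = Module.finrank K E₂) : Nonempty (E₁ ≃ₐ[K] E₂) := by
  obtain ⟨f⟩ := nonempty_algHom_of_isUnramExt_of_dvd O K E₁ E₂ h₁ h₂ (hdeg ▸ dvd_rfl)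
  have hinj : Function.Injective f := f.toRingHom.injective
  have hbij : Function.Bijective f :=
    ⟨hinj, (LinearMap.injective_iff_surjective_of_finrank_eq_finrank
      (f := f.toLinearMap) hdeg).mp hinj⟩
  exact ⟨AlgEquiv.ofBijective f hbij⟩

/-- Every unramified extension of degree `m` is isomorphic to the chosen one. -/
theorem nonempty_algEquiv_unramExt (h₁ : IsUnramExt O E₁) {m : ℕ} (hm : 0 < m)
    (hdeg : Module.finrank K E₁ = m) : Nonempty (UnramExt O K m ≃ₐ[K] E₁) :=
  nonempty_algEquiv_of_isUnramExt O K (UnramExt O K m) E₁ (isUnramExt_unramExt O K m) h₁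
    ((finrank_unramExt O K m hm).trans hdeg.symm)

end Unique

section UniqueIntermediate

variable (O K : Type) [CommRing O] [IsDomain O] [IsDiscreteValuationRing O]
  [IsAdicComplete (maximalIdeal O) O] [Finite (ResidueField O)]
  [Field K] [Algebra O K] [IsFractionRing O K] [CharZero K]
  (Ω : Type) [Field Ω] [Algebra K Ω] [Algebra O Ω] [IsScalarTower O K Ω]

/-- Inside a field, unramified subextensions are ordered by divisibility of their degrees. -/
theorem isUnramExt_intermediateField_le_of_dvd (E₁ E₂ : IntermediateField K Ω)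
    [FiniteDimensional K E₁] [FiniteDimensional K E₂]
    (h₁ : IsUnramExt O E₁) (h₂ : IsUnramExt O E₂)
    (hdvd : Module.finrank K E₁ ∣ Module.finrank K E₂) : E₁ ≤ E₂ := by
  obtain ⟨f⟩ := nonempty_algHom_of_isUnramExt_of_dvd O K E₁ E₂ h₁ h₂ hdvd
  haveI : IsGalois K E₁ := h₁.isGalois (O := O)
  have h := AlgHom.fieldRange_of_normal (E := E₁) (E₂.val.comp f)
  rw [← h]
  rintro _ ⟨y, rfl⟩
  exact (f y).2

/-- Inside a field, there is at most one unramified subextension of each degree. -/
theorem isUnramExt_intermediateField_unique (E₁ E₂ : IntermediateField K Ω)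
    [FiniteDimensional K E₁] [FiniteDimensional K E₂]
    (h₁ : IsUnramExt O E₁) (h₂ : IsUnramExt O E₂)
    (hdeg : Module.finrank K E₁ = Module.finrank K E₂) : E₁ = E₂ :=
  le_antisymm (isUnramExt_intermediateField_le_of_dvd O K Ω E₁ E₂ h₁ h₂ (hdeg ▸ dvd_rfl))
    (isUnramExt_intermediateField_le_of_dvd O K Ω E₂ E₁ h₂ h₁ (hdeg ▸ dvd_rfl))

end UniqueIntermediate

end Fermat.Agent.CFT
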